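import Fermat.Agent.AV.AffDef

set_option autoImplicit false

/-!
# The divisor of denominators of finitely many functions; affine complements
-/

universe u

namespace Fermat.Agent.AV

namespace GrpVar

variable {K : Type u} [Field K] (V : GrpVar K)

variable {V} in
theorem UnitAt.of_mul_left {x : V.X} {a b : V.F} (ha : a ∈ V.loc x) (hb : b ∈ V.loc x)
    (h : V.UnitAt x (a * b)) : V.UnitAt x a := by
  have ha0 : a ≠ 0 := left_ne_zero_of_mul h.1
  have hb0 : b ≠ 0 := right_ne_zero_of_mul h.1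
  refine ⟨ha0, ha, ?_⟩
  have h1 : a⁻¹ = b * (a * b)⁻¹ := by field_simp
  rw [h1]
  exact mul_mem hb h.2.2

variable {V} in
theorem UnitAt.of_mul_right {x : V.X} {a b : V.F} (ha : a ∈ V.loc x) (hb : b ∈ V.loc x)
    (h : V.UnitAt x (a * b)) : V.UnitAt x b :=
  UnitAt.of_mul_left hb ha (by rwa [mul_comm])

/-- a prime ideal of the ring of a chart is a point of the chart -/
theorem exists_point_of_prime (x : V.X) (p : Ideal (V.chartOf x)) [p.IsPrime] :
    ∃ y : V.X, V.chartOf x ≤ V.loc y ∧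
      ∀ t : V.chartOf x, V.UnitAt y t ↔ t ∉ p := by
  obtain ⟨P, h, hev⟩ := V.chart_pt x (R := Localization.AtPrime p)
    (IsScalarTower.toAlgHom K (V.chartOf x) (Localization.AtPrime p))
  refine ⟨V.center P, h, fun t => ?_⟩
  rw [← V.isUnit_e_iff P (h t.2), V.e_eq P (h t.2), hev t]
  exact IsLocalization.AtPrime.isUnit_to_map_iff (Localization.AtPrime p) p t

/-- common denominators -/
theorem exists_common_denom {x y : V.X} (h : V.chartOf x ≤ V.loc y) (S : Finset V.F)
    (hS : ∀ b ∈ S, b ∈ V.loc y) :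
    ∃ t ∈ V.chartOf x, V.UnitAt y t ∧ ∀ b ∈ S, t * b ∈ V.chartOf x := by
  classical
  induction S using Finset.induction_on with
  | empty => exact ⟨1, one_mem _, V.unitAt_one y, by simp⟩
  | insert b S _ ih =>
    obtain ⟨t, ht, htu, htb⟩ := ih (fun c hc => hS c (Finset.mem_insert_of_mem hc))
    obtain ⟨s, hs, t', ht', htu', rfl⟩ :=
      V.exists_chart_div h (hS b (Finset.mem_insert_self _ _))
    refine ⟨t * t', mul_mem ht ht', htu.mul htu', fun c hc => ?_⟩
    rcases Finset.mem_insert.mp hc with rfl | hc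
    · have : t * t' * (s / t') = t * s := by
        have := htu'.1
        field_simp
      rw [this]
      exact mul_mem ht hs
    · rw [mul_assoc, mul_left_comm]
      exact mul_mem ht' (htb c hc)

variable {V} in
/-- spreading out -/
theorem mem_of_denom {x y : V.X} (h : V.chartOf x ≤ V.loc y) {t b : V.F} (ht0 : t ≠ 0)
    (ht : t⁻¹ ∈ V.loc y) (hb : t * b ∈ V.chartOf x) : b ∈ V.loc y := by
  have : b = t⁻¹ * (t * b) := by field_simp
  rw [this]
  exact mul_mem ht (h hb)

/-- charts are noetherian -/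
theorem isNoetherianRing_chart (x : V.X) : IsNoetherianRing (V.chartOf x) := by
  have h1 : Algebra.FiniteType K (V.chartOf x) :=
    (Subalgebra.fg_iff_finiteType _).mp (V.chart_fg x)
  exact Algebra.FiniteType.isNoetherianRing K _

/-- **quasi-compactness** -/
theorem exists_uniform (good : V.X → ℕ → Prop)
    (hmono : ∀ y M M', M ≤ M' → good y M → good y M')
    (hloc : ∀ x, ∃ M, ∃ t ∈ V.chartOf x, V.UnitAt x t ∧
      ∀ y, V.chartOf x ≤ V.loc y → t⁻¹ ∈ V.loc y → good y M) :
    ∃ M, ∀ y, good y M := by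
  classical
  have key : ∀ x, ∃ M, ∀ y, V.chartOf x ≤ V.loc y → good y M := by
    intro x
    let J : Ideal (V.chartOf x) :=
      { carrier := {t | ∃ M, ∀ y, V.chartOf x ≤ V.loc y → V.UnitAt y t → good y M}
        add_mem' := by
          rintro a b ⟨M, hM⟩ ⟨M', hM'⟩
          refine ⟨max M M', fun y hy hu => ?_⟩
          have h1 : IsUnit ((⟨a, hy a.2⟩ : V.loc y) + ⟨b, hy b.2⟩) := V.unitAt_iff.1 hu
          rcases IsLocalRing.isUnit_or_isUnit_of_isUnit_add h1 with h | h
          · exact hmono y _ _ (le_max_left _ _) (hM y hy (V.unitAt_iff.2 h))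
          · exact hmono y _ _ (le_max_right _ _) (hM' y hy (V.unitAt_iff.2 h))
        zero_mem' := ⟨0, fun y _ hu => absurd rfl hu.1⟩
        smul_mem' := by
          rintro a b ⟨M, hM⟩
          exact ⟨M, fun y hy hu => hM y hy (UnitAt.of_mul_right (hy a.2) (hy b.2) hu)⟩ }
    by_cases hJ : J = ⊤
    · have h1 : (1 : V.chartOf x) ∈ J := by rw [hJ]; exact Submodule.mem_top
      obtain ⟨M, hM⟩ := h1
      exact ⟨M, fun y hy => hM y hy (V.unitAt_one y)⟩
    · exfalso
      obtain ⟨p, hp, hJp⟩ := Ideal.exists_le_maximal J hJ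
      have := hp.isPrime
      obtain ⟨y₀, hy₀, hpt⟩ := V.exists_point_of_prime x p
      obtain ⟨M, t', ht', htu', hgood⟩ := hloc y₀
      obtain ⟨S, hS⟩ := V.chart_fg y₀
      have hSle : ∀ b ∈ S, b ∈ V.chartOf y₀ := fun b hb => by
        rw [← hS]; exact Algebra.subset_adjoin hb
      obtain ⟨t, ht, htu, htS⟩ := V.exists_common_denom hy₀ (insert t'⁻¹ S) (by
        intro b hb
        rcases Finset.mem_insert.mp hb with rfl | hb
        · exact htu'.2.2
        · exact V.chart_le y₀ (hSle b hb))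
      refine (hpt ⟨t, ht⟩).1 htu (hJp ⟨M, fun y hy hu => ?_⟩)
      have hu' : V.UnitAt y t := hu
      refine hgood y ?_ ?_
      · rw [← hS]
        exact Algebra.adjoin_le fun b hb =>
          mem_of_denom hy hu'.1 hu'.2.2 (htS b (Finset.mem_insert_of_mem hb))
      · exact mem_of_denom hy hu'.1 hu'.2.2 (htS _ (Finset.mem_insert_self _ _))
  choose Mx hMx using key
  have hfin := V.finite_charts
  let Mc : Subalgebra K V.F → ℕ := fun C =>
    if h : ∃ x, V.chartOf x = C then Mx h.choose else 0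
  obtain ⟨M, hM⟩ : ∃ M, ∀ C ∈ Set.range V.chartOf, Mc C ≤ M := by
    obtain ⟨M, hM⟩ := (hfin.image Mc).bddAbove
    exact ⟨M, fun C hC => hM ⟨C, hC, rfl⟩⟩
  refine ⟨M, fun y => ?_⟩
  have hex : ∃ x, V.chartOf x = V.chartOf y := ⟨y, rfl⟩
  have h1 : Mc (V.chartOf y) = Mx hex.choose := dif_pos hex
  have h2 := hM _ ⟨y, rfl⟩
  rw [h1] at h2
  exact hmono y _ _ h2 (hMx hex.choose y (by rw [hex.choose_spec]; exact V.chart_le y))

/-! ### denominators -/

/-- `d` generates the ideal of common denominators of the functions `f j` at the point `x` -/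
structure IsDen {ι : Type*} (f : ι → V.F) (x : V.X) (d : V.F) : Prop where
  ne : d ≠ 0
  mem : d ∈ V.loc x
  mul : ∀ j, d * f j ∈ V.loc x
  dvd : ∀ b ∈ V.loc x, (∀ j, b * f j ∈ V.loc x) → b / d ∈ V.loc x

/-- one function -/
theorem exists_den_one (x : V.X) [UniqueFactorizationMonoid (V.loc x)] (f : V.F) :
    ∃ d : V.loc x, d ≠ 0 ∧ (d : V.F) * f ∈ V.loc x ∧
      ∀ b : V.loc x, (b : V.F) * f ∈ V.loc x → d ∣ b := by
  obtain ⟨a, b, hrel, hab⟩ := IsFractionRing.exists_reduced_fraction (V.loc x) f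
  have hb0 : (b : V.loc x) ≠ 0 := nonZeroDivisors.ne_zero b.2
  have hb0' : ((b : V.loc x) : V.F) ≠ 0 := fun h => hb0 (Subtype.ext h)
  have hf : ((b : V.loc x) : V.F) * f = (a : V.F) := by
    have := IsLocalization.mk'_spec' V.F a b
    rw [hab] at this
    exact this
  refine ⟨b, hb0, by rw [hf]; exact a.2, fun c hc => ?_⟩
  have h1 : c * a = b * ⟨(c : V.F) * f, hc⟩ := by
    apply Subtype.ext
    change (c : V.F) * (a : V.F) = ((b : V.loc x) : V.F) * ((c : V.F) * f)
    rw [← hf]
    ring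
  have h2 : (b : V.loc x) ∣ c * a := ⟨_, h1⟩
  exact hrel.symm.dvd_of_dvd_mul_right h2

/-- finitely many functions -/
theorem exists_den {ι : Type*} [Finite ι] (f : ι → V.F) (x : V.X)
    [UniqueFactorizationMonoid (V.loc x)] : ∃ d, V.IsDen f x d := by
  classical
  cases nonempty_fintype ι
  let _ := UniqueFactorizationMonoid.toGCDMonoid (V.loc x)
  have key : ∀ s : Finset ι, ∃ d : V.loc x, d ≠ 0 ∧ (∀ j ∈ s, (d : V.F) * f j ∈ V.loc x) ∧
      ∀ b : V.loc x, (∀ j ∈ s, (b : V.F) * f j ∈ V.loc x) → d ∣ b := by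
    intro s
    induction s using Finset.induction_on with
    | empty => exact ⟨1, one_ne_zero, by simp, fun b _ => one_dvd b⟩
    | insert j s _ ih =>
      obtain ⟨d, hd0, hd, hdv⟩ := ih
      obtain ⟨d', hd0', hd', hdv'⟩ := V.exists_den_one x (f j)
      refine ⟨lcm d d', lcm_ne_zero_iff.mpr ⟨hd0, hd0'⟩, fun i hi => ?_, fun b hb => ?_⟩
      · rcases Finset.mem_insert.mp hi with rfl | hi
        · obtain ⟨c, hc⟩ := dvd_lcm_right d d'
          rw [hc]
          have : ((d' * c : V.loc x) : V.F) * f i = (c : V.F) * ((d' : V.F) * f i) := by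
            change ((d' : V.F) * (c : V.F)) * f i = _
            ring
          rw [this]
          exact mul_mem c.2 hd'
        · obtain ⟨c, hc⟩ := dvd_lcm_left d d'
          rw [hc]
          have : ((d * c : V.loc x) : V.F) * f i = (c : V.F) * ((d : V.F) * f i) := by
            change ((d : V.F) * (c : V.F)) * f i = _
            ring
          rw [this]
          exact mul_mem c.2 (hd i hi)
      · exact lcm_dvd (hdv b fun i hi => hb i (Finset.mem_insert_of_mem hi))
          (hdv' b (hb j (Finset.mem_insert_self _ _)))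
  obtain ⟨d, hd0, hd, hdv⟩ := key Finset.univ
  have hd0' : (d : V.F) ≠ 0 := fun h => hd0 (Subtype.ext h)
  refine ⟨d, hd0', d.2, fun j => hd j (Finset.mem_univ _), fun b hb hbf => ?_⟩
  obtain ⟨c, hc⟩ := hdv ⟨b, hb⟩ (fun j _ => hbf j)
  have hc' : b = (d : V.F) * c := congrArg Subtype.val hc
  rw [hc', mul_div_cancel_left₀ _ hd0']
  exact c.2

variable {V} in
theorem IsDen.unitAt_iff {ι : Type*} {f : ι → V.F} {x : V.X} {d : V.F} (h : V.IsDen f x d) :
    V.UnitAt x d ↔ ∀ j, f j ∈ V.loc x := by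
  constructor
  · intro hu j
    have h1 : f j = d⁻¹ * (d * f j) := by
      have := h.ne
      field_simp
    rw [h1]
    exact mul_mem hu.2.2 (h.mul j)
  · intro hf
    refine ⟨h.ne, h.mem, ?_⟩
    have := h.dvd 1 (one_mem _) (fun j => by rw [one_mul]; exact hf j)
    rwa [one_div] at this

variable {V} in
/-- the denominator at `x` is the denominator at all nearby points -/
theorem IsDen.near {ι : Type*} [Finite ι] {f : ι → V.F} {x : V.X} {d : V.F} (h : V.IsDen f x d) :
    ∃ t ∈ V.chartOf x, V.UnitAt x t ∧ ∀ y, V.chartOf x ≤ V.loc y → t⁻¹ ∈ V.loc y →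
      V.IsDen f y d := by
  classical
  cases nonempty_fintype ι
  -- the ideal of denominators on the chart
  let I : Ideal (V.chartOf x) :=
    { carrier := {b | ∀ j, (b : V.F) * f j ∈ V.chartOf x}
      add_mem' := by
        intro a b ha hb j
        change ((a : V.F) + (b : V.F)) * f j ∈ _
        rw [add_mul]
        exact add_mem (ha j) (hb j)
      zero_mem' := fun j => by
        change (0 : V.F) * f j ∈ _
        rw [zero_mul]
        exact zero_mem _
      smul_mem' := by
        intro a b hb j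
        change ((a : V.F) * (b : V.F)) * f j ∈ _
        rw [mul_assoc]
        exact mul_mem a.2 (hb j) }
  have hnoeth := V.isNoetherianRing_chart x
  obtain ⟨S, hS⟩ := (isNoetherianRing_iff_ideal_fg _).mp hnoeth I
  have hSI : ∀ b ∈ S, b ∈ I := fun b hb => by
    rw [← hS]; exact Ideal.subset_span hb
  -- denominators at a point of the chart come from the chart
  have hglob : ∀ y, V.chartOf x ≤ V.loc y → ∀ b ∈ V.loc y, (∀ j, b * f j ∈ V.loc y) →
      ∃ t : V.chartOf x, V.UnitAt y t ∧ ∃ c ∈ I, (t : V.F) * b = c := by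
    intro y hy b hb hbf
    obtain ⟨t, ht, htu, htb⟩ := V.exists_common_denom hy
      (insert b (Finset.univ.image fun j => b * f j)) (by
        intro c hc
        rcases Finset.mem_insert.mp hc with rfl | hc
        · exact hb
        · obtain ⟨j, -, rfl⟩ := Finset.mem_image.mp hc
          exact hbf j)
    refine ⟨⟨t, ht⟩, htu, ⟨t * b, htb b (Finset.mem_insert_self _ _)⟩, fun j => ?_, rfl⟩
    change t * b * f j ∈ _
    rw [mul_assoc]
    exact htb _ (Finset.mem_insert_of_mem (Finset.mem_image_of_mem _ (Finset.mem_univ j)))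
  obtain ⟨t₁, ht₁u, c₁, hc₁, htc₁⟩ := hglob x (V.chart_le x) d h.mem h.mul
  -- the generators are multiples of `d`
  obtain ⟨t₂, ht₂, ht₂u, ht₂S⟩ := V.exists_common_denom (V.chart_le x)
    (S.image fun b : V.chartOf x => (b : V.F) / d) (by
      intro c hc
      obtain ⟨b, hb, rfl⟩ := Finset.mem_image.mp hc
      exact h.dvd b (V.chart_le x b.2) fun j => V.chart_le x (hSI b hb j))
  refine ⟨t₁ * t₂, mul_mem t₁.2 ht₂, ht₁u.mul ht₂u, fun y hy hty => ?_⟩
  have hu : V.UnitAt y (t₁ * t₂) := ⟨(ht₁u.mul ht₂u).1, hy (mul_mem t₁.2 ht₂), hty⟩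
  have hu₁ : V.UnitAt y (t₁ : V.F) := UnitAt.of_mul_left (hy t₁.2) (hy ht₂) hu
  have hu₂ : V.UnitAt y t₂ := UnitAt.of_mul_right (hy t₁.2) (hy ht₂) hu
  have hd : d = (t₁ : V.F)⁻¹ * c₁ := by
    rw [← htc₁]
    have := hu₁.1
    field_simp
  refine ⟨h.ne, ?_, fun j => ?_, fun b hb hbf => ?_⟩
  · rw [hd]
    exact mul_mem hu₁.2.2 (hy c₁.2)
  · rw [hd, mul_assoc]
    exact mul_mem hu₁.2.2 (hy (hc₁ j))
  · obtain ⟨t, htu, c, hc, htc⟩ := hglob y hy b hb hbf
    have hcd : ∀ c ∈ I, (c : V.F) / d ∈ V.loc y := by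
      intro c hc
      rw [← hS] at hc
      induction hc using Submodule.span_induction with
      | mem b hb =>
        exact mem_of_denom hy hu₂.1 hu₂.2.2 (ht₂S _ (Finset.mem_image_of_mem _ hb))
      | zero =>
        change (0 : V.F) / d ∈ _
        rw [zero_div]
        exact zero_mem _
      | add a b _ _ ha hb =>
        change ((a : V.F) + (b : V.F)) / d ∈ _
        rw [add_div]
        exact add_mem ha hb
      | smul a b _ hb =>
        change ((a : V.F) * (b : V.F)) / d ∈ _
        rw [mul_div_assoc]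
        exact mul_mem (hy a.2) hb
    have hb' : b / d = (t : V.F)⁻¹ * ((c : V.F) / d) := by
      rw [← htc]
      have := htu.1
      field_simp
    rw [hb']
    exact mul_mem htu.2.2 (hcd c hc)

variable {V} in
theorem IsDen.div_mem {ι : Type*} {f : ι → V.F} {x : V.X} {d d' : V.F} (h : V.IsDen f x d)
    (h' : V.IsDen f x d') : V.UnitAt x (d / d') := by
  refine ⟨div_ne_zero h.ne h'.ne, h'.dvd d h.mem h.mul, ?_⟩
  rw [inv_div]
  exact h.dvd d' h'.mem h'.mul

/-- **the divisor of denominators of finitely many functions** -/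
theorem exists_denDiv (hufd : ∀ x, UniqueFactorizationMonoid (V.loc x)) {ι : Type*} [Finite ι]
    (f : ι → V.F) : ∃ D : CDiv V, ∀ x, V.IsDen f x (D.eq x) := by
  have h : ∀ x, ∃ d, V.IsDen f x d := fun x => V.exists_den f x
  choose d hd using h
  refine ⟨⟨d, fun x => (hd x).ne, fun x => ?_⟩, hd⟩
  obtain ⟨t, ht, htu, hty⟩ := (hd x).near
  refine ⟨⟨t, ht⟩, htu.2.2, fun y hy hy' => ?_⟩
  have h1 := (hty y hy hy').div_mem (hd y)
  refine ⟨?_, h1.2.1⟩
  have := h1.2.2
  rwa [inv_div] at this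

/-! ### the complement of the divisor of denominators -/

variable {V}

/-- a valuation ring containing the local ring at `x` has its centre at a generisation of `x` -/
theorem loc_le_ctr_genPt (O : KVal K V.F) {x : V.X}
    (h : ∀ b ∈ V.loc x, b ∈ O.toValuationSubring) : V.loc x ≤ V.loc (V.ctr O V.genPt) := by
  have hgen : ∀ z : V.X, V.chartOf z ≤ V.loc (V.center V.genPt) := fun z b _ => by
    rw [center_genPt]
    exact V.mem_loc_gen b
  have h1 : V.chartOf x ≤ V.loc (V.ctr O V.genPt) :=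
    V.chart_le_ctr O V.genPt (hgen x) fun b hb => by
      rw [e_genPt]
      exact h b (V.chart_le x hb)
  intro b hb
  obtain ⟨s, hs, t, ht, htu, rfl⟩ := V.exists_chart_div (V.chart_le x) hb
  have h2 : V.UnitAt (V.ctr O V.genPt) t := by
    refine V.unitAt_of_e_inv_mem O V.genPt (h1 ht) ?_ ?_
    · rw [e_genPt]; exact htu.1
    · rw [e_genPt]; exact h _ htu.2.2
  rw [div_eq_mul_inv]
  exact mul_mem (h1 hs) h2.2.2

/-- **separatedness**: the local equation is invertible in the ring generated by the local ring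
and the functions of the complement -/
theorem inv_eq_mem_adjoin {x₀ : V.X} {N : ℕ} {f : Fin N → V.F}
    (hf : Algebra.adjoin K (Set.range f) = V.chartOf x₀) {D : CDiv V}
    (hD : ∀ x, V.IsDen f x (D.eq x)) (x : V.X) :
    (D.eq x)⁻¹ ∈ Algebra.adjoin (V.loc x) (Set.range f) := by
  by_contra hcon
  set A : Subalgebra (V.loc x) V.F := Algebra.adjoin (V.loc x) (Set.range f) with hA
  have hlocA : ∀ b ∈ V.loc x, b ∈ A := fun b hb => A.algebraMap_mem ⟨b, hb⟩
  have hdA : D.eq x ∈ A.toSubring := hlocA _ (hD x).mem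
  let I : Ideal A.toSubring := Ideal.span {⟨D.eq x, hdA⟩}
  have hI : I ≠ ⊤ := by
    intro h
    have h1 : IsUnit (⟨D.eq x, hdA⟩ : A.toSubring) := Ideal.span_singleton_eq_top.mp h
    obtain ⟨u, hu⟩ := h1
    apply hcon
    have h2 : (D.eq x) * (((u⁻¹ : (A.toSubring)ˣ) : A.toSubring) : V.F) = 1 := by
      have := congrArg Subtype.val u.mul_inv
      rw [hu] at this
      exact this
    rw [inv_eq_of_mul_eq_one_right h2]
    exact Subtype.mem (((u⁻¹ : (A.toSubring)ˣ) : A.toSubring))
  obtain ⟨O', hO', hI'⟩ := Ideal.image_subset_nonunits_valuationSubring I hI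
  have hd' : D.eq x ∈ O'.nonunits := hI' ⟨⟨D.eq x, hdA⟩, Ideal.mem_span_singleton_self _, rfl⟩
  have hdinv : (D.eq x)⁻¹ ∉ O' := by
    rw [← inv_inv (D.eq x)] at hd'
    rcases O'.inv_mem_nonunits_iff.mp hd' with h | h
    · exact absurd h (inv_ne_zero (D.ne x))
    · exact h
  let O : KVal K V.F := ⟨O', fun a => hO' (hlocA _ (Subalgebra.algebraMap_mem _ a))⟩
  have hle : V.loc x ≤ V.loc (V.ctr O V.genPt) :=
    loc_le_ctr_genPt O fun b hb => hO' (hlocA b hb)
  have hgen : V.chartOf x₀ ≤ V.loc (V.center V.genPt) := fun b _ => by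
    rw [center_genPt]
    exact V.mem_loc_gen b
  have hfO : ∀ j, f j ∈ O.toValuationSubring := fun j => hO' (Algebra.subset_adjoin ⟨j, rfl⟩)
  have h1 : V.chartOf x₀ ≤ V.loc (V.ctr O V.genPt) :=
    V.chart_le_ctr O V.genPt hgen fun b hb =>
      V.e_mem_of_gens O V.genPt hf hgen (by
        rintro _ ⟨j, rfl⟩
        rw [e_genPt]
        exact hfO j) hb
  have h2 : V.UnitAt (V.ctr O V.genPt) (D.eq (V.ctr O V.genPt)) :=
    (hD _).unitAt_iff.2 fun j => h1 (by rw [← hf]; exact Algebra.subset_adjoin ⟨j, rfl⟩)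
  have h3 : V.UnitAt (V.ctr O V.genPt) (D.eq x) := by
    have := (D.unit_of_le hle).mul h2
    rwa [div_mul_cancel₀ _ (D.ne _)] at this
  apply hdinv
  have h4 := V.e_mem O V.genPt h3.2.2
  rwa [e_genPt] at h4

/-- the functions of a chart generate the function field -/
theorem adjoin_chart_eq_top {x₀ : V.X} {S : Set V.F} (hf : Algebra.adjoin K S = V.chartOf x₀) :
    IntermediateField.adjoin K S = ⊤ := by
  rw [eq_top_iff]
  rintro b -
  have hle : V.chartOf x₀ ≤ V.loc V.gen := fun c _ => V.mem_loc_gen c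
  obtain ⟨s, hs, t, ht, -, rfl⟩ := V.exists_chart_div hle (V.mem_loc_gen b)
  have h1 : Algebra.adjoin K S ≤ (IntermediateField.adjoin K S).toSubalgebra :=
    Algebra.adjoin_le (IntermediateField.subset_adjoin K S)
  rw [← hf] at hs ht
  exact div_mem (h1 hs) (h1 ht)

end GrpVar

open GrpVar in
/-- **existence of an effective Cartier divisor with affine complement** -/
theorem exists_aff {K : Type u} [Field K] (V : GrpVar K)
    (hufd : ∀ x, UniqueFactorizationMonoid (V.loc x)) : ∃ D : CDiv V, Nonempty (Aff V D) := by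
  classical
  obtain ⟨S, hS⟩ := V.chart_fg V.gen
  let f : Fin S.card → V.F := fun j => S.equivFin.symm j
  have hrange : Set.range f = (S : Set V.F) := by
    ext b
    constructor
    · rintro ⟨j, rfl⟩
      exact (S.equivFin.symm j).2
    · intro hb
      exact ⟨S.equivFin ⟨b, hb⟩, by simp [f]⟩
  have hf : Algebra.adjoin K (Set.range f) = V.chartOf V.gen := by rw [hrange, hS]
  obtain ⟨D, hD⟩ := V.exists_denDiv hufd f
  refine ⟨D, ?_⟩
  have hex : ∀ x, ∃ M, ∃ p : MvPolynomial (Fin S.card) V.F, (∀ e, p.coeff e ∈ V.loc x) ∧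
      p.totalDegree ≤ M ∧ D.eq x * MvPolynomial.eval f p = 1 := by
    intro x
    have h1 := inv_eq_mem_adjoin hf hD x
    rw [Algebra.adjoin_range_eq_range_aeval] at h1
    obtain ⟨q, hq⟩ := h1
    refine ⟨_, q.map (algebraMap (V.loc x) V.F), fun e => ?_, le_rfl, ?_⟩
    · rw [MvPolynomial.coeff_map]
      exact (q.coeff e).2
    · have hq' : MvPolynomial.aeval f q = (D.eq x)⁻¹ := hq
      rw [MvPolynomial.eval_map, ← MvPolynomial.aeval_def, hq', mul_inv_cancel₀ (D.ne x)]
  obtain ⟨M, hM⟩ := V.exists_uniform (fun x M => ∃ p : MvPolynomial (Fin S.card) V.F,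
      (∀ e, p.coeff e ∈ V.loc x) ∧ p.totalDegree ≤ M ∧ D.eq x * MvPolynomial.eval f p = 1)
    (fun y M M' hMM' ⟨p, h1, h2, h3⟩ => ⟨p, h1, h2.trans hMM', h3⟩) (fun x => by
      obtain ⟨M, p, hp1, hp2, hp3⟩ := hex x
      obtain ⟨t₁, ht₁, ht₁u, ht₁p⟩ := V.exists_common_denom (V.chart_le x)
        (p.support.image fun e => p.coeff e) (by
          intro b hb
          obtain ⟨e, -, rfl⟩ := Finset.mem_image.mp hb
          exact hp1 e)
      obtain ⟨t₂, ht₂, ht₂u, hnear⟩ := D.unit_near x
      refine ⟨M, t₁ * t₂, mul_mem ht₁ ht₂, ht₁u.mul ht₂u, fun y hy hty => ?_⟩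
      have hu : V.UnitAt y (t₁ * t₂) := ⟨(ht₁u.mul ht₂u).1, hy (mul_mem ht₁ ht₂), hty⟩
      have hu₁ : V.UnitAt y t₁ := UnitAt.of_mul_left (hy ht₁) (hy ht₂) hu
      have hu₂ : V.UnitAt y t₂ := UnitAt.of_mul_right (hy ht₁) (hy ht₂) hu
      have h4 := hnear y hy hu₂.2.2
      refine ⟨MvPolynomial.C (D.eq x / D.eq y) * p, fun e => ?_, ?_, ?_⟩
      · rw [MvPolynomial.coeff_C_mul]
        refine mul_mem h4.2.1 ?_
        by_cases he : e ∈ p.support
        · exact mem_of_denom hy hu₁.1 hu₁.2.2 (ht₁p _ (Finset.mem_image_of_mem _ he))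
        · rw [MvPolynomial.notMem_support_iff.mp he]
          exact zero_mem _
      · refine (MvPolynomial.totalDegree_mul _ _).trans ?_
        rw [MvPolynomial.totalDegree_C, zero_add]
        exact hp2
      · rw [map_mul, MvPolynomial.eval_C, ← mul_assoc, mul_div_cancel₀ _ (D.ne y), hp3])
  exact ⟨{ eq_mem := fun x => (hD x).mem
           N := S.card
           f := f
           f_gen := adjoin_chart_eq_top hf
           m := 1
           pole := fun x j => by rw [pow_one]; exact (hD x).mul j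
           M := M
           expr := hM }⟩

end Fermat.Agent.AV
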