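import Fermat.Agent.AV.CDivBasic

/-!
# Cartier divisors with affine complement, multiplication by `n` on the generic point
-/

set_option autoImplicit false

universe u

namespace Fermat.Agent.AV

/-- `D` is effective with affine complement: `f j` are generators of the ring of the complement,
`m` bounds their poles along `D` and `M` bounds the degree of the expressions of `1 / eq x`. -/
structure Aff {K : Type u} [Field K] (V : GrpVar K) (D : CDiv V) where
  eq_mem : ∀ x, D.eq x ∈ V.loc x
  N : ℕ
  f : Fin N → V.F
  f_gen : IntermediateField.adjoin K (Set.range f) = ⊤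
  m : ℕ
  pole : ∀ x j, D.eq x ^ m * f j ∈ V.loc x
  M : ℕ
  expr : ∀ x, ∃ p : MvPolynomial (Fin N) V.F, (∀ e, p.coeff e ∈ V.loc x) ∧
    p.totalDegree ≤ M ∧ D.eq x * MvPolynomial.eval f p = 1

namespace GrpVar

variable {K : Type u} [Field K] (V : GrpVar K)

/-- multiplication by `n` is dominant -/
def Dom (n : ℕ) : Prop := V.center (n • V.genPt) = V.gen

variable {V}

/-- the pull back of functions under multiplication by `n` -/
noncomputable def mulHom {n : ℕ} (h : V.Dom n) : V.F →ₐ[K] V.F := V.homOf (n • V.genPt) h

/-- the degree of multiplication by `n` -/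
noncomputable def mulDeg {n : ℕ} (h : V.Dom n) : ℕ := Module.finrank (mulHom h).fieldRange V.F

end GrpVar

end Fermat.Agent.AV
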