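import Mathlib.Algebra.Order.Ring.Nat
import Mathlib.Tactic.Ring
import Mathlib.Tactic.Linarith

/-!
# An elementary growth lemma
-/

set_option autoImplicit false

namespace Fermat.Agent.AV

theorem mul_succ_pow_ge (a t : ℕ) : a ^ t * (a + t) ≤ a * (a + 1) ^ t := by
  induction t with
  | zero => simp
  | succ t ih =>
    calc a ^ (t + 1) * (a + (t + 1)) = a ^ t * (a * (a + t) + a) := by ring
      _ ≤ a ^ t * ((a + t) * (a + 1)) := by
          apply Nat.mul_le_mul_left
          nlinarith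
      _ = a ^ t * (a + t) * (a + 1) := by ring
      _ ≤ a * (a + 1) ^ t * (a + 1) := Nat.mul_le_mul_right _ ih
      _ = a * (a + 1) ^ (t + 1) := by ring

theorem le_of_forall_pow_le {a b B : ℕ} (h : ∀ t : ℕ, b ^ t ≤ B * a ^ t) : b ≤ a := by
  by_contra hab
  push Not at hab
  rcases Nat.eq_zero_or_pos a with rfl | ha
  · have h1 := h 1
    simp only [pow_one, mul_zero, Nat.le_zero] at h1
    omega
  · have h1 := h (a * B + 1)
    have h2 := mul_succ_pow_ge a (a * B + 1)
    have h3 : (a + 1) ^ (a * B + 1) ≤ b ^ (a * B + 1) := Nat.pow_le_pow_left hab _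
    have h4 : a ^ (a * B + 1) * (a + (a * B + 1)) ≤ a ^ (a * B + 1) * (a * B) := by
      calc a ^ (a * B + 1) * (a + (a * B + 1)) ≤ a * (a + 1) ^ (a * B + 1) := h2
        _ ≤ a * b ^ (a * B + 1) := Nat.mul_le_mul_left _ h3
        _ ≤ a * (B * a ^ (a * B + 1)) := Nat.mul_le_mul_left _ h1
        _ = a ^ (a * B + 1) * (a * B) := by ring
    have h5 := Nat.le_of_mul_le_mul_left h4 (pow_pos ha _)
    omega

theorem eq_pow_of_forall {d B q g : ℕ}
    (h : ∀ t : ℕ, d ^ t ≤ B * q ^ (2 * g * t) ∧ q ^ (2 * g * t) ≤ B * d ^ t) :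
    d = q ^ (2 * g) := by
  apply le_antisymm
  · refine le_of_forall_pow_le (B := B) fun t => ?_
    rw [← pow_mul]
    exact (h t).1
  · refine le_of_forall_pow_le (B := B) fun t => ?_
    rw [← pow_mul]
    exact (h t).2

end Fermat.Agent.AV
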