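import Fermat.Agent.AV.GVBasic
import Fermat.Agent.RR.Degree

set_option autoImplicit false

/-!
# Cartier divisors: local equations evaluated at points; the divisor of a point on a curve
-/

universe u

open AlgebraicCurve Fermat.Agent.FF

namespace Fermat.Agent.AV

namespace GrpVar

variable {K : Type u} [Field K] (V : GrpVar K)

section Chart

variable {R : Type u} [CommRing R] [Algebra K R] [IsLocalRing R]

theorem e_zero (P : V.pt R) : V.e P 0 = 0 := by
  have := V.e_algebraMap P 0
  rwa [map_zero, map_zero] at this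

theorem e_unit_mul_inv (P : V.pt R) {t : V.F} (ht : V.UnitAt (V.center P) t) :
    V.e P t * V.e P t⁻¹ = 1 := by
  rw [← V.e_mul P ht.2.1 ht.2.2, mul_inv_cancel₀ ht.1, V.e_one]

/-- local rings of the points of a chart -/
theorem exists_chart_div {x y : V.X} (h : V.chartOf x ≤ V.loc y) {b : V.F} (hb : b ∈ V.loc y) :
    ∃ s ∈ V.chartOf x, ∃ t ∈ V.chartOf x, V.UnitAt y t ∧ b = s / t := by
  obtain ⟨s, t, ht, hst⟩ := V.chart_loc x y h b hb
  exact ⟨s, s.2, t, t.2, V.unitAt_iff.2 ht, hst⟩

/-- two points with values in a chart are equal if they take the same values on the chart -/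
theorem ext_chart {P Q : V.pt R} {x : V.X} (h : V.chartOf x ≤ V.loc (V.center P))
    (h' : V.chartOf x ≤ V.loc (V.center Q)) (hPQ : ∀ b ∈ V.chartOf x, V.e P b = V.e Q b) :
    P = Q := by
  have key : ∀ {P Q : V.pt R} (_ : V.chartOf x ≤ V.loc (V.center P))
      (_ : V.chartOf x ≤ V.loc (V.center Q)) (_ : ∀ b ∈ V.chartOf x, V.e P b = V.e Q b),
      V.loc (V.center P) ≤ V.loc (V.center Q) := by
    intro P Q h h' hPQ b hb
    obtain ⟨s, hs, t, ht, htu, rfl⟩ := V.exists_chart_div h hb
    have h1 : IsUnit (V.e Q t) := by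
      rw [← hPQ t ht]
      exact V.isUnit_e P htu
    rw [div_eq_mul_inv]
    exact mul_mem (h' hs) (V.unitAt_of_isUnit_e Q (h' ht) h1).2.2
  have hc : V.center P = V.center Q :=
    V.loc_inj (le_antisymm (key h h' hPQ) (key h' h fun b hb => (hPQ b hb).symm))
  refine V.ext_e hc fun b hb => ?_
  obtain ⟨s, hs, t, ht, htu, rfl⟩ := V.exists_chart_div h hb
  have htu' : V.UnitAt (V.center Q) t := by rwa [← hc]
  have h1 : V.e P t⁻¹ = V.e Q t⁻¹ := by
    have e1 := V.e_unit_mul_inv P htu
    have e2 := V.e_unit_mul_inv Q htu'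
    rw [← hPQ t ht] at e2
    exact (V.isUnit_e P htu).mul_left_cancel (e1.trans e2.symm)
  rw [div_eq_mul_inv, V.e_mul P (h hs) htu.2.2, V.e_mul Q (h' hs) htu'.2.2, hPQ s hs, h1]

end Chart

section Field

variable {E : Type u} [Field E] [Algebra K E]

/-- if the values on a chart are integral then the center lies in the chart -/
theorem chart_le_ctr (O : KVal K E) (P : V.pt E) {x : V.X}
    (h : V.chartOf x ≤ V.loc (V.center P))
    (hO : ∀ b ∈ V.chartOf x, V.e P b ∈ O.toValuationSubring) :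
    V.chartOf x ≤ V.loc (V.ctr O P) := by
  let φ : V.chartOf x →ₐ[K] O.R :=
    { toFun := fun b => ⟨V.e P b, hO b b.2⟩
      map_one' := Subtype.ext (V.e_one P)
      map_mul' := fun a b => Subtype.ext (V.e_mul P (h a.2) (h b.2))
      map_zero' := Subtype.ext (V.e_zero P)
      map_add' := fun a b => Subtype.ext (V.e_add P (h a.2) (h b.2))
      commutes' := fun a => Subtype.ext (V.e_algebraMap P a) }
  obtain ⟨Q, hQ, hev⟩ := V.chart_pt x φ
  have h1 : V.lift O P = Q := by
    rw [V.lift_eq_iff]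
    refine V.ext_chart (x := x) (hQ.trans (V.loc_le O.incl Q)) h fun b hb => ?_
    rw [V.e_map O.incl Q (hQ hb), V.e_eq Q (hQ hb), hev ⟨b, hb⟩]
    rfl
  rw [ctr, h1]
  exact hQ

/-- it is enough to check generators -/
theorem e_mem_of_gens (O : KVal K E) (P : V.pt E) {x : V.X} {s : Set V.F}
    (hs : Algebra.adjoin K s = V.chartOf x) (h : V.chartOf x ≤ V.loc (V.center P))
    (hO : ∀ b ∈ s, V.e P b ∈ O.toValuationSubring) {b : V.F} (hb : b ∈ V.chartOf x) :
    V.e P b ∈ O.toValuationSubring := by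
  rw [← hs] at hb
  induction hb using Algebra.adjoin_induction with
  | mem y hy => exact hO y hy
  | algebraMap r =>
    rw [V.e_algebraMap]
    exact O.algebraMap_mem' r
  | add y z hy hz hy' hz' =>
    rw [V.e_add P (h (hs ▸ hy)) (h (hs ▸ hz))]
    exact add_mem hy' hz'
  | mul y z hy hz hy' hz' =>
    rw [V.e_mul P (h (hs ▸ hy)) (h (hs ▸ hz))]
    exact mul_mem hy' hz'

end Field

end GrpVar

namespace CDiv

variable {K : Type u} [Field K] {V : GrpVar K} (D : CDiv V)

theorem unit_near (x : V.X) : ∃ t ∈ V.chartOf x, V.UnitAt x t ∧ ∀ y, V.chartOf x ≤ V.loc y →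
    t⁻¹ ∈ V.loc y → V.UnitAt y (D.eq x / D.eq y) := by
  obtain ⟨t, ht, h⟩ := D.near x
  have ht0 : (t : V.F) ≠ 0 ∨ (t : V.F) = 0 := (em _).symm
  rcases ht0 with ht0 | ht0
  · refine ⟨t, t.2, ⟨ht0, V.chart_le x t.2, ht⟩, fun y hy hty => ?_⟩
    obtain ⟨h1, h2⟩ := h y hy hty
    exact ⟨div_ne_zero (D.ne x) (D.ne y), h2, by rwa [inv_div]⟩
  · refine ⟨1, one_mem _, V.unitAt_one x, fun y hy _ => ?_⟩
    obtain ⟨h1, h2⟩ := h y hy (by rw [ht0, inv_zero]; exact zero_mem _)
    exact ⟨div_ne_zero (D.ne x) (D.ne y), h2, by rwa [inv_div]⟩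

/-- local equations are compatible with generisation -/
theorem unit_of_le {x y : V.X} (h : V.loc x ≤ V.loc y) : V.UnitAt y (D.eq x / D.eq y) := by
  obtain ⟨t, -, htu, h1⟩ := D.unit_near x
  exact h1 y ((V.chart_le x).trans h) (h htu.2.2)

section At

variable {E : Type u} [Field E] [Algebra K E]

/-- the local equation at `x`, evaluated at the point `P` (normalised at the center of `P`) -/
noncomputable def at' (P : V.pt E) (x : V.X) : E := V.e P (D.eq x / D.eq (V.center P))

variable {D}

theorem at_ne_zero {P : V.pt E} {x : V.X} (h : V.loc x ≤ V.loc (V.center P)) :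
    D.at' P x ≠ 0 := V.e_ne_zero P (D.unit_of_le h)

theorem at_center (P : V.pt E) : D.at' P (V.center P) = 1 := by
  rw [at', div_self (D.ne _), V.e_one]

theorem at_div_at {P : V.pt E} {x y : V.X} (h : V.loc x ≤ V.loc (V.center P))
    (h' : V.loc y ≤ V.loc (V.center P)) : D.at' P x / D.at' P y = V.e P (D.eq x / D.eq y) := by
  rw [at', at', ← V.e_div P (D.unit_of_le h).2.1 (D.unit_of_le h')]
  congr 1
  rw [div_div_div_cancel_right₀ (D.ne _)]

/-- the local equation evaluated at the point, at the center on a valuation ring -/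
noncomputable def lat (D : CDiv V) (O : KVal K E) (P : V.pt E) : E := D.at' P (V.ctr O P)

theorem lat_ne_zero (O : KVal K E) (P : V.pt E) : D.lat O P ≠ 0 := at_ne_zero (V.loc_ctr_le O P)

theorem at_div_lat (O : KVal K E) (P : V.pt E) {x : V.X} (h : V.loc x ≤ V.loc (V.center P)) :
    D.at' P x / D.lat O P = V.e P (D.eq x / D.eq (V.ctr O P)) :=
  at_div_at h (V.loc_ctr_le O P)

/-- any equation which is valid at the center may be used -/
theorem at_div_lat_mem (O : KVal K E) (P : V.pt E) {x : V.X}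
    (h : V.loc x ≤ V.loc (V.center P)) (hu : V.UnitAt (V.ctr O P) (D.eq x / D.eq (V.ctr O P))) :
    D.at' P x / D.lat O P ∈ O.toValuationSubring ∧
      (D.at' P x / D.lat O P)⁻¹ ∈ O.toValuationSubring := by
  rw [at_div_lat O P h]
  exact ⟨V.e_mem O P hu.2.1, V.e_inv_mem O P hu⟩

theorem at_div_lat_mem' (O : KVal K E) (P : V.pt E) {x : V.X} (h : V.loc x ≤ V.loc (V.ctr O P)) :
    D.at' P x / D.lat O P ∈ O.toValuationSubring ∧
      (D.at' P x / D.lat O P)⁻¹ ∈ O.toValuationSubring :=
  at_div_lat_mem O P (h.trans (V.loc_ctr_le O P)) (D.unit_of_le h)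

/-- comparison of the equations at the centers on two valuation rings `O ≤ O'` -/
theorem lat_div_lat_mem {O O' : KVal K E} (h : O.toValuationSubring ≤ O'.toValuationSubring)
    (P : V.pt E) : D.lat O P / D.lat O' P ∈ O'.toValuationSubring ∧
      (D.lat O P / D.lat O' P)⁻¹ ∈ O'.toValuationSubring :=
  at_div_lat_mem' O' P (V.loc_ctr_mono h P)

variable {κ : Type u} [Field κ] [Algebra K κ]

/-- reduction of local equations -/
theorem at_red {O : KVal K E} {π : O.R →ₐ[K] κ} (hπ : ∀ a : O.R, IsUnit (π a) → IsUnit a)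
    (P : V.pt E) {x : V.X} (h : V.loc x ≤ V.loc (V.ctr O P)) :
    D.at' (V.red O π P) x = π ⟨D.at' P x / D.lat O P, (at_div_lat_mem' O P h).1⟩ := by
  have h1 := V.center_red O π hπ P
  have h2 : D.eq x / D.eq (V.ctr O P) ∈ V.loc (V.ctr O P) := (D.unit_of_le h).2.1
  rw [at', h1, V.e_red O π P h2]
  congr 1
  exact Subtype.ext (at_div_lat O P (h.trans (V.loc_ctr_le O P))).symm

/-- compatibility with field extensions -/
theorem at_map {E' : Type u} [Field E'] [Algebra K E'] (g : E →ₐ[K] E') (P : V.pt E) {x : V.X}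
    (h : V.loc x ≤ V.loc (V.center P)) : D.at' (V.map g P) x = g (D.at' P x) := by
  have hg : ∀ a : E, IsUnit (g a) → IsUnit a := fun a ha =>
    isUnit_iff_ne_zero.2 fun h0 => ha.ne_zero (by rw [h0, map_zero])
  have hc := V.center_map g hg P
  rw [at', at', hc, V.e_map g P (D.unit_of_le h).2.1]

end At

section Curve

variable {Ω E : Type u} [Field Ω] [Field E] [Algebra K Ω] [Algebra K E] [Algebra Ω E]
  [IsScalarTower K Ω E]

/-- the order at the place `v` of the pull back of `D` -/
noncomputable def ordAt (D : CDiv V) (P : V.pt E) (v : Place Ω E) : ℤ :=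
  v.ord (D.lat (KVal.ofPlace v) P)

theorem mem_valuationSubring_iff (v : Place Ω E) {f : E} (hf : f ≠ 0) :
    f ∈ v.toValuationSubring ↔ 0 ≤ v.ord f := by
  constructor
  · intro h
    have h1 : v.adicValuation f ≤ 1 := by
      have := v.heightOneSpectrum.intValuation_le_one ⟨f, h⟩
      rwa [← v.adicValuation_coe] at this
    have h2 : WithZero.log (v.adicValuation f) ≤ 0 := by
      have h3 := v.adicValuation_ne_zero hf
      rw [← WithZero.log_one]
      exact (WithZero.log_le_log h3 one_ne_zero).2 h1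
    simp only [Place.ord]
    omega
  · intro h
    by_contra h1
    have h2 : f⁻¹ ∈ v.toValuationSubring := (v.toValuationSubring.mem_or_inv_mem f).resolve_left h1
    obtain ⟨π, hπ⟩ := IsDiscreteValuationRing.exists_irreducible v.toValuationSubring
    obtain ⟨u, hu⟩ := v.exists_unit_mul_zpow hf hπ
    obtain ⟨n, hn⟩ := Int.eq_ofNat_of_zero_le h
    apply h1
    rw [hu, hn]
    exact mul_mem (Subtype.mem _) (by
      rw [zpow_natCast]
      exact pow_mem (Subtype.mem _) n)

theorem ord_eq_zero_iff (v : Place Ω E) {f : E} (hf : f ≠ 0) :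
    v.ord f = 0 ↔ f ∈ v.toValuationSubring ∧ f⁻¹ ∈ v.toValuationSubring := by
  rw [mem_valuationSubring_iff v hf, mem_valuationSubring_iff v (inv_ne_zero hf), Place.ord_inv]
  omega

theorem ord_div (v : Place Ω E) {f g : E} (hf : f ≠ 0) (hg : g ≠ 0) :
    v.ord (f / g) = v.ord f - v.ord g := by
  rw [div_eq_mul_inv, v.ord_mul hf (inv_ne_zero hg), v.ord_inv, sub_eq_add_neg]

variable {D}

/-- any equation which is valid at the center may be used -/
theorem ordAt_eq (P : V.pt E) (v : Place Ω E) {x : V.X} (h : V.loc x ≤ V.loc (V.center P))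
    (hu : V.UnitAt (V.ctr (KVal.ofPlace v) P) (D.eq x / D.eq (V.ctr (KVal.ofPlace v) P))) :
    D.ordAt P v = v.ord (D.at' P x) := by
  have h1 := at_div_lat_mem (KVal.ofPlace v) P h hu
  have h2 := (ord_eq_zero_iff v (div_ne_zero (at_ne_zero h) (lat_ne_zero _ P))).2 h1
  rw [ord_div v (at_ne_zero h) (lat_ne_zero _ P)] at h2
  rw [ordAt]
  omega

theorem ordAt_eq' (P : V.pt E) (v : Place Ω E) {x : V.X}
    (h : V.loc x ≤ V.loc (V.ctr (KVal.ofPlace v) P)) : D.ordAt P v = v.ord (D.at' P x) :=
  ordAt_eq P v (h.trans (V.loc_ctr_le _ P)) (D.unit_of_le h)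

variable [IsAlgClosed Ω] [IsFnField Ω E]

theorem finite_ordAt (D : CDiv V) (P : V.pt E) :
    {v : Place Ω E | D.ordAt P v ≠ 0}.Finite := by
  obtain ⟨t, ht, htu, h1⟩ := D.unit_near (V.center P)
  obtain ⟨s, hs⟩ := V.chart_fg (V.center P)
  have hle : V.chartOf (V.center P) ≤ V.loc (V.center P) := V.chart_le _
  refine Set.Finite.subset ((s.finite_toSet.biUnion fun b _ =>
    RR.finite_support_ord (K := Ω) (V.e P b)).union
      (RR.finite_support_ord (K := Ω) (V.e P t))) ?_
  intro v hv
  by_contra hcon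
  simp only [Set.mem_union, Set.mem_iUnion, Set.mem_ofPred_eq, exists_prop, not_or, not_exists,
    not_and, not_not] at hcon
  obtain ⟨hgen, htv⟩ := hcon
  apply hv
  have hO : ∀ b ∈ V.chartOf (V.center P), V.e P b ∈ (KVal.ofPlace (K := K) v).toValuationSubring := by
    intro b hb
    refine V.e_mem_of_gens (KVal.ofPlace v) P hs hle (fun c hc => ?_) hb
    by_cases h0 : V.e P c = 0
    · rw [h0]; exact zero_mem _
    · exact (mem_valuationSubring_iff v h0).2 (hgen c hc).ge
  have hctr := V.chart_le_ctr (KVal.ofPlace v) P hle hO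
  have ht0 : V.e P t ≠ 0 := V.e_ne_zero P htu
  have ht1 : V.UnitAt (V.ctr (KVal.ofPlace v) P) t :=
    V.unitAt_of_e_inv_mem _ P (hctr ht) ht0 ((ord_eq_zero_iff v ht0).1 htv).2
  have h2 := h1 _ hctr ht1.2.2
  rw [ordAt_eq P v le_rfl h2, at_center, Place.ord_one]

/-- the divisor on the curve defined by the pull back of `D` under the point `P` -/
noncomputable def cdiv (D : CDiv V) (P : V.pt E) : Divisor Ω E :=
  Finsupp.ofSupportFinite (fun v => D.ordAt P v) (D.finite_ordAt P)

@[simp] theorem cdiv_apply (P : V.pt E) (v : Place Ω E) :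
    (D.cdiv P : Divisor Ω E) v = D.ordAt P v := rfl

variable (Ω) in
/-- the height of a point with values in a function field of one variable -/
noncomputable def height (D : CDiv V) (P : V.pt E) : ℤ := Divisor.degree (D.cdiv P : Divisor Ω E)

end Curve

end CDiv

end Fermat.Agent.AV
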