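import Fermat.Agent.AV.AffDef
import Fermat.Agent.RR.Riemann

set_option autoImplicit false
set_option linter.unusedSectionVars false
set_option linter.style.haveILetI false

/-!
# Comparison of the height with the degrees of the coordinate functions
-/

universe u

open AlgebraicCurve Fermat.Agent.FF Fermat.Agent.RR IntermediateField WithZero

namespace Fermat.Agent.AV

section Curve

variable {Ω E : Type u} [Field Ω] [Field E] [Algebra Ω E] [IsAlgClosed Ω] [IsFnField Ω E]

theorem finrank_eq_zero_of_not_transcendental {x : E} (hx : ¬ Transcendental Ω x) :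
    Module.finrank Ω⟮x⟯ E = 0 := by
  by_contra h
  haveI : FiniteDimensional Ω⟮x⟯ E := .of_finrank_pos (Nat.pos_of_ne_zero h)
  haveI h1 : Algebra.IsAlgebraic Ω Ω⟮x⟯ := by
    haveI : FiniteDimensional Ω Ω⟮x⟯ :=
      IntermediateField.adjoin.finiteDimensional (not_not.mp hx).isIntegral
    exact Algebra.IsAlgebraic.of_finite _ _
  haveI h2 : Algebra.IsAlgebraic Ω E := Algebra.IsAlgebraic.trans Ω Ω⟮x⟯ E
  have h3 := IsFnField.trdeg_eq_one (K := Ω) (F := E)
  rw [trdeg_eq_zero] at h3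
  exact zero_ne_one h3

/-- the degree of the pole divisor of any function -/
theorem degree_poleDiv_eq (x : E) :
    Divisor.degree (poleDiv (K := Ω) x) = Module.finrank Ω⟮x⟯ E := by
  by_cases hx : Transcendental Ω x
  · exact degree_poleDiv hx
  · have h0 : poleDiv (K := Ω) x = 0 := by
      ext v
      rw [poleDiv_apply, ord_eq_zero_of_isAlgebraic v (not_not.mp hx)]
      rfl
    rw [h0, map_zero, finrank_eq_zero_of_not_transcendental hx]
    rfl

end Curve

namespace Aff

variable {K : Type u} [Field K] {V : GrpVar K} {D : CDiv V} (A : Aff V D)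
  {Ω E : Type u} [Field Ω] [Field E] [Algebra K Ω] [Algebra K E] [Algebra Ω E]
  [IsScalarTower K Ω E] [IsAlgClosed Ω] [IsFnField Ω E]

/-- the pull back of `D` as an actual divisor, for a generic point -/
noncomputable def gdiv (D : CDiv V) (Q : V.pt E) : Divisor Ω E :=
  D.cdiv Q + RR.divOf (K := Ω) (V.e Q (D.eq (V.center Q)))

theorem degree_gdiv (Q : V.pt E) : Divisor.degree (gdiv (Ω := Ω) D Q) = D.height Ω Q := by
  rw [gdiv, map_add, RR.degree_divOf, add_zero]
  rfl

variable {Q : V.pt E} (hQ : V.center Q = V.gen)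

include hQ in
theorem e_ne_zero_of_gen {b : V.F} (hb : b ≠ 0) : V.e Q b ≠ 0 := by
  rw [← V.homOf_apply Q hQ]
  exact (map_ne_zero _).2 hb

include hQ in
theorem gdiv_apply (v : Place Ω E) : (gdiv (Ω := Ω) D Q : Divisor Ω E) v =
    v.ord (V.e Q (D.eq (V.ctr (KVal.ofPlace v) Q))) := by
  rw [gdiv, Finsupp.add_apply, CDiv.cdiv_apply, RR.divOf_apply, CDiv.ordAt, CDiv.lat, CDiv.at',
    ← V.homOf_apply Q hQ, ← V.homOf_apply Q hQ, ← V.homOf_apply Q hQ, map_div₀,
    CDiv.ord_div v ((map_ne_zero _).2 (D.ne _)) ((map_ne_zero _).2 (D.ne _)), sub_add_cancel]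

include A hQ in
theorem gdiv_nonneg : 0 ≤ (gdiv (Ω := Ω) D Q : Divisor Ω E) := by
  intro v
  rw [gdiv_apply hQ, Finsupp.zero_apply, ← CDiv.mem_valuationSubring_iff v
    (e_ne_zero_of_gen hQ (D.ne _))]
  exact V.e_mem (KVal.ofPlace v) Q (A.eq_mem _)

include hQ in
theorem poleDiv_le (j : Fin A.N) :
    poleDiv (K := Ω) (V.e Q (A.f j)) ≤ A.m • (gdiv (Ω := Ω) D Q : Divisor Ω E) := by
  intro v
  have h0 := A.gdiv_nonneg (Ω := Ω) hQ v
  rw [Finsupp.zero_apply] at h0
  rw [poleDiv_apply, Finsupp.smul_apply, nsmul_eq_mul]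
  have hm : (0 : ℤ) ≤ (A.m : ℤ) * (gdiv (Ω := Ω) D Q : Divisor Ω E) v := by positivity
  refine max_le hm ?_
  by_cases hf : A.f j = 0
  · rw [hf, V.e_zero, Place.ord_zero, neg_zero]
    exact hm
  have h1 := V.e_mem (KVal.ofPlace v) Q (A.pole (V.ctr (KVal.ofPlace v) Q) j)
  have hne : V.e Q (D.eq (V.ctr (KVal.ofPlace v) Q)) ≠ 0 := e_ne_zero_of_gen hQ (D.ne _)
  have hnf : V.e Q (A.f j) ≠ 0 := e_ne_zero_of_gen hQ hf
  have h2 : V.e Q (D.eq (V.ctr (KVal.ofPlace v) Q) ^ A.m * A.f j) =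
      V.e Q (D.eq (V.ctr (KVal.ofPlace v) Q)) ^ A.m * V.e Q (A.f j) := by
    simp only [← V.homOf_apply Q hQ, map_mul, map_pow]
  rw [h2] at h1
  have h3 := (CDiv.mem_valuationSubring_iff v (mul_ne_zero (pow_ne_zero _ hne) hnf)).1 h1
  rw [v.ord_mul (pow_ne_zero _ hne) hnf] at h3
  have h4 : v.ord (V.e Q (D.eq (V.ctr (KVal.ofPlace v) Q)) ^ A.m) =
      A.m * v.ord (V.e Q (D.eq (V.ctr (KVal.ofPlace v) Q))) := by
    rw [← zpow_natCast, v.ord_zpow]
  rw [h4, ← gdiv_apply hQ v] at h3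
  omega

include hQ in
/-- the degrees of the coordinate functions are bounded by the height -/
theorem finrank_le (j : Fin A.N) :
    (Module.finrank Ω⟮V.e Q (A.f j)⟯ E : ℤ) ≤ A.m * D.height Ω Q := by
  rw [← degree_poleDiv_eq, ← degree_gdiv]
  have := degree_mono (A.poleDiv_le (Ω := Ω) hQ j)
  rwa [map_nsmul, nsmul_eq_mul] at this

include hQ in
theorem gdiv_le : (gdiv (Ω := Ω) D Q : Divisor Ω E) ≤
    A.M • ∑ j, poleDiv (K := Ω) (V.e Q (A.f j)) := by
  intro v
  set x := V.ctr (KVal.ofPlace v) Q with hx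
  obtain ⟨p, hp, hdeg, hexpr⟩ := A.expr x
  set s : ℤ := (∑ j, poleDiv (K := Ω) (V.e Q (A.f j))) v with hs
  have hs' : s = ∑ j, poleDiv (K := Ω) (V.e Q (A.f j)) v := by
    rw [hs, Finsupp.finsetSum_apply]
  have hs0 : 0 ≤ s := by
    rw [hs']
    exact Finset.sum_nonneg fun j _ => poleDiv_nonneg _ v
  rw [Finsupp.smul_apply, nsmul_eq_mul, gdiv_apply hQ]
  -- valuations of the coordinate functions
  have hval : ∀ j, v.adicValuation (V.e Q (A.f j)) ≤ exp s := by
    intro j
    by_cases h0 : V.e Q (A.f j) = 0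
    · rw [h0, map_zero]; exact zero_le
    · rw [v.adicValuation_eq_exp_neg_ord h0, exp_le_exp]
      have h1 : poleDiv (K := Ω) (V.e Q (A.f j)) v ≤ s := by
        rw [hs']
        exact Finset.single_le_sum (f := fun j => poleDiv (K := Ω) (V.e Q (A.f j)) v)
          (fun j _ => poleDiv_nonneg _ v) (Finset.mem_univ j)
      rw [poleDiv_apply] at h1
      omega
  have hcoef : ∀ d, v.adicValuation (V.e Q (p.coeff d)) ≤ 1 := by
    intro d
    have h1 := V.e_mem (KVal.ofPlace v) Q (hp d)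
    by_cases h0 : V.e Q (p.coeff d) = 0
    · rw [h0, map_zero]; exact zero_le
    · rw [v.adicValuation_eq_exp_neg_ord h0, ← exp_zero, exp_le_exp]
      have := (CDiv.mem_valuationSubring_iff v h0).1 h1
      omega
  have h1s : (1 : ℤᵐ⁰) ≤ exp s := by rw [← exp_zero, exp_le_exp]; exact hs0
  have heval : v.adicValuation (V.e Q (MvPolynomial.eval A.f p)) ≤ exp s ^ A.M := by
    rw [MvPolynomial.eval_eq', ← V.homOf_apply Q hQ, map_sum]
    refine Valuation.map_sum_le _ fun d hd => ?_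
    rw [map_mul, map_mul, map_prod, map_prod]
    have h1 : v.adicValuation (V.homOf Q hQ (p.coeff d)) ≤ 1 := by
      rw [V.homOf_apply]
      exact hcoef d
    have h2 : ∏ i, v.adicValuation (V.homOf Q hQ (A.f i ^ d i)) ≤ exp s ^ (∑ i, d i) := by
      rw [← Finset.prod_pow_eq_pow_sum]
      refine Finset.prod_le_prod' fun i _ => ?_
      rw [map_pow, map_pow, V.homOf_apply]
      exact pow_le_pow_left' (hval i) _
    have h3 : ∑ i, d i ≤ A.M := by
      have := MvPolynomial.le_totalDegree hd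
      rw [Finsupp.sum_fintype _ _ (fun _ => rfl)] at this
      exact this.trans hdeg
    calc v.adicValuation (V.homOf Q hQ (p.coeff d)) *
        ∏ i, v.adicValuation (V.homOf Q hQ (A.f i ^ d i)) ≤ 1 * exp s ^ (∑ i, d i) :=
          mul_le_mul' h1 h2
      _ = exp s ^ (∑ i, d i) := one_mul _
      _ ≤ exp s ^ A.M := pow_le_pow_right' h1s h3
  have hne : V.e Q (D.eq x) ≠ 0 := e_ne_zero_of_gen hQ (D.ne _)
  have h5 : V.e Q (D.eq x) * V.e Q (MvPolynomial.eval A.f p) = 1 := by
    have h6 := congrArg (V.homOf Q hQ) hexpr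
    rw [map_mul, map_one, V.homOf_apply, V.homOf_apply] at h6
    exact h6
  have h6 := congrArg v.adicValuation h5
  rw [map_mul, map_one, v.adicValuation_eq_exp_neg_ord hne] at h6
  have h7 : (1 : ℤᵐ⁰) ≤ exp (-v.ord (V.e Q (D.eq x))) * exp s ^ A.M := by
    rw [← h6]
    exact mul_le_mul_right heval _
  rw [← exp_nsmul, ← exp_add, ← exp_zero, exp_le_exp, nsmul_eq_mul] at h7
  change v.ord (V.e Q (D.eq x)) ≤ A.M * s
  omega

include hQ in
/-- the height is bounded by the degrees of the coordinate functions -/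
theorem height_le :
    D.height Ω Q ≤ A.M * ∑ j, (Module.finrank Ω⟮V.e Q (A.f j)⟯ E : ℤ) := by
  rw [← degree_gdiv]
  have := degree_mono (A.gdiv_le (Ω := Ω) hQ)
  rw [map_nsmul, nsmul_eq_mul, map_sum] at this
  simp only [degree_poleDiv_eq] at this
  exact this

end Aff

end Fermat.Agent.AV
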