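import Fermat.Agent.AV.PlSigma
import Fermat.Agent.Red.SpecOf
import Fermat.Agent.RR.Duality

/-!
# Specialisation of a constant curve
-/

set_option autoImplicit false
set_option linter.style.haveILetI false
set_option linter.unusedSectionVars false

open AlgebraicCurve Polynomial IntermediateField IsDedekindDomain
open scoped TensorProduct IntermediateField.algebraAdjoinAdjoin

namespace Fermat.Agent.AV

open Fermat.Agent.BCh Fermat.Agent.FF Fermat.Agent.Red

section Den

variable {K F : Type*} [Field K] [Field F] [Algebra K F] [IsFnField K F]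

/-- functions regular at `Q` are fractions of functions integral over `K[x]`, with a denominator
not vanishing at `Q` -/
theorem exists_den {x : F} (hx : Transcendental K x) [Algebra.IsSeparable K⟮x⟯ F] {Q : Place K F}
    (hQ : 0 ≤ Q.ord x) {f : F} (hf : f ∈ Q.toValuationSubring) :
    ∃ g : F, g ≠ 0 ∧ IsIntegral (Algebra.adjoin K {x}) g ∧
      IsIntegral (Algebra.adjoin K {x}) (g * f) ∧ Q.ord g = 0 := by
  haveI := IsFnField.finiteDimensional (K := K) hx
  let B := integralClosure (Algebra.adjoin K {x}) F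
  have hB : ∀ b : B, algebraMap B F b ∈ Q.toValuationSubring := fun b => by
    have hb : IsIntegral (Algebra.adjoin K {x}) (algebraMap B F b) := b.2
    letI : Algebra (Algebra.adjoin K {x}) Q.toValuationSubring :=
      ((algebraMap (Algebra.adjoin K {x}) F).codRestrict Q.toValuationSubring.toSubring
        (adjoin_mem_of_ord_nonneg Q hQ)).toAlgebra
    haveI : IsScalarTower (Algebra.adjoin K {x}) Q.toValuationSubring F :=
      IsScalarTower.of_algebraMap_eq fun _ => rfl
    have hb'' : IsIntegral Q.toValuationSubring (algebraMap B F b) := hb.tower_top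
    obtain ⟨y, hy⟩ := IsIntegrallyClosed.isIntegral_iff.mp hb''
    rw [← hy]
    exact y.2
  obtain ⟨w, hw, hwc⟩ := exists_heightOneSpectrum Q hB
  have hf' := hf
  rw [← hw, mem_ofHeightOneSpectrum_iff] at hf'
  obtain ⟨n, d, hnd⟩ := HeightOneSpectrum.exists_primeCompl_mul_eq_of_integer _ f hf'
  have hd : (d : B) ∉ centre Q hB := fun h => d.2 ((SetLike.ext_iff.1 hwc _).2 h)
  rw [mem_centre_iff, not_or, not_lt] at hd
  refine ⟨algebraMap B F d, by simpa using hd.1, (d : B).2, ?_,
    le_antisymm hd.2 (ord_nonneg_of_mem Q (hB d))⟩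
  rw [mul_comm, hnd]
  exact n.2

end Den

variable {K F U B : Type*} [Field K] [Field F] [Field U] [Field B] [Algebra K F] [Algebra K U]
  [Algebra U B] (d : Ext K F U B)
  [IsAlgClosed K] [IsFnField K F] [IsAlgClosed U] [IsFnField U B] (p : KPlace K U K)

/-- the constant reduction -/
noncomputable abbrev cred : ConstRed p.V p.π B F := gaussRed d (extRefl K F) p

theorem cred_ι (f : F) : (cred d p).IsRed (d.ι f) f := gaussRed_isRed_ι d (extRefl K F) p f

theorem isIntegral_ι {x f : F} (h : IsIntegral (Algebra.adjoin K {x}) f) :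
    IsIntegral (Algebra.adjoin U {d.ι x}) (d.ι f) := by
  have h1 : ∀ a : Algebra.adjoin K {x}, d.ι (a : F) ∈ Algebra.adjoin U {d.ι x} := by
    rintro ⟨a, ha⟩
    rw [Algebra.adjoin_singleton_eq_range_aeval] at ha
    obtain ⟨q, rfl⟩ := ha
    show d.ι (aeval x q) ∈ _
    rw [Polynomial.aeval_eq_sum_range, map_sum]
    refine sum_mem fun i _ => ?_
    rw [Algebra.smul_def, map_mul, d.ι_alg, map_pow]
    exact mul_mem (Subalgebra.algebraMap_mem _ _)
      (pow_mem (Algebra.self_mem_adjoin_singleton _ _) i)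
  let g : Algebra.adjoin K {x} →+* Algebra.adjoin U {d.ι x} :=
    { toFun := fun a => ⟨d.ι (a : F), h1 a⟩
      map_one' := Subtype.ext (map_one d.ι)
      map_mul' := fun a b => Subtype.ext (map_mul d.ι _ _)
      map_zero' := Subtype.ext (map_zero d.ι)
      map_add' := fun a b => Subtype.ext (map_add d.ι _ _) }
  obtain ⟨q, hq, h0⟩ := h
  refine ⟨q.map g, hq.map g, ?_⟩
  rw [eval₂_map]
  have h2 : (algebraMap (Algebra.adjoin U {d.ι x}) B).comp g =
      d.ι.comp (algebraMap (Algebra.adjoin K {x}) F) := rfl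
  rw [h2, ← hom_eval₂, h0, map_zero]

theorem chart_of {x : F} (hx : Transcendental K x) (hs : Algebra.IsSeparable K⟮x⟯ F) :
    Chart (cred d p) (d.ι x) x := by
  haveI := IsFnField.finiteDimensional (K := K) hx
  exact
  { isCoord :=
    { isRed := cred_ι d p x
      transcendental := hx
      finiteDimensional := finiteDimensional_ι d hx
      finiteDimensionalk := inferInstance
      finrank_eq := finrank_ι d hx }
    sep := isSeparable_ι d
    sepk := hs
    lift := fun z hz => ⟨d.ι z, cred_ι d p z, isIntegral_ι d hz⟩ }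

theorem chart_inv {x : F} (hx : Transcendental K x) (hs : Algebra.IsSeparable K⟮x⟯ F) :
    Chart (cred d p) (d.ι x)⁻¹ x⁻¹ := by
  rw [← map_inv₀]
  exact chart_of d p (RR.transcendental_inv' hx) (separable_inv hs)

/-- the specialisation -/
noncomputable def spc : Spec (cred d p) :=
  specOf (chart_of d p (exists_separating K F).choose_spec.1 (exists_separating K F).choose_spec.2)
    (chart_inv d p (exists_separating K F).choose_spec.1 (exists_separating K F).choose_spec.2)
    p.surj

/-- the specialisation of places -/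
noncomputable def sp (P : Place U B) : Place K F := (spc d p).r P

variable {d p}

theorem val_of_Sp {x : F} (hx : Transcendental K x) [Algebra.IsSeparable K⟮x⟯ F] {P : Place U B}
    {Q : Place K F} (h : Sp (cred d p) (d.ι x) x P Q) {f : F} {c : K} (hf : HasVal Q f c) :
    ∃ c' : p.V, HasVal P (d.ι f) c' ∧ p.π c' = c := by
  obtain ⟨⟨a, ha⟩, hQ, hint⟩ := h
  obtain ⟨g, hg0, hgi, hgfi, hg⟩ := exists_den hx hQ hf.mem
  have hreg : ∀ z, IsIntegral (Algebra.adjoin K {x}) z → ∃ e, HasVal P (d.ι z) e := by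
    intro z hz
    apply exists_hasVal
    apply ord_nonneg_of_mem
    exact mem_of_isIntegral P ha.nonneg (isIntegral_ι d hz)
  obtain ⟨e, he⟩ := hreg g hgi
  obtain ⟨e', he'⟩ := hreg _ hgfi
  obtain ⟨h1, h2⟩ := hint _ _ _ (cred_ι d p g) (isIntegral_ι d hgi) he
  obtain ⟨h3, h4⟩ := hint _ _ _ (cred_ι d p (g * f)) (isIntegral_ι d hgfi) he'
  have hπe : p.π ⟨e, h1⟩ ≠ 0 := by
    intro h0
    rw [h0, hasVal_zero_iff] at h2
    rcases h2 with h2 | h2
    · exact hg0 h2
    · rw [hg] at h2; exact lt_irrefl _ h2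
  have hu : IsUnit (⟨e, h1⟩ : p.V) := by
    by_contra hu
    exact hπe ((p.ker _).2 hu)
  obtain ⟨w, hw⟩ := hu.exists_right_inv
  have hw' : e * (w : U) = 1 := congrArg Subtype.val hw
  have he0 : e ≠ 0 := left_ne_zero_of_mul_eq_one hw'
  have hwe : (w : U) = e⁻¹ := (inv_eq_of_mul_eq_one_right hw').symm
  refine ⟨⟨e', h3⟩ * w, ?_, ?_⟩
  · have h5 := he'.div he he0
    rw [map_mul, mul_div_cancel_left₀ _ ((map_ne_zero d.ι).mpr hg0)] at h5
    have h6 : (((⟨e', h3⟩ * w : p.V)) : U) = e' / e := by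
      rw [div_eq_mul_inv, ← hwe]
      rfl
    rwa [h6]
  · have h5 := h4.div h2 hπe
    rw [mul_div_cancel_left₀ _ hg0] at h5
    rw [map_mul, hf.unique h5, div_eq_mul_inv]
    congr 1
    have h6 : p.π ⟨e, h1⟩ * p.π w = 1 := by rw [← map_mul, hw, map_one]
    exact (inv_eq_of_mul_eq_one_right h6).symm

/-- **values of constant functions** at a place and at its specialisation -/
theorem val_sp {P : Place U B} {f : F} {c : K} (hf : HasVal (sp d p P) f c) :
    ∃ c' : p.V, HasVal P (d.ι f) c' ∧ p.π c' = c := by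
  set x := (exists_separating K F).choose with hxdef
  have hx : Transcendental K x := (exists_separating K F).choose_spec.1
  have hs : Algebra.IsSeparable K⟮x⟯ F := (exists_separating K F).choose_spec.2
  by_cases hQ : 0 ≤ (sp d p P).ord x
  · exact val_of_Sp hx ((spec_eq_iff (chart_of d p hx hs) (chart_inv d p hx hs) hQ).1 rfl) hf
  · push Not at hQ
    haveI := separable_inv hs
    have h1 := (spec_eq_iff' (chart_of d p hx hs) (chart_inv d p hx hs) hQ).1
      (rfl : sp d p P = _)
    rw [← map_inv₀] at h1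
    exact val_of_Sp (RR.transcendental_inv' hx) h1 hf

theorem hasVal_sp {P : Place U B} {f : F} {c : p.V} (h : HasVal P (d.ι f) (c : U)) :
    HasVal (sp d p P) f (p.π c) := by
  have hmem : f ∈ (sp d p P).toValuationSubring := by
    by_contra hf
    have hf0 : f ≠ 0 := by rintro rfl; exact hf (zero_mem _)
    have h1 : HasVal (sp d p P) f⁻¹ 0 := by
      rw [hasVal_zero_iff]
      right
      apply place_ord_pos _ (inv_ne_zero hf0)
      rwa [inv_inv]
    obtain ⟨c', h2, h3⟩ := val_sp h1
    have h4 := h.mul h2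
    rw [map_inv₀, mul_inv_cancel₀ ((map_ne_zero d.ι).mpr hf0)] at h4
    have h5 : c * c' = 1 := Subtype.ext (h4.unique (hasVal_one P))
    have h6 := congrArg p.π h5
    rw [map_mul, h3, mul_zero, map_one] at h6
    exact zero_ne_one h6
  obtain ⟨c', h2, h3⟩ := val_sp (⟨hmem, rfl⟩ : HasVal (sp d p P) f _)
  have h4 : c = c' := Subtype.ext (h.unique h2)
  rw [h4, h3]
  exact ⟨hmem, rfl⟩

theorem sp_eq {P : Place U B} {Q : Place K F}
    (h : ∀ f c, HasVal Q f c → ∃ c' : p.V, HasVal P (d.ι f) c' ∧ p.π c' = c) :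
    sp d p P = Q := by
  symm
  apply eq_of_le
  intro f hf
  obtain ⟨c', h1, -⟩ := h f _ ⟨hf, rfl⟩
  exact (hasVal_sp h1).mem

theorem sp_con (Q : Place K F) : sp d p (con d Q) = Q :=
  sp_eq fun _ c hf => ⟨⟨algebraMap K U c, p.mem c⟩, hasVal_con hf, p.π_alg c⟩

theorem val_sp_pl {σ : F →ₐ[K] U} {f : F} {c : K} (h : HasVal (sp d p (pl d σ)) f c) :
    ∃ h' : σ f ∈ p.V, p.π ⟨σ f, h'⟩ = c := by
  obtain ⟨c', h1, h2⟩ := val_sp h
  have h3 : (c' : U) = σ f := h1.unique (hasVal_pl σ f)
  refine ⟨h3 ▸ c'.2, ?_⟩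
  rw [← h2]
  congr 1
  exact Subtype.ext h3.symm

theorem hasVal_sp_pl {σ : F →ₐ[K] U} {f : F} (h : σ f ∈ p.V) :
    HasVal (sp d p (pl d σ)) f (p.π ⟨σ f, h⟩) :=
  hasVal_sp (c := ⟨σ f, h⟩) (hasVal_pl σ f)

variable (d p) in
/-- the specialisation of divisors -/
noncomputable def spDiv : Divisor U B →+ Divisor K F := Finsupp.mapDomain.addMonoidHom (sp d p)

theorem spDiv_single (P : Place U B) (n : ℤ) :
    spDiv d p (Finsupp.single P n) = Finsupp.single (sp d p P) n := Finsupp.mapDomain_single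

theorem spDiv_liftDiv (D : Divisor K F) : spDiv d p (liftDiv d D) = D := by
  induction D using Finsupp.induction_linear with
  | zero => rw [map_zero, map_zero]
  | add D E hD hE => rw [map_add, map_add, hD, hE]
  | single Q n => rw [liftDiv_single, spDiv_single, sp_con]

theorem degree_spDiv (D : Divisor U B) : Divisor.degree (spDiv d p D) = Divisor.degree D := by
  induction D using Finsupp.induction_linear with
  | zero => rw [map_zero, map_zero, map_zero]
  | add D E hD hE => rw [map_add, map_add, map_add, hD, hE]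
  | single Q n => rw [spDiv_single, RR.degree_single', RR.degree_single']

theorem spDiv_nonneg {D : Divisor U B} (h : 0 ≤ D) : 0 ≤ spDiv d p D := by
  classical
  intro Q
  show (0 : ℤ) ≤ Finsupp.mapDomain (sp d p) D Q
  rw [mapDomain_apply_sum]
  exact Finset.sum_nonneg fun P _ => h P

theorem spDiv_divOf {z : B} {y : F} (h : (cred d p).IsRed z y) (hy : y ≠ 0) :
    spDiv d p (RR.divOf (K := U) z) = RR.divOf (K := K) y := by
  ext Q
  rw [RR.divOf_apply]
  exact (spc d p).ord_eq z y h hy _ (fun P => RR.divOf_apply z P) Q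

theorem divOf_const_mul {U B : Type*} [Field U] [Field B] [Algebra U B] [IsAlgClosed U]
    [IsFnField U B] {c : U} (hc : c ≠ 0) (z : B) :
    RR.divOf (K := U) (algebraMap U B c * z) = RR.divOf (K := U) z := by
  ext P
  rw [RR.divOf_apply, RR.divOf_apply]
  rcases eq_or_ne z 0 with rfl | hz
  · rw [mul_zero]
  · rw [P.ord_mul ((_root_.map_ne_zero _).mpr hc) hz, ord_algebraMap, zero_add]

/-- the specialisation of a principal divisor -/
theorem exists_spDiv_divOf {z : B} (hz : z ≠ 0) : ∃ (c : U) (y : F), c ≠ 0 ∧ y ≠ 0 ∧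
    (cred d p).IsRed (algebraMap U B c * z) y ∧
    spDiv d p (RR.divOf (K := U) z) = RR.divOf (K := K) y := by
  obtain ⟨c, hc, y, hy, h⟩ := (cred d p).exists_isRed_mul hz
  refine ⟨c, y, hc, hy, h, ?_⟩
  rw [← spDiv_divOf h hy, divOf_const_mul hc]

/-- semicontinuity -/
theorem exists_section_spDiv {D : Divisor U B} {z : B} (hz : z ≠ 0)
    (h : 0 ≤ RR.divOf (K := U) z + D) : ∃ y : F, y ≠ 0 ∧ 0 ≤ RR.divOf (K := K) y + spDiv d p D := by
  obtain ⟨c, y, -, hy, -, h1⟩ := exists_spDiv_divOf (d := d) (p := p) hz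
  refine ⟨y, hy, ?_⟩
  rw [← h1, ← map_add]
  exact spDiv_nonneg h

end Fermat.Agent.AV
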