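import Fermat.Agent.BCh.Ext
import Fermat.Agent.Red.SpecOf

/-!
# The constant reduction of a constant curve

`B = Frac (U ⊗_K F)`, `B' = Frac (κ ⊗_K F)`, `V ⊂ U` a valuation ring containing `K` with residue
map `π : V → κ`: the Gauss valuation ring of `B`.
-/

set_option autoImplicit false
set_option linter.style.haveILetI false

open AlgebraicCurve
open scoped TensorProduct

namespace Fermat.Agent.AV

open Fermat.Agent.BCh Fermat.Agent.Red

/-- a place of the field `U` over `K`, with values in `κ` -/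
structure KPlace (K U κ : Type*) [Field K] [Field U] [Field κ] [Algebra K U] [Algebra K κ] where
  V : ValuationSubring U
  π : V →+* κ
  mem : ∀ a : K, algebraMap K U a ∈ V
  π_alg : ∀ a : K, π ⟨algebraMap K U a, mem a⟩ = algebraMap K κ a
  surj : Function.Surjective π
  ker : ∀ a : V, π a = 0 ↔ ¬ IsUnit a

namespace KPlace

variable {K U κ : Type*} [Field K] [Field U] [Field κ] [Algebra K U] [Algebra K κ]
  (p : KPlace K U κ)

/-- the valuation ring as a `K`-algebra -/
def S : Subalgebra K U := { p.V.toSubring with algebraMap_mem' := p.mem }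

theorem mem_S {u : U} : u ∈ p.S ↔ u ∈ p.V := Iff.rfl

/-- the residue map as a `K`-algebra homomorphism -/
def πK : p.S →ₐ[K] κ where
  toFun u := p.π ⟨u.1, u.2⟩
  map_one' := map_one p.π
  map_mul' _ _ := map_mul p.π _ _
  map_zero' := map_zero p.π
  map_add' _ _ := map_add p.π _ _
  commutes' := p.π_alg

theorem πK_apply (u : p.S) : p.πK u = p.π ⟨u.1, u.2⟩ := rfl

theorem πK_one_ne (u : p.S) (hu : (u : U) = 1) : p.πK u = 1 := by
  have : u = 1 := Subtype.ext hu
  rw [this, map_one]

/-- choice of a coefficient of maximal value -/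
theorem exists_max {ι : Type*} (s : Finset ι) (u : ι → U) (h : ∃ i ∈ s, u i ≠ 0) :
    ∃ i ∈ s, u i ≠ 0 ∧ ∀ j ∈ s, (u i)⁻¹ * u j ∈ p.V := by
  obtain ⟨i₀, hi₀, h0⟩ := h
  obtain ⟨i, hi, hmax⟩ := Finset.exists_max_image s (fun i => p.V.valuation (u i)) ⟨i₀, hi₀⟩
  have hui : u i ≠ 0 := by
    intro h1
    have := hmax i₀ hi₀
    rw [h1, map_zero] at this
    exact h0 ((map_eq_zero _).mp (le_zero_iff.mp this))
  refine ⟨i, hi, hui, fun j hj => ?_⟩
  rw [← p.V.valuation_le_one_iff, map_mul, map_inv₀]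
  have h1 : p.V.valuation (u i) ≠ 0 := (map_ne_zero _).mpr hui
  calc (p.V.valuation (u i))⁻¹ * p.V.valuation (u j)
      ≤ (p.V.valuation (u i))⁻¹ * p.V.valuation (u i) := mul_le_mul_right (hmax j hj) _
    _ = 1 := inv_mul_cancel₀ h1

end KPlace

section

variable {K F U B κ B' : Type*} [Field K] [Field F] [Field U] [Field B] [Field κ] [Field B']
  [Algebra K F] [Algebra K U] [Algebra U B] [Algebra K κ] [Algebra κ B']
  [Algebra K B] [IsScalarTower K U B] [Algebra K B'] [IsScalarTower K κ B']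
  (d : Ext K F U B) (d' : Ext K F κ B') (p : KPlace K U κ)

/-- the embedding as a homomorphism of `K`-algebras -/
def ιK : F →ₐ[K] B where
  toRingHom := d.ι
  commutes' a := (d.ι_alg a).trans (IsScalarTower.algebraMap_apply K U B a).symm

theorem ιK_apply (f : F) : ιK d f = d.ι f := rfl

/-- `V ⊗ F → B` -/
noncomputable def φ : p.S ⊗[K] F →ₐ[K] B :=
  Algebra.TensorProduct.lift ((IsScalarTower.toAlgHom K U B).comp p.S.val) (ιK d)
    (fun _ _ => Commute.all _ _)

theorem φ_tmul (v : p.S) (f : F) : φ d p (v ⊗ₜ f) = algebraMap U B v * d.ι f := by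
  rw [φ, Algebra.TensorProduct.lift_tmul]; rfl

/-- `V ⊗ F → B'` -/
noncomputable def ρ : p.S ⊗[K] F →ₐ[K] B' :=
  Algebra.TensorProduct.lift ((IsScalarTower.toAlgHom K κ B').comp p.πK) (ιK d')
    (fun _ _ => Commute.all _ _)

theorem ρ_tmul (v : p.S) (f : F) : ρ d' p (v ⊗ₜ f) = algebraMap κ B' (p.πK v) * d'.ι f := by
  rw [ρ, Algebra.TensorProduct.lift_tmul]; rfl

/-- expansion along a basis -/
noncomputable def bas : Module.Basis (Module.Free.ChooseBasisIndex K F) p.S (p.S ⊗[K] F) :=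
  Algebra.TensorProduct.basis p.S (Module.Free.chooseBasis K F)

theorem expand (s : p.S ⊗[K] F) : s = ∑ l ∈ ((bas (F := F) p).repr s).support,
    ((bas (F := F) p).repr s l) ⊗ₜ (Module.Free.chooseBasis K F l) := by
  conv_lhs => rw [← (bas (F := F) p).linearCombination_repr s]
  rw [Finsupp.linearCombination_apply, Finsupp.sum]
  refine Finset.sum_congr rfl fun l _ => ?_
  rw [bas, Algebra.TensorProduct.basis_apply, TensorProduct.smul_tmul', smul_eq_mul, mul_one]

theorem φ_injective : Function.Injective (φ d p) := by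
  rw [injective_iff_map_eq_zero]
  intro s hs
  rw [expand p s, map_sum] at hs
  have h1 := d.indep' (Module.Free.chooseBasis K F).linearIndependent
  rw [linearIndependent_iff'] at h1
  have h2 := h1 ((bas (F := F) p).repr s).support
    (fun l => (((bas (F := F) p).repr s l : p.S) : U)) (by
      rw [← hs]
      refine Finset.sum_congr rfl fun l _ => ?_
      rw [φ_tmul, Algebra.smul_def])
  rw [expand p s]
  refine Finset.sum_eq_zero fun l hl => ?_
  have : (bas (F := F) p).repr s l = 0 := Subtype.ext (h2 l hl)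
  rw [this, TensorProduct.zero_tmul]

/-- a primitive element does not reduce to zero -/
theorem ρ_sum_ne_zero (s : Finset (Module.Free.ChooseBasisIndex K F))
    (u : Module.Free.ChooseBasisIndex K F → p.S)
    (i : Module.Free.ChooseBasisIndex K F) (hi : i ∈ s) (hu : (u i : U) = 1) :
    ρ d' p (∑ l ∈ s, (u l) ⊗ₜ (Module.Free.chooseBasis K F l)) ≠ 0 := by
  intro h
  rw [map_sum] at h
  have h1 := d'.indep' (Module.Free.chooseBasis K F).linearIndependent
  rw [linearIndependent_iff'] at h1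
  have h2 := h1 s (fun l => p.πK (u l)) (by
    rw [← h]
    refine Finset.sum_congr rfl fun l _ => ?_
    rw [ρ_tmul, Algebra.smul_def]) i hi
  rw [p.πK_one_ne _ hu] at h2
  exact one_ne_zero h2

/-- scaling of elements of `U · F` -/
theorem exists_prim {a : B} (ha : a ∈ Submodule.span U (Set.range d.ι)) (ha0 : a ≠ 0) :
    ∃ (c : U) (s : p.S ⊗[K] F), c ≠ 0 ∧ ρ d' p s ≠ 0 ∧ algebraMap U B c * a = φ d p s := by
  classical
  -- expansion with coefficients in `U`
  obtain ⟨t, u, rfl⟩ : ∃ (t : Finset (Module.Free.ChooseBasisIndex K F))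
      (u : Module.Free.ChooseBasisIndex K F → U),
      a = ∑ l ∈ t, algebraMap U B (u l) * d.ι (Module.Free.chooseBasis K F l) := by
    have h1 : a ∈ Submodule.span U
        (Set.range fun l => d.ι (Module.Free.chooseBasis K F l)) := by
      refine (Submodule.span_le.mpr ?_) ha
      rintro _ ⟨f, rfl⟩
      rw [← (Module.Free.chooseBasis K F).linearCombination_repr f,
        Finsupp.linearCombination_apply, Finsupp.sum, map_sum]
      refine Submodule.sum_mem _ fun l _ => ?_
      rw [Algebra.smul_def, map_mul, d.ι_alg, ← Algebra.smul_def]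
      exact Submodule.smul_mem _ _ (Submodule.subset_span ⟨l, rfl⟩)
    rw [Finsupp.mem_span_range_iff_exists_finsupp] at h1
    obtain ⟨c, rfl⟩ := h1
    exact ⟨c.support, c, Finset.sum_congr rfl fun l _ => Algebra.smul_def _ _⟩
  have hex : ∃ i ∈ t, u i ≠ 0 := by
    by_contra hcon
    push Not at hcon
    apply ha0
    refine Finset.sum_eq_zero fun l hl => ?_
    rw [hcon l hl, map_zero, zero_mul]
  obtain ⟨i, hi, hui, hmax⟩ := p.exists_max t u hex
  let v : Module.Free.ChooseBasisIndex K F → p.S := fun l =>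
    if h : l ∈ t then ⟨(u i)⁻¹ * u l, hmax l h⟩ else 0
  have hv : ∀ l (h : l ∈ t), ((v l : p.S) : U) = (u i)⁻¹ * u l := by
    intro l h
    simp only [v, dif_pos h]
  refine ⟨(u i)⁻¹, ∑ l ∈ t, (v l) ⊗ₜ (Module.Free.chooseBasis K F l), inv_ne_zero hui,
    ρ_sum_ne_zero d' p t v i hi ?_, ?_⟩
  · rw [hv i hi, inv_mul_cancel₀ hui]
  · rw [Finset.mul_sum, map_sum]
    refine Finset.sum_congr rfl fun l hl => ?_
    rw [φ_tmul, hv l hl, map_mul, mul_assoc]

/-- every nonzero element of `B` is a constant times a quotient of primitive elements -/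
theorem exists_prim_div {z : B} (hz : z ≠ 0) : ∃ (c : U) (s t : p.S ⊗[K] F), c ≠ 0 ∧
    ρ d' p s ≠ 0 ∧ ρ d' p t ≠ 0 ∧ algebraMap U B c * z * φ d p t = φ d p s := by
  obtain ⟨a, b, ha, hb, hb0, rfl⟩ := d.frac z
  have ha0 : a ≠ 0 := by rintro rfl; exact hz (zero_div _)
  obtain ⟨c, s, hc, hs, h1⟩ := exists_prim d d' p ha ha0
  obtain ⟨c', t, hc', ht, h2⟩ := exists_prim d d' p hb hb0
  refine ⟨c / c', s, t, div_ne_zero hc hc', hs, ht, ?_⟩
  rw [← h1, ← h2, map_div₀]
  have : algebraMap U B c' ≠ 0 := (map_ne_zero_iff _ (algebraMap U B).injective).mpr hc'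
  field_simp

theorem φ_ne_zero {t : p.S ⊗[K] F} (ht : ρ d' p t ≠ 0) : φ d p t ≠ 0 := by
  intro h
  apply ht
  rw [(injective_iff_map_eq_zero (φ d p)).mp (φ_injective d p) t h, map_zero]

/-- the Gauss valuation ring -/
def gO : ValuationSubring B where
  carrier := {z | ∃ s t : p.S ⊗[K] F, ρ d' p t ≠ 0 ∧ z * φ d p t = φ d p s}
  mul_mem' := by
    rintro z z' ⟨s, t, ht, h⟩ ⟨s', t', ht', h'⟩
    refine ⟨s * s', t * t', by rw [map_mul]; exact mul_ne_zero ht ht', ?_⟩
    rw [map_mul, map_mul, ← h, ← h']; ring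
  one_mem' := ⟨1, 1, by rw [map_one]; exact one_ne_zero, by rw [one_mul]⟩
  add_mem' := by
    rintro z z' ⟨s, t, ht, h⟩ ⟨s', t', ht', h'⟩
    refine ⟨s * t' + s' * t, t * t', by rw [map_mul]; exact mul_ne_zero ht ht', ?_⟩
    rw [map_mul, map_add, map_mul, map_mul, ← h, ← h']; ring
  zero_mem' := ⟨0, 1, by rw [map_one]; exact one_ne_zero, by rw [zero_mul, map_zero]⟩
  neg_mem' := by
    rintro z ⟨s, t, ht, h⟩
    exact ⟨-s, t, ht, by rw [map_neg, ← h]; ring⟩
  mem_or_inv_mem' := by
    intro z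
    rcases eq_or_ne z 0 with rfl | hz
    · exact Or.inl ⟨0, 1, by rw [map_one]; exact one_ne_zero, by rw [zero_mul, map_zero]⟩
    obtain ⟨c, s, t, hc, hs, ht, h⟩ := exists_prim_div d d' p hz
    have hcB : algebraMap U B c ≠ 0 := (map_ne_zero_iff _ (algebraMap U B).injective).mpr hc
    rcases p.V.mem_or_inv_mem c with h1 | h1
    · right
      refine ⟨(⟨c, h1⟩ : p.S) ⊗ₜ 1 * t, s, hs, ?_⟩
      rw [map_mul, φ_tmul, map_one, mul_one, ← h]
      field_simp
    · left
      refine ⟨(⟨c⁻¹, h1⟩ : p.S) ⊗ₜ 1 * s, t, ht, ?_⟩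
      rw [map_mul, φ_tmul, map_one, mul_one, ← h, map_inv₀]
      field_simp

theorem mem_gO {z : B} : z ∈ gO d d' p ↔
    ∃ s t : p.S ⊗[K] F, ρ d' p t ≠ 0 ∧ z * φ d p t = φ d p s := Iff.rfl

theorem gred_unique {z : B} {s t s' t' : p.S ⊗[K] F} (ht : ρ d' p t ≠ 0)
    (h : z * φ d p t = φ d p s) (ht' : ρ d' p t' ≠ 0) (h' : z * φ d p t' = φ d p s') :
    ρ d' p s / ρ d' p t = ρ d' p s' / ρ d' p t' := by
  rw [div_eq_div_iff ht ht', ← map_mul, ← map_mul]
  congr 1
  apply φ_injective d p
  rw [map_mul, map_mul, ← h, ← h']; ring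

open Classical in
/-- the residue map of the Gauss valuation ring -/
noncomputable def gredFun (z : gO d d' p) : B' :=
  ρ d' p z.2.choose / ρ d' p z.2.choose_spec.choose

theorem gredFun_eq (z : gO d d' p) {s t : p.S ⊗[K] F} (ht : ρ d' p t ≠ 0)
    (h : (z : B) * φ d p t = φ d p s) : gredFun d d' p z = ρ d' p s / ρ d' p t :=
  gred_unique d d' p z.2.choose_spec.choose_spec.1 z.2.choose_spec.choose_spec.2 ht h

/-- the residue map of the Gauss valuation ring -/
noncomputable def gred : gO d d' p →+* B' where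
  toFun := gredFun d d' p
  map_one' := by
    rw [gredFun_eq d d' p 1 (s := 1) (t := 1) (by rw [map_one]; exact one_ne_zero)
      (by rw [map_one, mul_one]; rfl), map_one, div_one]
  map_mul' := by
    rintro ⟨z, s, t, ht, h⟩ ⟨z', s', t', ht', h'⟩
    rw [gredFun_eq d d' p ⟨z, s, t, ht, h⟩ ht h, gredFun_eq d d' p ⟨z', s', t', ht', h'⟩ ht' h',
      gredFun_eq d d' p _ (s := s * s') (t := t * t')
        (by rw [map_mul]; exact mul_ne_zero ht ht')
        ((show z * z' * φ d p (t * t') = φ d p (s * s') by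
          rw [map_mul, map_mul, ← h, ← h']; ring)), map_mul, map_mul, div_mul_div_comm]
  map_zero' := by
    rw [gredFun_eq d d' p 0 (s := 0) (t := 1) (by rw [map_one]; exact one_ne_zero)
      (by rw [map_one, mul_one, map_zero]; rfl), map_zero, zero_div]
  map_add' := by
    rintro ⟨z, s, t, ht, h⟩ ⟨z', s', t', ht', h'⟩
    rw [gredFun_eq d d' p ⟨z, s, t, ht, h⟩ ht h, gredFun_eq d d' p ⟨z', s', t', ht', h'⟩ ht' h',
      gredFun_eq d d' p _ (s := s * t' + t * s') (t := t * t')
        (by rw [map_mul]; exact mul_ne_zero ht ht')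
        ((show (z + z') * φ d p (t * t') = φ d p (s * t' + t * s') by
          rw [map_mul, map_add, map_mul, map_mul, ← h, ← h']; ring)),
      map_mul, map_add, map_mul, map_mul, div_add_div _ _ ht ht']

theorem gred_eq {z : B} (hz : z ∈ gO d d' p) {s t : p.S ⊗[K] F} (ht : ρ d' p t ≠ 0)
    (h : z * φ d p t = φ d p s) : gred d d' p ⟨z, hz⟩ = ρ d' p s / ρ d' p t :=
  gredFun_eq d d' p ⟨z, hz⟩ ht h

theorem φ_mem (s : p.S ⊗[K] F) : φ d p s ∈ gO d d' p :=
  ⟨s, 1, by rw [map_one]; exact one_ne_zero, by rw [map_one, mul_one]⟩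

theorem gred_φ (s : p.S ⊗[K] F) : gred d d' p ⟨φ d p s, φ_mem d d' p s⟩ = ρ d' p s := by
  rw [gred_eq d d' p _ (s := s) (t := 1) (by rw [map_one]; exact one_ne_zero)
    (by rw [map_one, mul_one]), map_one, div_one]

theorem ρ_range {b : B'} (hb : b ∈ Submodule.span κ (Set.range d'.ι)) : ∃ s, ρ d' p s = b := by
  induction hb using Submodule.span_induction with
  | mem x hx =>
    obtain ⟨f, rfl⟩ := hx
    exact ⟨1 ⊗ₜ f, by rw [ρ_tmul, map_one, map_one, one_mul]⟩
  | zero => exact ⟨0, map_zero _⟩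
  | add x y _ _ hx hy =>
    obtain ⟨s, rfl⟩ := hx
    obtain ⟨t, rfl⟩ := hy
    exact ⟨s + t, map_add _ _ _⟩
  | smul c x _ hx =>
    obtain ⟨s, rfl⟩ := hx
    obtain ⟨v, hv⟩ := p.surj c
    refine ⟨(⟨v.1, v.2⟩ : p.S) ⊗ₜ 1 * s, ?_⟩
    rw [map_mul, ρ_tmul, map_one, mul_one, p.πK_apply, Algebra.smul_def, ← hv]

/-- **the constant reduction of a constant curve** (auxiliary version) -/
noncomputable def gaussRedAux : ConstRed p.V p.π B B' where
  O := gO d d' p
  algebraMap_mem_iff := by
    intro a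
    constructor
    · intro h
      by_contra ha
      have ha0 : a ≠ 0 := by rintro rfl; exact ha p.V.zero_mem
      have hainv : a⁻¹ ∈ p.V := (p.V.mem_or_inv_mem a).resolve_left ha
      obtain ⟨s, t, ht, h1⟩ := h
      apply ht
      have h2 : t = (⟨a⁻¹, hainv⟩ : p.S) ⊗ₜ 1 * s := by
        apply φ_injective d p
        rw [map_mul, φ_tmul, map_one, mul_one, ← h1, map_inv₀]
        have : algebraMap U B a ≠ 0 := (map_ne_zero_iff _ (algebraMap U B).injective).mpr ha0
        field_simp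
      rw [h2, map_mul, ρ_tmul, map_one, mul_one]
      have h3 : p.πK ⟨a⁻¹, hainv⟩ = 0 := by
        rw [p.πK_apply, p.ker]
        intro hu
        obtain ⟨b, hb⟩ := hu.exists_right_inv
        have hb' : a⁻¹ * (b : U) = 1 := congrArg Subtype.val hb
        have : (b : U) = a := by field_simp at hb'; exact hb'
        exact ha (this ▸ b.2)
      rw [h3, map_zero, zero_mul]
    · intro h
      have := φ_mem d d' p ((⟨a, h⟩ : p.S) ⊗ₜ (1 : F))
      rwa [φ_tmul, map_one, mul_one] at this
  red := gred d d' p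
  red_surjective := by
    intro z
    obtain ⟨a, b, ha, hb, hb0, rfl⟩ := d'.frac z
    obtain ⟨s, rfl⟩ := ρ_range d' p ha
    obtain ⟨t, rfl⟩ := ρ_range d' p hb
    have ht := φ_ne_zero d d' p hb0
    have h1 : φ d p s / φ d p t * φ d p t = φ d p s := div_mul_cancel₀ _ ht
    exact ⟨⟨φ d p s / φ d p t, s, t, hb0, h1⟩, gred_eq d d' p _ hb0 h1⟩
  red_eq_zero_iff := by
    rintro ⟨z, s, t, ht, h⟩
    rw [gred_eq d d' p _ ht h]
    constructor
    · intro h0 hu
      have hs : ρ d' p s = 0 := by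
        rcases div_eq_zero_iff.mp h0 with h1 | h1
        · exact h1
        · exact absurd h1 ht
      obtain ⟨⟨w, s', t', ht', h'⟩, hw⟩ := hu.exists_right_inv
      have hw' : z * w = 1 := congrArg Subtype.val hw
      have h2 : s * s' = t * t' := by
        apply φ_injective d p
        rw [map_mul, map_mul, ← h, ← h']
        calc z * φ d p t * (w * φ d p t') = (z * w) * (φ d p t * φ d p t') := by ring
          _ = _ := by rw [hw', one_mul]
      have h3 := congrArg (ρ d' p) h2
      rw [map_mul, map_mul, hs, zero_mul] at h3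
      exact mul_ne_zero ht ht' h3.symm
    · intro hu
      by_contra h0
      apply hu
      have hs : ρ d' p s ≠ 0 := fun h1 => h0 (by rw [h1, zero_div])
      have hz : z ≠ 0 := by
        rintro rfl
        rw [zero_mul] at h
        exact φ_ne_zero d d' p hs h.symm
      have hinv : z⁻¹ ∈ gO d d' p := ⟨t, s, hs, by rw [← h]; field_simp⟩
      exact IsUnit.of_mul_eq_one ⟨z⁻¹, hinv⟩ (Subtype.ext (mul_inv_cancel₀ hz))
  red_algebraMap := by
    intro a
    have h1 : algebraMap U B a * φ d p 1 = φ d p ((⟨a.1, a.2⟩ : p.S) ⊗ₜ (1 : F)) := by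
      rw [φ_tmul, map_one, mul_one, map_one, mul_one]
    rw [gred_eq d d' p _ (by rw [map_one]; exact one_ne_zero) h1, map_one, div_one, ρ_tmul,
      map_one, mul_one]
    rfl
  exists_scale := by
    intro z hz
    obtain ⟨c, s, t, hc, hs, ht, h⟩ := exists_prim_div d d' p hz
    have hcB : algebraMap U B c ≠ 0 := (map_ne_zero_iff _ (algebraMap U B).injective).mpr hc
    refine ⟨c, hc, ⟨s, t, ht, h⟩, ⟨t, s, hs, ?_⟩⟩
    rw [← h]
    field_simp

theorem gaussRedAux_isRed_ι (f : F) : (gaussRedAux d d' p).IsRed (d.ι f) (d'.ι f) := by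
  have h1 : d.ι f * φ d p 1 = φ d p ((1 : p.S) ⊗ₜ f) := by
    rw [φ_tmul, map_one, mul_one, OneMemClass.coe_one, map_one, one_mul]
  have h2 : d.ι f ∈ gO d d' p := ⟨_, 1, by rw [map_one]; exact one_ne_zero, h1⟩
  refine ⟨h2, ?_⟩
  show gred d d' p ⟨d.ι f, h2⟩ = _
  rw [gred_eq d d' p h2 (by rw [map_one]; exact one_ne_zero) h1, map_one, div_one, ρ_tmul,
    map_one, map_one, one_mul]

end

section

variable {K F U B κ B' : Type*} [Field K] [Field F] [Field U] [Field B] [Field κ] [Field B']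
  [Algebra K F] [Algebra K U] [Algebra U B] [Algebra K κ] [Algebra κ B']
  (d : Ext K F U B) (d' : Ext K F κ B') (p : KPlace K U κ)

/-- **the constant reduction of a constant curve** -/
noncomputable def gaussRed : ConstRed p.V p.π B B' :=
  letI : Algebra K B := ((algebraMap U B).comp (algebraMap K U)).toAlgebra
  haveI : IsScalarTower K U B := IsScalarTower.of_algebraMap_eq fun _ => rfl
  letI : Algebra K B' := ((algebraMap κ B').comp (algebraMap K κ)).toAlgebra
  haveI : IsScalarTower K κ B' := IsScalarTower.of_algebraMap_eq fun _ => rfl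
  gaussRedAux d d' p

theorem gaussRed_isRed_ι (f : F) : (gaussRed d d' p).IsRed (d.ι f) (d'.ι f) := by
  letI : Algebra K B := ((algebraMap U B).comp (algebraMap K U)).toAlgebra
  haveI : IsScalarTower K U B := IsScalarTower.of_algebraMap_eq fun _ => rfl
  letI : Algebra K B' := ((algebraMap κ B').comp (algebraMap K κ)).toAlgebra
  haveI : IsScalarTower K κ B' := IsScalarTower.of_algebraMap_eq fun _ => rfl
  exact gaussRedAux_isRed_ι d d' p f

end

end Fermat.Agent.AV
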