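import Mathlib

set_option autoImplicit false
set_option linter.style.haveILetI false
set_option linter.unusedVariables false

/-!
# The extension theorem for places

Every homomorphism from a subring of a field `L` to an algebraically closed field `Ω` extends to a
place of `L` with values in `Ω`.
-/

open Polynomial

namespace Fermat.Agent.AV

namespace PL

variable {L Ω : Type*} [Field L] [Field Ω]

/-- graphs of homomorphisms from a subring of `L` to `Ω` -/
def IsGraph (G : Subring (L × Ω)) : Prop := ∀ b : Ω, ((0 : L), b) ∈ G → b = 0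

/-- the projections -/
def fs (G : Subring (L × Ω)) : G →+* L := (RingHom.fst L Ω).comp G.subtype

def sn (G : Subring (L × Ω)) : G →+* Ω := (RingHom.snd L Ω).comp G.subtype

theorem fs_apply (G : Subring (L × Ω)) (g : G) : fs G g = (g : L × Ω).1 := rfl

theorem sn_apply (G : Subring (L × Ω)) (g : G) : sn G g = (g : L × Ω).2 := rfl

theorem fs_injective {G : Subring (L × Ω)} (hG : IsGraph G) : Function.Injective (fs G) := by
  rw [injective_iff_map_eq_zero]
  rintro ⟨⟨a, b⟩, h⟩ (ha : a = 0)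
  subst ha
  have := hG b h
  subst this
  rfl

theorem mem_of_ext {G : Subring (L × Ω)} (hmax : ∀ G' : Subring (L × Ω), IsGraph G' → G ≤ G' → G' ≤ G)
    {x : L} {y : Ω} (h : ∀ f : G[X], eval₂ (fs G) x f = 0 → eval₂ (sn G) y f = 0) :
    (x, y) ∈ G := by
  have h1 : ∀ f : G[X], (aeval (x, y) f : L × Ω).1 = eval₂ (fs G) x f := fun f =>
    hom_eval₂ f (algebraMap G (L × Ω)) (RingHom.fst L Ω) (x, y)
  have h2 : ∀ f : G[X], (aeval (x, y) f : L × Ω).2 = eval₂ (sn G) y f := fun f =>
    hom_eval₂ f (algebraMap G (L × Ω)) (RingHom.snd L Ω) (x, y)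
  refine hmax (Algebra.adjoin G {(x, y)}).toSubring ?_ ?_
    (Algebra.self_mem_adjoin_singleton G (x, y))
  · intro b hb
    have hb' : ((0 : L), b) ∈ Algebra.adjoin G {(x, y)} := hb
    rw [Algebra.adjoin_singleton_eq_range_aeval] at hb'
    obtain ⟨f, hf⟩ := hb'
    have hf' : aeval (x, y) f = ((0 : L), b) := hf
    have e1 := h1 f
    have e2 := h2 f
    rw [hf'] at e1 e2
    exact e2.trans (h f e1.symm)
  · intro g hg
    exact Subalgebra.algebraMap_mem (Algebra.adjoin G {(x, y)}) ⟨g, hg⟩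

theorem isUnit_of_sn {G : Subring (L × Ω)} (hG : IsGraph G)
    (hmax : ∀ G' : Subring (L × Ω), IsGraph G' → G ≤ G' → G' ≤ G) {g : G} (hg : sn G g ≠ 0) :
    IsUnit g := by
  have hg1 : fs G g ≠ 0 := fun h0 => hg (by
    rw [(map_eq_zero_iff _ (fs_injective hG)).1 h0, map_zero])
  have hmem : ((fs G g)⁻¹, (sn G g)⁻¹) ∈ G := by
    refine mem_of_ext hmax fun f hf => ?_
    let i1 : Invertible (fs G g)⁻¹ := invertibleOfNonzero (inv_ne_zero hg1)
    let i2 : Invertible (sn G g)⁻¹ := invertibleOfNonzero (inv_ne_zero hg)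
    have h1 : eval₂ (fs G) (⅟((fs G g)⁻¹)) (reverse f) = 0 :=
      (eval₂_reverse_eq_zero_iff (fs G) _ f).2 hf
    rw [invOf_eq_inv, inv_inv, eval₂_at_apply] at h1
    refine (eval₂_reverse_eq_zero_iff (sn G) _ f).1 ?_
    rw [invOf_eq_inv, inv_inv, eval₂_at_apply, (map_eq_zero_iff _ (fs_injective hG)).1 h1,
      map_zero]
  refine IsUnit.of_mul_eq_one ⟨_, hmem⟩ (Subtype.ext (Prod.ext ?_ ?_))
  · exact mul_inv_cancel₀ hg1
  · exact mul_inv_cancel₀ hg

theorem isUnit_iff_sn {G : Subring (L × Ω)} (hG : IsGraph G)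
    (hmax : ∀ G' : Subring (L × Ω), IsGraph G' → G ≤ G' → G' ≤ G) {g : G} :
    IsUnit g ↔ sn G g ≠ 0 :=
  ⟨fun h => (h.map (sn G)).ne_zero, isUnit_of_sn hG hmax⟩

theorem isLocalRing {G : Subring (L × Ω)} (hG : IsGraph G)
    (hmax : ∀ G' : Subring (L × Ω), IsGraph G' → G ≤ G' → G' ≤ G) : IsLocalRing G := by
  haveI : Nontrivial G := ⟨0, 1, fun h => zero_ne_one (α := L) (by
    have := congrArg (fs G) h
    rwa [map_zero, map_one] at this)⟩
  refine IsLocalRing.of_nonunits_add fun a b ha hb => ?_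
  rw [mem_nonunits_iff, isUnit_iff_sn hG hmax, not_not] at ha hb ⊢
  rw [map_add, ha, hb, add_zero]

/-- the subring defined by a graph -/
def dom (G : Subring (L × Ω)) : Subring L := (fs G).range

theorem mem_dom {G : Subring (L × Ω)} {x : L} : x ∈ dom G ↔ ∃ b, (x, b) ∈ G := by
  constructor
  · rintro ⟨⟨⟨a, b⟩, h⟩, (rfl : a = x)⟩
    exact ⟨b, h⟩
  · rintro ⟨b, h⟩
    exact ⟨⟨(x, b), h⟩, rfl⟩

noncomputable def domEquiv {G : Subring (L × Ω)} (hG : IsGraph G) : G ≃+* dom G :=
  RingEquiv.ofBijective (fs G).rangeRestrict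
    ⟨fun a b h => fs_injective hG (congrArg Subtype.val h), (fs G).rangeRestrict_surjective⟩

theorem coe_domEquiv {G : Subring (L × Ω)} (hG : IsGraph G) (g : G) :
    (domEquiv hG g : L) = fs G g := rfl

theorem exists_gen {k : Type*} [Field k] (I : Ideal k[X]) : ∃ h, I = Ideal.span {h} :=
  (IsPrincipalIdealRing.principal I).principal

variable [IsAlgClosed Ω]

/-- a maximal graph is defined on a maximal local ring -/
theorem mem_dom_of_dominates {G : Subring (L × Ω)} (hG : IsGraph G)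
    (hmax : ∀ G' : Subring (L × Ω), IsGraph G' → G ≤ G' → G' ≤ G) (T : Subring L) [IsLocalRing T]
    (hT : dom G ≤ T) (hdom : ∀ s : dom G, IsUnit (Subring.inclusion hT s) → IsUnit s) {x : L}
    (hx : x ∈ T) : x ∈ dom G := by
  haveI := isLocalRing hG hmax
  let ψ : G →+* IsLocalRing.ResidueField T :=
    (IsLocalRing.residue T).comp ((Subring.inclusion hT).comp (domEquiv hG).toRingHom)
  have hψ : ∀ g : G, sn G g = 0 → ψ g = 0 := by
    intro g hg
    have h1 : ¬ IsUnit g := fun h => (isUnit_iff_sn hG hmax).1 h hg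
    have h2 : ¬ IsUnit (Subring.inclusion hT (domEquiv hG g)) := fun h =>
      h1 ((MulEquiv.isUnit_map (domEquiv hG)).1 (hdom _ h))
    exact (IsLocalRing.residue_eq_zero_iff _).2 ((IsLocalRing.mem_maximalIdeal _).2 h2)
  haveI : IsLocalHom (sn G) := ⟨fun g hg => isUnit_of_sn hG hmax hg.ne_zero⟩
  let θ : IsLocalRing.ResidueField G →+* Ω := IsLocalRing.ResidueField.lift (sn G)
  have hθ : ∀ g, θ (IsLocalRing.residue G g) = sn G g := fun g => rfl
  let I : Ideal G[X] := RingHom.ker (eval₂RingHom (fs G) x)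
  let ρ : G[X] →+* (IsLocalRing.ResidueField G)[X] := mapRingHom (IsLocalRing.residue G)
  have hρ : Function.Surjective ρ := map_surjective _ IsLocalRing.residue_surjective
  obtain ⟨h, hh⟩ := exists_gen (I.map ρ)
  have hdeg : h.degree ≠ 0 := by
    intro h0
    have h1 : IsUnit h := isUnit_iff_degree_eq_zero.2 h0
    have h2 : (1 : (IsLocalRing.ResidueField G)[X]) ∈ I.map ρ := by
      rw [hh]
      exact Ideal.mem_span_singleton.2 (h1.dvd)
    obtain ⟨f, hf, hf1⟩ := (Ideal.mem_map_iff_of_surjective ρ hρ).1 h2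
    have hf0 : eval₂ (fs G) x f = 0 := hf
    let xT : T := ⟨x, hx⟩
    have e1 : eval₂ ψ (IsLocalRing.residue T xT) f = 0 := by
      have e2 : eval₂ ((Subring.inclusion hT).comp (domEquiv hG).toRingHom) xT f = 0 := by
        apply Subtype.val_injective
        have := hom_eval₂ f ((Subring.inclusion hT).comp (domEquiv hG).toRingHom) T.subtype xT
        exact this.trans hf0
      have := hom_eval₂ f ((Subring.inclusion hT).comp (domEquiv hG).toRingHom)
        (IsLocalRing.residue T) xT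
      rw [e2, map_zero] at this
      exact this.symm
    have e2 : f.map ψ = 1 := by
      ext n
      have h3 : IsLocalRing.residue G (f.coeff n - (1 : G[X]).coeff n) = 0 := by
        have := congrArg (fun q => q.coeff n) hf1
        simp only [ρ, coe_mapRingHom, coeff_map] at this
        rw [map_sub, this, sub_eq_zero, coeff_one, coeff_one]
        split_ifs <;> simp
      have h4 : sn G (f.coeff n - (1 : G[X]).coeff n) = 0 := by
        rw [← hθ, h3, map_zero]
      have h5 := hψ _ h4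
      rw [map_sub, sub_eq_zero] at h5
      rw [coeff_map, h5, coeff_one, coeff_one]
      split_ifs <;> simp
    rw [← eval_map, e2, eval_one] at e1
    exact one_ne_zero e1
  obtain ⟨y, hy⟩ := IsAlgClosed.exists_eval₂_eq_zero θ h hdeg
  refine mem_dom.2 ⟨y, mem_of_ext hmax fun f hf => ?_⟩
  have h1 : ρ f ∈ I.map ρ := Ideal.mem_map_of_mem ρ hf
  rw [hh] at h1
  obtain ⟨q, hq⟩ := Ideal.mem_span_singleton.1 h1
  have h2 : eval₂ θ y (ρ f) = 0 := by rw [hq, eval₂_mul, hy, zero_mul]
  rwa [show ρ f = f.map (IsLocalRing.residue G) from rfl, eval₂_map] at h2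

end PL

variable {L Ω : Type*} [Field L] [Field Ω]

open PL in
/-- **Extension of places.** -/
theorem exists_place_ext [IsAlgClosed Ω] (R : Subring L) (θ : R →+* Ω) :
    ∃ (V : ValuationSubring L) (π : V →+* Ω), (∀ r : R, (r : L) ∈ V) ∧
      (∀ (r : R) (h : (r : L) ∈ V), π ⟨r, h⟩ = θ r) ∧ ∀ a : V, π a = 0 ↔ ¬ IsUnit a := by
  let G₀ : Subring (L × Ω) := (RingHom.prod R.subtype θ).range
  have hG₀ : IsGraph G₀ := by
    rintro b ⟨r, hr⟩
    have h1 : (r : L) = 0 := congrArg Prod.fst hr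
    have h2 : θ r = b := congrArg Prod.snd hr
    have h3 : r = 0 := Subtype.ext h1
    rw [← h2, h3, map_zero]
  obtain ⟨G, hG₀G, hGmax⟩ := zorn_le_nonempty₀ {G : Subring (L × Ω) | IsGraph G} (by
    intro c hc hchain G hGc
    refine ⟨sSup c, ?_, fun G' hG' => le_sSup hG'⟩
    intro b hb
    obtain ⟨G', hG', hb'⟩ := (Subring.mem_sSup_of_directedOn ⟨G, hGc⟩ hchain.directedOn).1 hb
    exact hc hG' b hb') G₀ hG₀
  have hG : IsGraph G := hGmax.prop
  have hmax : ∀ G' : Subring (L × Ω), IsGraph G' → G ≤ G' → G' ≤ G := fun G' h h' =>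
    hGmax.le_of_ge h h'
  haveI := isLocalRing hG hmax
  haveI : IsLocalRing (dom G) := RingEquiv.isLocalRing (domEquiv hG)
  have hM : IsMax (LocalSubring.mk (dom G)) := by
    intro T hT
    obtain ⟨hle, hloc⟩ := LocalSubring.le_def.1 hT
    have h1 : T.toSubring ≤ dom G := fun x hx =>
      mem_dom_of_dominates hG hmax T.toSubring hle (fun s hs => hloc.map_nonunit s hs) hx
    have h2 : T = LocalSubring.mk (dom G) := LocalSubring.toSubring_injective (le_antisymm h1 hle)
    rw [h2]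
  obtain ⟨V, hV⟩ := LocalSubring.exists_valuationRing_of_isMax hM
  have hVG : ∀ x : L, x ∈ V ↔ x ∈ dom G := by
    intro x
    have h1 : V.toSubring = dom G := congrArg LocalSubring.toSubring hV
    rw [← h1]
    exact Iff.rfl
  let e : V ≃+* dom G :=
    { toFun := fun v => ⟨v, (hVG _).1 v.2⟩
      invFun := fun v => ⟨v, (hVG _).2 v.2⟩
      left_inv := fun v => rfl
      right_inv := fun v => rfl
      map_mul' := fun _ _ => rfl
      map_add' := fun _ _ => rfl }
  let E : V ≃+* G := e.trans (domEquiv hG).symm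
  have hE : ∀ v : V, fs G (E v) = v := by
    intro v
    rw [← coe_domEquiv hG]
    show ((domEquiv hG ((domEquiv hG).symm (e v)) : dom G) : L) = v
    rw [RingEquiv.apply_symm_apply]
    rfl
  have hmem : ∀ r : R, ((r : L), θ r) ∈ G := fun r => hG₀G ⟨r, rfl⟩
  refine ⟨V, (sn G).comp E.toRingHom, fun r => (hVG _).2 (mem_dom.2 ⟨_, hmem r⟩), ?_, ?_⟩
  · intro r h
    have h1 : E ⟨r, h⟩ = ⟨_, hmem r⟩ := fs_injective hG (hE ⟨r, h⟩)
    show sn G (E ⟨r, h⟩) = θ r
    rw [h1]
    rfl
  · intro a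
    show sn G (E a) = 0 ↔ _
    rw [← MulEquiv.isUnit_map E, isUnit_iff_sn hG hmax, not_not]

end Fermat.Agent.AV
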