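import Fermat.Agent.AV.CDivBasic
import Fermat.Agent.AV.Gauss
import Fermat.Agent.AV.PL

set_option autoImplicit false
set_option linter.style.haveILetI false
set_option linter.unusedSectionVars false

/-!
# Places with values in a field, reduction of points along places
-/

universe u

open scoped TensorProduct

namespace Fermat.Agent.AV

namespace KPlace

section Comp

variable {Ω M L κ κ' : Type*} [Field Ω] [Field M] [Field L] [Field κ] [Field κ'] [Algebra Ω M]
  [Algebra M L] [Algebra Ω L] [IsScalarTower Ω M L] [Algebra M κ] [Algebra Ω κ]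
  [IsScalarTower Ω M κ] [Algebra Ω κ']

theorem π_ne_zero_iff {Ω L κ : Type*} [Field Ω] [Field L] [Field κ] [Algebra Ω L] [Algebra Ω κ]
    {p : KPlace Ω L κ} {a : p.V} : p.π a ≠ 0 ↔ IsUnit a := by
  rw [ne_eq, p.ker, not_not]

theorem isUnit_iff {Ω L κ : Type*} [Field Ω] [Field L] [Field κ] [Algebra Ω L] [Algebra Ω κ]
    {p : KPlace Ω L κ} {a : p.V} : IsUnit a ↔ (a : L)⁻¹ ∈ p.V ∧ (a : L) ≠ 0 := by
  constructor
  · rintro ⟨u, hu⟩
    have h1 : (a : L) * ((u⁻¹ : (p.V)ˣ) : p.V) = 1 := by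
      rw [← hu]
      exact congrArg Subtype.val u.mul_inv
    refine ⟨?_, left_ne_zero_of_mul_eq_one h1⟩
    rw [inv_eq_of_mul_eq_one_right h1]
    exact Subtype.mem _
  · rintro ⟨h, h0⟩
    exact IsUnit.of_mul_eq_one ⟨_, h⟩ (Subtype.ext (mul_inv_cancel₀ h0))

theorem π_inv {Ω L κ : Type*} [Field Ω] [Field L] [Field κ] [Algebra Ω L] [Algebra Ω κ]
    {p : KPlace Ω L κ} {x : L} (h : x ∈ p.V) (h' : x⁻¹ ∈ p.V) (h0 : x ≠ 0) :
    p.π ⟨x⁻¹, h'⟩ = (p.π ⟨x, h⟩)⁻¹ := by
  refine (inv_eq_of_mul_eq_one_right ?_).symm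
  rw [← map_mul]
  have : (⟨x, h⟩ * ⟨x⁻¹, h'⟩ : p.V) = 1 := Subtype.ext (mul_inv_cancel₀ h0)
  rw [this, map_one]

/-- the ring of the composition of two places -/
def compR (p : KPlace Ω κ κ') (q : KPlace M L κ) : Subring L :=
  (p.V.toSubring.comap q.π).map q.V.subtype

theorem mem_compR {p : KPlace Ω κ κ'} {q : KPlace M L κ} {x : L} :
    x ∈ compR p q ↔ ∃ h : x ∈ q.V, q.π ⟨x, h⟩ ∈ p.V := by
  constructor
  · rintro ⟨y, hy, rfl⟩
    exact ⟨y.2, hy⟩
  · rintro ⟨h, hy⟩
    exact ⟨⟨x, h⟩, hy, rfl⟩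

/-- the valuation ring of the composition of two places -/
def compV (p : KPlace Ω κ κ') (q : KPlace M L κ) : ValuationSubring L :=
  { compR p q with
    mem_or_inv_mem' := by
      intro x
      show x ∈ compR p q ∨ x⁻¹ ∈ compR p q
      rw [mem_compR, mem_compR]
      by_cases hx : x ∈ q.V
      · by_cases h1 : q.π ⟨x, hx⟩ ∈ p.V
        · exact Or.inl ⟨hx, h1⟩
        · right
          have h2 : q.π ⟨x, hx⟩ ≠ 0 := fun h => h1 (by rw [h]; exact zero_mem _)
          have h3 := isUnit_iff.1 (π_ne_zero_iff.1 h2)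
          refine ⟨h3.1, ?_⟩
          rw [π_inv hx h3.1 h3.2]
          exact (p.V.mem_or_inv_mem _).resolve_left h1
      · right
        have h1 : x⁻¹ ∈ q.V := (q.V.mem_or_inv_mem x).resolve_left hx
        refine ⟨h1, ?_⟩
        have h2 : q.π ⟨x⁻¹, h1⟩ = 0 := by
          rw [q.ker, isUnit_iff]
          rintro ⟨h3, -⟩
          apply hx
          rwa [inv_inv] at h3
        rw [h2]
        exact zero_mem _ }

theorem mem_compV {p : KPlace Ω κ κ'} {q : KPlace M L κ} {x : L} :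
    x ∈ compV p q ↔ ∃ h : x ∈ q.V, q.π ⟨x, h⟩ ∈ p.V := mem_compR

/-- the residue map of the composition of two places -/
def compπ (p : KPlace Ω κ κ') (q : KPlace M L κ) : compV p q →+* κ' :=
  p.π.comp ((q.π.comp (Subring.inclusion (S := (compV p q).toSubring) (T := q.V.toSubring)
    fun _ hx => (mem_compV.1 hx).1)).codRestrict p.V.toSubring fun x => (mem_compV.1 x.2).2)

theorem compπ_apply (p : KPlace Ω κ κ') (q : KPlace M L κ) {x : L} (h : x ∈ q.V)
    (h' : q.π ⟨x, h⟩ ∈ p.V) (hx : x ∈ compV p q) : compπ p q ⟨x, hx⟩ = p.π ⟨q.π ⟨x, h⟩, h'⟩ := rfl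

/-- the composition of two places -/
def comp (p : KPlace Ω κ κ') (q : KPlace M L κ) : KPlace Ω L κ' where
  V := compV p q
  π := compπ p q
  mem a := by
    rw [IsScalarTower.algebraMap_apply Ω M L]
    refine mem_compV.2 ⟨q.mem _, ?_⟩
    rw [q.π_alg, ← IsScalarTower.algebraMap_apply]
    exact p.mem a
  π_alg a := by
    have h1 : algebraMap Ω L a = algebraMap M L (algebraMap Ω M a) :=
      IsScalarTower.algebraMap_apply Ω M L a
    have h2 : algebraMap Ω L a ∈ q.V := by rw [h1]; exact q.mem _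
    have h3 : q.π ⟨algebraMap Ω L a, h2⟩ = algebraMap Ω κ a := by
      have h4 : (⟨algebraMap Ω L a, h2⟩ : q.V) = ⟨algebraMap M L (algebraMap Ω M a), q.mem _⟩ :=
        Subtype.ext h1
      rw [h4, q.π_alg, ← IsScalarTower.algebraMap_apply]
    rw [compπ_apply p q h2 (by rw [h3]; exact p.mem a)]
    refine Eq.trans ?_ (p.π_alg a)
    congr 1
    exact Subtype.ext h3
  surj c := by
    obtain ⟨a, rfl⟩ := p.surj c
    obtain ⟨b, hb⟩ := q.surj a
    have h1 : q.π ⟨b, b.2⟩ ∈ p.V := by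
      show q.π b ∈ p.V
      rw [hb]
      exact a.2
    refine ⟨⟨b, mem_compV.2 ⟨b.2, h1⟩⟩, ?_⟩
    rw [compπ_apply p q b.2 h1]
    congr 1
    exact Subtype.ext hb
  ker a := by
    obtain ⟨x, hx⟩ := a
    obtain ⟨h, h'⟩ := mem_compV.1 hx
    rw [compπ_apply p q h h', p.ker]
    refine not_congr ?_
    constructor
    · intro hu
      obtain ⟨h1, h2⟩ := isUnit_iff.1 hu
      obtain ⟨h3, h4⟩ := isUnit_iff.1 (π_ne_zero_iff.1 h2)
      have h5 : x⁻¹ ∈ compV p q := mem_compV.2 ⟨h3, by rw [π_inv h h3 h4]; exact h1⟩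
      exact IsUnit.of_mul_eq_one ⟨x⁻¹, h5⟩ (Subtype.ext (mul_inv_cancel₀ h4))
    · intro hu
      obtain ⟨⟨y, hy⟩, hxy⟩ := isUnit_iff_exists_inv.1 hu
      obtain ⟨h1, h2⟩ := mem_compV.1 hy
      refine IsUnit.of_mul_eq_one ⟨q.π ⟨y, h1⟩, h2⟩ (Subtype.ext ?_)
      show q.π ⟨x, h⟩ * q.π ⟨y, h1⟩ = 1
      rw [← map_mul]
      have h3 : x * y = 1 := congrArg Subtype.val hxy
      have : (⟨x, h⟩ * ⟨y, h1⟩ : q.V) = 1 := Subtype.ext h3
      rw [this, map_one]

theorem mem_comp {p : KPlace Ω κ κ'} {q : KPlace M L κ} {x : L} (h : x ∈ q.V)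
    (h' : q.π ⟨x, h⟩ ∈ p.V) : x ∈ (p.comp q).V := mem_compV.2 ⟨h, h'⟩

theorem comp_π {p : KPlace Ω κ κ'} {q : KPlace M L κ} {x : L} (h : x ∈ q.V)
    (h' : q.π ⟨x, h⟩ ∈ p.V) (hx : x ∈ (p.comp q).V) :
    (p.comp q).π ⟨x, hx⟩ = p.π ⟨q.π ⟨x, h⟩, h'⟩ := rfl

end Comp

section Val

variable {Ω L κ : Type u} [Field Ω] [Field L] [Field κ] [Algebra Ω L] [Algebra Ω κ]
  (K : Type u) [Field K] [Algebra K Ω] [Algebra K L] [IsScalarTower K Ω L] [Algebra K κ]
  [IsScalarTower K Ω κ] (p : KPlace Ω L κ)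

/-- the valuation ring of a place -/
def kval : KVal K L where
  toValuationSubring := p.V
  algebraMap_mem' a := by
    rw [IsScalarTower.algebraMap_apply K Ω L]
    exact p.mem _

theorem mem_kval {x : L} : x ∈ (p.kval K).toValuationSubring ↔ x ∈ p.V := Iff.rfl

/-- the residue map of a place -/
def res : (p.kval K).R →ₐ[K] κ where
  toFun x := p.π x
  map_one' := map_one p.π
  map_mul' := map_mul p.π
  map_zero' := map_zero p.π
  map_add' := map_add p.π
  commutes' a := by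
    have h1 : p.π ⟨algebraMap Ω L (algebraMap K Ω a), p.mem _⟩ =
        algebraMap K κ a := by
      rw [p.π_alg, ← IsScalarTower.algebraMap_apply]
    refine Eq.trans ?_ h1
    congr 1
    exact Subtype.ext (IsScalarTower.algebraMap_apply K Ω L a)

theorem res_apply (x : (p.kval K).R) : p.res K x = p.π x := rfl

theorem isUnit_of_res (x : (p.kval K).R) (h : IsUnit (p.res K x)) : IsUnit x :=
  π_ne_zero_iff.1 h.ne_zero

end Val

end KPlace

namespace GrpVar

variable {K : Type u} [Field K] (V : GrpVar K)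

variable {Ω L κ : Type u} [Field Ω] [Field L] [Field κ] [Algebra Ω L] [Algebra Ω κ]
  [Algebra K Ω] [Algebra K L] [IsScalarTower K Ω L] [Algebra K κ] [IsScalarTower K Ω κ]
  (p : KPlace Ω L κ)

/-- the reduction of points along a place -/
noncomputable def redP : V.pt L →+ V.pt κ := V.red (p.kval K) (p.res K)

theorem redP_def : V.redP p = V.red (p.kval K) (p.res K) := rfl

theorem center_redP (P : V.pt L) : V.center (V.redP p P) = V.ctr (p.kval K) P :=
  V.center_red (p.kval K) (p.res K) (p.isUnit_of_res K) P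

/-- constant points -/
theorem redP_const (b : V.pt Ω) : V.redP p (V.map (IsScalarTower.toAlgHom K Ω L) b) =
    V.map (IsScalarTower.toAlgHom K Ω κ) b := by
  let g : Ω →ₐ[K] (p.kval K).R :=
    { toFun := fun a => ⟨algebraMap Ω L a, p.mem a⟩
      map_one' := Subtype.ext (map_one _)
      map_mul' := fun a b => Subtype.ext (map_mul _ _ _)
      map_zero' := Subtype.ext (map_zero _)
      map_add' := fun a b => Subtype.ext (map_add _ _ _)
      commutes' := fun a => Subtype.ext (IsScalarTower.algebraMap_apply K Ω L a).symm }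
  have h1 : V.lift (p.kval K) (V.map (IsScalarTower.toAlgHom K Ω L) b) = V.map g b := by
    rw [V.lift_eq_iff, ← V.map_comp]
    rfl
  have h2 : (p.res K).comp g = IsScalarTower.toAlgHom K Ω κ := AlgHom.ext fun a => p.π_alg a
  rw [redP, red_apply, h1, ← V.map_comp, h2]

/-- criterion for the reduction of a point -/
theorem redP_eq {P : V.pt L} {b : V.pt κ} (hle : V.loc (V.center b) ≤ V.loc (V.center P))
    (h : ∀ c ∈ V.loc (V.center b), ∃ hc : V.e P c ∈ p.V, p.π ⟨V.e P c, hc⟩ = V.e b c) :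
    V.redP p P = b := by
  let φ : V.loc (V.center b) →ₐ[K] (p.kval K).R :=
    { toFun := fun c => ⟨V.e P c, (h c c.2).1⟩
      map_one' := Subtype.ext (V.e_one P)
      map_mul' := fun a b => Subtype.ext (V.e_mul P (hle a.2) (hle b.2))
      map_zero' := Subtype.ext (V.e_zero P)
      map_add' := fun a b => Subtype.ext (V.e_add P (hle a.2) (hle b.2))
      commutes' := fun a => Subtype.ext (V.e_algebraMap P a) }
  have hφ : ∀ c, p.res K (φ c) = V.e b c := fun c => (h c c.2).2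
  obtain ⟨Q, hQ, hev⟩ := V.exists_pt (V.center b) φ (fun c hc => by
    have h1 : IsUnit (V.e b c) := by
      rw [← hφ]
      exact hc.map _
    exact V.unitAt_iff.1 (V.unitAt_of_isUnit_e b c.2 h1))
  have h1 : V.lift (p.kval K) P = Q := by
    rw [V.lift_eq_iff]
    refine V.ext_chart (x := V.center b) ?_ ((V.chart_le _).trans hle) fun c hc => ?_
    · refine le_trans ?_ (V.loc_le (p.kval K).incl Q)
      rw [hQ]
      exact V.chart_le _
    · have hc' : c ∈ V.loc (V.center Q) := by rw [hQ]; exact V.chart_le _ hc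
      rw [V.e_map (p.kval K).incl Q hc', V.e_eq Q hc', hev c hc' (V.chart_le _ hc)]
      rfl
  rw [redP, red_apply, h1]
  have h2 : V.center (V.map (p.res K) Q) = V.center b := by
    rw [V.center_map _ (p.isUnit_of_res K), hQ]
  refine V.ext_e h2 fun c hc => ?_
  rw [h2] at hc
  have hc' : c ∈ V.loc (V.center Q) := by rw [hQ]; exact hc
  rw [V.e_map _ Q hc', V.e_eq Q hc', hev c hc' hc]
  exact hφ ⟨c, hc⟩

end GrpVar

end Fermat.Agent.AV
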