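import Fermat.Agent.AV.Const
import Fermat.Agent.AV.KPl

/-!
# Specialisation of the divisor of a point on a constant curve
-/

set_option autoImplicit false
set_option linter.style.haveILetI false
set_option linter.unusedSectionVars false

universe u

open AlgebraicCurve

namespace Fermat.Agent.AV

open Fermat.Agent.BCh Fermat.Agent.FF Fermat.Agent.Red

/-! ### Functoriality of reductions -/

namespace GrpVar

variable {K : Type u} [Field K] (V : GrpVar K) {E E' κ κ' : Type u} [Field E] [Algebra K E]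
  [Field E'] [Algebra K E'] [Field κ] [Algebra K κ] [Field κ'] [Algebra K κ']

theorem lift_map_of {O : KVal K E} {O' : KVal K E'} (g : E →ₐ[K] E') (j : O.R →ₐ[K] O'.R)
    (hj : ∀ b : O.R, ((j b : O'.R) : E') = g b) (P : V.pt E) :
    V.lift O' (V.map g P) = V.map j (V.lift O P) := by
  rw [V.lift_eq_iff, ← V.map_comp]
  have h1 : O'.incl.comp j = g.comp O.incl := by
    ext b
    exact hj b
  rw [h1, V.map_comp, V.map_lift]

theorem red_map_of {O : KVal K E} {O' : KVal K E'} {π : O.R →ₐ[K] κ} {π' : O'.R →ₐ[K] κ'}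
    (g : E →ₐ[K] E') (h : κ →ₐ[K] κ') (hj : ∀ b : O.R, ∃ h' : g b ∈ O'.toValuationSubring,
      π' ⟨g b, h'⟩ = h (π b)) (P : V.pt E) :
    V.red O' π' (V.map g P) = V.map h (V.red O π P) := by
  let j : O.R →ₐ[K] O'.R :=
    { toFun := fun b => ⟨g b, (hj b).1⟩
      map_one' := Subtype.ext (map_one g)
      map_mul' := fun _ _ => Subtype.ext (map_mul g _ _)
      map_zero' := Subtype.ext (map_zero g)
      map_add' := fun _ _ => Subtype.ext (map_add g _ _)
      commutes' := fun a => Subtype.ext (g.commutes a) }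
  rw [V.red_apply, V.red_apply, V.lift_map_of g j (fun _ => rfl), ← V.map_comp, ← V.map_comp]
  congr 1
  congr 1
  ext b
  exact (hj b).2

theorem red_map_const {O' : KVal K E'} {π' : O'.R →ₐ[K] κ'} (g : E →ₐ[K] E') (h : E →ₐ[K] κ')
    (hj : ∀ b : E, ∃ h' : g b ∈ O'.toValuationSubring, π' ⟨g b, h'⟩ = h b) (P : V.pt E) :
    V.red O' π' (V.map g P) = V.map h P := by
  let j : E →ₐ[K] O'.R :=
    { toFun := fun b => ⟨g b, (hj b).1⟩
      map_one' := Subtype.ext (map_one g)
      map_mul' := fun _ _ => Subtype.ext (map_mul g _ _)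
      map_zero' := Subtype.ext (map_zero g)
      map_add' := fun _ _ => Subtype.ext (map_add g _ _)
      commutes' := fun a => Subtype.ext (g.commutes a) }
  have h1 : V.lift O' (V.map g P) = V.map j P := by
    rw [V.lift_eq_iff, ← V.map_comp]
    congr 1
  rw [V.red_apply, h1, ← V.map_comp]
  congr 1
  congr 1
  ext b
  exact (hj b).2

theorem ctr_map_of {O : KVal K E} {O' : KVal K E'} (g : E →ₐ[K] E')
    (hj : ∀ b : O.R, g b ∈ O'.toValuationSubring)
    (hl : ∀ b : O.R, (g b)⁻¹ ∈ O'.toValuationSubring → (b : E)⁻¹ ∈ O.toValuationSubring)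
    (P : V.pt E) : V.ctr O' (V.map g P) = V.ctr O P := by
  let j : O.R →ₐ[K] O'.R :=
    { toFun := fun b => ⟨g b, hj b⟩
      map_one' := Subtype.ext (map_one g)
      map_mul' := fun _ _ => Subtype.ext (map_mul g _ _)
      map_zero' := Subtype.ext (map_zero g)
      map_add' := fun _ _ => Subtype.ext (map_add g _ _)
      commutes' := fun a => Subtype.ext (g.commutes a) }
  rw [ctr, V.lift_map_of g j (fun _ => rfl), V.center_map j]
  · rfl
  · intro b hb
    rw [KVal.isUnit_iff] at hb ⊢
    obtain ⟨h1, h2⟩ := hb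
    refine ⟨fun h0 => h1 ?_, hl b h2⟩
    show g (b : E) = 0
    rw [h0, map_zero]

theorem ctr_map_const {O' : KVal K E'} (g : E →ₐ[K] E') (hj : ∀ b : E, g b ∈ O'.toValuationSubring)
    (P : V.pt E) : V.ctr O' (V.map g P) = V.center P := by
  let j : E →ₐ[K] O'.R :=
    { toFun := fun b => ⟨g b, hj b⟩
      map_one' := Subtype.ext (map_one g)
      map_mul' := fun _ _ => Subtype.ext (map_mul g _ _)
      map_zero' := Subtype.ext (map_zero g)
      map_add' := fun _ _ => Subtype.ext (map_add g _ _)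
      commutes' := fun a => Subtype.ext (g.commutes a) }
  have h1 : V.lift O' (V.map g P) = V.map j P := by
    rw [V.lift_eq_iff, ← V.map_comp]
    congr 1
  rw [ctr, h1, V.center_map j]
  intro b hb
  refine isUnit_iff_ne_zero.2 fun h0 => hb.ne_zero ?_
  rw [h0, map_zero]

end GrpVar

section Setup

variable (K : Type u) [Field K] {Ω F L B : Type u} [Field Ω] [Field F] [Field L] [Field B]
  [Algebra K Ω] [Algebra K F] [Algebra Ω F] [IsScalarTower K Ω F] [Algebra K L] [Algebra Ω L]
  [IsScalarTower K Ω L] [Algebra K B] [Algebra L B] [IsScalarTower K L B]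
  (d : Ext Ω F L B)

/-- the embedding `F → B` over `K` -/
def ιF : F →ₐ[K] B where
  toRingHom := d.ι
  commutes' a := by
    show d.ι (algebraMap K F a) = algebraMap K B a
    rw [IsScalarTower.algebraMap_apply K Ω F, d.ι_alg, ← IsScalarTower.algebraMap_apply K Ω L,
      ← IsScalarTower.algebraMap_apply K L B]

theorem ιF_apply (f : F) : ιF K d f = d.ι f := rfl

variable [IsAlgClosed Ω] [IsFnField Ω F] [IsAlgClosed L] [IsFnField L B] (p : KPlace Ω L Ω)

/-- the Gauss valuation ring -/
noncomputable def gval : KVal K B where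
  toValuationSubring := (cred d p).O
  algebraMap_mem' a := by
    rw [IsScalarTower.algebraMap_apply K L B, (cred d p).algebraMap_mem_iff,
      IsScalarTower.algebraMap_apply K Ω L]
    exact p.mem _

/-- its residue map -/
noncomputable def gres : (gval K d p).R →ₐ[K] F where
  toRingHom := (cred d p).red
  commutes' a := by
    have h1 := (cred_ι d p (algebraMap K F a))
    obtain ⟨h2, h3⟩ := h1
    rw [← h3]
    show (cred d p).red _ = (cred d p).red _
    congr 1
    exact Subtype.ext ((ιF K d).commutes a).symm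

theorem gres_iff {z : B} {y : F} : (cred d p).IsRed z y ↔
    ∃ h : z ∈ (gval K d p).toValuationSubring, gres K d p ⟨z, h⟩ = y := Iff.rfl

theorem gres_local (a : (gval K d p).R) (h : IsUnit (gres K d p a)) : IsUnit a := by
  by_contra hu
  have := ((cred d p).red_eq_zero_iff a).2 hu
  exact h.ne_zero this

/-- evaluation at a place -/
noncomputable def evP {E : Type u} [Field E] [Algebra K E] [Algebra Ω E] [IsScalarTower K Ω E]
    [IsFnField Ω E] (x : Place Ω E) : (KVal.ofPlace (K := K) x).R →ₐ[K] Ω where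
  toRingHom := ev x
  commutes' a := by
    obtain ⟨h1, h2⟩ := hasVal_algebraMap x (algebraMap K Ω a)
    rw [← h2]
    show ev x _ = ev x _
    congr 1
    exact Subtype.ext (IsScalarTower.algebraMap_apply K Ω E a)

theorem evP_local {E : Type u} [Field E] [Algebra K E] [Algebra Ω E] [IsScalarTower K Ω E]
    [IsFnField Ω E] (x : Place Ω E) (a : (KVal.ofPlace (K := K) x).R)
    (h : IsUnit (evP K x a)) : IsUnit a := by
  have h1 : HasVal x (a : E) (ev x a) := ⟨a.2, rfl⟩
  refine (FF.isUnit_iff x a).2 ⟨fun h0 => h.ne_zero ?_, h1.ord_eq_zero h.ne_zero⟩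
  have h2 : a = 0 := Subtype.ext h0
  rw [h2, map_zero]

/-- the composite of a place of `B` with the place of the constants -/
def cval (x : Place L B) : KVal K B where
  toValuationSubring :=
    { carrier := {b | ∃ c : p.V, HasVal x b c}
      mul_mem' := by
        rintro a b ⟨c, hc⟩ ⟨e, he⟩
        exact ⟨c * e, hc.mul he⟩
      one_mem' := ⟨1, hasVal_one x⟩
      add_mem' := by
        rintro a b ⟨c, hc⟩ ⟨e, he⟩
        exact ⟨c + e, hc.add he⟩
      zero_mem' := ⟨0, hasVal_zero x⟩
      neg_mem' := by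
        rintro a ⟨c, hc⟩
        exact ⟨-c, hc.neg⟩
      mem_or_inv_mem' := by
        intro b
        by_cases hb : b ∈ x.toValuationSubring
        · have h1 : HasVal x b (ev x ⟨b, hb⟩) := ⟨hb, rfl⟩
          rcases p.V.mem_or_inv_mem (ev x ⟨b, hb⟩) with h | h
          · exact Or.inl ⟨⟨_, h⟩, h1⟩
          · by_cases h0 : ev x ⟨b, hb⟩ = 0
            · rw [h0] at h1
              exact Or.inl ⟨0, h1⟩
            · exact Or.inr ⟨⟨_, h⟩, h1.inv h0⟩
        · right
          have hb0 : b ≠ 0 := by rintro rfl; exact hb (zero_mem _)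
          refine ⟨0, ?_⟩
          show HasVal x b⁻¹ 0
          rw [hasVal_zero_iff]
          right
          apply place_ord_pos _ (inv_ne_zero hb0)
          rwa [inv_inv] }
  algebraMap_mem' a := ⟨⟨algebraMap Ω L (algebraMap K Ω a), p.mem _⟩, by
    rw [IsScalarTower.algebraMap_apply K L B, IsScalarTower.algebraMap_apply K Ω L]
    exact hasVal_algebraMap x _⟩

theorem mem_cval {x : Place L B} {b : B} : b ∈ (cval K p x).toValuationSubring ↔
    ∃ c : p.V, HasVal x b c := Iff.rfl

theorem cval_le (x : Place L B) :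
    (cval K p x).toValuationSubring ≤ (KVal.ofPlace (K := K) x).toValuationSubring := by
  rintro b ⟨c, hc⟩
  exact hc.mem

/-- the residue map of the composite -/
noncomputable def cresFun {x : Place L B} (b : (cval K p x).R) : Ω := p.π b.2.choose

theorem cresFun_eq {x : Place L B} (b : (cval K p x).R) {c : p.V} (h : HasVal x (b : B) c) :
    cresFun K p b = p.π c := by
  have h1 : b.2.choose = c := Subtype.ext (b.2.choose_spec.unique h)
  rw [cresFun, h1]

/-- the residue map of the composite -/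
noncomputable def cres (x : Place L B) : (cval K p x).R →ₐ[K] Ω where
  toFun := cresFun K p
  map_one' := by rw [cresFun_eq K p 1 (c := 1) (hasVal_one x), map_one]
  map_mul' := by
    rintro ⟨a, c, hc⟩ ⟨b, e, he⟩
    rw [cresFun_eq K p ⟨a, c, hc⟩ hc, cresFun_eq K p ⟨b, e, he⟩ he,
      cresFun_eq K p _ (c := c * e) (hc.mul he), map_mul]
  map_zero' := by rw [cresFun_eq K p 0 (c := 0) (hasVal_zero x), map_zero]
  map_add' := by
    rintro ⟨a, c, hc⟩ ⟨b, e, he⟩
    rw [cresFun_eq K p ⟨a, c, hc⟩ hc, cresFun_eq K p ⟨b, e, he⟩ he,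
      cresFun_eq K p _ (c := c + e) (hc.add he), map_add]
  commutes' a := by
    rw [cresFun_eq K p _ (c := ⟨algebraMap Ω L (algebraMap K Ω a), p.mem _⟩), p.π_alg]
    · rfl
    · show HasVal x (algebraMap K B a) (algebraMap Ω L (algebraMap K Ω a))
      rw [IsScalarTower.algebraMap_apply K L B, IsScalarTower.algebraMap_apply K Ω L]
      exact hasVal_algebraMap x _

theorem cres_eq {x : Place L B} {b : B} {c : p.V} (h : HasVal x b c) :
    cres K p x ⟨b, c, h⟩ = p.π c := cresFun_eq K p ⟨b, c, h⟩ h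

theorem cres_local (x : Place L B) (a : (cval K p x).R) (h : IsUnit (cres K p x a)) :
    IsUnit a := by
  obtain ⟨a, c, hc⟩ := a
  have h1 : cres K p x ⟨a, c, hc⟩ = p.π c := cres_eq K p hc
  rw [h1] at h
  have hcu : IsUnit c := by
    by_contra hu
    exact h.ne_zero ((p.ker c).2 hu)
  obtain ⟨e, he⟩ := hcu.exists_right_inv
  have he' : (c : L) * (e : L) = 1 := congrArg Subtype.val he
  have hc0 : (c : L) ≠ 0 := left_ne_zero_of_mul_eq_one he'
  have h2 := hc.inv hc0
  rw [inv_eq_of_mul_eq_one_right he'] at h2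
  have ha0 : a ≠ 0 := by
    rintro rfl
    exact hc0 (hc.unique (hasVal_zero x))
  exact IsUnit.of_mul_eq_one ⟨a⁻¹, e, h2⟩ (Subtype.ext (mul_inv_cancel₀ ha0))

end Setup

section Main

variable {K : Type u} [Field K] (V : GrpVar K) {Ω F L B : Type u} [Field Ω] [Field F] [Field L]
  [Field B] [Algebra K Ω] [Algebra K F] [Algebra Ω F] [IsScalarTower K Ω F] [Algebra K L]
  [Algebra Ω L] [IsScalarTower K Ω L] [Algebra K B] [Algebra L B] [IsScalarTower K L B]
  (d : Ext Ω F L B)
  [IsAlgClosed Ω] [IsFnField Ω F] [IsAlgClosed L] [IsFnField L B] (p : KPlace Ω L Ω)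

/-- the point `P + a` on the constant extension -/
noncomputable abbrev transl (P : V.pt F) (a : V.pt L) : V.pt B :=
  V.map (ιF K d) P + V.map (IsScalarTower.toAlgHom K L B) a

/-- reduction along the Gauss valuation -/
theorem red_gval (P : V.pt F) (a : V.pt L) :
    V.red (gval K d p) (gres K d p) (transl V d P a) =
      P + V.map (IsScalarTower.toAlgHom K Ω F) (V.redP p a) := by
  rw [map_add]
  congr 1
  · rw [V.red_map_const (O' := gval K d p) (π' := gres K d p) (ιF K d) (AlgHom.id K F)
      (fun f => cred_ι d p f), V.map_id]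
  · refine V.red_map_of (O := p.kval K) (π := p.res K) (IsScalarTower.toAlgHom K L B)
      (IsScalarTower.toAlgHom K Ω F) (fun b => ?_) a
    exact (cred d p).isRed_coe b

/-- reduction along the composite of a place and of the place of the constants -/
theorem red_cval (x : Place L B) (P : V.pt F) (a : V.pt L) :
    V.red (cval K p x) (cres K p x) (transl V d P a) =
      V.red (KVal.ofPlace (sp d p x)) (evP K (sp d p x)) P + V.redP p a := by
  rw [map_add]
  congr 1
  · rw [V.red_map_of (O := KVal.ofPlace (sp d p x)) (π := evP K (sp d p x)) (ιF K d)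
      (AlgHom.id K Ω) (fun b => ?_), V.map_id]
    obtain ⟨c, hc, hc'⟩ := val_sp (⟨b.2, rfl⟩ : HasVal (sp d p x) (b : F) _)
    exact ⟨⟨c, hc⟩, (cres_eq K p hc).trans hc'⟩
  · have h2 := V.red_map_of (O := p.kval K) (π := p.res K) (O' := cval K p x)
      (π' := cres K p x) (IsScalarTower.toAlgHom K L B) (AlgHom.id K Ω) (fun b =>
        ⟨⟨b, hasVal_algebraMap x (b : L)⟩, cres_eq K p (hasVal_algebraMap x (b : L))⟩) a
    rw [h2, V.map_id, V.redP_def]

theorem red_const (Q : Place Ω F) (b : V.pt Ω) :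
    V.red (KVal.ofPlace (K := K) Q) (evP K Q) (V.map (IsScalarTower.toAlgHom K Ω F) b) = b := by
  rw [V.red_map_const (IsScalarTower.toAlgHom K Ω F) (AlgHom.id K Ω) (fun c => ?_), V.map_id]
  obtain ⟨h1, h2⟩ := hasVal_algebraMap Q c
  exact ⟨h1, h2⟩

/-- the center of the reduction is a specialisation of the center -/
theorem center_le (x : Place L B) (P : V.pt F) (a : V.pt L) :
    V.loc (V.ctr (KVal.ofPlace (sp d p x))
      (P + V.map (IsScalarTower.toAlgHom K Ω F) (V.redP p a))) ≤
      V.loc (V.ctr (KVal.ofPlace x) (transl V d P a)) := by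
  refine le_trans (le_of_eq ?_) (V.loc_ctr_mono (cval_le K p x) _)
  rw [← V.center_red _ (evP K (sp d p x)) (evP_local K _),
    ← V.center_red _ (cres K p x) (cres_local K p x), red_cval, map_add, red_const]

variable {V}

/-- divisors which agree on a fibre -/
theorem spDiv_congr {D E : Divisor L B} {Q : Place Ω F} (h : ∀ x, sp d p x = Q → D x = E x) :
    spDiv d p D Q = spDiv d p E Q := by
  classical
  rw [← sub_eq_zero]
  have h1 : spDiv d p D Q - spDiv d p E Q = spDiv d p (D - E) Q := by
    rw [map_sub]; rfl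
  rw [h1]
  show Finsupp.mapDomain (sp d p) (D - E) Q = 0
  rw [mapDomain_apply_sum]
  refine Finset.sum_eq_zero fun x hx => ?_
  rw [Finset.mem_filter] at hx
  have := h x hx.2
  simp [this]

/-- **specialisation of the divisor of a point** -/
theorem spDiv_cdiv (D : CDiv V) (P : V.pt F) (a : V.pt L) :
    spDiv d p (D.cdiv (transl V d P a) -
      RR.divOf (K := L) (D.lat (gval K d p) (transl V d P a))) =
    D.cdiv (P + V.map (IsScalarTower.toAlgHom K Ω F) (V.redP p a)) := by
  ext Q
  set ψ := transl V d P a with hψ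
  set φ := P + V.map (IsScalarTower.toAlgHom K Ω F) (V.redP p a) with hφ
  have hred : V.red (gval K d p) (gres K d p) ψ = φ := red_gval V d p P a
  set y := V.ctr (KVal.ofPlace (K := K) Q) φ with hy
  have hctr : V.center φ = V.ctr (gval K d p) ψ := by
    rw [← hred, V.center_red _ _ (gres_local K d p)]
  have hle : V.loc y ≤ V.loc (V.ctr (gval K d p) ψ) := by
    rw [← hctr]; exact V.loc_ctr_le _ _
  have hle' : V.loc y ≤ V.loc (V.center ψ) := hle.trans (V.loc_ctr_le _ _)
  have h1 := CDiv.at_red (D := D) (gres_local K d p) ψ hle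
  have hR : (cred d p).IsRed (D.at' ψ y / D.lat (gval K d p) ψ) (D.at' φ y) := by
    refine (gres_iff K d p).2 ⟨(CDiv.at_div_lat_mem' _ ψ hle).1, ?_⟩
    rw [← h1, hred]
  have hne : D.at' φ y ≠ 0 := CDiv.at_ne_zero (V.loc_ctr_le _ _)
  have h2 : spDiv d p (RR.divOf (K := L) (D.at' ψ y / D.lat (gval K d p) ψ)) Q =
      Q.ord (D.at' φ y) := by
    rw [spDiv_divOf hR hne]; rfl
  have h3 : (D.cdiv φ : Divisor Ω F) Q = Q.ord (D.at' φ y) := rfl
  rw [h3, ← h2]
  apply spDiv_congr
  intro x hx
  have hle2 : V.loc y ≤ V.loc (V.ctr (KVal.ofPlace x) ψ) := by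
    rw [hy, ← hx]
    exact center_le V d p x P a
  rw [RR.divOf_apply, CDiv.ord_div x (CDiv.at_ne_zero hle') (CDiv.lat_ne_zero _ _)]
  show D.ordAt ψ x - _ = _
  rw [CDiv.ordAt_eq' ψ x hle2]
  rfl

/-- **(H)** -/
theorem sp_cdiv (D : CDiv V) (P : V.pt F) (a : V.pt L) : ∃ g : F, g ≠ 0 ∧
    spDiv d p (D.cdiv (transl V d P a)) =
      D.cdiv (P + V.map (IsScalarTower.toAlgHom K Ω F) (V.redP p a)) + RR.divOf (K := Ω) g := by
  obtain ⟨-, y, -, hy, -, h1⟩ := exists_spDiv_divOf (d := d) (p := p)
    (CDiv.lat_ne_zero (D := D) (gval K d p) (transl V d P a))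
  refine ⟨y, hy, ?_⟩
  rw [← spDiv_cdiv d p D P a, map_sub, ← h1, sub_add_cancel]

/-- the height of a translate is the height of the reduction -/
theorem height_transl (D : CDiv V) (P : V.pt F) (a : V.pt L) :
    D.height L (transl V d P a) =
      D.height Ω (P + V.map (IsScalarTower.toAlgHom K Ω F) (V.redP p a)) := by
  obtain ⟨g, -, h⟩ := sp_cdiv d p D P a
  have h1 := congrArg Divisor.degree h
  rw [degree_spDiv, map_add, RR.degree_divOf, add_zero] at h1
  exact h1

include d in
/-- two places of the constants give the same height -/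
theorem height_eq_height (p p' : KPlace Ω L Ω) (D : CDiv V) (P : V.pt F) (a : V.pt L) :
    D.height Ω (P + V.map (IsScalarTower.toAlgHom K Ω F) (V.redP p a)) =
      D.height Ω (P + V.map (IsScalarTower.toAlgHom K Ω F) (V.redP p' a)) := by
  rw [← height_transl d p, ← height_transl d p']

/-! ### The divisor of a constant point -/

omit p in
theorem cdiv_map_ι (D : CDiv V) (P : V.pt F) :
    D.cdiv (V.map (ιF K d) P) = liftDiv d (D.cdiv P : Divisor Ω F) := by
  apply liftDiv_ext
  · intro Q
    have h1 : V.ctr (KVal.ofPlace (con d Q)) (V.map (ιF K d) P) = V.ctr (KVal.ofPlace Q) P := by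
      refine V.ctr_map_of (ιF K d) (fun b => ?_) (fun b hb => ?_) P
      · apply mem_of_ord_nonneg
        rw [ιF_apply, ord_con]
        exact ord_nonneg_of_mem Q b.2
      · apply mem_of_ord_nonneg
        have h2 := ord_nonneg_of_mem (con d Q) hb
        rwa [ιF_apply, ← map_inv₀, ord_con] at h2
    show D.ordAt (V.map (ιF K d) P) (con d Q) = D.ordAt P Q
    rw [CDiv.ordAt_eq' (V.map (ιF K d) P) (con d Q) (x := V.ctr (KVal.ofPlace Q) P) (by rw [h1]),
      CDiv.at_map (ιF K d) P (V.loc_ctr_le _ _), ιF_apply, ord_con]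
    rfl
  · intro σ
    have h1 : V.ctr (KVal.ofPlace (pl d σ)) (V.map (ιF K d) P) = V.center P :=
      V.ctr_map_const (ιF K d) (fun b => (hasVal_pl σ b).mem) P
    show D.ordAt (V.map (ιF K d) P) (pl d σ) = 0
    rw [CDiv.ordAt_eq' (V.map (ιF K d) P) (pl d σ) (x := V.center P) (by rw [h1]),
      CDiv.at_map (ιF K d) P le_rfl, CDiv.at_center, map_one, Place.ord_one]

end Main

end Fermat.Agent.AV
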