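import Fermat.Agent.AV.SQ
import Fermat.Agent.AV.Spec

set_option autoImplicit false
set_option linter.style.haveILetI false
set_option linter.unusedSectionVars false

/-!
# The theorem of the square on curves
-/

universe u

open AlgebraicCurve Fermat.Agent.FF Fermat.Agent.Red Fermat.Agent.BCh

namespace Fermat.Agent.AV

variable {K : Type u} [Field K] {V : GrpVar K} {Ω F : Type u} [Field Ω] [Field F]
  [Algebra Ω F] [Algebra K Ω] [Algebra K F] [IsScalarTower K Ω F] [IsAlgClosed Ω] [IsFnField Ω F]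

theorem spStmt {U B : Type u} [Field U] [Field B] [Algebra Ω U] [Algebra U B] [Algebra K U]
    [Algebra K B] [IsScalarTower K Ω U] [IsScalarTower K U B] (d : Ext Ω F U B) [IsAlgClosed U]
    [IsFnField U B] (D : CDiv V) (P : V.pt F) : SpStmt d D P (V.map (ιF K d) P) := by
  intro p a
  obtain ⟨g, hg, h⟩ := sp_cdiv d p D P a
  exact ⟨g, hg, sub_eq_iff_eq_add'.2 h⟩

/-- **The theorem of the square on curves.** -/
theorem sqDiv_mem_prin [IsAlgClosed K] (D : CDiv V) (P : V.pt F) (b c : V.pt Ω) :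
    sqDiv D P b c ∈ prin Ω F := by
  obtain ⟨U₁, _, _, _, _, _, η, hη⟩ := V.exists_generic Ω
  obtain ⟨U, _, _, _, _, _, ζ, hζ⟩ := V.exists_generic U₁
  letI : Algebra Ω U := ((algebraMap U₁ U).comp (algebraMap Ω U₁)).toAlgebra
  haveI : IsScalarTower Ω U₁ U := IsScalarTower.of_algebraMap_eq fun _ => rfl
  haveI : IsScalarTower K Ω U := IsScalarTower.of_algebraMap_eq fun a => by
    rw [IsScalarTower.algebraMap_apply K U₁ U, IsScalarTower.algebraMap_apply K Ω U₁]
    rfl
  obtain ⟨B, _, _, _, _, ⟨d⟩⟩ := exists_ext' K Ω F U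
  haveI : IsFnField U B := isFnField_ext d
  exact sq_core hη hζ (spStmt d D P) b c

/-- **The theorem of the square on curves**, explicit form -/
theorem sq [IsAlgClosed K] (D : CDiv V) (P : V.pt F) (b c : V.pt Ω) : ∃ f : F, f ≠ 0 ∧
    D.cdiv (P + V.map (IsScalarTower.toAlgHom K Ω F) b + V.map (IsScalarTower.toAlgHom K Ω F) c) -
      D.cdiv (P + V.map (IsScalarTower.toAlgHom K Ω F) b) -
      D.cdiv (P + V.map (IsScalarTower.toAlgHom K Ω F) c) + D.cdiv P = RR.divOf (K := Ω) f := by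
  obtain ⟨f, hf, h⟩ := sqDiv_mem_prin D P b c
  refine ⟨f, hf, ?_⟩
  rw [← h, sqDiv, cst_add, ← add_assoc]
  rfl

/-- **Translation invariance of heights.** -/
theorem height_add_const [IsAlgClosed K] (D : CDiv V) (P : V.pt F) (b : V.pt Ω) :
    D.height Ω (P + V.map (IsScalarTower.toAlgHom K Ω F) b) = D.height Ω P := by
  obtain ⟨U, _, _, _, _, _, ζ, hζ⟩ := V.exists_generic Ω
  obtain ⟨B, _, _, _, _, ⟨d⟩⟩ := exists_ext' K Ω F U
  haveI : IsFnField U B := isFnField_ext d
  obtain ⟨p, hp⟩ := GrpVar.exists_redP_eq hζ b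
  obtain ⟨q, hq⟩ := GrpVar.exists_redP_eq hζ (0 : V.pt Ω)
  have h := height_eq_height d p q D P (V.map ζ V.genPt)
  rw [hp, hq, map_zero, add_zero] at h
  exact h

end Fermat.Agent.AV
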