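import Fermat.Agent.AV.CubeSp
import Fermat.Agent.AV.SQFin

/-!
# The theorem of the cube for heights: the symmetric height is quadratic
-/

set_option autoImplicit false
set_option linter.style.haveILetI false

universe u

open AlgebraicCurve

namespace Fermat.Agent.AV

open Fermat.Agent.FF Fermat.Agent.Red Fermat.Agent.BCh

theorem cubeSqStmt {K : Type u} [Field K] [IsAlgClosed K] {V : GrpVar K} (D : CDiv V) :
    CubeSqStmt D := by
  intro Ω E _ _ _ _ _ _ _ _ P b c
  obtain ⟨f, hf, h⟩ := sq D P b c
  refine ⟨f, hf, fun v => ?_⟩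
  have h1 := DFunLike.congr_fun h v
  rw [RR.divOf_apply] at h1
  rw [← h1]
  rfl

theorem cubeTransStmt {K : Type u} [Field K] [IsAlgClosed K] {V : GrpVar K} (D : CDiv V) :
    CubeTransStmt D := fun P b => height_add_const D P b

/-- **the theorem of the cube for heights** -/
theorem cube {K : Type u} [Field K] [IsAlgClosed K] {V : GrpVar K} (D : CDiv V)
    {Ω F : Type u} [Field Ω] [Field F] [Algebra K Ω] [Algebra K F] [Algebra Ω F]
    [IsScalarTower K Ω F] [IsAlgClosed Ω] [IsFnField Ω F] (ψ φ : V.pt F) :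
    D.height Ω (ψ + φ) + D.height Ω (ψ - φ) =
      2 * D.height Ω ψ + D.height Ω φ + D.height Ω (-φ) :=
  cube_of D cubeSpStmt (cubeSqStmt D) (cubeTransStmt D) ψ φ

/-- the symmetric height is quadratic -/
theorem cubeStmt {K : Type u} [Field K] [IsAlgClosed K] {V : GrpVar K} (D : CDiv V) :
    CubeStmt D :=
  cubeStmt_of D cubeSpStmt (cubeSqStmt D) (cubeTransStmt D)

end Fermat.Agent.AV
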