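import Fermat.Agent.AV.GVBasic

/-!
# The function field is finitely generated
-/

set_option autoImplicit false

universe u

namespace Fermat.Agent.AV

namespace GrpVar

variable {K : Type u} [Field K] (V : GrpVar K)

theorem exists_adjoin_eq_top : ∃ s : Finset V.F, IntermediateField.adjoin K (s : Set V.F) = ⊤ := by
  obtain ⟨s, hs⟩ := V.chart_fg V.gen
  refine ⟨s, ?_⟩
  rw [eq_top_iff]
  intro b _
  have hle : V.chartOf V.gen ≤ V.loc V.gen := V.chart_le _
  obtain ⟨x, y, -, rfl⟩ := V.chart_loc V.gen V.gen hle b (V.mem_loc_gen b)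
  have h : ∀ z : V.chartOf V.gen, (z : V.F) ∈ IntermediateField.adjoin K (s : Set V.F) := by
    intro z
    have h1 : (z : V.F) ∈ Algebra.adjoin K (s : Set V.F) := by rw [hs]; exact z.2
    exact IntermediateField.algebra_adjoin_le_adjoin K _ h1
  exact div_mem (h x) (h y)

instance essFinite : Algebra.EssFiniteType K V.F := by
  rw [← IntermediateField.fg_top_iff]
  obtain ⟨s, hs⟩ := V.exists_adjoin_eq_top
  exact ⟨s, hs⟩

end GrpVar

end Fermat.Agent.AV
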