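import Fermat.Agent.AV.AffDef
import Fermat.Agent.AV.Arith
import Fermat.Agent.AV.EssFin

/-!
# The number of torsion points, from the main blocks
-/

set_option autoImplicit false

universe u

namespace Fermat.Agent.AV

open Fermat.Agent.FF AlgebraicCurve GrpVar IntermediateField

variable {K : Type u} [Field K]

/-- the symmetric height of points over function fields of curves is quadratic -/
def CubeStmt {V : GrpVar K} (D : CDiv V) : Prop :=
  ∀ {Ω E : Type u} [Field Ω] [Field E] [Algebra K Ω] [Algebra K E] [Algebra Ω E]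
    [IsScalarTower K Ω E] [IsAlgClosed Ω] [IsFnField Ω E] (φ : V.pt E) (n : ℕ),
      D.height Ω (n • φ) + D.height Ω (-(n • φ)) = n ^ 2 * (D.height Ω φ + D.height Ω (-φ))

/-- comparison of degrees under multiplication by `n` in one variable -/
def SlotStmt (V : GrpVar K) : Prop :=
  ∃ (I : Type) (_ : Fintype I) (φ : I → V.F) (C : ℕ), 0 < C ∧
    IntermediateField.adjoin K (Set.range φ) = ⊤ ∧
      ∀ (n : ℕ) (h : V.Dom n) (L : IntermediateField K V.F), Algebra.trdeg L V.F = 1 →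
        ∑ i, Module.finrank L⟮mulHom h (φ i)⟯ V.F ≤
          C * n ^ 2 * ∑ i, Module.finrank L⟮φ i⟯ V.F ∧
        n ^ 2 * ∑ i, Module.finrank L⟮φ i⟯ V.F ≤
          C * ∑ i, Module.finrank L⟮mulHom h (φ i)⟯ V.F

/-- the number of torsion points is the degree of multiplication -/
structure TanStmt (V : GrpVar K) : Prop where
  dom : ∀ {n : ℕ}, (n : K) ≠ 0 → V.Dom n
  card : ∀ {n : ℕ}, (n : K) ≠ 0 → ∀ h : V.Dom n,
    Nat.card {P : V.pt K // n • P = 0} = mulDeg h
  finite : ∀ {n : ℕ}, (n : K) ≠ 0 → ∀ h : V.Dom n, mulDeg h ≠ 0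
  mul : ∀ {m n : ℕ} (hm : V.Dom m) (hn : V.Dom n) (hmn : V.Dom (m * n)),
    mulDeg hmn = mulDeg hm * mulDeg hn

/-- pure field theory: growth of degrees -/
def FinStmt (K : Type u) [Field K] : Prop :=
  ∀ {F : Type u} [Field F] [Algebra K F] [Algebra.EssFiniteType K F] (g : ℕ)
    (_ : Algebra.trdeg K F = g) {I : Type} [Fintype I] (φ : I → F)
    (_ : IntermediateField.adjoin K (Set.range φ) = ⊤) (C q : ℕ) (_ : 0 < C)
    (σ : F →ₐ[K] F) [Module.Finite σ.fieldRange F]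
    (_ : ∀ (L : IntermediateField K F), Algebra.trdeg L F = 1 →
        ∑ i, Module.finrank L⟮σ (φ i)⟯ F ≤ C * q ^ 2 * ∑ i, Module.finrank L⟮φ i⟯ F ∧
        q ^ 2 * ∑ i, Module.finrank L⟮φ i⟯ F ≤ C * ∑ i, Module.finrank L⟮σ (φ i)⟯ F),
    Module.finrank σ.fieldRange F ≤ C ^ g * q ^ (2 * g) ∧
      q ^ (2 * g) ≤ C ^ g * Module.finrank σ.fieldRange F

theorem mulDeg_congr {V : GrpVar K} {m n : ℕ} (e : m = n) (hm : V.Dom m) (hn : V.Dom n) :
    mulDeg hm = mulDeg hn := by subst e; rfl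

theorem mulDeg_one {V : GrpVar K} (hT : TanStmt V) (h : V.Dom 1) : mulDeg h = 1 := by
  have h0 : ((1 : ℕ) : K) ≠ 0 := by simp
  have h1 := hT.mul h h (by simpa using h)
  rw [mulDeg_congr (mul_one 1) _ h] at h1
  have h2 := hT.finite h0 h
  exact (Nat.eq_of_mul_eq_mul_left (Nat.pos_of_ne_zero h2) (by rw [← h1, mul_one]))

theorem mulDeg_pow {V : GrpVar K} (hT : TanStmt V) {n : ℕ} (hn : (n : K) ≠ 0) (h : V.Dom n)
    (t : ℕ) (ht : V.Dom (n ^ t)) : mulDeg ht = mulDeg h ^ t := by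
  induction t with
  | zero =>
    have h1 : V.Dom 1 := by rw [← pow_zero n]; exact ht
    rw [mulDeg_congr (pow_zero n) ht h1, mulDeg_one hT h1, pow_zero]
  | succ t ih =>
    have hn' : ((n ^ t : ℕ) : K) ≠ 0 := by push_cast; exact pow_ne_zero _ hn
    have h1 := hT.dom hn'
    have h3 : V.Dom (n ^ t * n) := by rw [← pow_succ]; exact ht
    rw [mulDeg_congr (pow_succ n t) ht h3, hT.mul h1 h h3, ih h1, pow_succ]

/-- the number of `n`-torsion points, from the blocks -/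
theorem card_torsion_of (V : GrpVar K) (g : ℕ) (hg : Algebra.trdeg K V.F = g)
    (hT : TanStmt V) (hS : SlotStmt V) (hF : FinStmt K) {n : ℕ} (hn : (n : K) ≠ 0) :
    Nat.card {P : V.pt K // n • P = 0} = n ^ (2 * g) := by
  have hd := hT.dom hn
  rw [hT.card hn hd]
  obtain ⟨I, _, φ, C, hC, hφ, hs⟩ := hS
  refine eq_pow_of_forall (B := C ^ g) fun t => ?_
  have hn' : ((n ^ t : ℕ) : K) ≠ 0 := by push_cast; exact pow_ne_zero _ hn
  have ht := hT.dom hn'
  have : Module.Finite (mulHom ht).fieldRange V.F :=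
    Module.finite_of_finrank_pos (Nat.pos_of_ne_zero (hT.finite hn' ht))
  have h1 := hF g hg φ hφ C (n ^ t) hC (mulHom ht) (hs (n ^ t) ht)
  rw [← mulDeg_pow hT hn hd t ht, show n ^ (2 * g * t) = (n ^ t) ^ (2 * g) by
    rw [← pow_mul]; congr 1; ring]
  exact h1

end Fermat.Agent.AV
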