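import Fermat.Agent.AV.NormArg
import Fermat.Agent.AV.Spec
import Fermat.Agent.AV.MulDeg

/-!
# Reductions of points: functoriality; constant points; the quadratic growth of heights
-/

set_option autoImplicit false
set_option linter.style.haveILetI false

universe u

open AlgebraicCurve

namespace Fermat.Agent.AV

open Fermat.Agent.FF Fermat.Agent.Red

namespace GrpVar

variable {K : Type u} [Field K] (V : GrpVar K)

section Red

variable {E : Type u} [Field E] [Algebra K E] (O : KVal K E) {κ : Type u} [Field κ] [Algebra K κ]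
  (π : O.R →ₐ[K] κ)

/-- the reduction of a point which is defined over a subring -/
theorem red_map_incl {S : Type u} [CommRing S] [Algebra K S] (g : S →ₐ[K] O.R) (Q : V.pt S) :
    V.red O π (V.map (O.incl.comp g) Q) = V.map (π.comp g) Q := by
  have h : V.lift O (V.map (O.incl.comp g) Q) = V.map g Q := by
    rw [lift_eq_iff, ← V.map_comp]
  rw [red_apply, h, ← V.map_comp]

/-- variant -/
theorem red_map_eq {S : Type u} [CommRing S] [Algebra K S] (f : S →ₐ[K] E) (g : S →ₐ[K] O.R)
    (h : ∀ s, (g s : E) = f s) (Q : V.pt S) : V.red O π (V.map f Q) = V.map (π.comp g) Q := by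
  have : f = O.incl.comp g := AlgHom.ext fun s => (h s).symm
  rw [this, V.red_map_incl]

/-- the reduction of the image of a point under a homomorphism of fields which is compatible with
the valuation rings -/
theorem red_map_eq' {E' : Type u} [Field E'] [Algebra K E'] (O' : KVal K E') (f : E' →ₐ[K] E)
    (g : O'.R →ₐ[K] O.R) (h : ∀ s : O'.R, (g s : E) = f s) (Q : V.pt E') :
    V.red O π (V.map f Q) = V.map (π.comp g) (V.lift O' Q) := by
  rw [← V.red_map_eq O π (f.comp O'.incl) g h (V.lift O' Q), V.map_comp, V.map_lift]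

end Red

end GrpVar

section Place

variable {K : Type u} [Field K] {Ω E : Type u} [Field Ω] [Field E] [Algebra K Ω] [Algebra K E]
  [Algebra Ω E] [IsScalarTower K Ω E] [IsAlgClosed Ω] [IsFnField Ω E]

theorem evP_apply (P : Place Ω E) (f : (KVal.ofPlace (K := K) P).R) :
    evP K P f = ev P ⟨f.1, f.2⟩ := rfl

theorem evP_eq_iff (P : Place Ω E) (f : (KVal.ofPlace (K := K) P).R) (c : Ω) :
    evP K P f = c ↔ HasVal P (f : E) c :=
  ⟨fun h => ⟨f.2, h⟩, fun h => h.2⟩

theorem hasVal_evP (P : Place Ω E) (f : (KVal.ofPlace (K := K) P).R) :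
    HasVal P (f : E) (evP K P f) := (evP_eq_iff P f _).1 rfl

theorem isUnit_of_evP (P : Place Ω E) (f : (KVal.ofPlace (K := K) P).R)
    (h : IsUnit (evP K P f)) : IsUnit f := by
  have h1 := hasVal_evP P f
  rw [KVal.isUnit_iff]
  have h0 : (f : E) ≠ 0 := by
    intro h0
    apply h.ne_zero
    rw [h0] at h1
    exact h1.unique (hasVal_zero P)
  exact ⟨h0, (h1.inv h.ne_zero).mem⟩

end Place

section Compat

variable {K : Type u} [Field K] {V : GrpVar K} (D : CDiv V)

/-- the local equation at the center, for a dominated valuation ring of a subfield -/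
theorem lat_map {E E' : Type u} [Field E] [Algebra K E] [Field E'] [Algebra K E']
    (O : KVal K E) (O' : KVal K E') (f : E →ₐ[K] E') (h : ∀ a, f a ∈ O'.toValuationSubring ↔
      a ∈ O.toValuationSubring) (P : V.pt E) : D.lat O' (V.map f P) = f (D.lat O P) := by
  let g : O.R →ₐ[K] O'.R :=
    { toFun := fun a => ⟨f a, (h a).2 a.2⟩
      map_one' := Subtype.ext (map_one f)
      map_mul' := fun a b => Subtype.ext (map_mul f (a : E) (b : E))
      map_zero' := Subtype.ext (map_zero f)
      map_add' := fun a b => Subtype.ext (map_add f (a : E) (b : E))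
      commutes' := fun a => Subtype.ext (f.commutes a) }
  have hg : ∀ a : O.R, IsUnit (g a) → IsUnit a := by
    intro a ha
    rw [KVal.isUnit_iff] at ha ⊢
    refine ⟨fun h0 => ha.1 (by show f a = 0; rw [h0, map_zero]), ?_⟩
    rw [← h, map_inv₀]
    exact ha.2
  have hc : V.ctr O' (V.map f P) = V.ctr O P := by
    refine V.ctr_eq_of_dominated O' _ g hg (V.lift O P) ?_
    have h1 : O'.incl.comp g = f.comp O.incl := rfl
    rw [h1, V.map_comp, V.map_lift]
  rw [CDiv.lat, hc, CDiv.at_map f P (V.loc_ctr_le O P), CDiv.lat]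

end Compat

section Growth

/-- the parallelogram law implies quadratic growth -/
theorem quadratic_of_parallelogram {G : Type*} [AddCommGroup G] (h : G → ℤ) (h0 : h 0 = 0)
    (hp : ∀ x y, h (x + y) + h (x - y) = 2 * h x + 2 * h y) (x : G) (n : ℕ) :
    h (n • x) = n ^ 2 * h x := by
  induction n using Nat.twoStepInduction with
  | zero => simp [h0]
  | one => simp
  | more n ih1 ih2 =>
    have h1 := hp ((n + 1) • x) x
    have e1 : (n + 1) • x + x = (n + 2) • x := by rw [← succ_nsmul]
    have e2 : (n + 1) • x - x = n • x := by rw [succ_nsmul, add_sub_cancel_right]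
    rw [e1, e2, ih1, ih2] at h1
    push_cast at h1 ⊢
    linarith

variable {K : Type u} [Field K] {V : GrpVar K} (D : CDiv V)
  {Ω E : Type u} [Field Ω] [Field E] [Algebra K Ω] [Algebra K E] [Algebra Ω E]
  [IsScalarTower K Ω E] [IsAlgClosed Ω] [IsFnField Ω E]

/-- the height of a constant point vanishes -/
theorem height_const_eq (a : V.pt Ω) :
    D.height Ω (V.map (IsScalarTower.toAlgHom K Ω E) a) = 0 := by
  have h : (D.cdiv (V.map (IsScalarTower.toAlgHom K Ω E) a) : Divisor Ω E) = 0 := by
    ext v
    rw [CDiv.cdiv_apply, Finsupp.coe_zero, Pi.zero_apply, CDiv.ordAt]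
    let g : Ω →ₐ[K] (KVal.ofPlace (K := K) v).R :=
      { toFun := fun a => ⟨algebraMap Ω E a, v.algebraMap_mem' a⟩
        map_one' := Subtype.ext (map_one _)
        map_mul' := fun a b => Subtype.ext (map_mul _ a b)
        map_zero' := Subtype.ext (map_zero _)
        map_add' := fun a b => Subtype.ext (map_add _ a b)
        commutes' := fun a => Subtype.ext (IsScalarTower.algebraMap_apply K Ω E a).symm }
    have hg : ∀ b : Ω, IsUnit (g b) → IsUnit b := by
      intro b hb
      rw [isUnit_iff_ne_zero]
      rintro rfl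
      rw [map_zero] at hb
      exact not_isUnit_zero hb
    have hc : V.ctr (KVal.ofPlace v) (V.map (IsScalarTower.toAlgHom K Ω E) a) = V.center a :=
      V.ctr_eq_of_dominated (KVal.ofPlace v) _ g hg a rfl
    have hc' : V.center (V.map (IsScalarTower.toAlgHom K Ω E) a) = V.center a := by
      refine V.center_map _ (fun b hb => ?_) a
      rw [isUnit_iff_ne_zero] at hb ⊢
      rintro rfl
      rw [map_zero] at hb
      exact hb rfl
    rw [CDiv.lat, hc, ← hc', CDiv.at_center, Place.ord_one]
  rw [CDiv.height, h, map_zero]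

end Growth

end Fermat.Agent.AV
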