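import Fermat.Agent.AV.CubeVal
import Fermat.Agent.RR.Duality

/-!
# The theorem of the cube for heights
-/

set_option autoImplicit false
set_option linter.style.haveILetI false
set_option linter.unusedSectionVars false

universe u

open AlgebraicCurve

namespace Fermat.Agent.AV

open Fermat.Agent.FF Fermat.Agent.Red Fermat.Agent.BCh

section Specs

variable {K : Type u} [Field K] {Ω L F B : Type u} [Field Ω] [Field L] [Field F] [Field B]
  [Algebra K Ω] [Algebra K L] [Algebra K F] [Algebra K B]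
  [Algebra Ω F] [Algebra Ω L] [Algebra L B]
  [IsScalarTower K Ω F] [IsScalarTower K Ω L] [IsScalarTower K L B]
  [IsAlgClosed Ω] [IsFnField Ω F] [IsAlgClosed L] [IsFnField L B]
  {V : GrpVar K} {d : Ext Ω F L B}

variable (K) in
/-- an embedding over the constants as a homomorphism of `K`-algebras -/
def cubeSg (σ : F →ₐ[Ω] L) : F →ₐ[K] L :=
  { (σ : F →+* L) with
    commutes' := fun a => by
      show σ (algebraMap K F a) = _
      rw [IsScalarTower.algebraMap_apply K Ω F, σ.commutes, ← IsScalarTower.algebraMap_apply] }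

theorem sgK_apply (σ : F →ₐ[Ω] L) (f : F) : cubeSg K σ f = σ f := rfl

/-- the value of a point over `F` at the place defined by an embedding -/
theorem redP_pl {P : Place L B} {σ : F →ₐ[Ω] L} (hP : ∀ f, HasVal P (d.ι f) (σ f))
    (ψ : V.pt F) :
    V.red (KVal.ofPlace P) (evP K P) (V.map (iK K d) ψ) = V.map (cubeSg K σ) ψ := by
  let g : F →ₐ[K] (KVal.ofPlace (K := K) P).R :=
    { toFun := fun f => ⟨d.ι f, (hP f).mem⟩
      map_one' := Subtype.ext (map_one d.ι)
      map_mul' := fun a b => Subtype.ext (map_mul d.ι a b)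
      map_zero' := Subtype.ext (map_zero d.ι)
      map_add' := fun a b => Subtype.ext (map_add d.ι a b)
      commutes' := fun a => Subtype.ext ((iK K d).commutes a) }
  rw [V.red_map_eq _ _ (iK K d) g (fun f => rfl)]
  congr 1
  exact congrArg V.map (AlgHom.ext fun f => (evP_eq_iff (K := K) P _ _).2 (hP f))

/-- the value of a point over `F` at a constant place -/
theorem redP_con {P : Place L B} {x : Place Ω F}
    (hP : ∀ f c, HasVal x f c → HasVal P (d.ι f) (algebraMap Ω L c)) (ψ : V.pt F) :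
    V.red (KVal.ofPlace P) (evP K P) (V.map (iK K d) ψ) =
      V.map (IsScalarTower.toAlgHom K Ω L) (V.red (KVal.ofPlace x) (evP K x) ψ) := by
  have h1 : ∀ f : (KVal.ofPlace (K := K) x).R,
      HasVal P (d.ι f) (algebraMap Ω L (evP K x f)) := fun f => hP _ _ (hasVal_evP x f)
  let g : (KVal.ofPlace (K := K) x).R →ₐ[K] (KVal.ofPlace (K := K) P).R :=
    { toFun := fun f => ⟨d.ι f, (h1 f).mem⟩
      map_one' := Subtype.ext (map_one d.ι)
      map_mul' := fun a b => Subtype.ext (map_mul d.ι (a : F) (b : F))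
      map_zero' := Subtype.ext (map_zero d.ι)
      map_add' := fun a b => Subtype.ext (map_add d.ι (a : F) (b : F))
      commutes' := fun a => Subtype.ext ((iK K d).commutes a) }
  rw [V.red_map_eq' (KVal.ofPlace P) (evP K P) (KVal.ofPlace x) (iK K d) g (fun f => rfl),
    GrpVar.red_apply, ← V.map_comp]
  congr 1
  exact congrArg V.map (AlgHom.ext fun f => (evP_eq_iff (K := K) P _ _).2 (h1 f))

end Specs

/-- the difference of second order of a Cartier divisor is principal -/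
def CubeSqStmt {K : Type u} [Field K] {V : GrpVar K} (D : CDiv V) : Prop :=
  ∀ {Ω E : Type u} [Field Ω] [Field E] [Algebra K Ω] [Algebra K E] [Algebra Ω E]
    [IsScalarTower K Ω E] [IsAlgClosed Ω] [IsFnField Ω E] (P : V.pt E) (b c : V.pt Ω),
    ∃ f : E, f ≠ 0 ∧ ∀ v : Place Ω E,
      D.ordAt (P + V.map (IsScalarTower.toAlgHom K Ω E) b +
        V.map (IsScalarTower.toAlgHom K Ω E) c) v
      - D.ordAt (P + V.map (IsScalarTower.toAlgHom K Ω E) b) v
      - D.ordAt (P + V.map (IsScalarTower.toAlgHom K Ω E) c) v + D.ordAt P v = v.ord f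

/-- heights are invariant under translation by constants -/
def CubeTransStmt {K : Type u} [Field K] {V : GrpVar K} (D : CDiv V) : Prop :=
  ∀ {Ω E : Type u} [Field Ω] [Field E] [Algebra K Ω] [Algebra K E] [Algebra Ω E]
    [IsScalarTower K Ω E] [IsAlgClosed Ω] [IsFnField Ω E] (P : V.pt E) (b : V.pt Ω),
    D.height Ω (P + V.map (IsScalarTower.toAlgHom K Ω E) b) = D.height Ω P

/-- the specialisation maps exist -/
def CubeSpStmt : Prop :=
  ∀ {Ω L F B : Type u} [Field Ω] [Field L] [Field F] [Field B]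
    [Algebra Ω F] [Algebra Ω L] [Algebra L B]
    [IsAlgClosed Ω] [IsFnField Ω F] [IsAlgClosed L] [IsFnField L B]
    (d : Ext Ω F L B) (p : KPlace Ω L Ω), Nonempty (CubeSpData d p)

theorem cube_alg {L : Type*} [Field L] {g₁ g₂ c e₁ e₂ : L} (hc : c ≠ 0) (h₁ : e₁ ≠ 0)
    (h₂ : e₂ ≠ 0) : g₁ / g₂ / (e₁ / e₂) = (g₁ * c / e₁) * (g₂ * c / e₂)⁻¹ := by
  field_simp

section Cube

variable {K : Type u} [Field K] {V : GrpVar K} (D : CDiv V)
  {Ω F : Type u} [Field Ω] [Field F] [Algebra K Ω] [Algebra K F] [Algebra Ω F]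
  [IsScalarTower K Ω F] [IsAlgClosed Ω] [IsFnField Ω F]

theorem height_eq_degree (P : V.pt F) :
    D.height Ω P = Divisor.degree (D.cdiv P : Divisor Ω F) := rfl

/-- the value of a function at the diagonal point and at a constant point -/
theorem degree_cube (hsp : CubeSpStmt.{u}) (hsq : CubeSqStmt D) (ψ φ : V.pt F) (x : Place Ω F) :
    D.height Ω (ψ + φ) + D.height Ω (ψ - φ) - 2 * D.height Ω ψ =
      D.height Ω (V.map (IsScalarTower.toAlgHom K Ω F) (V.red (KVal.ofPlace x) (evP K x) ψ) + φ) +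
      D.height Ω (V.map (IsScalarTower.toAlgHom K Ω F) (V.red (KVal.ofPlace x) (evP K x) ψ) - φ) -
      2 * D.height Ω (V.map (IsScalarTower.toAlgHom K Ω F)
        (V.red (KVal.ofPlace x) (evP K x) ψ)) := by
  set a := V.map (IsScalarTower.toAlgHom K Ω F) (V.red (KVal.ofPlace x) (evP K x) ψ) with ha
  let L := AlgebraicClosure F
  obtain ⟨B, _, _, _, _, ⟨d⟩⟩ := exists_ext' K Ω F L
  haveI : IsFnField L B := isFnField_ext d
  let σ : F →ₐ[Ω] L := IsScalarTower.toAlgHom Ω F L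
  let b : V.pt L := V.map (cubeSg K σ) φ
  -- the function
  obtain ⟨G', hG'0, hG'⟩ := hsq (V.map (iK K d) ψ) b (-b)
  have hG0 : G'⁻¹ ≠ 0 := inv_ne_zero hG'0
  have hord : ∀ P : Place L B, P.ord G'⁻¹ = D.ordAt (qpt K d ψ b) P +
      D.ordAt (qpt K d ψ (-b)) P - 2 * D.ordAt (qpt K d ψ 0) P := by
    intro P
    have h1 := hG' P
    have h2 : V.map (iK K d) ψ + V.map (IsScalarTower.toAlgHom K L B) b +
        V.map (IsScalarTower.toAlgHom K L B) (-b) = V.map (iK K d) ψ := by
      rw [map_neg, add_neg_cancel_right]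
    rw [h2] at h1
    rw [P.ord_inv, ← h1, qpt, qpt, qpt, map_zero, add_zero]
    ring
  set G := G'⁻¹ with hG
  -- the values at the places
  let Δ : Place L B := pl d σ
  let P₀ : Place L B := con d x
  have hex : ∀ P : Place L B, ∃ γ : L, γ ≠ 0 ∧
      HasVal P (G / el D (KVal.ofPlace P) (qpt K d ψ b) (qpt K d ψ (-b)) (qpt K d ψ 0)) γ := by
    intro P
    have h0 : P.ord (G / el D (KVal.ofPlace P) (qpt K d ψ b) (qpt K d ψ (-b))
        (qpt K d ψ 0)) = 0 := by
      rw [CDiv.ord_div P hG0 (el_ne_zero D _ _ _ _), ord_el, hord]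
      ring
    obtain ⟨γ, hγ⟩ := exists_hasVal (P := P) h0.ge
    refine ⟨γ, ?_, hγ⟩
    rintro rfl
    rcases hasVal_zero_iff.1 hγ with h | h
    · exact div_ne_zero hG0 (el_ne_zero D _ _ _ _) h
    · rw [h0] at h
      exact lt_irrefl _ h
  obtain ⟨γ₁, hγ₁0, hγ₁⟩ := hex Δ
  obtain ⟨γ₂, hγ₂0, hγ₂⟩ := hex P₀
  -- the reductions
  have hb : V.red (KVal.ofPlace Δ) (evP K Δ) (qpt K d ψ b) = V.map (cubeSg K σ) (ψ + φ) := by
    rw [qpt, map_add, redP_pl (fun f => hasVal_pl σ f), redP_const, map_add]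
  have hb' : V.red (KVal.ofPlace Δ) (evP K Δ) (qpt K d ψ (-b)) = V.map (cubeSg K σ) (ψ - φ) := by
    rw [qpt, map_add, redP_pl (fun f => hasVal_pl σ f), redP_const, map_sub, sub_eq_add_neg]
  have hb0 : V.red (KVal.ofPlace Δ) (evP K Δ) (qpt K d ψ 0) = V.map (cubeSg K σ) ψ := by
    rw [qpt, map_add, redP_pl (fun f => hasVal_pl σ f), redP_const, add_zero]
  have hσa : V.map (cubeSg K σ) a = V.map (IsScalarTower.toAlgHom K Ω L)
      (V.red (KVal.ofPlace x) (evP K x) ψ) := by
    rw [ha, ← V.map_comp]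
    congr 1
  have hcon : V.red (KVal.ofPlace P₀) (evP K P₀) (V.map (iK K d) ψ) = V.map (cubeSg K σ) a := by
    rw [redP_con (x := x) (fun f c h => hasVal_con h), hσa]
  have hc : V.red (KVal.ofPlace P₀) (evP K P₀) (qpt K d ψ b) = V.map (cubeSg K σ) (a + φ) := by
    rw [qpt, map_add, hcon, redP_const, map_add]
  have hc' : V.red (KVal.ofPlace P₀) (evP K P₀) (qpt K d ψ (-b)) = V.map (cubeSg K σ) (a - φ) := by
    rw [qpt, map_add, hcon, redP_const, map_sub, sub_eq_add_neg]
  have hc0 : V.red (KVal.ofPlace P₀) (evP K P₀) (qpt K d ψ 0) = V.map (cubeSg K σ) a := by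
    rw [qpt, map_add, hcon, redP_const, add_zero]
  -- the norm argument
  have hdeg := degree_eq_zero_of_local (Ω := Ω) (F := F) (L := L) (γ := γ₁ / γ₂)
    (div_ne_zero hγ₁0 hγ₂0)
    ((D.cdiv (ψ + φ) + D.cdiv (ψ - φ) - 2 • D.cdiv ψ) -
      (D.cdiv (a + φ) + D.cdiv (a - φ) - 2 • D.cdiv a) : Divisor Ω F) (by
    intro v
    refine ⟨el D (KVal.ofPlace v) (ψ + φ) (ψ - φ) ψ / el D (KVal.ofPlace v) (a + φ) (a - φ) a,
      div_ne_zero (el_ne_zero D _ _ _ _) (el_ne_zero D _ _ _ _), ?_, ?_⟩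
    · rw [CDiv.ord_div v (el_ne_zero D _ _ _ _) (el_ne_zero D _ _ _ _), ord_el, ord_el]
      simp only [Finsupp.coe_sub, Finsupp.coe_add, Finsupp.coe_smul, Pi.sub_apply, Pi.add_apply,
        Pi.smul_apply, CDiv.cdiv_apply]
      ring
    · intro p hp
      obtain ⟨S⟩ := hsp d p
      obtain ⟨c, hc0', hcP⟩ := exists_scale_val D S hG0 ψ ψ ψ b (-b) 0 hord
      have h1 := hcP Δ γ₁ hγ₁
      have h2 := hcP P₀ γ₂ hγ₂
      have hmap : ∀ Q₁ Q₂ Q₃ : V.pt F, el D (kpVal K p) (V.map (cubeSg K σ) Q₁)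
          (V.map (cubeSg K σ) Q₂) (V.map (cubeSg K σ) Q₃) =
          algebraMap F L (el D (KVal.ofPlace v) Q₁ Q₂ Q₃) := fun Q₁ Q₂ Q₃ =>
        el_map D (KVal.ofPlace v) (kpVal K p) (cubeSg K σ) hp Q₁ Q₂ Q₃
      rw [hb, hb', hb0, hmap] at h1
      rw [hc, hc', hc0, hmap] at h2
      have h3 : γ₁ / γ₂ / algebraMap F L (el D (KVal.ofPlace v) (ψ + φ) (ψ - φ) ψ /
          el D (KVal.ofPlace v) (a + φ) (a - φ) a) =
          (γ₁ * c / algebraMap F L (el D (KVal.ofPlace v) (ψ + φ) (ψ - φ) ψ)) *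
          (γ₂ * c / algebraMap F L (el D (KVal.ofPlace v) (a + φ) (a - φ) a))⁻¹ := by
        have e1 : algebraMap F L (el D (KVal.ofPlace v) (ψ + φ) (ψ - φ) ψ) ≠ 0 :=
          (map_ne_zero_iff _ (algebraMap F L).injective).mpr (el_ne_zero D _ _ _ _)
        have e2 : algebraMap F L (el D (KVal.ofPlace v) (a + φ) (a - φ) a) ≠ 0 :=
          (map_ne_zero_iff _ (algebraMap F L).injective).mpr (el_ne_zero D _ _ _ _)
        rw [map_div₀]
        exact cube_alg hc0' e1 e2
      rw [h3]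
      refine ⟨mul_mem h1.1 h2.2, ?_⟩
      rw [mul_inv, inv_inv]
      exact mul_mem h1.2 h2.1)
  simp only [map_sub, map_add, map_nsmul, nsmul_eq_mul, Nat.cast_ofNat] at hdeg
  simp only [height_eq_degree]
  linarith

/-- **the theorem of the cube for heights** -/
theorem cube_of (hsp : CubeSpStmt.{u}) (hsq : CubeSqStmt D) (htr : CubeTransStmt D) (ψ φ : V.pt F) :
    D.height Ω (ψ + φ) + D.height Ω (ψ - φ) =
      2 * D.height Ω ψ + D.height Ω φ + D.height Ω (-φ) := by
  obtain ⟨x⟩ := RR.exists_place Ω F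
  have h1 := degree_cube D hsp hsq ψ φ x
  rw [add_comm (V.map _ _) φ, htr φ, sub_eq_neg_add (V.map _ _) φ, htr (-φ),
    height_const_eq] at h1
  linarith

end Cube

/-- the symmetric height is quadratic -/
theorem cubeStmt_of {K : Type u} [Field K] {V : GrpVar K} (D : CDiv V) (hsp : CubeSpStmt.{u})
    (hsq : CubeSqStmt D) (htr : CubeTransStmt D) : CubeStmt D := by
  intro Ω E _ _ _ _ _ _ _ _ φ n
  refine quadratic_of_parallelogram (G := V.pt E)
    (fun x => D.height Ω x + D.height Ω (-x)) ?_ (fun x y => ?_) φ n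
  · have h := height_const_eq (Ω := Ω) (E := E) D (0 : V.pt Ω)
    rw [map_zero] at h
    rw [neg_zero, h, add_zero]
  · have h1 := cube_of (Ω := Ω) D hsp hsq htr x y
    have h2 := cube_of (Ω := Ω) D hsp hsq htr (-x) y
    rw [show -(x + y) = -x - y by abel, show -(x - y) = -x + y by abel]
    linarith

end Fermat.Agent.AV
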