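import Fermat.Agent.AV.ExtCurve
import Fermat.Agent.Red.Eval
import Fermat.Agent.RR.Riemann

/-!
# The places of an extension of constants

`K ⊆ U` algebraically closed, `B = Frac (U ⊗_K F)`. A place of `B/U` is either the unique extension
of a place of `F/K` or comes from a `K`-embedding `σ : F → U`.
-/

set_option autoImplicit false
set_option linter.style.haveILetI false
set_option linter.unusedSectionVars false

open AlgebraicCurve Polynomial IntermediateField
open scoped TensorProduct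

namespace Fermat.Agent.AV

open Fermat.Agent.BCh Fermat.Agent.FF Fermat.Agent.Red

variable {K F U B : Type*} [Field K] [Field F] [Field U] [Field B] [Algebra K F] [Algebra K U]
  [Algebra U B] (d : Ext K F U B)

section Sigma

variable [IsAlgClosed U] [IsFnField U B]

/-- the embedding of `U ⊗ F` in `B` -/
noncomputable def jB : U ⊗[K] F →+* B :=
  letI : Algebra K B := ((algebraMap U B).comp (algebraMap K U)).toAlgebra
  haveI : IsScalarTower K U B := IsScalarTower.of_algebraMap_eq fun _ => rfl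
  (Algebra.TensorProduct.lift (IsScalarTower.toAlgHom K U B) (ιK d)
    (fun _ _ => Commute.all _ _)).toRingHom

theorem jB_tmul (u : U) (f : F) : jB d (u ⊗ₜ f) = algebraMap U B u * d.ι f := by
  letI : Algebra K B := ((algebraMap U B).comp (algebraMap K U)).toAlgebra
  haveI : IsScalarTower K U B := IsScalarTower.of_algebraMap_eq fun _ => rfl
  exact Algebra.TensorProduct.lift_tmul _ _ _ _ _

theorem jB_injective : Function.Injective (jB d) := by
  classical
  rw [injective_iff_map_eq_zero]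
  intro s hs
  let b := Algebra.TensorProduct.basis U (Module.Free.chooseBasis K F)
  have hexp : s = ∑ l ∈ (b.repr s).support, (b.repr s l) ⊗ₜ (Module.Free.chooseBasis K F l) := by
    conv_lhs => rw [← b.linearCombination_repr s]
    rw [Finsupp.linearCombination_apply, Finsupp.sum]
    refine Finset.sum_congr rfl fun l _ => ?_
    simp only [b]
    rw [Algebra.TensorProduct.basis_apply, TensorProduct.smul_tmul', smul_eq_mul, mul_one]
  have h1 := d.indep' (Module.Free.chooseBasis K F).linearIndependent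
  rw [linearIndependent_iff'] at h1
  have h2 := h1 (b.repr s).support (fun l => b.repr s l) (by
    rw [hexp, map_sum] at hs
    rw [← hs]
    refine Finset.sum_congr rfl fun l _ => ?_
    rw [jB_tmul, Algebra.smul_def])
  rw [hexp]
  refine Finset.sum_eq_zero fun l hl => ?_
  rw [h2 l hl, TensorProduct.zero_tmul]

/-- the homomorphism `U ⊗ F → U` defined by an embedding -/
noncomputable def thB (σ : F →ₐ[K] U) : U ⊗[K] F →+* U :=
  (Algebra.TensorProduct.lift (AlgHom.id K U) σ (fun _ _ => Commute.all _ _)).toRingHom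

theorem thB_tmul (σ : F →ₐ[K] U) (u : U) (f : F) : thB σ (u ⊗ₜ f) = u * σ f :=
  Algebra.TensorProduct.lift_tmul _ _ _ _ _

theorem hasVal_jB {P : Place U B} {σ : F →ₐ[K] U} (h : ∀ f, HasVal P (d.ι f) (σ f))
    (s : U ⊗[K] F) : HasVal P (jB d s) (thB σ s) := by
  induction s using TensorProduct.induction_on with
  | zero => rw [map_zero, map_zero]; exact hasVal_zero P
  | add a b ha hb => rw [map_add, map_add]; exact ha.add hb
  | tmul u f =>
    rw [jB_tmul, thB_tmul]
    exact (hasVal_algebraMap P u).mul (h f)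

theorem ι_ne_algebraMap {x : F} (hx : Transcendental K x) (u : U) :
    d.ι x ≠ algebraMap U B u := by
  intro h
  apply transcendental_ι d hx
  rw [h]
  exact isAlgebraic_algebraMap u

theorem exists_pl [PerfectField K] [IsFnField K F] (σ : F →ₐ[K] U) :
    ∃ P : Place U B, ∀ f, HasVal P (d.ι f) (σ f) := by
  obtain ⟨x, hx, -⟩ := exists_separating K F
  -- the ring `U · F`
  let A : Subring B := (jB d).range
  let e : U ⊗[K] F ≃+* A := RingEquiv.ofBijective (jB d).rangeRestrict
    ⟨fun a b hab => jB_injective d (congrArg Subtype.val hab), (jB d).rangeRestrict_surjective⟩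
  let θ : A →+* U := (thB σ).comp e.symm.toRingHom
  have hθ : ∀ s, θ (e s) = thB σ s := fun s => congrArg (thB σ) (e.symm_apply_apply s)
  have he : ∀ s, ((e s : A) : B) = jB d s := fun _ => rfl
  let I : Ideal A := RingHom.ker θ
  haveI hI : I.IsPrime := RingHom.ker_isPrime θ
  obtain ⟨W, hW⟩ := LocalSubring.exists_le_valuationSubring (LocalSubring.ofPrime A I)
  obtain ⟨hle, hloc⟩ := LocalSubring.le_def.1 hW
  have hAle : A ≤ (LocalSubring.ofPrime A I).toSubring := LocalSubring.le_ofPrime A I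
  have hAW : ∀ a ∈ A, a ∈ W := fun a ha => hle (hAle ha)
  have hker : ∀ a : A, θ a = 0 → (a : B) ≠ 0 → (a : B)⁻¹ ∉ W := by
    intro a ha ha0 hinv
    have h1 : IsUnit (Subring.inclusion hle ⟨a, hAle a.2⟩) :=
      IsUnit.of_mul_eq_one ⟨(a : B)⁻¹, hinv⟩ (Subtype.ext (mul_inv_cancel₀ ha0))
    have h2 := hloc.map_nonunit _ h1
    have h3 : IsUnit (algebraMap A (LocalSubring.ofPrime A I).toSubring a) := h2
    rw [IsLocalization.AtPrime.isUnit_to_map_iff (LocalSubring.ofPrime A I).toSubring I] at h3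
    exact h3 ha
  have hU : ∀ u : U, algebraMap U B u ∈ W := by
    intro u
    apply hAW
    exact ⟨u ⊗ₜ 1, by rw [jB_tmul, map_one, mul_one]⟩
  have hι : ∀ f : F, θ (e ((1 : U) ⊗ₜ f - (σ f) ⊗ₜ (1 : F))) = 0 := by
    intro f
    rw [hθ, map_sub, thB_tmul, thB_tmul, map_one, mul_one, one_mul, sub_self]
  have hι' : ∀ f : F, ((e ((1 : U) ⊗ₜ f - (σ f) ⊗ₜ (1 : F)) : A) : B) =
      d.ι f - algebraMap U B (σ f) := by
    intro f
    rw [he, map_sub, jB_tmul, jB_tmul, map_one, map_one, mul_one, one_mul]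
  obtain ⟨P, hP⟩ := exists_place_of_valuationSubring (K := U) W hU (by
    intro htop
    have h1 := hker _ (hι x) (by rw [hι', sub_ne_zero]; exact ι_ne_algebraMap d hx _)
    rw [htop] at h1
    exact h1 trivial)
  refine ⟨P, fun f => ?_⟩
  rw [hasVal_iff]
  by_cases h0 : d.ι f - algebraMap U B (σ f) = 0
  · exact Or.inl h0
  · right
    by_contra hneg
    push Not at hneg
    have h1 := hker _ (hι f) (by rwa [hι'])
    rw [hι'] at h1
    apply h1
    rw [← hP]
    apply mem_of_ord_nonneg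
    rw [P.ord_inv]
    omega

/-- the number of embeddings -/
theorem natCard_embeddings {x : F} [FiniteDimensional K⟮x⟯ F] [Algebra.IsSeparable K⟮x⟯ F]
    (σ : F →ₐ[K] U) : Nat.card {τ : F →ₐ[K] U // τ x = σ x} = Module.finrank K⟮x⟯ F := by
  letI : Algebra K⟮x⟯ U := (σ.toRingHom.comp (algebraMap K⟮x⟯ F)).toAlgebra
  haveI : IsScalarTower K K⟮x⟯ U := IsScalarTower.of_algebraMap_eq fun a => (σ.commutes a).symm
  rw [← AlgHom.card K⟮x⟯ F U, ← Nat.card_eq_fintype_card]
  symm
  refine Nat.card_congr (Equiv.ofBijective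
    (fun τ : F →ₐ[K⟮x⟯] U => (⟨τ.restrictScalars K, ?_⟩ : {τ : F →ₐ[K] U // τ x = σ x})) ⟨?_, ?_⟩)
  · exact τ.commutes (⟨x, mem_adjoin_simple_self K x⟩ : K⟮x⟯)
  · intro τ τ' h
    ext f
    exact congrArg (fun t : {τ : F →ₐ[K] U // τ x = σ x} => t.1 f) h
  · rintro ⟨τ, hτ⟩
    have h1 : τ.comp (IntermediateField.val K⟮x⟯) = σ.comp (IntermediateField.val K⟮x⟯) :=
      IntermediateField.algHom_ext_of_eq_adjoin K (S := K⟮x⟯) (s := {x}) rfl (by
        rintro _ rfl
        exact hτ)
    refine ⟨{ τ.toRingHom with commutes' := fun c => ?_ }, Subtype.ext (AlgHom.ext fun f => rfl)⟩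
    exact DFunLike.congr_fun h1 c

variable {d}

/-- bookkeeping: the fibre of the coordinate `x` -/
theorem card_bound [PerfectField K] [IsFnField K F] {x : F} (hx : Transcendental K x)
    [Algebra.IsSeparable K⟮x⟯ F] {σ : F →ₐ[K] U} {P : Place U B}
    (hP : ∀ f, HasVal P (d.ι f) (σ f)) {P' : Place U B} (hP' : ∀ f, HasVal P' (d.ι f) (σ f)) :
    P = P' ∧ P.ord (d.ι x - algebraMap U B (σ x)) = 1 := by
  classical
  haveI := IsFnField.finiteDimensional (K := K) hx
  have hcard := natCard_embeddings (x := x) σ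
  have hpos : 0 < Module.finrank K⟮x⟯ F := Module.finrank_pos
  haveI : Finite {τ : F →ₐ[K] U // τ x = σ x} := Nat.finite_of_card_ne_zero (by omega)
  haveI := Fintype.ofFinite {τ : F →ₐ[K] U // τ x = σ x}
  rw [Nat.card_eq_fintype_card] at hcard
  -- the places
  have hex : ∀ τ : {τ : F →ₐ[K] U // τ x = σ x}, ∃ Q : Place U B,
      ∀ f, HasVal Q (d.ι f) (τ.1 f) := fun τ => exists_pl d τ.1
  choose Q₀ hQ₀ using hex
  let s₀ : {τ : F →ₐ[K] U // τ x = σ x} := ⟨σ, rfl⟩
  let Q : {τ : F →ₐ[K] U // τ x = σ x} → Place U B := Function.update Q₀ s₀ P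
  have hQs : Q s₀ = P := Function.update_self _ _ _
  have hQ : ∀ τ f, HasVal (Q τ) (d.ι f) (τ.1 f) := by
    intro τ f
    by_cases h : τ = s₀
    · subst h; rw [hQs]; exact hP f
    · have : Q τ = Q₀ τ := Function.update_of_ne h _ _
      rw [this]; exact hQ₀ τ f
  have hinj : Function.Injective Q := by
    intro τ τ' h
    apply Subtype.ext
    ext f
    have h1 := hQ τ f
    rw [h] at h1
    exact h1.unique (hQ τ' f)
  set y := d.ι x - algebraMap U B (σ x) with hy
  have hyt : Transcendental U y := by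
    intro h
    apply transcendental_ι d hx
    have h1 := h.add (isAlgebraic_algebraMap (σ x))
    rwa [hy, sub_add_cancel] at h1
  have hy0 : y ≠ 0 := sub_ne_zero.mpr (ι_ne_algebraMap d hx _)
  have hadj : U⟮y⟯ = U⟮d.ι x⟯ := by
    apply le_antisymm
    · rw [adjoin_simple_le_iff]
      exact sub_mem (mem_adjoin_simple_self U _) (IntermediateField.algebraMap_mem _ _)
    · rw [adjoin_simple_le_iff]
      have h1 := add_mem (mem_adjoin_simple_self U y)
        (IntermediateField.algebraMap_mem U⟮y⟯ (σ x))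
      rwa [hy, sub_add_cancel] at h1
  have hfr : Module.finrank U⟮y⟯ B = Module.finrank K⟮x⟯ F := by
    rw [hadj, finrank_ι d hx]
  have hordQ : ∀ R : Place U B, HasVal R (d.ι x) (σ x) → 1 ≤ R.ord y := by
    intro R hR
    have h1 : 0 < R.ord y := (hasVal_iff.1 hR).resolve_left hy0
    omega
  have hQx : ∀ τ, HasVal (Q τ) (d.ι x) (σ x) := by
    intro τ
    have := hQ τ x
    rwa [τ.2] at this
  have hsum : ∑ τ, (Q τ).ord y ≤ Fintype.card {τ : F →ₐ[K] U // τ x = σ x} := by
    have h1 := RR.sum_ord_le (K := U) (S := Finset.univ.map ⟨Q, hinj⟩) hyt (by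
      intro v hv
      rw [Finset.mem_map] at hv
      obtain ⟨τ, -, rfl⟩ := hv
      have := hordQ _ (hQx τ)
      exact lt_of_lt_of_le zero_lt_one this)
    rw [Finset.sum_map] at h1
    rw [hcard, ← hfr]
    exact h1
  have hone : ∀ τ, (Q τ).ord y = 1 := by
    have h1 : ∑ τ : {τ : F →ₐ[K] U // τ x = σ x}, (1 : ℤ) =
        Fintype.card {τ : F →ₐ[K] U // τ x = σ x} := by simp
    have h2 : ∑ τ : {τ : F →ₐ[K] U // τ x = σ x}, (1 : ℤ) ≤ ∑ τ, (Q τ).ord y :=
      Finset.sum_le_sum fun τ _ => hordQ _ (hQx τ)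
    have h3 : ∑ τ : {τ : F →ₐ[K] U // τ x = σ x}, (1 : ℤ) = ∑ τ, (Q τ).ord y := by
      apply le_antisymm h2
      rw [h1]; exact hsum
    intro τ
    have h4 := (Finset.sum_eq_sum_iff_of_le fun τ _ => hordQ _ (hQx τ)).1 h3 τ (Finset.mem_univ _)
    exact h4.symm
  refine ⟨?_, by rw [← hQs]; exact hone s₀⟩
  by_contra hne
  have hnot : P' ∉ Finset.univ.map ⟨Q, hinj⟩ := by
    intro h
    rw [Finset.mem_map] at h
    obtain ⟨τ, -, h⟩ := h
    have h' : Q τ = P' := h
    have : τ = s₀ := by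
      apply Subtype.ext
      ext f
      have h1 := hQ τ f
      rw [h'] at h1
      exact h1.unique (hP' f)
    rw [this, hQs] at h'
    exact hne h'
  have h1 := RR.sum_ord_le (K := U) (S := insert P' (Finset.univ.map ⟨Q, hinj⟩)) hyt (by
    intro v hv
    rw [Finset.mem_insert, Finset.mem_map] at hv
    rcases hv with rfl | ⟨τ, -, rfl⟩
    · exact lt_of_lt_of_le zero_lt_one (hordQ _ (hP' x))
    · exact lt_of_lt_of_le zero_lt_one (hordQ _ (hQx τ)))
  rw [Finset.sum_insert hnot, Finset.sum_map, hfr, ← hcard] at h1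
  have h2 : ∑ τ, (Q τ).ord y = Fintype.card {τ : F →ₐ[K] U // τ x = σ x} := by
    rw [Finset.sum_congr rfl fun τ _ => hone τ]
    simp
  have h3 := hordQ _ (hP' x)
  have h4 : ∑ τ, ((⟨Q, hinj⟩ : {τ : F →ₐ[K] U // τ x = σ x} ↪ Place U B) τ).ord y =
    ∑ τ, (Q τ).ord y := rfl
  rw [h4, h2] at h1
  omega

end Sigma

/-! ### Constant places -/

/-- uniqueness of the Gauss extension -/
theorem gaussRed_le {K F U B κ B' : Type*} [Field K] [Field F] [Field U] [Field B] [Field κ]
    [Field B'] [Algebra K F] [Algebra K U] [Algebra U B] [Algebra K κ] [Algebra κ B']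
    (d : Ext K F U B) (d' : Ext K F κ B') (p : KPlace K U κ) (W : ValuationSubring B)
    (τ : W →+* B') (hτ : ∀ w, τ w ≠ 0 → IsUnit w)
    (hV : ∀ v : p.V, ∃ h : algebraMap U B v ∈ W, τ ⟨_, h⟩ = algebraMap κ B' (p.π v))
    (hF : ∀ f : F, ∃ h : d.ι f ∈ W, τ ⟨_, h⟩ = d'.ι f) {z : B} {y : B'}
    (hz : (gaussRed d d' p).IsRed z y) : ∃ h : z ∈ W, τ ⟨z, h⟩ = y := by
  letI : Algebra K B := ((algebraMap U B).comp (algebraMap K U)).toAlgebra
  haveI : IsScalarTower K U B := IsScalarTower.of_algebraMap_eq fun _ => rfl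
  letI : Algebra K B' := ((algebraMap κ B').comp (algebraMap K κ)).toAlgebra
  haveI : IsScalarTower K κ B' := IsScalarTower.of_algebraMap_eq fun _ => rfl
  have hz' : (gaussRedAux d d' p).IsRed z y := hz
  have key : ∀ s : p.S ⊗[K] F, ∃ h : φ d p s ∈ W, τ ⟨_, h⟩ = ρ d' p s := by
    intro s
    induction s using TensorProduct.induction_on with
    | zero =>
      refine ⟨by rw [map_zero]; exact zero_mem _, ?_⟩
      have h5 : ∀ h : φ d p 0 ∈ W, (⟨φ d p 0, h⟩ : W) = 0 := fun h => Subtype.ext (map_zero _)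
      rw [h5, map_zero, map_zero]
    | add a b ha hb =>
      obtain ⟨h1, h2⟩ := ha
      obtain ⟨h3, h4⟩ := hb
      refine ⟨by rw [map_add]; exact add_mem h1 h3, ?_⟩
      have h5 : ∀ h : φ d p (a + b) ∈ W, (⟨φ d p (a + b), h⟩ : W) = ⟨φ d p a, h1⟩ + ⟨φ d p b, h3⟩ :=
        fun h => Subtype.ext (map_add _ _ _)
      rw [h5, map_add, map_add, h2, h4]
    | tmul v f =>
      obtain ⟨h1, h2⟩ := hV ⟨v.1, v.2⟩
      obtain ⟨h3, h4⟩ := hF f
      refine ⟨by rw [φ_tmul]; exact mul_mem h1 h3, ?_⟩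
      rw [ρ_tmul, ← h4]
      have h5 : algebraMap κ B' (p.πK v) = τ ⟨_, h1⟩ := h2.symm
      rw [h5, ← map_mul]
      congr 1
  obtain ⟨h0, hy⟩ := hz'
  obtain ⟨s, t, ht, h⟩ := h0
  have hy' : y = ρ d' p s / ρ d' p t := by
    rw [← hy]
    exact gred_eq d d' p _ ht h
  obtain ⟨hs1, hs2⟩ := key s
  obtain ⟨ht1, ht2⟩ := key t
  have hu : IsUnit (⟨φ d p t, ht1⟩ : W) := hτ _ (by rw [ht2]; exact ht)
  obtain ⟨w, hw⟩ := hu.exists_right_inv
  have hw' : φ d p t * (w : B) = 1 := congrArg Subtype.val hw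
  have hz2 : z = φ d p s * w := by
    rw [← h, mul_assoc, hw', mul_one]
  have hzW : z ∈ W := by rw [hz2]; exact mul_mem hs1 w.2
  refine ⟨hzW, ?_⟩
  rw [hy', eq_div_iff ht, ← hs2, ← ht2, ← map_mul]
  congr 1
  exact Subtype.ext h

section Con

variable {K F U B : Type*} [Field K] [Field F] [Field U] [Field B] [Algebra K F] [Algebra K U]
  [Algebra U B] (d : Ext K F U B)
  [IsAlgClosed K] [IsFnField K F] [IsAlgClosed U] [IsFnField U B]

/-- a place of `F` as a place with values in `K` -/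
noncomputable def kplaceOf (Q : Place K F) : KPlace K F K where
  V := Q.toValuationSubring
  π := ev Q
  mem a := Q.algebraMap_mem' a
  π_alg a := (hasVal_algebraMap Q a).2
  surj c := ⟨⟨algebraMap K F c, Q.algebraMap_mem' c⟩, (hasVal_algebraMap Q c).2⟩
  ker a := by
    have h1 : ev Q a = 0 ↔ HasVal Q a 0 := ⟨fun h => ⟨a.2, h⟩, fun h => h.2⟩
    rw [h1, hasVal_zero_iff, ← coe_mem_maximalIdeal_iff]
    exact Iff.rfl

theorem place_ord_pos {U B : Type*} [Field U] [Field B] [Algebra U B] (P : Place U B) {z : B}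
    (hz0 : z ≠ 0) (hz : z⁻¹ ∉ P.toValuationSubring) : 0 < P.ord z := by
  by_contra h
  push Not at h
  apply hz
  apply mem_of_ord_nonneg
  rw [P.ord_inv]
  omega

/-- the constant place of `B` above a place of `F` -/
theorem exists_con (Q : Place K F) : ∃ P : Place U B,
    (∀ f c, HasVal Q f c → HasVal P (d.ι f) (algebraMap K U c)) ∧
    (∀ f, P.ord (d.ι f) = Q.ord f) ∧
    ∀ P' : Place U B, (∀ f c, HasVal Q f c → HasVal P' (d.ι f) (algebraMap K U c)) → P' = P := by
  letI : Algebra F B := d.ι.toAlgebra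
  let R := gaussRed (swapExt d) (extRefl K U) (kplaceOf Q)
  have hU : ∀ u : U, R.IsRed (algebraMap U B u) u := fun u =>
    gaussRed_isRed_ι (swapExt d) (extRefl K U) (kplaceOf Q) u
  have hF : ∀ f c, HasVal Q f c → R.IsRed (d.ι f) (algebraMap K U c) := by
    intro f c hf
    obtain ⟨h1, rfl⟩ := hf
    exact R.isRed_algebraMap h1
  obtain ⟨t, ht0, ht⟩ := exists_ord_eq_one Q
  obtain ⟨P, hP⟩ := exists_place_of_valuationSubring (K := U) R.O (fun u => (hU u).mem) (by
    intro htop
    have h1 : algebraMap F B t⁻¹ ∈ R.O := by rw [htop]; trivial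
    rw [R.algebraMap_mem_iff] at h1
    have h2 := ord_nonneg_of_mem Q h1
    rw [Q.ord_inv, ht] at h2
    omega)
  have hval : ∀ z u, R.IsRed z u → HasVal P z u := by
    intro z u hz
    rw [hasVal_iff]
    by_cases h0 : z - algebraMap U B u = 0
    · exact Or.inl h0
    · right
      apply place_ord_pos P h0
      rw [hP]
      have h1 := hz.sub (hU u)
      rw [sub_self] at h1
      exact h1.inv_notMem h0
  have hord0 : ∀ f, f ≠ 0 → Q.ord f = 0 → P.ord (d.ι f) = 0 := by
    intro f hf0 hf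
    have h1 : (d.ι f) ∈ P.toValuationSubring := by
      rw [hP]
      exact (R.algebraMap_mem_iff f).2 (mem_of_ord_nonneg Q hf.ge)
    have h2 : (d.ι f)⁻¹ ∈ P.toValuationSubring := by
      rw [hP, ← map_inv₀]
      exact (R.algebraMap_mem_iff f⁻¹).2 (mem_of_ord_nonneg Q (by rw [Q.ord_inv, hf, neg_zero]))
    have h3 := ord_nonneg_of_mem P h1
    have h4 := ord_nonneg_of_mem P h2
    rw [P.ord_inv] at h4
    omega
  have hmul : ∀ f, f ≠ 0 → P.ord (d.ι f) = Q.ord f * P.ord (d.ι t) := by
    intro f hf0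
    have h1 : Q.ord (f * t ^ (-Q.ord f)) = 0 := by
      rw [Q.ord_mul hf0 (zpow_ne_zero _ ht0), Place.ord_zpow, ht]
      ring
    have h2 := hord0 _ (mul_ne_zero hf0 (zpow_ne_zero _ ht0)) h1
    have h3 : d.ι t ≠ 0 := (map_ne_zero d.ι).mpr ht0
    rw [map_mul, map_zpow₀, P.ord_mul ((map_ne_zero d.ι).mpr hf0) (zpow_ne_zero _ h3),
      Place.ord_zpow] at h2
    linarith
  have htpos : 0 < P.ord (d.ι t) := by
    have h1 := hval _ _ (hF t 0 (hasVal_zero_iff.2 (Or.inr (by rw [ht]; norm_num))))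
    rw [map_zero] at h1
    exact (hasVal_zero_iff.1 h1).resolve_left ((map_ne_zero d.ι).mpr ht0)
  have htone : P.ord (d.ι t) = 1 := by
    obtain ⟨z, hz0, hz⟩ := exists_ord_eq_one P
    obtain ⟨c, hc0, h1, h2⟩ := R.exists_scale z hz0
    have hc : algebraMap F B c = d.ι c := rfl
    rw [hc] at h1 h2
    rw [← hP] at h1 h2
    have h3 := ord_nonneg_of_mem P h1
    have h4 := ord_nonneg_of_mem P h2
    rw [P.ord_inv] at h4
    rw [P.ord_mul ((map_ne_zero d.ι).mpr hc0) hz0, hz, hmul c hc0] at h3 h4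
    have h5 : Q.ord c * P.ord (d.ι t) = -1 := by omega
    have h6 : P.ord (d.ι t) ∣ 1 := by
      rw [← dvd_neg, ← h5]
      exact dvd_mul_left _ _
    exact Int.eq_one_of_dvd_one htpos.le h6
  refine ⟨P, fun f c hf => hval _ _ (hF f c hf), ?_, ?_⟩
  · intro f
    rcases eq_or_ne f 0 with rfl | hf0
    · rw [map_zero, P.ord_zero, Q.ord_zero]
    · rw [hmul f hf0, htone, mul_one]
  · intro P' hP'
    symm
    apply eq_of_le
    rw [hP]
    intro z hz
    obtain ⟨y, hy⟩ := R.exists_isRed_of_mem hz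
    obtain ⟨h1, -⟩ := gaussRed_le (swapExt d) (extRefl K U) (kplaceOf Q) P'.toValuationSubring
      (ev P') (by
        intro w hw
        have h1 : HasVal P' (w : B) (ev P' w) := ⟨w.2, rfl⟩
        refine (FF.isUnit_iff P' w).2 ⟨fun h0 => hw ?_, h1.ord_eq_zero hw⟩
        have h2 : w = 0 := Subtype.ext h0
        rw [h2, map_zero]) (fun v => by
        obtain ⟨h1, h2⟩ := hP' v _ ⟨v.2, rfl⟩
        exact ⟨h1, h2⟩) (fun u => by
        obtain ⟨h1, h2⟩ := hasVal_algebraMap P' u
        exact ⟨h1, h2⟩) hy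
    exact h1

/-- the constant place of `B` above a place of `F` -/
noncomputable def con (Q : Place K F) : Place U B := (exists_con d Q).choose

variable {d}

theorem hasVal_con {Q : Place K F} {f : F} {c : K} (h : HasVal Q f c) :
    HasVal (con d Q) (d.ι f) (algebraMap K U c) := (exists_con d Q).choose_spec.1 f c h

theorem ord_con (Q : Place K F) (f : F) : (con d Q).ord (d.ι f) = Q.ord f :=
  (exists_con d Q).choose_spec.2.1 f

theorem eq_con {Q : Place K F} {P : Place U B}
    (h : ∀ f c, HasVal Q f c → HasVal P (d.ι f) (algebraMap K U c)) : P = con d Q :=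
  (exists_con d Q).choose_spec.2.2 P h

theorem con_injective : Function.Injective (con d) := by
  intro Q Q' h
  apply eq_of_le
  intro f hf
  apply mem_of_ord_nonneg
  rw [← ord_con (d := d) Q', ← h, ord_con]
  exact ord_nonneg_of_mem Q hf

variable (d) in
/-- the place of `B` defined by an embedding -/
noncomputable def pl (σ : F →ₐ[K] U) : Place U B := (exists_pl d σ).choose

theorem hasVal_pl (σ : F →ₐ[K] U) (f : F) : HasVal (pl d σ) (d.ι f) (σ f) :=
  (exists_pl d σ).choose_spec f

theorem eq_pl {σ : F →ₐ[K] U} {P : Place U B} (h : ∀ f, HasVal P (d.ι f) (σ f)) :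
    P = pl d σ := by
  obtain ⟨x, hx, hs⟩ := exists_separating K F
  exact (card_bound hx h (hasVal_pl σ)).1

theorem ord_pl (σ : F →ₐ[K] U) {x : F} (hx : Transcendental K x) [Algebra.IsSeparable K⟮x⟯ F] :
    (pl d σ).ord (d.ι x - algebraMap U B (σ x)) = 1 :=
  (card_bound hx (hasVal_pl σ) (hasVal_pl σ)).2

theorem pl_injective : Function.Injective (pl d) := by
  intro σ σ' h
  ext f
  have h1 := hasVal_pl (d := d) σ f
  rw [h] at h1
  exact h1.unique (hasVal_pl σ' f)

theorem ord_pl_ι (σ : F →ₐ[K] U) (f : F) : (pl d σ).ord (d.ι f) = 0 := by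
  rcases eq_or_ne f 0 with rfl | hf
  · rw [map_zero, Place.ord_zero]
  · exact (hasVal_pl σ f).ord_eq_zero ((map_ne_zero σ).mpr hf)

theorem pl_ne_con (σ : F →ₐ[K] U) (Q : Place K F) : pl d σ ≠ con d Q := by
  intro h
  obtain ⟨t, ht0, ht⟩ := exists_ord_eq_one Q
  have h1 := ord_pl_ι (d := d) σ t
  rw [h, ord_con, ht] at h1
  omega

variable (d) in
/-- classification of the places of `B` -/
theorem pl_or_con (P : Place U B) : (∃ σ, P = pl d σ) ∨ ∃ Q, P = con d Q := by
  let V : ValuationSubring F := P.toValuationSubring.comap d.ι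
  have hVmem : ∀ f, f ∈ V ↔ d.ι f ∈ P.toValuationSubring := fun f => Iff.rfl
  by_cases hV : V = ⊤
  · left
    have hall : ∀ f, d.ι f ∈ P.toValuationSubring := fun f => by
      rw [← hVmem, hV]; trivial
    let σ : F →ₐ[K] U :=
      { toFun := fun f => ev P ⟨d.ι f, hall f⟩
        map_one' := by
          rw [← map_one (ev P)]
          congr 1
          exact Subtype.ext (map_one d.ι)
        map_mul' := fun f g => by
          rw [← map_mul]
          congr 1
          exact Subtype.ext (map_mul d.ι _ _)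
        map_zero' := by
          rw [← map_zero (ev P)]
          congr 1
          exact Subtype.ext (map_zero d.ι)
        map_add' := fun f g => by
          rw [← map_add]
          congr 1
          exact Subtype.ext (map_add d.ι _ _)
        commutes' := fun a => by
          obtain ⟨h1, h2⟩ := hasVal_algebraMap P (algebraMap K U a)
          rw [← h2]
          congr 1
          exact Subtype.ext (d.ι_alg a) }
    exact ⟨σ, eq_pl fun f => ⟨hall f, rfl⟩⟩
  · right
    obtain ⟨Q, hQ⟩ := exists_place_of_valuationSubring (K := K) V (fun a => by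
      rw [hVmem, d.ι_alg]
      exact P.algebraMap_mem' _) hV
    refine ⟨Q, eq_con fun f c hf => ?_⟩
    rw [hasVal_iff, ← d.ι_alg, ← map_sub]
    rw [hasVal_iff] at hf
    rcases hf with hf | hf
    · left; rw [hf, map_zero]
    · right
      have h0 : f - algebraMap K F c ≠ 0 := by
        intro h0
        rw [h0, Q.ord_zero] at hf
        exact lt_irrefl _ hf
      apply place_ord_pos P ((map_ne_zero d.ι).mpr h0)
      rw [← map_inv₀, ← hVmem, ← hQ]
      intro h1
      have h2 := ord_nonneg_of_mem Q h1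
      rw [Q.ord_inv] at h2
      omega

/-- an equation `P = con Q` from the values on `F` -/
theorem eq_con_of_ord_ne_zero {P : Place U B} {f : F} (h : P.ord (d.ι f) ≠ 0) :
    ∃ Q, P = con d Q := by
  rcases pl_or_con d P with ⟨σ, rfl⟩ | h1
  · exact absurd (ord_pl_ι σ f) h
  · exact h1

variable (d) in
/-- the extension of divisors -/
noncomputable def liftDiv : Divisor K F →+ Divisor U B := Finsupp.mapDomain.addMonoidHom (con d)

theorem liftDiv_con (D : Divisor K F) (Q : Place K F) : liftDiv d D (con d Q) = D Q :=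
  Finsupp.mapDomain_apply con_injective _ _

theorem liftDiv_pl (D : Divisor K F) (σ : F →ₐ[K] U) : liftDiv d D (pl d σ) = 0 := by
  apply Finsupp.mapDomain_notin_range
  rintro ⟨Q, hQ⟩
  exact pl_ne_con σ Q hQ.symm

theorem liftDiv_single (Q : Place K F) (n : ℤ) :
    liftDiv d (Finsupp.single Q n) = Finsupp.single (con d Q) n := Finsupp.mapDomain_single

theorem liftDiv_ext {D : Divisor K F} {E : Divisor U B} (h1 : ∀ Q, E (con d Q) = D Q)
    (h2 : ∀ σ, E (pl d σ) = 0) : E = liftDiv d D := by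
  ext P
  rcases pl_or_con d P with ⟨σ, rfl⟩ | ⟨Q, rfl⟩
  · rw [h2, liftDiv_pl]
  · rw [h1, liftDiv_con]

theorem divOf_ι (f : F) : RR.divOf (K := U) (d.ι f) = liftDiv d (RR.divOf (K := K) f) := by
  apply liftDiv_ext
  · intro Q
    rw [RR.divOf_apply, RR.divOf_apply, ord_con]
  · intro σ
    rw [RR.divOf_apply, ord_pl_ι]

theorem degree_liftDiv (D : Divisor K F) :
    Divisor.degree (liftDiv d D) = Divisor.degree D := by
  induction D using Finsupp.induction_linear with
  | zero => rw [map_zero, map_zero, map_zero]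
  | add D E hD hE => rw [map_add, map_add, map_add, hD, hE]
  | single Q n => rw [liftDiv_single, RR.degree_single', RR.degree_single']

theorem liftDiv_nonneg {D : Divisor K F} (h : 0 ≤ D) : 0 ≤ liftDiv d D := by
  intro P
  rcases pl_or_con d P with ⟨σ, rfl⟩ | ⟨Q, rfl⟩
  · rw [liftDiv_pl]; rfl
  · rw [liftDiv_con]; exact h Q

end Con

end Fermat.Agent.AV
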