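import Fermat.Agent.AV.CubeBase
import Fermat.Agent.AV.PlSigma

/-!
# The two reductions of a point on a constant curve
-/

set_option autoImplicit false
set_option linter.style.haveILetI false
set_option linter.unusedSectionVars false

universe u

open AlgebraicCurve

namespace Fermat.Agent.AV

open Fermat.Agent.FF Fermat.Agent.Red Fermat.Agent.BCh

variable {K : Type u} [Field K] {Ω L F B : Type u} [Field Ω] [Field L] [Field F] [Field B]
  [Algebra K Ω] [Algebra K L] [Algebra K F] [Algebra K B]
  [Algebra Ω F] [Algebra Ω L] [Algebra L B]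
  [IsScalarTower K Ω F] [IsScalarTower K Ω L] [IsScalarTower K L B]

section Defs

variable (K)

/-- the valuation ring of a place of the constants -/
def kpVal (p : KPlace Ω L Ω) : KVal K L where
  toValuationSubring := p.V
  algebraMap_mem' a := by
    rw [IsScalarTower.algebraMap_apply K Ω L]
    exact p.mem _

/-- the residue map of a place of the constants -/
def kpRes (p : KPlace Ω L Ω) : (kpVal K p).R →ₐ[K] Ω :=
  { (p.π : p.V →+* Ω) with
    commutes' := fun a => by
      refine Eq.trans ?_ (p.π_alg (algebraMap K Ω a))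
      show p.π _ = _
      congr 1
      exact Subtype.ext (IsScalarTower.algebraMap_apply K Ω L a) }

theorem kpRes_apply (p : KPlace Ω L Ω) (a : (kpVal K p).R) :
    kpRes K p a = p.π ⟨a.1, a.2⟩ := rfl

theorem isUnit_of_kpRes (p : KPlace Ω L Ω) (a : (kpVal K p).R) (h : IsUnit (kpRes K p a)) :
    IsUnit a := by
  by_contra h1
  exact h.ne_zero ((p.ker _).2 h1)

/-- the Gauss valuation ring -/
noncomputable def gVal (d : Ext Ω F L B) (p : KPlace Ω L Ω) : KVal K B where
  toValuationSubring := (gaussRed d (extRefl Ω F) p).O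
  algebraMap_mem' a := by
    rw [IsScalarTower.algebraMap_apply K L B]
    exact ((gaussRed d (extRefl Ω F) p).algebraMap_mem_iff _).2 ((kpVal K p).algebraMap_mem' a)

/-- the Gauss residue map -/
noncomputable def gRes (d : Ext Ω F L B) (p : KPlace Ω L Ω) : (gVal K d p).R →ₐ[K] F :=
  { ((gaussRed d (extRefl Ω F) p).red : (gaussRed d (extRefl Ω F) p).O →+* F) with
    commutes' := fun a => by
      have h1 := (gaussRed d (extRefl Ω F) p).isRed_algebraMap ((kpVal K p).algebraMap_mem' a)
      obtain ⟨h2, h3⟩ := h1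
      have h4 : p.π ⟨algebraMap K L a, (kpVal K p).algebraMap_mem' a⟩ = algebraMap K Ω a :=
        (kpRes K p).commutes a
      rw [h4, ← IsScalarTower.algebraMap_apply K Ω F] at h3
      refine Eq.trans ?_ h3
      show (gaussRed d (extRefl Ω F) p).red _ = _
      congr 1
      exact Subtype.ext (IsScalarTower.algebraMap_apply K L B a) }

theorem gRes_of_isRed {d : Ext Ω F L B} {p : KPlace Ω L Ω} {z : B} {y : F}
    (h : (gaussRed d (extRefl Ω F) p).IsRed z y) :
    ∃ hz : z ∈ (gVal K d p).toValuationSubring, gRes K d p ⟨z, hz⟩ = y := h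

theorem isUnit_of_gRes (d : Ext Ω F L B) (p : KPlace Ω L Ω) (a : (gVal K d p).R)
    (h : IsUnit (gRes K d p a)) : IsUnit a := by
  by_contra h1
  exact h.ne_zero (((gaussRed d (extRefl Ω F) p).red_eq_zero_iff _).2 h1)

/-- the embedding of the function field -/
def iK (d : Ext Ω F L B) : F →ₐ[K] B :=
  { d.ι with
    commutes' := fun a => by
      show d.ι (algebraMap K F a) = _
      rw [IsScalarTower.algebraMap_apply K Ω F, d.ι_alg,
        ← IsScalarTower.algebraMap_apply K Ω L, ← IsScalarTower.algebraMap_apply K L B] }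

theorem iK_apply (d : Ext Ω F L B) (f : F) : iK K d f = d.ι f := rfl

end Defs

section Points

variable {V : GrpVar K} (d : Ext Ω F L B) (p : KPlace Ω L Ω)

/-- the Gauss reduction of a point defined over `F` -/
theorem redG_ι (ψ : V.pt F) : V.red (gVal K d p) (gRes K d p) (V.map (iK K d) ψ) = ψ := by
  have hι : ∀ f : F, ∃ hz : d.ι f ∈ (gVal K d p).toValuationSubring,
      gRes K d p ⟨d.ι f, hz⟩ = f := fun f =>
    gRes_of_isRed K (gaussRed_isRed_ι d (extRefl Ω F) p f)
  let g : F →ₐ[K] (gVal K d p).R :=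
    { toFun := fun f => ⟨d.ι f, (hι f).1⟩
      map_one' := Subtype.ext (map_one d.ι)
      map_mul' := fun a b => Subtype.ext (map_mul d.ι a b)
      map_zero' := Subtype.ext (map_zero d.ι)
      map_add' := fun a b => Subtype.ext (map_add d.ι a b)
      commutes' := fun a => Subtype.ext ((iK K d).commutes a) }
  rw [V.red_map_eq _ _ (iK K d) g (fun f => rfl)]
  have h1 : (gRes K d p).comp g = AlgHom.id K F := AlgHom.ext fun f => (hι f).2
  rw [h1, V.map_id]

/-- the Gauss reduction of a constant point -/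
theorem redG_const (b : V.pt L) :
    V.red (gVal K d p) (gRes K d p) (V.map (IsScalarTower.toAlgHom K L B) b) =
      V.map (IsScalarTower.toAlgHom K Ω F) (V.red (kpVal K p) (kpRes K p) b) := by
  have hm : ∀ a : (kpVal K p).R, ∃ hz : algebraMap L B a ∈ (gVal K d p).toValuationSubring,
      gRes K d p ⟨algebraMap L B a, hz⟩ = algebraMap Ω F (kpRes K p a) := fun a =>
    gRes_of_isRed K ((gaussRed d (extRefl Ω F) p).isRed_algebraMap a.2)
  let g : (kpVal K p).R →ₐ[K] (gVal K d p).R :=
    { toFun := fun a => ⟨algebraMap L B a, (hm a).1⟩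
      map_one' := Subtype.ext (map_one (algebraMap L B))
      map_mul' := fun a b => Subtype.ext (map_mul (algebraMap L B) (a : L) (b : L))
      map_zero' := Subtype.ext (map_zero (algebraMap L B))
      map_add' := fun a b => Subtype.ext (map_add (algebraMap L B) (a : L) (b : L))
      commutes' := fun a => Subtype.ext (IsScalarTower.algebraMap_apply K L B a).symm }
  rw [V.red_map_eq' (gVal K d p) (gRes K d p) (kpVal K p) (IsScalarTower.toAlgHom K L B) g
    (fun a => rfl), GrpVar.red_apply, ← V.map_comp]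
  congr 1
  exact congrArg V.map (AlgHom.ext fun a => (hm a).2)

end Points

section Const

variable {Ω E : Type u} [Field Ω] [Field E] [Algebra K Ω] [Algebra K E] [Algebra Ω E]
  [IsScalarTower K Ω E] [IsAlgClosed Ω] [IsFnField Ω E] {V : GrpVar K}

/-- the reduction of a constant point at a place -/
theorem redP_const (P : Place Ω E) (b : V.pt Ω) :
    V.red (KVal.ofPlace P) (evP K P) (V.map (IsScalarTower.toAlgHom K Ω E) b) = b := by
  have hm : ∀ a : Ω, HasVal P (algebraMap Ω E a) a := fun a => hasVal_algebraMap P a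
  let g : Ω →ₐ[K] (KVal.ofPlace (K := K) P).R :=
    { toFun := fun a => ⟨algebraMap Ω E a, (hm a).mem⟩
      map_one' := Subtype.ext (map_one (algebraMap Ω E))
      map_mul' := fun a b => Subtype.ext (map_mul (algebraMap Ω E) a b)
      map_zero' := Subtype.ext (map_zero (algebraMap Ω E))
      map_add' := fun a b => Subtype.ext (map_add (algebraMap Ω E) a b)
      commutes' := fun a => Subtype.ext (IsScalarTower.algebraMap_apply K Ω E a).symm }
  rw [V.red_map_eq _ _ (IsScalarTower.toAlgHom K Ω E) g (fun f => rfl)]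
  have h1 : (evP K P).comp g = AlgHom.id K Ω := AlgHom.ext fun f =>
    (evP_eq_iff (K := K) P _ _).2 (hm f)
  rw [h1, V.map_id]

end Const

section Places

variable {V : GrpVar K} (d : Ext Ω F L B) (p : KPlace Ω L Ω)
  [IsAlgClosed Ω] [IsFnField Ω F] [IsAlgClosed L] [IsFnField L B]

/-- the double reduction of a point defined over `F` -/
theorem redWP_ι {P : Place L B} {u : Place Ω F}
    (h : ∀ f c, HasVal u f c → ∃ (c' : L) (hc : c' ∈ p.V), HasVal P (d.ι f) c' ∧
      p.π ⟨c', hc⟩ = c) (ψ : V.pt F) :
    V.red (kpVal K p) (kpRes K p) (V.red (KVal.ofPlace P) (evP K P) (V.map (iK K d) ψ)) =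
      V.red (KVal.ofPlace u) (evP K u) ψ := by
  have h1 : ∀ f : (KVal.ofPlace (K := K) u).R, ∃ (hf : d.ι f ∈ P.toValuationSubring)
      (hc : evP K P ⟨d.ι f, hf⟩ ∈ p.V), p.π ⟨_, hc⟩ = evP K u f := by
    intro f
    obtain ⟨c', hc, h2, h3⟩ := h f _ (hasVal_evP u f)
    have h4 : evP K P ⟨d.ι f, h2.mem⟩ = c' := (evP_eq_iff (K := K) P _ _).2 h2
    refine ⟨h2.mem, by rw [h4]; exact hc, ?_⟩
    rw [← h3]
    congr 1
    exact Subtype.ext h4
  let g : (KVal.ofPlace (K := K) u).R →ₐ[K] (KVal.ofPlace (K := K) P).R :=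
    { toFun := fun f => ⟨d.ι f, (h1 f).1⟩
      map_one' := Subtype.ext (map_one d.ι)
      map_mul' := fun a b => Subtype.ext (map_mul d.ι (a : F) (b : F))
      map_zero' := Subtype.ext (map_zero d.ι)
      map_add' := fun a b => Subtype.ext (map_add d.ι (a : F) (b : F))
      commutes' := fun a => Subtype.ext ((iK K d).commutes a) }
  let g' : (KVal.ofPlace (K := K) u).R →ₐ[K] (kpVal K p).R :=
    { toFun := fun f => ⟨evP K P (g f), (h1 f).2.choose⟩
      map_one' := Subtype.ext ((congrArg (evP K P) (map_one g)).trans (map_one (evP K P)))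
      map_mul' := fun a b => Subtype.ext
        ((congrArg (evP K P) (map_mul g a b)).trans (map_mul (evP K P) _ _))
      map_zero' := Subtype.ext ((congrArg (evP K P) (map_zero g)).trans (map_zero (evP K P)))
      map_add' := fun a b => Subtype.ext
        ((congrArg (evP K P) (map_add g a b)).trans (map_add (evP K P) _ _))
      commutes' := fun a => Subtype.ext
        ((congrArg (evP K P) (g.commutes a)).trans ((evP K P).commutes a)) }
  rw [V.red_map_eq' (KVal.ofPlace P) (evP K P) (KVal.ofPlace u) (iK K d) g (fun f => rfl)]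
  have e1 : (evP K P).comp g = (kpVal K p).incl.comp g' := rfl
  rw [e1, V.red_map_incl, GrpVar.red_apply]
  congr 1
  exact congrArg V.map (AlgHom.ext fun f => (h1 f).2.choose_spec)

/-- the double reduction of the sum of a point over `F` and a constant point -/
theorem redWP_eq {P : Place L B} {u : Place Ω F}
    (h : ∀ f c, HasVal u f c → ∃ (c' : L) (hc : c' ∈ p.V), HasVal P (d.ι f) c' ∧
      p.π ⟨c', hc⟩ = c) (ψ : V.pt F) (b : V.pt L) :
    V.red (kpVal K p) (kpRes K p) (V.red (KVal.ofPlace P) (evP K P)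
      (V.map (iK K d) ψ + V.map (IsScalarTower.toAlgHom K L B) b)) =
    V.red (KVal.ofPlace u) (evP K u) (V.red (gVal K d p) (gRes K d p)
      (V.map (iK K d) ψ + V.map (IsScalarTower.toAlgHom K L B) b)) := by
  rw [map_add, map_add, map_add, map_add, redWP_ι d p h, redG_ι, redG_const, redP_const,
    redP_const]

/-- the center of the double reduction -/
theorem loc_center_le_ctrP (P : Place L B) (Q : V.pt B) :
    V.loc (V.center (V.red (kpVal K p) (kpRes K p) (V.red (KVal.ofPlace P) (evP K P) Q))) ≤
      V.loc (V.ctr (KVal.ofPlace P) Q) := by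
  rw [V.center_red _ _ (isUnit_of_kpRes K p), ← V.center_red _ _ (isUnit_of_evP P)]
  exact V.loc_ctr_le _ _

theorem loc_center_le_ctrG (u : Place Ω F) (Q : V.pt B) :
    V.loc (V.center (V.red (KVal.ofPlace u) (evP K u) (V.red (gVal K d p) (gRes K d p) Q))) ≤
      V.loc (V.ctr (gVal K d p) Q) := by
  rw [V.center_red _ _ (isUnit_of_evP u), ← V.center_red _ _ (isUnit_of_gRes K d p)]
  exact V.loc_ctr_le _ _

/-- the value of the normalised local equation -/
theorem hasVal_at_div_lat (D : CDiv V) (P : Place L B) (Q : V.pt B) :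
    HasVal P (D.at' Q (V.center (V.red (kpVal K p) (kpRes K p)
      (V.red (KVal.ofPlace P) (evP K P) Q))) / D.lat (KVal.ofPlace P) Q)
      (D.lat (kpVal K p) (V.red (KVal.ofPlace P) (evP K P) Q)) := by
  have h1 := loc_center_le_ctrP (K := K) p P Q
  have h2 := CDiv.at_red (D := D) (isUnit_of_evP P) Q h1
  have h3 := (evP_eq_iff (K := K) P _ _).1 h2.symm
  have h4 : D.lat (kpVal K p) (V.red (KVal.ofPlace P) (evP K P) Q) =
      D.at' (V.red (KVal.ofPlace P) (evP K P) Q) (V.center (V.red (kpVal K p) (kpRes K p)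
        (V.red (KVal.ofPlace P) (evP K P) Q))) := by
    rw [V.center_red _ _ (isUnit_of_kpRes K p)]
    rfl
  rw [h4]
  exact h3

end Places

end Fermat.Agent.AV
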