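import Fermat.Agent.AV.CubeDeg
import Fermat.Agent.Red.Regular

/-!
# The specialisation maps: values of functions which are regular on a residue disc
-/

set_option autoImplicit false
set_option linter.style.haveILetI false
set_option linter.unusedSectionVars false

universe u

open AlgebraicCurve

namespace Fermat.Agent.AV

open Fermat.Agent.FF Fermat.Agent.Red Fermat.Agent.BCh

theorem cube_spec_val {K k : Type*} [Field K] [Field k] {A : ValuationSubring K} {π : A →+* k}
    {F Fk : Type*} [Field F] [Algebra K F] [Field Fk] [Algebra k Fk]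
    {R : ConstRed A π F Fk} {x : F} {xb : Fk}
    [IsAlgClosed K] [IsFnField K F] [IsAlgClosed k] [IsFnField k Fk]
    (hC : Chart R x xb) (hC' : Chart R x⁻¹ xb⁻¹) {Q : Place k Fk} {g : F} {γ : Fk}
    (hg : R.IsRed g γ) (hreg : ∀ P : Place K F, Red.spec hC hC' P = Q → 0 ≤ P.ord g)
    {P : Place K F} (hP : Red.spec hC hC' P = Q) {c : K} (hc : HasVal P g c) :
    ∃ h : c ∈ A, HasVal Q γ (π ⟨c, h⟩) := by
  by_cases hQ : 0 ≤ Q.ord xb
  · rw [spec_eq_iff hC hC' hQ] at hP
    exact hC.val_of_regular hg (fun P' hP' => hreg P' ((spec_eq_iff hC hC' hQ).2 hP')) hP hc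
  · push Not at hQ
    rw [spec_eq_iff' hC hC' hQ] at hP
    exact hC'.val_of_regular hg (fun P' hP' => hreg P' ((spec_eq_iff' hC hC' hQ).2 hP')) hP hc

theorem cubeSpStmt : CubeSpStmt.{u} := by
  intro Ω L F B _ _ _ _ _ _ _ _ _ _ _ d p
  exact ⟨{
    sp := sp d p
    val := fun P f c h => by
      obtain ⟨c', h1, h2⟩ := val_sp h
      exact ⟨c', c'.2, h1, h2⟩
    reg := fun u g hg hreg P hP c hc => by
      obtain ⟨γ, hγ⟩ := (cred d p).exists_isRed_of_mem hg
      exact (cube_spec_val
        (chart_of d p (exists_separating Ω F).choose_spec.1 (exists_separating Ω F).choose_spec.2)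
        (chart_inv d p (exists_separating Ω F).choose_spec.1 (exists_separating Ω F).choose_spec.2)
        hγ hreg hP hc).1 }⟩

end Fermat.Agent.AV
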