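import Fermat.Agent.AV.CubeRed

/-!
# Values of a function on a constant curve, up to units of the constants
-/

set_option autoImplicit false
set_option linter.style.haveILetI false
set_option linter.unusedSectionVars false

universe u

open AlgebraicCurve

namespace Fermat.Agent.AV

open Fermat.Agent.FF Fermat.Agent.Red Fermat.Agent.BCh

section El

variable {K : Type u} [Field K] {V : GrpVar K} (D : CDiv V) {E : Type u} [Field E] [Algebra K E]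

/-- the combination of local equations which is used in the theorem of the cube -/
noncomputable def el (O : KVal K E) (Q₁ Q₂ Q₃ : V.pt E) : E :=
  D.lat O Q₁ * D.lat O Q₂ / D.lat O Q₃ ^ 2

theorem el_ne_zero (O : KVal K E) (Q₁ Q₂ Q₃ : V.pt E) : el D O Q₁ Q₂ Q₃ ≠ 0 :=
  div_ne_zero (mul_ne_zero (CDiv.lat_ne_zero _ _) (CDiv.lat_ne_zero _ _))
    (pow_ne_zero _ (CDiv.lat_ne_zero _ _))

theorem el_map {E' : Type u} [Field E'] [Algebra K E'] (O : KVal K E) (O' : KVal K E')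
    (f : E →ₐ[K] E') (h : ∀ a, f a ∈ O'.toValuationSubring ↔ a ∈ O.toValuationSubring)
    (Q₁ Q₂ Q₃ : V.pt E) :
    el D O' (V.map f Q₁) (V.map f Q₂) (V.map f Q₃) = f (el D O Q₁ Q₂ Q₃) := by
  rw [el, el, lat_map D O O' f h, lat_map D O O' f h, lat_map D O O' f h, map_div₀, map_mul,
    map_pow]

theorem ord_el {Ω : Type u} [Field Ω] [Algebra K Ω] [Algebra Ω E] [IsScalarTower K Ω E]
    (v : Place Ω E) (Q₁ Q₂ Q₃ : V.pt E) : v.ord (el D (KVal.ofPlace v) Q₁ Q₂ Q₃) =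
      D.ordAt Q₁ v + D.ordAt Q₂ v - 2 * D.ordAt Q₃ v := by
  rw [el, CDiv.ord_div v (mul_ne_zero (CDiv.lat_ne_zero _ _) (CDiv.lat_ne_zero _ _))
    (pow_ne_zero _ (CDiv.lat_ne_zero _ _)), v.ord_mul (CDiv.lat_ne_zero _ _)
    (CDiv.lat_ne_zero _ _), sq, v.ord_mul (CDiv.lat_ne_zero _ _) (CDiv.lat_ne_zero _ _)]
  simp only [CDiv.ordAt]
  ring

end El

variable {K : Type u} [Field K] {Ω L F B : Type u} [Field Ω] [Field L] [Field F] [Field B]
  [Algebra K Ω] [Algebra K L] [Algebra K F] [Algebra K B]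
  [Algebra Ω F] [Algebra Ω L] [Algebra L B]
  [IsScalarTower K Ω F] [IsScalarTower K Ω L] [IsScalarTower K L B]
  [IsAlgClosed Ω] [IsFnField Ω F] [IsAlgClosed L] [IsFnField L B]

omit [IsScalarTower K Ω F] [IsScalarTower K Ω L] [IsScalarTower K L B] in
/-- a specialisation map of places along a place of the constants -/
structure CubeSpData (d : Ext Ω F L B) (p : KPlace Ω L Ω) where
  sp : Place L B → Place Ω F
  val : ∀ P f c, HasVal (sp P) f c → ∃ (c' : L) (hc : c' ∈ p.V), HasVal P (d.ι f) c' ∧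
    p.π ⟨c', hc⟩ = c
  reg : ∀ (u : Place Ω F) (g : B), g ∈ (gaussRed d (extRefl Ω F) p).O →
    (∀ P, sp P = u → 0 ≤ P.ord g) → ∀ P, sp P = u → ∀ c, HasVal P g c → c ∈ p.V

section Main

variable {V : GrpVar K} {d : Ext Ω F L B} {p : KPlace Ω L Ω}

/-- the point `ψ + b` of the constant curve -/
noncomputable def qpt (K : Type u) [Field K] [Algebra K Ω] [Algebra K L] [Algebra K F]
    [Algebra K B] [IsScalarTower K Ω F] [IsScalarTower K Ω L] [IsScalarTower K L B]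
    {V : GrpVar K} (d : Ext Ω F L B) (ψ : V.pt F) (b : V.pt L) : V.pt B :=
  V.map (iK K d) ψ + V.map (IsScalarTower.toAlgHom K L B) b

variable (D : CDiv V)

/-- all equations of the points on a residue disc -/
theorem exists_scale_val (S : CubeSpData d p) {G : B} (hG : G ≠ 0) (ψ₁ ψ₂ ψ₃ : V.pt F)
    (b₁ b₂ b₃ : V.pt L) (hord : ∀ P : Place L B, P.ord G = D.ordAt (qpt K d ψ₁ b₁) P +
      D.ordAt (qpt K d ψ₂ b₂) P - 2 * D.ordAt (qpt K d ψ₃ b₃) P) :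
    ∃ c : L, c ≠ 0 ∧ ∀ (P : Place L B) (γ : L),
      HasVal P (G / el D (KVal.ofPlace P) (qpt K d ψ₁ b₁) (qpt K d ψ₂ b₂) (qpt K d ψ₃ b₃)) γ →
      γ * c / el D (kpVal K p) (V.red (KVal.ofPlace P) (evP K P) (qpt K d ψ₁ b₁))
        (V.red (KVal.ofPlace P) (evP K P) (qpt K d ψ₂ b₂))
        (V.red (KVal.ofPlace P) (evP K P) (qpt K d ψ₃ b₃)) ∈ p.V ∧
      (γ * c / el D (kpVal K p) (V.red (KVal.ofPlace P) (evP K P) (qpt K d ψ₁ b₁))
        (V.red (KVal.ofPlace P) (evP K P) (qpt K d ψ₂ b₂))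
        (V.red (KVal.ofPlace P) (evP K P) (qpt K d ψ₃ b₃)))⁻¹ ∈ p.V := by
  set Q₁ := qpt K d ψ₁ b₁ with hQ₁
  set Q₂ := qpt K d ψ₂ b₂ with hQ₂
  set Q₃ := qpt K d ψ₃ b₃ with hQ₃
  obtain ⟨c, hc, hc1, hc2⟩ := (gaussRed d (extRefl Ω F) p).exists_scale
    (G / el D (gVal K d p) Q₁ Q₂ Q₃) (div_ne_zero hG (el_ne_zero D _ _ _ _))
  have hcB : algebraMap L B c ≠ 0 := (map_ne_zero_iff _ (algebraMap L B).injective).mpr hc
  refine ⟨c, hc, fun P γ hγ => ?_⟩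
  -- the centers
  let y : V.pt B → V.X := fun Q => V.center (V.red (KVal.ofPlace (S.sp P)) (evP K (S.sp P))
    (V.red (gVal K d p) (gRes K d p) Q))
  have hy : ∀ (P' : Place L B), S.sp P' = S.sp P → ∀ (ψ : V.pt F) (b : V.pt L),
      V.center (V.red (kpVal K p) (kpRes K p) (V.red (KVal.ofPlace P') (evP K P')
        (qpt K d ψ b))) = y (qpt K d ψ b) := by
    intro P' hP' ψ b
    have h1 := redWP_eq (K := K) (V := V) d p (P := P') (u := S.sp P)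
      (fun f c h => S.val P' f c (by rw [hP']; exact h)) ψ b
    exact congrArg V.center h1
  have hloc : ∀ (P' : Place L B), S.sp P' = S.sp P → ∀ (ψ : V.pt F) (b : V.pt L),
      V.loc (y (qpt K d ψ b)) ≤ V.loc (V.ctr (KVal.ofPlace P') (qpt K d ψ b)) := by
    intro P' hP' ψ b
    rw [← hy P' hP']
    exact loc_center_le_ctrP p P' _
  have hlocG : ∀ Q : V.pt B, V.loc (y Q) ≤ V.loc (V.ctr (gVal K d p) Q) := fun Q =>
    loc_center_le_ctrG d p _ Q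
  -- the equations
  let H : V.pt B → B := fun Q => D.at' Q (y Q)
  have hH0 : ∀ Q, H Q ≠ 0 := fun Q =>
    CDiv.at_ne_zero ((hlocG Q).trans (V.loc_ctr_le _ _))
  have hHG : ∀ Q, H Q / D.lat (gVal K d p) Q ∈ (gVal K d p).toValuationSubring ∧
      (H Q / D.lat (gVal K d p) Q)⁻¹ ∈ (gVal K d p).toValuationSubring := fun Q =>
    CDiv.at_div_lat_mem' (gVal K d p) Q (hlocG Q)
  let EH : B := H Q₁ * H Q₂ / H Q₃ ^ 2
  have hEH0 : EH ≠ 0 := div_ne_zero (mul_ne_zero (hH0 _) (hH0 _)) (pow_ne_zero _ (hH0 _))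
  let z : B := algebraMap L B c * (G / EH)
  have hz0 : z ≠ 0 := mul_ne_zero hcB (div_ne_zero hG hEH0)
  have hl0 : ∀ Q, D.lat (gVal K d p) Q ≠ 0 := fun Q => CDiv.lat_ne_zero _ _
  have hzG : z = algebraMap L B c * (G / el D (gVal K d p) Q₁ Q₂ Q₃) *
      ((H Q₁ / D.lat (gVal K d p) Q₁)⁻¹ * (H Q₂ / D.lat (gVal K d p) Q₂)⁻¹ *
        (H Q₃ / D.lat (gVal K d p) Q₃) ^ 2) := by
    have h1 := hH0 Q₁
    have h2 := hH0 Q₂
    have h3 := hH0 Q₃
    have h4 := hl0 Q₁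
    have h5 := hl0 Q₂
    have h6 := hl0 Q₃
    simp only [z, EH, el]
    field_simp
  have hzinv : z⁻¹ = (algebraMap L B c * (G / el D (gVal K d p) Q₁ Q₂ Q₃))⁻¹ *
      ((H Q₁ / D.lat (gVal K d p) Q₁) * (H Q₂ / D.lat (gVal K d p) Q₂) *
        ((H Q₃ / D.lat (gVal K d p) Q₃)⁻¹) ^ 2) := by
    rw [hzG]
    simp only [mul_inv, inv_inv, inv_pow]
  have hz1 : z ∈ (gaussRed d (extRefl Ω F) p).O := by
    rw [hzG]
    exact mul_mem hc1 (mul_mem (mul_mem (hHG _).2 (hHG _).2) (pow_mem (hHG _).1 2))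
  have hz2 : z⁻¹ ∈ (gaussRed d (extRefl Ω F) p).O := by
    rw [hzinv]
    exact mul_mem hc2 (mul_mem (mul_mem (hHG _).1 (hHG _).1) (pow_mem (hHG _).2 2))
  have hordz : ∀ P', S.sp P' = S.sp P → P'.ord z = 0 := by
    intro P' hP'
    have e1 : P'.ord (algebraMap L B c) = 0 := (hasVal_algebraMap P' c).ord_eq_zero hc
    have e2 : ∀ (ψ : V.pt F) (b : V.pt L), D.ordAt (qpt K d ψ b) P' =
        P'.ord (H (qpt K d ψ b)) := fun ψ b => CDiv.ordAt_eq' _ P' (hloc P' hP' ψ b)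
    have e3 := hord P'
    rw [hQ₁, hQ₂, hQ₃, e2, e2, e2] at e3
    simp only [z, EH]
    rw [P'.ord_mul hcB (div_ne_zero hG hEH0), e1, CDiv.ord_div P' hG hEH0,
      CDiv.ord_div P' (mul_ne_zero (hH0 _) (hH0 _)) (pow_ne_zero _ (hH0 _)),
      P'.ord_mul (hH0 _) (hH0 _), sq, P'.ord_mul (hH0 _) (hH0 _), e3]
    ring
  -- the value of `z`
  obtain ⟨t, ht⟩ := exists_hasVal (P := P) (hordz P rfl).ge
  have ht0 : t ≠ 0 := by
    rintro rfl
    rcases hasVal_zero_iff.1 ht with h | h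
    · exact hz0 h
    · rw [hordz P rfl] at h
      exact lt_irrefl _ h
  have ht1 : t ∈ p.V := S.reg (S.sp P) z hz1 (fun P' hP' => (hordz P' hP').ge) P rfl t ht
  have ht2 : t⁻¹ ∈ p.V := S.reg (S.sp P) z⁻¹ hz2
    (fun P' hP' => by rw [P'.ord_inv, hordz P' hP', neg_zero]) P rfl _ (ht.inv ht0)
  -- the value of the equations
  have hv : ∀ (ψ : V.pt F) (b : V.pt L), HasVal P (H (qpt K d ψ b) /
      D.lat (KVal.ofPlace P) (qpt K d ψ b))
      (D.lat (kpVal K p) (V.red (KVal.ofPlace P) (evP K P) (qpt K d ψ b))) := by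
    intro ψ b
    have h1 := hasVal_at_div_lat p D P (qpt K d ψ b)
    rw [hy P rfl] at h1
    exact h1
  set l₁ := D.lat (kpVal K p) (V.red (KVal.ofPlace P) (evP K P) Q₁) with hl₁
  set l₂ := D.lat (kpVal K p) (V.red (KVal.ofPlace P) (evP K P) Q₂) with hl₂
  set l₃ := D.lat (kpVal K p) (V.red (KVal.ofPlace P) (evP K P) Q₃) with hl₃
  have hl₁0 : l₁ ≠ 0 := CDiv.lat_ne_zero _ _
  have hl₂0 : l₂ ≠ 0 := CDiv.lat_ne_zero _ _
  have hl₃0 : l₃ ≠ 0 := CDiv.lat_ne_zero _ _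
  have h1 := ((hv ψ₁ b₁).mul (hv ψ₂ b₂)).div ((hv ψ₃ b₃).pow 2) (pow_ne_zero _ hl₃0)
  have h2 := (ht.mul h1).mul (hasVal_algebraMap P c⁻¹)
  have h3 : z * (H Q₁ / D.lat (KVal.ofPlace P) Q₁ * (H Q₂ / D.lat (KVal.ofPlace P) Q₂) /
      (H Q₃ / D.lat (KVal.ofPlace P) Q₃) ^ 2) * algebraMap L B c⁻¹ =
      G / el D (KVal.ofPlace P) Q₁ Q₂ Q₃ := by
    have h1 := hH0 Q₁
    have h2 := hH0 Q₂
    have h3 := hH0 Q₃
    have h4 : D.lat (KVal.ofPlace P) Q₁ ≠ 0 := CDiv.lat_ne_zero _ _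
    have h5 : D.lat (KVal.ofPlace P) Q₂ ≠ 0 := CDiv.lat_ne_zero _ _
    have h6 : D.lat (KVal.ofPlace P) Q₃ ≠ 0 := CDiv.lat_ne_zero _ _
    simp only [z, EH, el, map_inv₀]
    field_simp
  rw [← hQ₁, ← hQ₂, ← hQ₃, h3] at h2
  have h4 := hγ.unique h2
  have h5 : γ * c / el D (kpVal K p) (V.red (KVal.ofPlace P) (evP K P) Q₁)
      (V.red (KVal.ofPlace P) (evP K P) Q₂) (V.red (KVal.ofPlace P) (evP K P) Q₃) = t := by
    rw [h4, el, ← hl₁, ← hl₂, ← hl₃]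
    field_simp
  rw [h5]
  exact ⟨ht1, ht2⟩

end Main

end Fermat.Agent.AV
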