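import Mathlib.RingTheory.LocalRing.Basic
import Mathlib.RingTheory.LocalRing.RingHom.Basic
import Mathlib.RingTheory.EssentialFiniteness
import Mathlib.RingTheory.AlgebraicIndependent.Basic
import Mathlib.RingTheory.Valuation.ValuationSubring
import Mathlib.FieldTheory.IsAlgClosed.Basic
import Mathlib.Algebra.MvPolynomial.Eval

/-!
# Abstract abelian varieties

`AbVar k` records what we use of an abelian variety over `k`: its function field, its local rings
and its functor of points with the group law. `AbVar.Dvr` records an effective Cartier divisor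
whose complement is affine.
-/

set_option autoImplicit false

universe u

namespace Fermat.Agent.AV

/-- An abelian variety, seen through its function field `𝔽`, its local rings `loc x ⊆ 𝔽` and its
functor of points. All rings are `k`-algebras in the universe of `k`. -/
structure AbVar (k : Type u) [Field k] where
  /-- the function field -/
  𝔽 : Type u
  [fieldF : Field 𝔽]
  [algF : Algebra k 𝔽]
  /-- the points of the underlying scheme -/
  X : Type u
  /-- the local rings -/
  loc : X → Subalgebra k 𝔽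
  [localLoc : ∀ x, IsLocalRing (loc x)]
  loc_frac : ∀ (x : X) (a : 𝔽), ∃ b ∈ loc x, ∃ c ∈ loc x, c ≠ 0 ∧ a = b / c
  /-- the generic point -/
  gp : X
  loc_gp : loc gp = ⊤
  /-- the `R`-points -/
  pt : ∀ (R : Type u) [CommRing R] [Algebra k R], Type u
  [grp : ∀ (R : Type u) [CommRing R] [Algebra k R], AddCommGroup (pt R)]
  /-- functoriality in `R` -/
  map : ∀ {R S : Type u} [CommRing R] [Algebra k R] [CommRing S] [Algebra k S],
    (R →ₐ[k] S) → (pt R →+ pt S)
  map_id : ∀ {R : Type u} [CommRing R] [Algebra k R] (P : pt R), map (AlgHom.id k R) P = P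
  map_comp : ∀ {R S T : Type u} [CommRing R] [Algebra k R] [CommRing S] [Algebra k S]
    [CommRing T] [Algebra k T] (g : S →ₐ[k] T) (f : R →ₐ[k] S) (P : pt R),
    map (g.comp f) P = map g (map f P)
  /-- the centre of a point over a local ring: the image of the closed point -/
  cen : ∀ {R : Type u} [CommRing R] [Algebra k R] [IsLocalRing R], pt R → X
  /-- evaluation of functions at a point over a local ring -/
  ev : ∀ {R : Type u} [CommRing R] [Algebra k R] [IsLocalRing R] (P : pt R), loc (cen P) →ₐ[k] R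
  ev_local : ∀ {R : Type u} [CommRing R] [Algebra k R] [IsLocalRing R] (P : pt R)
    (a : loc (cen P)), IsUnit (ev P a) → IsUnit a
  /-- a point over a local ring is determined by its centre and the evaluation -/
  ext : ∀ {R : Type u} [CommRing R] [Algebra k R] [IsLocalRing R] (P Q : pt R),
    cen P = cen Q →
    (∀ (a : 𝔽) (hP : a ∈ loc (cen P)) (hQ : a ∈ loc (cen Q)), ev P ⟨a, hP⟩ = ev Q ⟨a, hQ⟩) → P = Q
  exists_pt : ∀ {R : Type u} [CommRing R] [Algebra k R] [IsLocalRing R] (x : X)
    (φ : loc x →ₐ[k] R), (∀ a, IsUnit (φ a) → IsUnit a) →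
    ∃ P : pt R, cen P = x ∧
      ∀ (a : 𝔽) (h : a ∈ loc (cen P)) (h' : a ∈ loc x), ev P ⟨a, h⟩ = φ ⟨a, h'⟩
  loc_map : ∀ {R S : Type u} [CommRing R] [Algebra k R] [IsLocalRing R] [CommRing S]
    [Algebra k S] [IsLocalRing S] (ρ : R →ₐ[k] S) (P : pt R), loc (cen P) ≤ loc (cen (map ρ P))
  ev_map : ∀ {R S : Type u} [CommRing R] [Algebra k R] [IsLocalRing R] [CommRing S]
    [Algebra k S] [IsLocalRing S] (ρ : R →ₐ[k] S) (P : pt R) (a : 𝔽) (h : a ∈ loc (cen P)),
    ev (map ρ P) ⟨a, loc_map ρ P h⟩ = ρ (ev P ⟨a, h⟩)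
  /-- the centre of `map ρ P` is a generisation of the centre of `P` -/
  frac_map : ∀ {R S : Type u} [CommRing R] [Algebra k R] [IsLocalRing R] [CommRing S]
    [Algebra k S] [IsLocalRing S] (ρ : R →ₐ[k] S) (P : pt R) (a : 𝔽),
    a ∈ loc (cen (map ρ P)) → ∃ (b : 𝔽) (_ : b ∈ loc (cen P)) (c : 𝔽) (hc : c ∈ loc (cen P)),
      IsUnit (ρ (ev P ⟨c, hc⟩)) ∧ a * c = b
  cen_map : ∀ {R S : Type u} [CommRing R] [Algebra k R] [IsLocalRing R] [CommRing S]
    [Algebra k S] [IsLocalRing S] (ρ : R →ₐ[k] S), (∀ a, IsUnit (ρ a) → IsUnit a) →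
    ∀ P : pt R, cen (map ρ P) = cen P
  /-- the valuative criterion -/
  proper : ∀ {B : Type u} [Field B] [Algebra k B] (S : Subalgebra k B),
    (∀ x : B, x ∈ S ∨ x⁻¹ ∈ S) → Function.Bijective (map S.val)
  essFinite : Algebra.EssFiniteType k 𝔽

attribute [instance] AbVar.fieldF AbVar.algF AbVar.localLoc AbVar.grp

namespace AbVar

variable {k : Type u} [Field k]

/-- An effective Cartier divisor with affine complement: local equations `d x`, and generators
`f j` of the ring of functions of the complement. -/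
structure Dvr (A : AbVar k) where
  /-- the local equation at `x` -/
  d : A.X → A.𝔽
  d_ne : ∀ x, d x ≠ 0
  d_mem : ∀ x, d x ∈ A.loc x
  d_compat : ∀ x y, A.loc x ≤ A.loc y → d x / d y ∈ A.loc y ∧ d y / d x ∈ A.loc y
  /-- every point has an affine open neighbourhood `Spec B` on which `d x` is an equation -/
  chart : ∀ x, ∃ B : Subalgebra k A.𝔽, B.FG ∧ B ≤ A.loc x ∧
    (∀ a ∈ A.loc x, ∃ b ∈ B, ∃ c ∈ B, c ≠ 0 ∧ c⁻¹ ∈ A.loc x ∧ a * c = b) ∧
    (∀ p : Ideal B, p.IsPrime → ∃ y, ∀ a : A.𝔽, a ∈ A.loc y ↔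
      ∃ b c : B, c ∉ p ∧ a * (c : A.𝔽) = b) ∧
    ∀ y, B ≤ A.loc y → d x / d y ∈ A.loc y ∧ d y / d x ∈ A.loc y
  /-- the number of generators -/
  N : ℕ
  /-- generators of the ring of functions of the affine complement -/
  f : Fin N → A.𝔽
  f_gen : IntermediateField.adjoin k (Set.range f) = ⊤
  /-- a bound for the poles of the `f j` -/
  m : ℕ
  pole : ∀ x j, d x ^ m * f j ∈ A.loc x
  /-- a bound for the degree needed to write `1 / d` -/
  M : ℕ
  expr : ∀ x, ∃ p : MvPolynomial (Fin N) A.𝔽, (∀ e, p.coeff e ∈ A.loc x) ∧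
    p.totalDegree ≤ M ∧ d x * MvPolynomial.eval f p = 1

end AbVar

/-- A place of the field `B` with values in the field `M`, trivial on `k`: a valuation ring `S`
containing `k` with a surjective residue map. -/
structure Plc (k B M : Type*) [Field k] [Field B] [Field M] [Algebra k B] [Algebra k M] where
  /-- the valuation ring -/
  S : Subalgebra k B
  mem_or_inv_mem : ∀ x : B, x ∈ S ∨ x⁻¹ ∈ S
  /-- the residue map -/
  res : S →ₐ[k] M
  res_surj : Function.Surjective res

end Fermat.Agent.AV
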