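import Fermat.Agent.FF.Canonical
import Fermat.Prelude.Def_AlgebraicCurve_DivisorPushPull

/-!
# Valuation rings and places in arbitrary characteristic
-/

set_option autoImplicit false
set_option linter.unusedSectionVars false
set_option linter.style.haveILetI false

open IsDedekindDomain WithZero IsLocalRing AlgebraicCurve IntermediateField
open scoped IntermediateField.algebraAdjoinAdjoin

namespace Fermat.Agent.AV

open Fermat.Agent.FF

section

variable {K F : Type*} [Field K] [Field F] [Algebra K F] [IsFnField K F]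

variable (K F) in
/-- existence of a separating element -/
theorem exists_separating [PerfectField K] :
    ∃ x : F, Transcendental K x ∧ Algebra.IsSeparable K⟮x⟯ F := by
  haveI := IsFnField.essFinite (K := K) (F := F)
  obtain ⟨s, hs, hsep⟩ := exists_isTranscendenceBasis_and_isSeparable_of_perfectField K F
  have hcard' : s.card = 1 := by
    have h1 := hs.cardinalMk_eq_trdeg
    rw [IsFnField.trdeg_eq_one, Cardinal.mk_coe_finset] at h1
    exact_mod_cast h1
  obtain ⟨x, rfl⟩ := Finset.card_eq_one.mp hcard'
  refine ⟨x, ?_, ?_⟩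
  · have := hs.1.transcendental ⟨x, Finset.mem_singleton_self x⟩
    exact this
  · rw [Finset.coe_singleton] at hsep
    exact hsep

/-- the inverse of a separating element -/
theorem separable_inv {x : F} (h : Algebra.IsSeparable K⟮x⟯ F) : Algebra.IsSeparable K⟮x⁻¹⟯ F := by
  have : K⟮x⁻¹⟯ = K⟮x⟯ := by
    apply le_antisymm
    · rw [adjoin_simple_le_iff]
      exact inv_mem (mem_adjoin_simple_self K x)
    · rw [adjoin_simple_le_iff]
      have := inv_mem (mem_adjoin_simple_self K x⁻¹)
      rwa [inv_inv] at this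
  rw [this]
  exact h

/-- Every non-trivial valuation ring of `F/K` is a place. -/
theorem exists_place_of_valuationSubring [PerfectField K] (V : ValuationSubring F)
    (hK : ∀ a : K, algebraMap K F a ∈ V) (hV : V ≠ ⊤) :
    ∃ v : Place K F, v.toValuationSubring = V := by
  obtain ⟨x, hxtr, hxsep, hxV⟩ : ∃ x : F, Transcendental K x ∧ Algebra.IsSeparable K⟮x⟯ F ∧
      x ∈ V := by
    obtain ⟨x, hx, hs⟩ := exists_separating K F
    rcases V.mem_or_inv_mem x with h | h
    · exact ⟨x, hx, hs, h⟩
    · refine ⟨x⁻¹, fun h1 => hx ?_, separable_inv hs, h⟩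
      have := h1.inv
      rwa [inv_inv] at this
  obtain ⟨f, hf⟩ : ∃ f : F, f ∉ V := by
    by_contra h
    push Not at h
    exact hV (eq_top_iff.mpr fun f _ => h f)
  letI : Algebra K V := ((algebraMap K F).codRestrict V.toSubring hK).toAlgebra
  haveI : IsScalarTower K V F := IsScalarTower.of_algebraMap_eq fun _ => rfl
  haveI := IsFnField.finiteDimensional hxtr
  let V' : Subalgebra K F := { V.toSubring with algebraMap_mem' := hK }
  have hA : ∀ a : Algebra.adjoin K {x}, algebraMap _ F a ∈ V := by
    intro a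
    have h1 : Algebra.adjoin K {x} ≤ V' := by
      apply Algebra.adjoin_le
      rintro _ rfl
      exact hxV
    exact h1 a.2
  let B := integralClosure (Algebra.adjoin K {x}) F
  have hB : ∀ b : B, algebraMap B F b ∈ V := by
    intro b
    have hb : IsIntegral (Algebra.adjoin K {x}) (algebraMap B F b) := b.2
    letI : Algebra (Algebra.adjoin K {x}) V :=
      ((algebraMap (Algebra.adjoin K {x}) F).codRestrict V.toSubring hA).toAlgebra
    haveI : IsScalarTower (Algebra.adjoin K {x}) V F := IsScalarTower.of_algebraMap_eq fun _ => rfl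
    have hb'' : IsIntegral V (algebraMap B F b) := hb.tower_top
    obtain ⟨y, hy⟩ := IsIntegrallyClosed.isIntegral_iff.mp hb''
    rw [← hy]
    exact y.2
  let P : Ideal B := (maximalIdeal V).comap ((algebraMap B F).codRestrict V.toSubring hB)
  have hPmem : ∀ b : B, b ∈ P ↔ ¬ IsUnit (⟨algebraMap B F b, hB b⟩ : V) := fun b => Iff.rfl
  haveI hprime : P.IsPrime := Ideal.IsPrime.comap _
  have hunit : ∀ (b : V), IsUnit b → (b : F)⁻¹ ∈ V := by
    rintro b ⟨u, rfl⟩
    have h1 : ((u : V) : F)⁻¹ = ((u⁻¹ : Vˣ) : V) := by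
      apply inv_eq_of_mul_eq_one_right
      exact_mod_cast congrArg Subtype.val (u.mul_inv)
    rw [h1]
    exact SetLike.coe_mem _
  have hne : P ≠ ⊥ := by
    intro hbot
    apply hf
    obtain ⟨a, b, hb, rfl⟩ := IsFractionRing.div_surjective (A := B) f
    have hb0 : b ≠ 0 := nonZeroDivisors.ne_zero hb
    have h1 : b ∉ P := by rw [hbot]; simpa using hb0
    rw [hPmem, not_not] at h1
    rw [div_eq_mul_inv]
    exact mul_mem (hB a) (hunit _ h1)
  let w : HeightOneSpectrum B := ⟨P, hprime, hne⟩
  refine ⟨Place.ofHeightOneSpectrum w, ?_⟩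
  have hle : (Place.ofHeightOneSpectrum (K := K) (F := F) w).toValuationSubring ≤ V := by
    intro g hg
    rw [mem_ofHeightOneSpectrum_iff] at hg
    obtain ⟨n, d, hnd⟩ := HeightOneSpectrum.exists_primeCompl_mul_eq_of_integer _ g hg
    have hd : (d : B) ∉ P := d.2
    rw [hPmem, not_not] at hd
    have hd0 : algebraMap B F d ≠ 0 := by
      intro h
      have h2 : (⟨algebraMap B F d, hB d⟩ : V) = 0 := Subtype.ext h
      rw [h2] at hd
      exact not_isUnit_zero hd
    have : g = algebraMap B F n * (algebraMap B F d)⁻¹ := by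
      rw [← hnd, mul_assoc, mul_inv_cancel₀ hd0, mul_one]
    rw [this]
    exact mul_mem (hB n) (hunit _ hd)
  have : Ring.KrullDimLE 1 (Place.ofHeightOneSpectrum (K := K) (F := F) w).toValuationSubring :=
    Ring.KrullDimLE.mk₁' (fun _ a _ ↦ Ideal.IsPrime.isMaximal ‹_› a)
  exact ValuationSubring.eq_of_le_of_ne_top _ hle hV

end

end Fermat.Agent.AV
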