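import Fermat.Agent.AV.ExtBasic
import Fermat.Agent.AV.PlaceV
import Fermat.Agent.AV.Gauss

/-!
# Extension of constants: existence, function fields of one variable
-/

set_option autoImplicit false
set_option linter.style.haveILetI false

universe u

open AlgebraicCurve Polynomial IntermediateField
open scoped TensorProduct

namespace Fermat.Agent.AV

open Fermat.Agent.BCh Fermat.Agent.FF

section Exists

theorem linearIndependent_tmul {K F U : Type*} [Field K] [Field F] [Field U] [Algebra K F]
    [Algebra K U] {n : ℕ} {e : Fin n → F} (he : LinearIndependent K e) :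
    LinearIndependent U (fun i => ((1 : U) ⊗ₜ[K] e i : U ⊗[K] F)) := by
  have he' : LinearIndepOn K id (Set.range e) := he.linearIndepOn_id
  let b := Module.Basis.extend he'
  let b' := Algebra.TensorProduct.basis U b
  have h1 := b'.linearIndependent.comp
    (fun i : Fin n => (⟨e i, he'.subset_extend _ ⟨i, rfl⟩⟩ : he'.extend (Set.subset_univ _)))
    (fun i j hij => he.injective (congrArg Subtype.val hij))
  convert h1 using 1
  funext i
  simp only [Function.comp, b', Algebra.TensorProduct.basis_apply, b, Module.Basis.extend_apply_self]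

/-- extension of constants exists -/
theorem exists_ext (K F U : Type u) [Field K] [IsAlgClosed K] [Field F] [Field U] [Algebra K F]
    [Algebra K U] : ∃ (B : Type u) (_ : Field B) (_ : Algebra U B), Nonempty (Ext K F U B) := by
  haveI := Spc.isDomain_tensor K U F
  let B := FractionRing (U ⊗[K] F)
  letI : Field B := FractionRing.field _
  have hinj : Function.Injective (algebraMap (U ⊗[K] F) B) := IsFractionRing.injective _ _
  have hrange : ∀ a : U ⊗[K] F, algebraMap (U ⊗[K] F) B a ∈ Submodule.span U
      (Set.range ((algebraMap (U ⊗[K] F) B).comp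
        (Algebra.TensorProduct.includeRight : F →ₐ[K] U ⊗[K] F).toRingHom)) := by
    intro a
    induction a using TensorProduct.induction_on with
    | zero => rw [map_zero]; exact zero_mem _
    | add a b ha hb => rw [map_add]; exact add_mem ha hb
    | tmul u f =>
      have h1 : (u ⊗ₜ[K] f : U ⊗[K] F) = u • ((1 : U) ⊗ₜ[K] f) := by
        rw [TensorProduct.smul_tmul', smul_eq_mul, mul_one]
      have h2 : algebraMap (U ⊗[K] F) B (u ⊗ₜ[K] f) =
          u • algebraMap (U ⊗[K] F) B ((1 : U) ⊗ₜ[K] f) := by
        rw [h1, Algebra.smul_def, Algebra.smul_def, map_mul]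
        rfl
      rw [h2]
      exact Submodule.smul_mem _ _ (Submodule.subset_span ⟨f, rfl⟩)
  refine ⟨B, inferInstance, inferInstance, ⟨{
    ι := (algebraMap (U ⊗[K] F) B).comp
      (Algebra.TensorProduct.includeRight : F →ₐ[K] U ⊗[K] F).toRingHom
    ι_alg := ?_
    indep := ?_
    frac := ?_ }⟩⟩
  · intro a
    have h1 : (Algebra.TensorProduct.includeRight : F →ₐ[K] U ⊗[K] F) (algebraMap K F a) =
        algebraMap U (U ⊗[K] F) (algebraMap K U a) := by
      rw [AlgHom.commutes, IsScalarTower.algebraMap_apply K U (U ⊗[K] F)]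
    show algebraMap (U ⊗[K] F) B ((Algebra.TensorProduct.includeRight : F →ₐ[K] U ⊗[K] F)
      (algebraMap K F a)) = _
    rw [h1, ← IsScalarTower.algebraMap_apply]
  · intro n e he
    have h1 := linearIndependent_tmul (U := U) he
    have h2 := h1.map' (IsScalarTower.toAlgHom U (U ⊗[K] F) B).toLinearMap
      (LinearMap.ker_eq_bot.mpr hinj)
    exact h2
  · intro z
    obtain ⟨a, b, hb, hz⟩ := IsFractionRing.div_surjective (A := U ⊗[K] F) z
    refine ⟨_, _, hrange a, hrange b, ?_, hz.symm⟩
    exact fun h => nonZeroDivisors.ne_zero hb (hinj (h.trans (map_zero _).symm))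

/-- extension of constants exists, with an additional field of definition -/
theorem exists_ext' (k K F U : Type u) [Field k] [Field K] [IsAlgClosed K] [Field F] [Field U]
    [Algebra K F] [Algebra K U] [Algebra k K] [Algebra k F] [Algebra k U] [IsScalarTower k K F]
    [IsScalarTower k K U] :
    ∃ (B : Type u) (_ : Field B) (_ : Algebra U B) (_ : Algebra k B) (_ : IsScalarTower k U B),
      Nonempty (Ext K F U B) := by
  obtain ⟨B, hB, hUB, h⟩ := exists_ext K F U
  letI : Algebra k B := ((algebraMap U B).comp (algebraMap k U)).toAlgebra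
  exact ⟨B, hB, hUB, inferInstance, IsScalarTower.of_algebraMap_eq fun _ => rfl, h⟩

end Exists

section Curve

variable {K F U B : Type*} [Field K] [Field F] [Field U] [Field B] [Algebra K F] [Algebra K U]
  [Algebra U B] (d : Ext K F U B) {x : F}

theorem linearIndependent_ι (hx : Transcendental K x) {n : ℕ} {e : Fin n → F}
    (he : LinearIndependent K⟮x⟯ e) : LinearIndependent U⟮d.ι x⟯ (fun i => d.ι (e i)) := by
  apply linearIndependent_adjoin
  have h1 : LinearIndependent K (fun q : ℕ × Fin n =>
      (⟨x ^ q.1, pow_mem (mem_adjoin_simple_self K x) q.1⟩ : K⟮x⟯) • e q.2) := by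
    have h2 : LinearIndependent K
        (fun n : ℕ => (⟨x ^ n, pow_mem (mem_adjoin_simple_self K x) n⟩ : K⟮x⟯)) :=
      LinearIndependent.of_comp (IntermediateField.val K⟮x⟯).toLinearMap (linearIndependent_pow hx)
    exact linearIndependent_smul h2 he
  have h3 := d.indep' h1
  convert h3 using 1
  funext q
  rw [IntermediateField.smul_def, smul_eq_mul, map_mul, map_pow]

/-- the basis of `B` over `U(x)` obtained from a basis of `F` over `K(x)` -/
noncomputable def basisι (hx : Transcendental K x) [FiniteDimensional K⟮x⟯ F] {n : ℕ}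
    (e : Module.Basis (Fin n) K⟮x⟯ F) : Module.Basis (Fin n) U⟮d.ι x⟯ B :=
  Module.Basis.mk (linearIndependent_ι d hx e.linearIndependent) (span_eq_top d e).ge

theorem finiteDimensional_ι (hx : Transcendental K x) [FiniteDimensional K⟮x⟯ F] :
    FiniteDimensional U⟮d.ι x⟯ B :=
  (basisι d hx (Module.finBasis K⟮x⟯ F)).finiteDimensional_of_finite

theorem finrank_ι (hx : Transcendental K x) [FiniteDimensional K⟮x⟯ F] :
    Module.finrank U⟮d.ι x⟯ B = Module.finrank K⟮x⟯ F := by
  rw [Module.finrank_eq_card_basis (basisι d hx (Module.finBasis K⟮x⟯ F)), Fintype.card_fin]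

theorem isSeparable_ι [FiniteDimensional K⟮x⟯ F] [Algebra.IsSeparable K⟮x⟯ F] :
    Algebra.IsSeparable U⟮d.ι x⟯ B := by
  have hsep : ∀ f : F, IsSeparable U⟮d.ι x⟯ (d.ι f) := by
    intro f
    have h1 := Algebra.IsSeparable.isSeparable K⟮x⟯ f
    have h2 : ((minpoly K⟮x⟯ f).map (adjHom d)).Separable := Separable.map h1
    refine h2.of_dvd (minpoly.dvd _ _ ?_)
    rw [aeval_def, eval₂_map]
    have h3 : (algebraMap U⟮d.ι x⟯ B).comp (adjHom d) = d.ι.comp (algebraMap K⟮x⟯ F) := by
      ext c
      rfl
    rw [h3, ← hom_eval₂, ← aeval_def, minpoly.aeval, map_zero]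
  have htop : IntermediateField.adjoin U⟮d.ι x⟯ (Set.range d.ι) = ⊤ := by
    rw [eq_top_iff]
    intro z _
    have h1 : z ∈ Submodule.span U⟮d.ι x⟯
        (Set.range fun i => d.ι (Module.finBasis K⟮x⟯ F i)) := by
      rw [span_eq_top]; trivial
    have h2 : Submodule.span U⟮d.ι x⟯ (Set.range fun i => d.ι (Module.finBasis K⟮x⟯ F i)) ≤
        Subalgebra.toSubmodule (IntermediateField.adjoin U⟮d.ι x⟯ (Set.range d.ι)).toSubalgebra := by
      rw [Submodule.span_le]
      rintro _ ⟨i, rfl⟩
      exact IntermediateField.subset_adjoin _ _ ⟨_, rfl⟩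
    exact h2 h1
  have h4 : Algebra.IsSeparable U⟮d.ι x⟯ (IntermediateField.adjoin U⟮d.ι x⟯ (Set.range d.ι)) := by
    rw [IntermediateField.isSeparable_adjoin_iff_isSeparable]
    rintro _ ⟨f, rfl⟩
    exact hsep f
  rw [htop] at h4
  exact Algebra.IsSeparable.of_algHom U⟮d.ι x⟯ _
    (IntermediateField.topEquiv (F := U⟮d.ι x⟯) (E := B)).symm.toAlgHom

include d in
theorem isFnField_ext [PerfectField K] [IsFnField K F] : IsFnField U B := by
  obtain ⟨x, hx, -⟩ := exists_separating K F
  haveI := IsFnField.finiteDimensional (K := K) hx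
  haveI := finiteDimensional_ι d hx
  exact IsFnField.of_finiteDimensional (transcendental_ι d hx)

end Curve

end Fermat.Agent.AV
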