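import Fermat.Agent.AV.Gauss
import Fermat.Agent.AV.PL
import Fermat.Agent.AV.ExtCurve
import Fermat.Agent.Spc.Tensor

set_option autoImplicit false
set_option linter.style.haveILetI false
set_option linter.unusedSectionVars false

/-!
# Linearly disjoint subrings and places
-/

open scoped TensorProduct

namespace Fermat.Agent.AV

/-- linear disjointness over `K` -/
def Disj (K : Type*) {L A₁ A₂ : Type*} [Field K] [Field L] [CommRing A₁] [CommRing A₂]
    [Algebra K A₂] (f₁ : A₁ → L) (f₂ : A₂ → L) : Prop :=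
  ∀ {n : ℕ} (e : Fin n → A₂), LinearIndependent K e → ∀ c : Fin n → A₁,
    ∑ i, f₁ (c i) * f₂ (e i) = 0 → ∀ i, c i = 0

section

variable {K L A₁ A₂ : Type*} [Field K] [Field L] [CommRing A₁] [CommRing A₂]
  [Algebra K L] [Algebra K A₁] [Algebra K A₂]

theorem Disj.injective {f₁ : A₁ →ₐ[K] L} {f₂ : A₂ →ₐ[K] L} (h : Disj K f₁ f₂) :
    Function.Injective (Algebra.TensorProduct.lift f₁ f₂ (fun _ _ => Commute.all _ _)) := by
  classical
  rw [injective_iff_map_eq_zero]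
  intro t ht
  let b := Module.Free.chooseBasis K A₂
  let B := Algebra.TensorProduct.basis A₁ b
  have h1 : t = ∑ l ∈ (B.repr t).support, (B.repr t l) ⊗ₜ[K] b l := by
    conv_lhs => rw [← B.linearCombination_repr t]
    rw [Finsupp.linearCombination_apply, Finsupp.sum]
    refine Finset.sum_congr rfl fun l _ => ?_
    rw [Algebra.TensorProduct.basis_apply, TensorProduct.smul_tmul', smul_eq_mul, mul_one]
  set s := (B.repr t).support with hs
  have h2 : LinearIndependent K (fun j : Fin s.card => b (s.equivFin.symm j)) :=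
    b.linearIndependent.comp _ (Subtype.val_injective.comp s.equivFin.symm.injective)
  have h3 := h _ h2 (fun j => B.repr t (s.equivFin.symm j)) (by
    rw [← ht]
    conv_rhs => rw [h1]
    rw [map_sum, ← Finset.sum_coe_sort s]
    refine Eq.trans ?_ (Equiv.sum_comp s.equivFin.symm (fun j : s =>
      (Algebra.TensorProduct.lift f₁ f₂ (fun _ _ => Commute.all _ _))
        ((B.repr t j) ⊗ₜ[K] b j)))
    refine Finset.sum_congr rfl fun j _ => ?_
    rw [Algebra.TensorProduct.lift_tmul])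
  rw [h1]
  refine Finset.sum_eq_zero fun l hl => ?_
  have h4 := h3 (s.equivFin ⟨l, hl⟩)
  simp only [Equiv.symm_apply_apply] at h4
  rw [h4, TensorProduct.zero_tmul]

variable {k : Type*} [Field k] [IsAlgClosed k] [Algebra K k]

/-- homomorphisms on two linearly disjoint rings extend to a place -/
theorem exists_place_disj {f₁ : A₁ →ₐ[K] L} {f₂ : A₂ →ₐ[K] L} (h : Disj K f₁ f₂)
    (θ₁ : A₁ →ₐ[K] k) (θ₂ : A₂ →ₐ[K] k) :
    ∃ (V : ValuationSubring L) (π : V →+* k), (∀ a, ∃ hV : f₁ a ∈ V, π ⟨f₁ a, hV⟩ = θ₁ a) ∧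
      (∀ a, ∃ hV : f₂ a ∈ V, π ⟨f₂ a, hV⟩ = θ₂ a) ∧ ∀ a : V, π a = 0 ↔ ¬ IsUnit a := by
  let j := Algebra.TensorProduct.lift f₁ f₂ (fun _ _ => Commute.all _ _)
  let θ := Algebra.TensorProduct.lift θ₁ θ₂ (fun _ _ => Commute.all _ _)
  have hj : Function.Injective j := h.injective
  let e : (A₁ ⊗[K] A₂) ≃+* j.toRingHom.range :=
    RingEquiv.ofBijective j.toRingHom.rangeRestrict
      ⟨fun a b hab => hj (congrArg Subtype.val hab), j.toRingHom.rangeRestrict_surjective⟩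
  obtain ⟨V, π, h1, h2, h3⟩ := exists_place_ext j.toRingHom.range
    (θ.toRingHom.comp e.symm.toRingHom)
  have key : ∀ t : A₁ ⊗[K] A₂, ∃ hV : j t ∈ V, π ⟨j t, hV⟩ = θ t := by
    intro t
    refine ⟨h1 (e t), ?_⟩
    have h4 := h2 (e t) (h1 (e t))
    refine Eq.trans h4 ?_
    show θ (e.symm (e t)) = θ t
    rw [RingEquiv.symm_apply_apply]
  have hj1 : ∀ a, j (a ⊗ₜ 1) = f₁ a := fun a => by
    show Algebra.TensorProduct.lift f₁ f₂ _ _ = _
    rw [Algebra.TensorProduct.lift_tmul, map_one, mul_one]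
  have hj2 : ∀ a, j (1 ⊗ₜ a) = f₂ a := fun a => by
    show Algebra.TensorProduct.lift f₁ f₂ _ _ = _
    rw [Algebra.TensorProduct.lift_tmul, map_one, one_mul]
  have hθ1 : ∀ a, θ (a ⊗ₜ 1) = θ₁ a := fun a => by
    show Algebra.TensorProduct.lift θ₁ θ₂ _ _ = _
    rw [Algebra.TensorProduct.lift_tmul, map_one, mul_one]
  have hθ2 : ∀ a, θ (1 ⊗ₜ a) = θ₂ a := fun a => by
    show Algebra.TensorProduct.lift θ₁ θ₂ _ _ = _
    rw [Algebra.TensorProduct.lift_tmul, map_one, one_mul]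
  refine ⟨V, π, fun a => ?_, fun a => ?_, h3⟩
  · obtain ⟨h5, h6⟩ := key (a ⊗ₜ 1)
    have h7 : f₁ a ∈ V := by rw [← hj1]; exact h5
    refine ⟨h7, ?_⟩
    rw [← hθ1, ← h6]
    congr 1
    exact Subtype.ext (hj1 a).symm
  · obtain ⟨h5, h6⟩ := key (1 ⊗ₜ a)
    have h7 : f₂ a ∈ V := by rw [← hj2]; exact h5
    refine ⟨h7, ?_⟩
    rw [← hθ2, ← h6]
    congr 1
    exact Subtype.ext (hj2 a).symm

end

section KPl

variable {K L A₁ A₂ Ω : Type*} [Field K] [Field L] [CommRing A₁] [CommRing A₂] [Field Ω]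
  [IsAlgClosed Ω] [Algebra K L] [Algebra K A₁] [Algebra K A₂] [Algebra K Ω] [Algebra Ω L]
  [IsScalarTower K Ω L] [Algebra Ω A₁] [IsScalarTower K Ω A₁]

/-- homomorphisms on two linearly disjoint rings extend to a place -/
theorem exists_kplace_disj {f₁ : A₁ →ₐ[Ω] L} {f₂ : A₂ →ₐ[K] L} (h : Disj K f₁ f₂)
    (θ₁ : A₁ →ₐ[Ω] Ω) (θ₂ : A₂ →ₐ[K] Ω) :
    ∃ p : KPlace Ω L Ω, (∀ a, ∃ hV : f₁ a ∈ p.V, p.π ⟨f₁ a, hV⟩ = θ₁ a) ∧
      (∀ a, ∃ hV : f₂ a ∈ p.V, p.π ⟨f₂ a, hV⟩ = θ₂ a) := by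
  have h' : Disj K (f₁.restrictScalars K) f₂ := fun e he c hc => h e he c hc
  obtain ⟨V, π, h1, h2, h3⟩ := exists_place_disj h' (θ₁.restrictScalars K) θ₂
  have hΩ : ∀ a : Ω, ∃ hV : algebraMap Ω L a ∈ V, π ⟨algebraMap Ω L a, hV⟩ = a := by
    intro a
    obtain ⟨h5, h6⟩ := h1 (algebraMap Ω A₁ a)
    have h7 : f₁ (algebraMap Ω A₁ a) = algebraMap Ω L a := f₁.commutes a
    have h8 : algebraMap Ω L a ∈ V := by rw [← h7]; exact h5
    refine ⟨h8, ?_⟩
    have h9 : θ₁ (algebraMap Ω A₁ a) = a := θ₁.commutes a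
    refine Eq.trans ?_ (h6.trans h9)
    congr 1
    exact Subtype.ext h7.symm
  exact ⟨{
    V := V
    π := π
    mem := fun a => (hΩ a).1
    π_alg := fun a => (hΩ a).2
    surj := fun a => ⟨_, (hΩ a).2⟩
    ker := h3 }, h1, h2⟩

/-- the case of one ring -/
theorem exists_kplace_one {L A Ω : Type*} [Field L] [CommRing A] [Field Ω]
    [IsAlgClosed Ω] [Algebra Ω L] [Algebra Ω A] (f : A →ₐ[Ω] L) (hf : Function.Injective f)
    (θ : A →ₐ[Ω] Ω) : ∃ p : KPlace Ω L Ω, ∀ a, ∃ hV : f a ∈ p.V, p.π ⟨f a, hV⟩ = θ a := by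
  have h : Disj Ω f (Algebra.ofId Ω L) := by
    intro n e he c hc
    have h1 : ∑ i, e i • c i = 0 := by
      apply hf
      rw [map_sum, map_zero, ← hc]
      refine Finset.sum_congr rfl fun i _ => ?_
      rw [map_smul, Algebra.smul_def, mul_comm]
      rfl
    -- at most one element
    have hn : n ≤ 1 := by
      have := he.fintype_card_le_finrank
      rwa [Fintype.card_fin, Module.finrank_self] at this
    intro i
    have hi : ∀ j : Fin n, j = i := fun j => Fin.ext (by omega)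
    rw [Finset.sum_eq_single i (fun j _ hj => absurd (hi j) hj)
      (fun h => absurd (Finset.mem_univ i) h)] at h1
    have h2 : e i ≠ 0 := he.ne_zero i
    have h3 : (e i)⁻¹ • (e i • c i) = 0 := by rw [h1, smul_zero]
    rwa [smul_smul, inv_mul_cancel₀ h2, one_smul] at h3
  obtain ⟨p, h1, -⟩ := exists_kplace_disj (K := Ω) h θ (AlgHom.id Ω Ω)
  exact ⟨p, h1⟩

end KPl

end Fermat.Agent.AV
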