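import Fermat.Agent.BCh.Ext
import Fermat.Agent.Spc.Tensor
import Fermat.Agent.FF.FnField

/-!
# Extension of constants: basic facts in arbitrary characteristic
-/

set_option autoImplicit false
set_option linter.style.haveILetI false

open AlgebraicCurve Polynomial IntermediateField
open scoped TensorProduct

namespace Fermat.Agent.AV

open Fermat.Agent.BCh Fermat.Agent.FF

section

/-- the trivial extension of constants -/
def extRefl (K F : Type*) [Field K] [Field F] [Algebra K F] : Ext K F K F where
  ι := RingHom.id F
  ι_alg _ := rfl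
  indep e he := he
  frac z := ⟨z, 1, Submodule.subset_span ⟨z, rfl⟩, Submodule.subset_span ⟨1, rfl⟩, one_ne_zero,
    (div_one z).symm⟩

theorem extRefl_ι {K F : Type*} [Field K] [Field F] [Algebra K F] (f : F) :
    (extRefl K F).ι f = f := rfl

variable {K F U B : Type*} [Field K] [Field F] [Field U] [Field B] [Algebra K F] [Algebra K U]
  [Algebra U B] (d : Ext K F U B)

/-- exchanging the roles of `F` and `U` -/
def swapExt : letI : Algebra F B := d.ι.toAlgebra; Ext K U F B :=
  letI : Algebra F B := d.ι.toAlgebra
  { ι := algebraMap U B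
    ι_alg := fun a => (d.ι_alg a).symm
    indep := by
      intro n e he
      rw [Fintype.linearIndependent_iff]
      intro f hf
      have hf' : ∑ i, d.ι (f i) * algebraMap U B (e i) = 0 := hf
      have h1 := d.indep' (Module.Free.chooseBasis K F).linearIndependent
      rw [linearIndependent_iff'] at h1
      -- expand
      classical
      let b := Module.Free.chooseBasis K F
      let s : Finset (Module.Free.ChooseBasisIndex K F) :=
        Finset.univ.biUnion fun i => (b.repr (f i)).support
      have hexp : ∀ i, f i = ∑ l ∈ s, algebraMap K F (b.repr (f i) l) * b l := by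
        intro i
        conv_lhs => rw [← b.linearCombination_repr (f i)]
        rw [Finsupp.linearCombination_apply, Finsupp.sum]
        rw [Finset.sum_subset (s₂ := s)
          (fun l hl => Finset.mem_biUnion.mpr ⟨i, Finset.mem_univ _, hl⟩)]
        · refine Finset.sum_congr rfl fun l _ => ?_
          rw [Algebra.smul_def]
        · intro l _ hl
          rw [Finsupp.notMem_support_iff.mp hl, zero_smul]
      have h2 : ∑ l ∈ s, (∑ i, algebraMap K U (b.repr (f i) l) * e i) • d.ι (b l) = 0 := by
        rw [← hf']
        have h3 : ∀ i, d.ι (f i) * algebraMap U B (e i) =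
            ∑ l ∈ s, (algebraMap K U (b.repr (f i) l) * e i) • d.ι (b l) := by
          intro i
          conv_lhs => rw [hexp i]
          rw [map_sum, Finset.sum_mul]
          refine Finset.sum_congr rfl fun l _ => ?_
          rw [map_mul, d.ι_alg, Algebra.smul_def, map_mul]
          ring
        rw [Finset.sum_congr rfl fun i _ => h3 i, Finset.sum_comm]
        refine Finset.sum_congr rfl fun l _ => ?_
        rw [Finset.sum_smul]
      have h4 := h1 s _ h2
      rw [Fintype.linearIndependent_iff] at he
      intro i
      rw [hexp i]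
      refine Finset.sum_eq_zero fun l hl => ?_
      have h5 := he (fun i => b.repr (f i) l) (by
        rw [← h4 l hl]
        refine Finset.sum_congr rfl fun j _ => ?_
        rw [Algebra.smul_def]) i
      rw [h5, map_zero, zero_mul]
    frac := by
      intro z
      obtain ⟨a, b, ha, hb, hb0, rfl⟩ := d.frac z
      have hcl : ∀ (c : U) (x : B), x ∈ Submodule.span F (Set.range (algebraMap U B)) →
          c • x ∈ Submodule.span F (Set.range (algebraMap U B)) := by
        intro c x hx
        induction hx using Submodule.span_induction with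
        | mem x hx =>
          obtain ⟨u, rfl⟩ := hx
          have : c • algebraMap U B u = algebraMap U B (c * u) := by
            rw [map_mul, Algebra.smul_def]
          rw [this]
          exact Submodule.subset_span ⟨_, rfl⟩
        | zero => rw [smul_zero]; exact zero_mem _
        | add x y _ _ hx hy => rw [smul_add]; exact add_mem hx hy
        | smul f x _ hx =>
          have : c • f • x = f • c • x := by
            rw [Algebra.smul_def c, Algebra.smul_def c]
            show algebraMap U B c * (d.ι f * x) = d.ι f * (algebraMap U B c * x)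
            ring
          rw [this]
          exact Submodule.smul_mem _ _ hx
      have key : ∀ a ∈ Submodule.span U (Set.range d.ι),
          a ∈ Submodule.span F (Set.range (algebraMap U B)) := by
        intro a ha
        induction ha using Submodule.span_induction with
        | mem x hx =>
          obtain ⟨f, rfl⟩ := hx
          have : d.ι f = f • (algebraMap U B 1) := by rw [map_one]; exact (mul_one _).symm
          rw [this]
          exact Submodule.smul_mem _ _ (Submodule.subset_span ⟨1, rfl⟩)
        | zero => exact zero_mem _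
        | add x y _ _ hx hy => exact add_mem hx hy
        | smul c x _ hx => exact hcl c x hx
      exact ⟨a, b, key a ha, key b hb, hb0, rfl⟩ }

/-! ### Coordinates -/

theorem linearIndependent_pow {x : F} (hx : Transcendental K x) :
    LinearIndependent K (fun n : ℕ => x ^ n) := by
  rw [linearIndependent_iff']
  intro s g hg i hi
  have h1 : aeval x (∑ n ∈ s, Polynomial.monomial n (g n)) = 0 := by
    rw [map_sum, ← hg]
    refine Finset.sum_congr rfl fun n _ => ?_
    rw [Polynomial.aeval_monomial, Algebra.smul_def]
  have h2 := (transcendental_iff.mp hx) _ h1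
  have h3 := congrArg (fun p : K[X] => p.coeff i) h2
  simp only [Polynomial.finset_sum_coeff, Polynomial.coeff_monomial, Polynomial.coeff_zero,
    Finset.sum_ite_eq', if_pos hi] at h3
  exact h3

theorem transcendental_ι {x : F} (hx : Transcendental K x) : Transcendental U (d.ι x) := by
  rw [transcendental_iff]
  intro p hp
  have h1 := d.indep' (linearIndependent_pow hx)
  rw [linearIndependent_iff'] at h1
  rw [Polynomial.aeval_eq_sum_range] at hp
  have h2 := h1 (Finset.range (p.natDegree + 1)) (fun n => p.coeff n) (by
    rw [← hp]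
    refine Finset.sum_congr rfl fun n _ => ?_
    rw [map_pow])
  ext n
  rw [Polynomial.coeff_zero]
  by_cases hn : n ∈ Finset.range (p.natDegree + 1)
  · exact h2 n hn
  · rw [Finset.mem_range, not_lt] at hn
    exact Polynomial.coeff_eq_zero_of_natDegree_lt (by omega)

/-- clearing denominators -/
theorem linearIndependent_adjoin {U B : Type*} [Field U] [Field B] [Algebra U B] {y : B}
    {n : ℕ} {z : Fin n → B}
    (h : LinearIndependent U (fun q : ℕ × Fin n => y ^ q.1 * z q.2)) :
    LinearIndependent U⟮y⟯ z := by
  classical
  rw [Fintype.linearIndependent_iff]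
  intro c hc
  have hrep : ∀ i, ∃ r s : U[X], aeval y s ≠ 0 ∧ (c i : B) * aeval y s = aeval y r := by
    intro i
    obtain ⟨r, s, hrs⟩ := (IntermediateField.mem_adjoin_simple_iff U _).mp (c i).2
    by_cases hs : aeval y s = 0
    · refine ⟨0, 1, by rw [map_one]; exact one_ne_zero, ?_⟩
      rw [hrs, hs, div_zero, zero_mul, map_zero]
    · exact ⟨r, s, hs, by rw [hrs, div_mul_cancel₀ _ hs]⟩
  choose r s hs hrs using hrep
  let S : U[X] := ∏ i, s i
  let p : Fin n → U[X] := fun i => r i * ∏ j ∈ Finset.univ.erase i, s j
  have hp : ∀ i, aeval y (p i) = (c i : B) * aeval y S := by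
    intro i
    simp only [p, S]
    rw [map_mul, ← hrs, ← Finset.mul_prod_erase Finset.univ s (Finset.mem_univ i), map_mul]
    ring
  have hS : aeval y S ≠ 0 := by
    simp only [S]
    rw [map_prod]
    exact Finset.prod_ne_zero_iff.mpr fun i _ => hs i
  have h0 : ∑ i, aeval y (p i) * z i = 0 := by
    have h1 : ∑ i, aeval y (p i) * z i = aeval y S * ∑ i, c i • z i := by
      rw [Finset.mul_sum]
      refine Finset.sum_congr rfl fun i _ => ?_
      rw [hp, IntermediateField.smul_def, smul_eq_mul]
      ring
    rw [h1, hc, mul_zero]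
  let N := Finset.univ.sup fun i => (p i).natDegree
  rw [linearIndependent_iff'] at h
  have h2 := h ((Finset.range (N + 1)) ×ˢ Finset.univ) (fun q => (p q.2).coeff q.1) (by
    rw [Finset.sum_product_right, ← h0]
    refine Finset.sum_congr rfl fun i _ => ?_
    have hN : (p i).natDegree < N + 1 :=
      Nat.lt_succ_of_le (Finset.le_sup (f := fun i => (p i).natDegree) (Finset.mem_univ i))
    rw [Polynomial.aeval_eq_sum_range' hN, Finset.sum_mul]
    refine Finset.sum_congr rfl fun m _ => ?_
    rw [smul_mul_assoc])
  intro i
  have h3 : p i = 0 := by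
    ext m
    rw [Polynomial.coeff_zero]
    by_cases hm : m < N + 1
    · exact h2 (m, i) (Finset.mem_product.mpr ⟨Finset.mem_range.mpr hm, Finset.mem_univ i⟩)
    · exact Polynomial.coeff_eq_zero_of_natDegree_lt (lt_of_le_of_lt
        (Finset.le_sup (f := fun i => (p i).natDegree) (Finset.mem_univ i)) (by omega))
  have h4 := hp i
  rw [h3, map_zero] at h4
  have h5 := (mul_eq_zero.mp h4.symm).resolve_right hS
  exact Subtype.ext h5

section Coord

variable {x : F}

theorem ι_mem_adjoin (c : K⟮x⟯) : d.ι (c : F) ∈ U⟮d.ι x⟯ := by
  obtain ⟨r, s, hrs⟩ := (IntermediateField.mem_adjoin_simple_iff K _).mp c.2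
  have key : ∀ r : K[X], d.ι (aeval x r) ∈ U⟮d.ι x⟯ := by
    intro r
    rw [Polynomial.aeval_eq_sum_range, map_sum]
    refine sum_mem fun i _ => ?_
    rw [Algebra.smul_def, map_mul, d.ι_alg, map_pow]
    exact mul_mem (IntermediateField.algebraMap_mem _ _) (pow_mem (mem_adjoin_simple_self U _) i)
  rw [hrs, map_div₀]
  exact div_mem (key r) (key s)

/-- the homomorphism `K(x) → U(ι x)` -/
def adjHom : K⟮x⟯ →+* U⟮d.ι x⟯ where
  toFun c := ⟨d.ι (c : F), ι_mem_adjoin d c⟩
  map_one' := Subtype.ext (by simp)
  map_mul' _ _ := Subtype.ext (by simp)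
  map_zero' := Subtype.ext (by simp)
  map_add' _ _ := Subtype.ext (by simp)

theorem adjHom_coe (c : K⟮x⟯) : ((adjHom d c : U⟮d.ι x⟯) : B) = d.ι c := rfl

theorem span_eq_top [FiniteDimensional K⟮x⟯ F] {n : ℕ} (e : Module.Basis (Fin n) K⟮x⟯ F) :
    Submodule.span U⟮d.ι x⟯ (Set.range fun i => d.ι (e i)) = ⊤ := by
  set M := Submodule.span U⟮d.ι x⟯ (Set.range fun i => d.ι (e i)) with hM
  have hι : ∀ f : F, d.ι f ∈ M := by
    intro f
    rw [← e.sum_repr f, map_sum]
    refine Submodule.sum_mem _ fun i _ => ?_
    have : d.ι (e.repr f i • e i) = (adjHom d (e.repr f i)) • d.ι (e i) := by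
      rw [IntermediateField.smul_def, IntermediateField.smul_def, smul_eq_mul, smul_eq_mul,
        map_mul, adjHom_coe]
    rw [this]
    exact Submodule.smul_mem _ _ (Submodule.subset_span ⟨i, rfl⟩)
  have hmul : ∀ a ∈ M, ∀ b ∈ M, a * b ∈ M := by
    intro a ha b hb
    induction ha using Submodule.span_induction with
    | mem a ha =>
      obtain ⟨i, rfl⟩ := ha
      induction hb using Submodule.span_induction with
      | mem b hb =>
        obtain ⟨j, rfl⟩ := hb
        simp only
        rw [← map_mul]
        exact hι _
      | zero => rw [mul_zero]; exact zero_mem _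
      | add x y _ _ hx hy => rw [mul_add]; exact add_mem hx hy
      | smul c x _ hx => rw [mul_smul_comm]; exact Submodule.smul_mem _ _ hx
    | zero => rw [zero_mul]; exact zero_mem _
    | add x y _ _ hx hy => rw [add_mul]; exact add_mem hx hy
    | smul c x _ hx => rw [smul_mul_assoc]; exact Submodule.smul_mem _ _ hx
  have hone : (1 : B) ∈ M := by have := hι 1; rwa [map_one] at this
  let A : Subalgebra U⟮d.ι x⟯ B :=
    { carrier := M
      mul_mem' := fun ha hb => hmul _ ha _ hb
      add_mem' := fun ha hb => add_mem ha hb
      algebraMap_mem' := fun c => by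
        rw [Algebra.algebraMap_eq_smul_one]
        exact Submodule.smul_mem _ _ hone }
  have hfin : FiniteDimensional U⟮d.ι x⟯ M := FiniteDimensional.span_of_finite _ (Set.finite_range _)
  haveI hfinA : Module.Finite U⟮d.ι x⟯ A := hfin
  have hinv : ∀ a ∈ M, a⁻¹ ∈ M := by
    intro a ha
    have h1 : IsAlgebraic U⟮d.ι x⟯ (⟨a, ha⟩ : A) := (Algebra.IsIntegral.isIntegral _).isAlgebraic
    have h2 : IsAlgebraic U⟮d.ι x⟯ ((⟨a, ha⟩ : A) : B) := h1.algHom A.val
    exact A.inv_mem_of_algebraic (x := ⟨a, ha⟩) h2
  have hspan : ∀ a ∈ Submodule.span U (Set.range d.ι), a ∈ M := by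
    intro a ha
    induction ha using Submodule.span_induction with
    | mem y hy => obtain ⟨f, rfl⟩ := hy; exact hι f
    | zero => exact zero_mem _
    | add y z _ _ hy hz => exact add_mem hy hz
    | smul c y _ hy =>
      have : c • y = (algebraMap U U⟮d.ι x⟯ c) • y := by
        rw [IntermediateField.smul_def, Algebra.smul_def, smul_eq_mul]
        rfl
      rw [this]
      exact Submodule.smul_mem _ _ hy
  rw [eq_top_iff]
  intro z _
  obtain ⟨a, b, ha, hb, -, rfl⟩ := d.frac z
  rw [div_eq_mul_inv]
  exact hmul _ (hspan a ha) _ (hinv _ (hspan b hb))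

end Coord

end

end Fermat.Agent.AV
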