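import Fermat.Agent.RR.Duality
import Fermat.Agent.BCh.Ext

set_option autoImplicit false
set_option linter.unusedSectionVars false
set_option linter.style.haveILetI false

/-!
# General effective divisors, infinitely many places, genus under base change
-/

open AlgebraicCurve Fermat.Agent.FF Fermat.Agent.RR Module

namespace Fermat.Agent.AV

variable {Ω F : Type*} [Field Ω] [Field F] [Algebra Ω F] [IsAlgClosed Ω] [IsFnField Ω F]

variable (Ω F) in
theorem infinite_place_av : Infinite (Place Ω F) := by
  obtain ⟨x, hx⟩ := (exists_transcendental : ∃ x : F, Transcendental Ω x)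
  have h : ∀ a : Ω, ∃ v : Place Ω F, 0 < v.ord (x - algebraMap Ω F a) := by
    intro a
    have h1 : Transcendental Ω (x - algebraMap Ω F a) := by
      intro h
      apply hx
      have := h.add (isAlgebraic_algebraMap (R := Ω) (A := F) a)
      rwa [sub_add_cancel] at this
    obtain ⟨v, hv⟩ := exists_ord_neg_of_transcendental (transcendental_inv' h1)
    refine ⟨v, ?_⟩
    rw [v.ord_inv] at hv
    omega
  choose v hv using h
  refine Infinite.of_injective v fun a b hab => ?_
  by_contra hne
  have h1 := hv a
  have h2 := hv b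
  rw [← hab] at h2
  -- the difference of the two functions is a nonzero constant
  have h3 : ∀ c : Ω, 0 < (v a).ord (x - algebraMap Ω F c) →
      (v a).adicValuation (x - algebraMap Ω F c) < 1 := by
    intro c hc
    have h0 : x - algebraMap Ω F c ≠ 0 := by
      intro h0
      rw [h0, Place.ord_zero] at hc
      exact lt_irrefl _ hc
    rw [(v a).adicValuation_eq_exp_neg_ord h0, ← WithZero.exp_zero, WithZero.exp_lt_exp]
    omega
  have h4 : (v a).adicValuation (algebraMap Ω F (b - a)) < 1 := by
    have h5 : algebraMap Ω F (b - a) = (x - algebraMap Ω F a) - (x - algebraMap Ω F b) := by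
      rw [map_sub]; ring
    rw [h5]
    exact Valuation.map_sub_lt _ (h3 a h1) (h3 b h2)
  have h6 : algebraMap Ω F (b - a) ≠ 0 := by
    rw [Ne, map_eq_zero, sub_eq_zero]
    exact fun h => hne h.symm
  rw [(v a).adicValuation_eq_exp_neg_ord h6, ← WithZero.exp_zero, WithZero.exp_lt_exp,
    ord_eq_zero_of_isAlgebraic (v a) (isAlgebraic_algebraMap (b - a))] at h4
  omega

/-- (4) -/
theorem exists_place_notMem (S : Set (Place Ω F)) (hS : S.Finite) : ∃ P : Place Ω F, P ∉ S := by
  haveI := infinite_place_av Ω F
  exact hS.exists_notMem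

/-- effective divisors with `ℓ = 1` of every degree at most the genus -/
theorem exists_eff_ell_one (n : ℕ) (hn : n ≤ genusFF Ω F) :
    ∃ B : Divisor Ω F, 0 ≤ B ∧ Divisor.degree B = n ∧ ell B = 1 := by
  classical
  induction n with
  | zero => exact ⟨0, le_rfl, by simp, ell_zero⟩
  | succ n ih =>
    obtain ⟨B, hB0, hBd, hBl⟩ := ih (by omega)
    obtain ⟨W, hW⟩ := exists_isCanonical Ω F
    have h1 := hW.riemann_roch B
    have h2 : 0 < ell (W - B) := by
      rw [hBl, hBd] at h1
      omega
    obtain ⟨f, hf, hf0⟩ := exists_mem_ne_zero_of_ell_pos h2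
    obtain ⟨P, hP⟩ := exists_place_notMem (Ω := Ω) (F := F)
      ((((W - B).support : Finset (Place Ω F)) : Set (Place Ω F)) ∪
        (((RR.divOf (K := Ω) f).support : Finset (Place Ω F)) : Set (Place Ω F)))
      ((Finset.finite_toSet _).union (Finset.finite_toSet _))
    rw [Set.mem_union, Finset.mem_coe, Finset.mem_coe, Finsupp.mem_support_iff,
      Finsupp.mem_support_iff, not_or, not_not, not_not, RR.divOf_apply] at hP
    refine ⟨B + Finsupp.single P 1, add_nonneg hB0 (Finsupp.single_nonneg.2 zero_le_one), ?_, ?_⟩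
    · rw [map_add, hBd, degree_single']
      push_cast
      ring
    · have h3 := hW.riemann_roch (B + Finsupp.single P 1)
      rw [map_add, degree_single'] at h3
      have h4 : f ∉ riemannRochSpace (W - (B + Finsupp.single P 1)) := by
        intro hmem
        rw [mem_riemannRochSpace_iff_divOf hf0] at hmem
        have h5 := hmem P
        rw [Finsupp.add_apply, RR.divOf_apply, ← sub_sub, Finsupp.sub_apply, hP.1, hP.2,
          Finsupp.single_eq_same, Finsupp.zero_apply] at h5
        omega
      have h5 : riemannRochSpace (W - (B + Finsupp.single P 1)) < riemannRochSpace (W - B) := by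
        refine lt_of_le_of_ne (riemannRochSpace_mono ?_) (fun h => h4 (h ▸ hf))
        rw [← sub_sub]
        exact sub_le_self _ (Finsupp.single_nonneg.2 zero_le_one)
      have h6 : ell (W - (B + Finsupp.single P 1)) < ell (W - B) := Submodule.finrank_lt_finrank_of_lt h5
      have h7 : 0 < ell (B + Finsupp.single P 1) := by
        have := ell_mono (K := Ω) (F := F) (D := B) (E := B + Finsupp.single P 1)
          (le_add_of_nonneg_right (Finsupp.single_nonneg.2 zero_le_one))
        omega
      omega

/-- (1) -/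
theorem exists_m0 : ∃ M : Divisor Ω F, 0 ≤ M ∧ Divisor.degree M = genusFF Ω F ∧ ell M = 1 :=
  exists_eff_ell_one _ le_rfl

/-- (2) -/
theorem eff_unique' {M G : Divisor Ω F} (hM : 0 ≤ M) (h1 : ell M = 1) (hG : 0 ≤ G) {f : F}
    (hf : f ≠ 0) (h : G = M + RR.divOf f) : G = M := by
  have hfm : f ∈ riemannRochSpace M := (mem_riemannRochSpace_iff_divOf hf).2 (h ▸ hG)
  have h1m : (1 : F) ∈ riemannRochSpace M := by
    apply riemannRochSpace_mono hM
    rw [riemannRochSpace_zero]
    exact Submodule.mem_span_singleton_self _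
  have h2 := (finrank_eq_one_iff_of_nonzero' (⟨1, h1m⟩ : riemannRochSpace M)
    (fun h0 => one_ne_zero (congrArg Subtype.val h0))).1 h1 ⟨f, hfm⟩
  obtain ⟨c, hc⟩ := h2
  have hc' : c • (1 : F) = f := congrArg Subtype.val hc
  have h3 : RR.divOf (K := Ω) f = 0 := by
    ext v
    rw [RR.divOf_apply, ← hc', ← Algebra.algebraMap_eq_smul_one,
      ord_eq_zero_of_isAlgebraic v (isAlgebraic_algebraMap c)]
    rfl
  rw [h, h3, add_zero]

/-- (3) -/
theorem exists_eff {D : Divisor Ω F} (h : (genusFF Ω F : ℤ) ≤ Divisor.degree D) :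
    ∃ f : F, f ≠ 0 ∧ 0 ≤ D + RR.divOf f := by
  have h1 := riemann_ineq D
  obtain ⟨f, hf, hf0⟩ := exists_mem_ne_zero_of_ell_pos (D := D) (by omega)
  exact ⟨f, hf0, (mem_riemannRochSpace_iff_divOf hf0).1 hf⟩

/-- (5) -/
theorem genus_le_of {L B : Type*} [Field L] [Field B] [Algebra Ω L] [Algebra L B] [IsAlgClosed L]
    [IsFnField L B] (d : BCh.Ext Ω F L B) (lift : Divisor Ω F → Divisor L B)
    (hdeg : ∀ D, Divisor.degree (lift D) = Divisor.degree D)
    (hL : ∀ D (f : F), f ∈ riemannRochSpace D → d.ι f ∈ riemannRochSpace (lift D)) :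
    genusFF L B ≤ genusFF Ω F := by
  obtain ⟨D, hD⟩ := exists_degree_eq Ω F (2 * (genusFF L B + genusFF Ω F : ℕ))
  have h1 := ell_eq_of_lt_degree (D := D) (by rw [hD]; push_cast; omega)
  have h2 := ell_eq_of_lt_degree (D := lift D) (by rw [hdeg, hD]; push_cast; omega)
  rw [hdeg] at h2
  have h3 : ell D ≤ ell (lift D) := by
    let b := Module.finBasis Ω (riemannRochSpace D)
    have hb : LinearIndependent Ω (fun i => ((b i : riemannRochSpace D) : F)) :=
      b.linearIndependent.map' (riemannRochSpace D).subtype (Submodule.ker_subtype _)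
    have h4 := d.indep' hb
    have h5 : LinearIndependent L (fun i => (⟨d.ι (b i : F), hL D _ (b i).2⟩ :
        riemannRochSpace (lift D))) :=
      LinearIndependent.of_comp (riemannRochSpace (lift D)).subtype h4
    have h6 := h5.fintype_card_le_finrank
    rw [Fintype.card_fin] at h6
    exact h6
  omega

end Fermat.Agent.AV
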