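import Fermat.Agent.AV.Const
import Fermat.Agent.AV.M0

set_option autoImplicit false
set_option linter.unusedSectionVars false
set_option linter.style.haveILetI false

/-!
# Riemann-Roch spaces and the genus under extension of the constants
-/

open AlgebraicCurve Fermat.Agent.FF Fermat.Agent.RR Fermat.Agent.BCh Module

namespace Fermat.Agent.AV

section Sub

variable {Ω F : Type*} [Field Ω] [Field F] [Algebra Ω F] [IsAlgClosed Ω] [IsFnField Ω F]

/-- general points impose independent conditions -/
theorem exists_eff_ell_sub (n : ℕ) : ∀ D : Divisor Ω F, ell D = n →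
    ∃ E : Divisor Ω F, 0 ≤ E ∧ Divisor.degree E = n ∧ ell (D - E) = 0 := by
  classical
  induction n with
  | zero => exact fun D hD => ⟨0, le_rfl, by simp, by rwa [sub_zero]⟩
  | succ n ih =>
    intro D hD
    obtain ⟨f, hf, hf0⟩ := exists_mem_ne_zero_of_ell_pos (D := D) (by omega)
    haveI := infinite_place_av Ω F
    obtain ⟨P, hP⟩ := Infinite.exists_notMem_finset (D + RR.divOf f).support
    rw [Finsupp.notMem_support_iff, Finsupp.add_apply, RR.divOf_apply] at hP
    have hle : D - Finsupp.single P 1 ≤ D :=
      sub_le_self _ (Finsupp.single_nonneg.2 zero_le_one)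
    have h4 : f ∉ riemannRochSpace (D - Finsupp.single P 1) := by
      intro hmem
      rw [mem_riemannRochSpace_iff_divOf hf0] at hmem
      have h5 := hmem P
      rw [Finsupp.add_apply, RR.divOf_apply, Finsupp.sub_apply, Finsupp.single_eq_same,
        Finsupp.zero_apply] at h5
      omega
    have h5 : ell (D - Finsupp.single P 1) < ell D := by
      apply Submodule.finrank_lt_finrank_of_lt
      exact lt_of_le_of_ne (riemannRochSpace_mono hle) (fun h => h4 (h ▸ hf))
    have h6 := ell_add_single_le (D - Finsupp.single P 1) P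
    rw [sub_add_cancel] at h6
    obtain ⟨E, hE0, hEd, hE⟩ := ih (D - Finsupp.single P 1) (by omega)
    refine ⟨Finsupp.single P 1 + E, add_nonneg (Finsupp.single_nonneg.2 zero_le_one) hE0, ?_, ?_⟩
    · rw [map_add, hEd, degree_single']
      push_cast
      ring
    · rw [← sub_sub]
      exact hE

end Sub

variable {K F U B : Type*} [Field K] [Field F] [Field U] [Field B] [Algebra K F] [Algebra K U]
  [Algebra U B] (d : Ext K F U B)
  [IsAlgClosed K] [IsFnField K F] [IsAlgClosed U] [IsFnField U B]

theorem ι_mem_liftDiv {D : Divisor K F} {f : F} (hf : f ∈ riemannRochSpace D) :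
    d.ι f ∈ riemannRochSpace (liftDiv d D) := by
  rcases eq_or_ne f 0 with rfl | hf0
  · rw [map_zero]
    exact zero_mem _
  have hf1 : d.ι f ≠ 0 := (map_ne_zero d.ι).2 hf0
  rw [mem_riemannRochSpace_iff_divOf hf0] at hf
  rw [mem_riemannRochSpace_iff_divOf hf1, divOf_ι, ← map_add]
  exact liftDiv_nonneg hf

theorem ell_le_liftDiv (D : Divisor K F) : ell D ≤ ell (liftDiv d D) := by
  let b := Module.finBasis K (riemannRochSpace D)
  have hb : LinearIndependent K (fun i => ((b i : riemannRochSpace D) : F)) :=
    b.linearIndependent.map' (riemannRochSpace D).subtype (Submodule.ker_subtype _)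
  have h4 := d.indep' hb
  have h5 : LinearIndependent U (fun i => (⟨d.ι (b i : F), ι_mem_liftDiv d (b i).2⟩ :
      riemannRochSpace (liftDiv d D))) :=
    LinearIndependent.of_comp (riemannRochSpace (liftDiv d D)).subtype h4
  have h6 := h5.fintype_card_le_finrank
  rw [Fintype.card_fin] at h6
  exact h6

include d in
/-- the genus does not increase under extension of the constants -/
theorem genusFF_le : genusFF U B ≤ genusFF K F :=
  genus_le_of d (liftDiv d) (degree_liftDiv (d := d)) fun _ _ hf => ι_mem_liftDiv d hf

variable (p : KPlace K U K)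

include p in
theorem ell_liftDiv_eq_zero {D : Divisor K F} (h : ell D = 0) : ell (liftDiv d D) = 0 := by
  by_contra hne
  obtain ⟨z, hz, hz0⟩ := exists_mem_ne_zero_of_ell_pos (Nat.pos_of_ne_zero hne)
  rw [mem_riemannRochSpace_iff_divOf hz0, add_comm] at hz
  obtain ⟨y, hy0, hy⟩ := exists_section_spDiv (d := d) (p := p) hz0 hz
  rw [spDiv_liftDiv, add_comm, ← mem_riemannRochSpace_iff_divOf hy0] at hy
  have h1 : riemannRochSpace D = ⊥ := Submodule.finrank_eq_zero.1 h
  rw [h1, Submodule.mem_bot] at hy
  exact hy0 hy

include p in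
/-- the dimension of Riemann-Roch spaces does not change under extension of the constants -/
theorem ell_liftDiv (D : Divisor K F) : ell (liftDiv d D) = ell D := by
  refine le_antisymm ?_ (ell_le_liftDiv d D)
  obtain ⟨E, hE0, hEd, hE⟩ := exists_eff_ell_sub _ D rfl
  have h1 := ell_liftDiv_eq_zero d p hE
  rw [map_sub] at h1
  have h2 := ell_sub_le (D := liftDiv d D - liftDiv d E) (E := liftDiv d D)
    (sub_le_self _ (liftDiv_nonneg hE0))
  rw [h1, map_sub, degree_liftDiv (d := d) E, hEd] at h2
  push_cast at h2
  omega

include d p in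
/-- the genus does not change under extension of the constants -/
theorem genusFF_eq : genusFF U B = genusFF K F := by
  obtain ⟨D, hD⟩ := exists_degree_eq K F (2 * (genusFF U B + genusFF K F : ℕ))
  have h1 := ell_eq_of_lt_degree (D := D) (by rw [hD]; push_cast; omega)
  have h2 := ell_eq_of_lt_degree (D := liftDiv d D)
    (by rw [degree_liftDiv (d := d), hD]; push_cast; omega)
  rw [degree_liftDiv (d := d), ell_liftDiv d p] at h2
  omega

end Fermat.Agent.AV
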