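import Mathlib

/-!
# The degree bound from the curve estimates (block FIN of S26)

Pure field theory.  `F / K` of transcendence degree `g`, generated by `φ : I → F`, `σ : F → F`.
For `G : IntermediateField K F → ℕ` put `(finOp u G) L = ∑ i, G (L(u i))`.  These operators commute
and are monotone, and `finOp (σ ∘ φ)` on `map σ L` is `deg σ` times `finOp φ` on `L`.  Iterating the
curve estimate `g` times gives the bound for `deg σ`.
-/

open Module IntermediateField
open scoped IntermediateField.algebraAdjoinAdjoin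

namespace Fermat.Agent.AV

universe u

section FinBlock

variable {K F : Type u} [Field K] [Field F] [Algebra K F]

theorem fin_card_le_of_succ_le {s : ℕ} {t : Cardinal.{u}}
    (h : ((s + 1 : ℕ) : Cardinal.{u}) ≤ 1 + t) : (s : Cardinal.{u}) ≤ t := by
  rcases lt_or_ge t Cardinal.aleph0 with ht | ht
  · obtain ⟨n, rfl⟩ := Cardinal.lt_aleph0.mp ht
    norm_cast at h ⊢
    omega
  · exact (Cardinal.natCast_lt_aleph0 (n := s)).le.trans ht

theorem fin_card_eq_of_succ_eq {s : ℕ} {t : Cardinal.{u}}
    (h : 1 + t = ((s + 1 : ℕ) : Cardinal.{u})) : t = (s : Cardinal.{u}) := by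
  rcases lt_or_ge t Cardinal.aleph0 with ht | ht
  · obtain ⟨n, rfl⟩ := Cardinal.lt_aleph0.mp ht
    norm_cast at h ⊢
    omega
  · exfalso
    have h1 : Cardinal.aleph0 ≤ 1 + t := ht.trans (self_le_add_left t 1)
    rw [h] at h1
    exact absurd (Cardinal.natCast_lt_aleph0 (n := s + 1)) (not_lt.mpr h1)

theorem fin_card_one_le {t : Cardinal.{u}} (h : 1 ≤ t) : t = 1 ∨ 2 ≤ t := by
  rcases lt_or_ge t Cardinal.aleph0 with ht | ht
  · obtain ⟨n, rfl⟩ := Cardinal.lt_aleph0.mp ht
    norm_cast at h ⊢
    omega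
  · exact Or.inr ((Cardinal.natCast_lt_aleph0 (n := 2)).le.trans ht)

theorem fin_trdeg_adjoin_simple_le (x : F) : Algebra.trdeg K K⟮x⟯ ≤ 1 := by
  have h := trdeg_add_eq K (Algebra.adjoin K {x}) (A := K⟮x⟯)
  rw [trdeg_eq_zero (R := Algebra.adjoin K {x}) (A := K⟮x⟯), add_zero] at h
  rw [← h]
  have hsurj : Function.Surjective ((Polynomial.aeval (R := K)
      (⟨x, Algebra.self_mem_adjoin_singleton K x⟩ : Algebra.adjoin K {x}))) := by
    rintro ⟨y, hy⟩
    rw [Algebra.adjoin_singleton_eq_range_aeval] at hy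
    obtain ⟨p, rfl⟩ := hy
    exact ⟨p, Subtype.ext (Polynomial.aeval_subalgebra_coe p _ _)⟩
  have h2 := trdeg_le_of_surjective _ hsurj
  simpa using h2

theorem fin_trdeg_add (x : F) :
    Algebra.trdeg K K⟮x⟯ + Algebra.trdeg K⟮x⟯ F = Algebra.trdeg K F := by
  have : FaithfulSMul K K⟮x⟯ :=
    (faithfulSMul_iff_algebraMap_injective _ _).mpr (algebraMap K K⟮x⟯).injective
  have : FaithfulSMul K⟮x⟯ F :=
    (faithfulSMul_iff_algebraMap_injective _ _).mpr (algebraMap K⟮x⟯ F).injective
  exact trdeg_add_eq K K⟮x⟯ (A := F)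

/-- `L ⊔ K(x)` and `L(x)` have the same transcendence degree below `F`. -/
theorem fin_trdeg_sup (L : IntermediateField K F) (x : F) :
    Algebra.trdeg ↥(L ⊔ K⟮x⟯) F = Algebra.trdeg L⟮x⟯ F := by
  rw [← restrictScalars_adjoin_eq_sup]
  rfl

theorem fin_finrank_sup (L : IntermediateField K F) (x : F) :
    finrank ↥(L ⊔ K⟮x⟯) F = finrank L⟮x⟯ F := by
  rw [← restrictScalars_adjoin_eq_sup]
  rfl

theorem fin_trdeg_le (L : IntermediateField K F) (x : F) :
    Algebra.trdeg L F ≤ 1 + Algebra.trdeg ↥(L ⊔ K⟮x⟯) F := by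
  rw [fin_trdeg_sup, ← fin_trdeg_add (K := L) x]
  exact add_le_add_left (fin_trdeg_adjoin_simple_le x) _

theorem fin_le_trdeg_sup {L : IntermediateField K F} (x : F) {s : ℕ}
    (h : ((s + 1 : ℕ) : Cardinal.{u}) ≤ Algebra.trdeg L F) :
    (s : Cardinal.{u}) ≤ Algebra.trdeg ↥(L ⊔ K⟮x⟯) F :=
  fin_card_le_of_succ_le (h.trans (fin_trdeg_le L x))

/-- the operator `G ↦ (L ↦ ∑ i, G (L(u i)))` -/
def finOp {I : Type} [Fintype I] (w : I → F) (G : IntermediateField K F → ℕ) :
    IntermediateField K F → ℕ :=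
  fun L => ∑ i, G (L ⊔ K⟮w i⟯)

theorem finOp_comm {I : Type} [Fintype I] (w w' : I → F) (G : IntermediateField K F → ℕ) :
    finOp w (finOp w' G) = finOp w' (finOp w G) := by
  funext L
  simp only [finOp]
  rw [Finset.sum_comm]
  refine Finset.sum_congr rfl fun i _ => Finset.sum_congr rfl fun j _ => ?_
  rw [sup_right_comm]

theorem finOp_iterate_comm {I : Type} [Fintype I] (w w' : I → F) (G : IntermediateField K F → ℕ)
    (k : ℕ) : finOp w ((finOp w')^[k] G) = (finOp w')^[k] (finOp w G) := by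
  induction k with
  | zero => rfl
  | succ k ih =>
    rw [Function.iterate_succ_apply', Function.iterate_succ_apply', finOp_comm, ih]

theorem finOp_mono {I : Type} [Fintype I] (w : I → F) {G G' : IntermediateField K F → ℕ}
    {a b s : ℕ} (h : ∀ L : IntermediateField K F, (s : Cardinal.{u}) ≤ Algebra.trdeg L F →
      a * G L ≤ b * G' L) (L : IntermediateField K F)
    (hL : ((s + 1 : ℕ) : Cardinal.{u}) ≤ Algebra.trdeg L F) :
    a * finOp w G L ≤ b * finOp w G' L := by
  simp only [finOp, Finset.mul_sum]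
  exact Finset.sum_le_sum fun i _ => h _ (fin_le_trdeg_sup (w i) hL)

theorem finOp_iterate_mono {I : Type} [Fintype I] (w : I → F) {G G' : IntermediateField K F → ℕ}
    {a b s : ℕ} (h : ∀ L : IntermediateField K F, (s : Cardinal.{u}) ≤ Algebra.trdeg L F →
      a * G L ≤ b * G' L) (k : ℕ) (L : IntermediateField K F)
    (hL : ((s + k : ℕ) : Cardinal.{u}) ≤ Algebra.trdeg L F) :
    a * (finOp w)^[k] G L ≤ b * (finOp w)^[k] G' L := by
  induction k generalizing L with
  | zero => exact h L hL
  | succ k ih =>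
    rw [Function.iterate_succ_apply', Function.iterate_succ_apply']
    exact finOp_mono w ih L hL

theorem finOp_iterate_le {I : Type} [Fintype I] (w w' : I → F) (G : IntermediateField K F → ℕ)
    {a b : ℕ} (h : ∀ L : IntermediateField K F, ((1 : ℕ) : Cardinal.{u}) ≤ Algebra.trdeg L F →
      a * finOp w G L ≤ b * finOp w' G L) (k : ℕ) (L : IntermediateField K F)
    (hL : (k : Cardinal.{u}) ≤ Algebra.trdeg L F) :
    a ^ k * (finOp w)^[k] G L ≤ b ^ k * (finOp w')^[k] G L := by
  induction k generalizing L with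
  | zero => simp
  | succ k ih =>
    have h1 : a ^ k * finOp w ((finOp w)^[k] G) L ≤ b ^ k * finOp w ((finOp w')^[k] G) L :=
      finOp_mono w ih L hL
    have h2 : a * (finOp w')^[k] (finOp w G) L ≤ b * (finOp w')^[k] (finOp w' G) L :=
      finOp_iterate_mono w' h k L (by rwa [add_comm])
    rw [Function.iterate_succ_apply']
    rw [finOp_iterate_comm w w'] at h1
    calc a ^ (k + 1) * finOp w ((finOp w)^[k] G) L
        = a * (a ^ k * finOp w ((finOp w)^[k] G) L) := by ring
      _ ≤ a * (b ^ k * (finOp w')^[k] (finOp w G) L) := Nat.mul_le_mul_left a h1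
      _ = b ^ k * (a * (finOp w')^[k] (finOp w G) L) := by ring
      _ ≤ b ^ k * (b * (finOp w')^[k] (finOp w' G) L) := Nat.mul_le_mul_left _ h2
      _ = b ^ (k + 1) * (finOp w')^[k + 1] G L := by
        rw [Function.iterate_succ_apply]
        ring

/-- the degree below `F` -/
noncomputable def finDeg (L : IntermediateField K F) : ℕ := finrank L F

theorem finDeg_map (σ : F →ₐ[K] F) (L : IntermediateField K F) :
    finDeg (L.map σ) = finrank σ.fieldRange F * finDeg L := by
  have h1 : relfinrank (L.map σ) ((⊤ : IntermediateField K F).map σ) = relfinrank L ⊤ :=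
    relfinrank_map_map _ _ σ
  have h2 := relfinrank_mul_finrank_top
    (show L.map σ ≤ (⊤ : IntermediateField K F).map σ from map_mono σ le_top)
  rw [h1, relfinrank_top_right, ← AlgHom.fieldRange_eq_map] at h2
  rw [finDeg, finDeg, ← h2, mul_comm]

theorem finOp_iterate_map {I : Type} [Fintype I] (φ : I → F) (σ : F →ₐ[K] F) (k : ℕ)
    (L : IntermediateField K F) :
    (finOp (fun i => σ (φ i)))^[k] finDeg (L.map σ) =
      finrank σ.fieldRange F * (finOp φ)^[k] finDeg L := by
  induction k generalizing L with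
  | zero => exact finDeg_map σ L
  | succ k ih =>
    rw [Function.iterate_succ_apply', Function.iterate_succ_apply']
    simp only [finOp, Finset.mul_sum] at ih ⊢
    refine Finset.sum_congr rfl fun i _ => ?_
    rw [← ih, IntermediateField.map_sup, adjoin_map, Set.image_singleton]

/-- `F = L(φ)` is finite over `L` as soon as it is algebraic. -/
theorem fin_finite_of_isAlgebraic {I : Type} [Fintype I] (φ : I → F)
    (hφ : IntermediateField.adjoin K (Set.range φ) = ⊤) (L : IntermediateField K F)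
    (hL : ∀ i, IsAlgebraic L (φ i)) : Module.Finite L F := by
  have htop : IntermediateField.adjoin L (Set.range φ) = ⊤ := by
    rw [eq_top_iff]
    intro x _
    have hx : x ∈ IntermediateField.adjoin K (Set.range φ) := by rw [hφ]; trivial
    have hle : IntermediateField.adjoin K (Set.range φ) ≤
        (IntermediateField.adjoin L (Set.range φ)).restrictScalars K := by
      rw [adjoin_le_iff]
      exact subset_adjoin L (Set.range φ)
    exact hle hx
  have hfin : FiniteDimensional L (IntermediateField.adjoin L (Set.range φ)) := by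
    have : Finite (Set.range φ) := Set.finite_range φ
    refine finiteDimensional_adjoin ?_
    rintro _ ⟨i, rfl⟩
    exact (hL i).isIntegral
  rw [htop] at hfin
  exact Module.Finite.equiv (topEquiv (F := L) (E := F)).toLinearEquiv

theorem fin_pos {I : Type} [Fintype I] (φ : I → F)
    (hφ : IntermediateField.adjoin K (Set.range φ) = ⊤) (s : ℕ) (L : IntermediateField K F)
    (hL : Algebra.trdeg L F = (s : Cardinal.{u})) : 0 < (finOp φ)^[s] finDeg L := by
  induction s generalizing L with
  | zero =>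
    have hL0 : Algebra.trdeg L F = 0 := by rw [hL]; simp
    have halg : Algebra.IsAlgebraic L F := trdeg_eq_zero_iff.mp hL0
    have := fin_finite_of_isAlgebraic φ hφ L fun i => halg.isAlgebraic (φ i)
    exact finrank_pos
  | succ s ih =>
    have hex : ∃ i, ¬ IsAlgebraic L (φ i) := by
      by_contra hcon
      push Not at hcon
      have := fin_finite_of_isAlgebraic φ hφ L hcon
      have h0 : Algebra.trdeg L F = 0 := trdeg_eq_zero
      rw [hL] at h0
      have : (s + 1 : ℕ) = 0 := by exact_mod_cast h0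
      omega
    obtain ⟨i, hi⟩ := hex
    have htr : Algebra.trdeg L L⟮φ i⟯ = 1 := by
      refine le_antisymm (fin_trdeg_adjoin_simple_le (φ i)) ?_
      have hne : Algebra.trdeg L L⟮φ i⟯ ≠ 0 := by
        rw [Ne, trdeg_eq_zero_iff]
        intro halg
        refine hi ?_
        have := halg.isAlgebraic (⟨φ i, mem_adjoin_simple_self L (φ i)⟩ : L⟮φ i⟯)
        exact (isAlgebraic_algebraMap_iff (algebraMap L⟮φ i⟯ F).injective).mpr this
      exact Cardinal.one_le_iff_ne_zero.mpr hne
    have hs : Algebra.trdeg ↥(L ⊔ K⟮φ i⟯) F = (s : Cardinal.{u}) := by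
      rw [fin_trdeg_sup]
      apply fin_card_eq_of_succ_eq
      rw [← hL, ← fin_trdeg_add (K := L) (φ i), htr]
    rw [Function.iterate_succ_apply']
    exact lt_of_lt_of_le (ih _ hs)
      (Finset.single_le_sum (f := fun i => (finOp φ)^[s] finDeg (L ⊔ K⟮φ i⟯))
        (fun _ _ => Nat.zero_le _) (Finset.mem_univ i))

theorem fin_bound [Algebra.EssFiniteType K F] (g : ℕ)
    (hg : Algebra.trdeg K F = g) {I : Type} [Fintype I] (φ : I → F)
    (hφ : IntermediateField.adjoin K (Set.range φ) = ⊤) (C q : ℕ) (_hC : 0 < C) (σ : F →ₐ[K] F)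
    [Module.Finite σ.fieldRange F]
    (h1 : ∀ (L : IntermediateField K F), Algebra.trdeg L F = 1 →
      ∑ i, finrank L⟮σ (φ i)⟯ F ≤ C * q ^ 2 * ∑ i, finrank L⟮φ i⟯ F ∧
      q ^ 2 * ∑ i, finrank L⟮φ i⟯ F ≤ C * ∑ i, finrank L⟮σ (φ i)⟯ F) :
    finrank σ.fieldRange F ≤ C ^ g * q ^ (2 * g) ∧
      q ^ (2 * g) ≤ C ^ g * finrank σ.fieldRange F := by
  have hzero : ∀ (w : I → F) (L : IntermediateField K F), (2 : Cardinal.{u}) ≤ Algebra.trdeg L F →
      finOp w finDeg L = 0 := by
    intro w L hL
    refine Finset.sum_eq_zero fun i _ => ?_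
    have h : ((1 : ℕ) : Cardinal.{u}) ≤ Algebra.trdeg ↥(L ⊔ K⟮w i⟯) F :=
      fin_le_trdeg_sup (w i) (by exact_mod_cast hL)
    by_contra hne
    have hpos : 0 < finrank ↥(L ⊔ K⟮w i⟯) F := Nat.pos_of_ne_zero hne
    have := Module.finite_of_finrank_pos hpos
    rw [trdeg_eq_zero] at h
    simp at h
  have hsum : ∀ (w : I → F) (L : IntermediateField K F),
      finOp w finDeg L = ∑ i, finrank L⟮w i⟯ F := fun w L =>
    Finset.sum_congr rfl fun i _ => fin_finrank_sup L (w i)
  have hU : ∀ L : IntermediateField K F, ((1 : ℕ) : Cardinal.{u}) ≤ Algebra.trdeg L F →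
      1 * finOp (fun i => σ (φ i)) finDeg L ≤ (C * q ^ 2) * finOp φ finDeg L := by
    intro L hL
    rcases fin_card_one_le (by simpa using hL) with h | h
    · rw [one_mul, hsum, hsum]
      exact (h1 L h).1
    · rw [hzero _ L h]
      simp
  have hD : ∀ L : IntermediateField K F, ((1 : ℕ) : Cardinal.{u}) ≤ Algebra.trdeg L F →
      q ^ 2 * finOp φ finDeg L ≤ C * finOp (fun i => σ (φ i)) finDeg L := by
    intro L hL
    rcases fin_card_one_le (by simpa using hL) with h | h
    · rw [hsum, hsum]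
      exact (h1 L h).2
    · rw [hzero _ L h]
      simp
  have hbot : Algebra.trdeg (⊥ : IntermediateField K F) F = (g : Cardinal.{u}) := by
    rw [← hg, ← trdeg_add_eq K (⊥ : IntermediateField K F) (A := F),
      trdeg_eq_zero (R := K) (A := (⊥ : IntermediateField K F)), zero_add]
  have hX := fin_pos φ hφ g ⊥ hbot
  have hm := finOp_iterate_map φ σ g ⊥
  rw [IntermediateField.map_bot] at hm
  have e1 := finOp_iterate_le (fun i => σ (φ i)) φ finDeg hU g ⊥ hbot.ge
  have e2 := finOp_iterate_le φ (fun i => σ (φ i)) finDeg hD g ⊥ hbot.ge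
  rw [hm] at e1 e2
  rw [one_pow, one_mul] at e1
  have hq : (q ^ 2) ^ g = q ^ (2 * g) := by rw [pow_mul]
  constructor
  · rw [mul_pow, hq] at e1
    exact Nat.le_of_mul_le_mul_right e1 hX
  · rw [hq, ← mul_assoc] at e2
    exact Nat.le_of_mul_le_mul_right e2 hX

end FinBlock

end Fermat.Agent.AV
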