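import Fermat.Agent.AV.MulDeg
import Fermat.Agent.AV.Fin

/-!
# The growth statement
-/

set_option autoImplicit false

universe u

namespace Fermat.Agent.AV

theorem finStmt (K : Type u) [Field K] : FinStmt K :=
  fun g hg _ _ φ hφ C q hC σ _ h1 => fin_bound g hg φ hφ C q hC σ h1

end Fermat.Agent.AV
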