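import Mathlib

set_option autoImplicit false

/-!
# Abstract commutative group varieties, through their points with values in local rings
-/

universe u

namespace Fermat.Agent.AV

/-- A proper integral commutative group variety over `K`, through its local rings (as subrings of
the function field) and its points with values in `K`-algebras. -/
structure GrpVar (K : Type u) [Field K] where
  /-- the function field -/
  F : Type u
  [field : Field F]
  [alg : Algebra K F]
  /-- the points of the underlying space -/
  X : Type u
  /-- the local rings, as subrings of the function field -/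
  loc : X → Subalgebra K F
  isLocal : ∀ x, IsLocalRing (loc x)
  isFrac : ∀ x, IsFractionRing (loc x) F
  /-- the generic point -/
  gen : X
  loc_gen : loc gen = ⊤
  eq_gen : ∀ x, loc x = ⊤ → x = gen
  /-- points with values in a `K`-algebra -/
  pt : ∀ (R : Type u) [CommRing R] [Algebra K R], Type u
  [grp : ∀ (R : Type u) [CommRing R] [Algebra K R], AddCommGroup (pt R)]
  map : ∀ {R R' : Type u} [CommRing R] [Algebra K R] [CommRing R'] [Algebra K R'],
    (R →ₐ[K] R') → (pt R →+ pt R')
  map_id : ∀ {R : Type u} [CommRing R] [Algebra K R] (P : pt R), map (AlgHom.id K R) P = P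
  map_comp : ∀ {R R' R'' : Type u} [CommRing R] [Algebra K R] [CommRing R'] [Algebra K R']
    [CommRing R''] [Algebra K R''] (g : R →ₐ[K] R') (g' : R' →ₐ[K] R'') (P : pt R),
    map (g'.comp g) P = map g' (map g P)
  /-- the center of a point over a local ring: the image of the closed point -/
  center : ∀ {R : Type u} [CommRing R] [Algebra K R] [IsLocalRing R], pt R → X
  /-- evaluation of functions -/
  ev : ∀ {R : Type u} [CommRing R] [Algebra K R] [IsLocalRing R] (P : pt R),
    loc (center P) →ₐ[K] R
  ev_local : ∀ {R : Type u} [CommRing R] [Algebra K R] [IsLocalRing R] (P : pt R)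
    (b : loc (center P)), IsUnit (ev P b) → IsUnit b
  /-- points over a local ring are pairs (point, local homomorphism) -/
  ext_pt : ∀ {R : Type u} [CommRing R] [Algebra K R] [IsLocalRing R] (P Q : pt R),
    center P = center Q → (∀ (b : F) (h : b ∈ loc (center P)) (h' : b ∈ loc (center Q)),
      ev P ⟨b, h⟩ = ev Q ⟨b, h'⟩) → P = Q
  exists_pt : ∀ {R : Type u} [CommRing R] [Algebra K R] [IsLocalRing R] (x : X)
    (φ : loc x →ₐ[K] R), (∀ b, IsUnit (φ b) → IsUnit b) →
    ∃ P : pt R, center P = x ∧ ∀ (b : F) (h : b ∈ loc (center P)) (h' : b ∈ loc x),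
      ev P ⟨b, h⟩ = φ ⟨b, h'⟩
  /-- compatibility with homomorphisms of local rings (not necessarily local) -/
  loc_le : ∀ {R R' : Type u} [CommRing R] [Algebra K R] [IsLocalRing R] [CommRing R']
    [Algebra K R'] [IsLocalRing R'] (g : R →ₐ[K] R') (P : pt R),
    loc (center P) ≤ loc (center (map g P))
  map_ev : ∀ {R R' : Type u} [CommRing R] [Algebra K R] [IsLocalRing R] [CommRing R']
    [Algebra K R'] [IsLocalRing R'] (g : R →ₐ[K] R') (P : pt R) (b : F)
    (h : b ∈ loc (center P)) (h' : b ∈ loc (center (map g P))),
    ev (map g P) ⟨b, h'⟩ = g (ev P ⟨b, h⟩)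
  loc_map : ∀ {R R' : Type u} [CommRing R] [Algebra K R] [IsLocalRing R] [CommRing R']
    [Algebra K R'] [IsLocalRing R'] (g : R →ₐ[K] R') (P : pt R) (b : F),
    b ∈ loc (center (map g P)) → ∃ s t : loc (center P), IsUnit (g (ev P t)) ∧
      b = (s : F) / (t : F)
  /-- an affine chart around every point -/
  chartOf : X → Subalgebra K F
  /-- quasi-compactness -/
  finite_charts : (Set.range chartOf).Finite
  chart_fg : ∀ x, (chartOf x).FG
  chart_le : ∀ x, chartOf x ≤ loc x
  /-- the local rings at the points of a chart are localisations of the chart -/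
  chart_loc : ∀ (x y : X) (h : chartOf x ≤ loc y) (b : F), b ∈ loc y →
    ∃ s t : chartOf x, IsUnit (⟨t, h t.2⟩ : loc y) ∧ b = (s : F) / (t : F)
  /-- homomorphisms from the ring of a chart give points -/
  chart_pt : ∀ (x : X) {R : Type u} [CommRing R] [Algebra K R] [IsLocalRing R]
    (φ : chartOf x →ₐ[K] R), ∃ (P : pt R) (h : chartOf x ≤ loc (center P)),
      ∀ b : chartOf x, ev P ⟨b, h b.2⟩ = φ b
  /-- the valuative criterion -/
  proper : ∀ {V E : Type u} [CommRing V] [IsDomain V] [ValuationRing V] [Algebra K V] [Field E]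
    [Algebra K E] [Algebra V E] [IsScalarTower K V E] [IsFractionRing V E],
    Function.Bijective (map (R := V) (R' := E) (IsScalarTower.toAlgHom K V E))

attribute [instance] GrpVar.field GrpVar.alg GrpVar.grp GrpVar.isLocal GrpVar.isFrac

/-- A Cartier divisor: local equations at all points, which are compatible with generisation and
locally constant. -/
structure CDiv {K : Type u} [Field K] (V : GrpVar K) where
  eq : V.X → V.F
  ne : ∀ x, eq x ≠ 0
  near : ∀ x, ∃ t : V.chartOf x, (t : V.F)⁻¹ ∈ V.loc x ∧
    ∀ y, V.chartOf x ≤ V.loc y → (t : V.F)⁻¹ ∈ V.loc y →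
      eq y / eq x ∈ V.loc y ∧ eq x / eq y ∈ V.loc y

end Fermat.Agent.AV
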