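import Fermat.Agent.AV.GV
import Fermat.Prelude.Def_AlgebraicCurve_DivisorClassGroup

set_option autoImplicit false

/-!
# Points over valuation rings, centers, reductions, local equations of Cartier divisors
-/

universe u

namespace Fermat.Agent.AV

/-- Valuation rings of `E` containing `K`. -/
structure KVal (K E : Type u) [Field K] [Field E] [Algebra K E] extends ValuationSubring E where
  algebraMap_mem' : ∀ a : K, algebraMap K E a ∈ toValuationSubring

namespace KVal

variable {K E : Type u} [Field K] [Field E] [Algebra K E]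

/-- the underlying type of the valuation ring -/
abbrev R (O : KVal K E) : Type u := O.toValuationSubring

instance (O : KVal K E) : Algebra K O.R :=
  ((algebraMap K E).codRestrict O.toValuationSubring.toSubring O.algebraMap_mem').toAlgebra

instance (O : KVal K E) : IsScalarTower K O.R E := IsScalarTower.of_algebraMap_eq fun _ => rfl

/-- the inclusion of the valuation ring in the field -/
def incl (O : KVal K E) : O.R →ₐ[K] E := IsScalarTower.toAlgHom K O.R E

@[simp] theorem incl_apply (O : KVal K E) (b : O.R) : O.incl b = (b : E) := rfl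

/-- inclusions between valuation rings -/
def inclusion {O O' : KVal K E} (h : O.toValuationSubring ≤ O'.toValuationSubring) :
    O.R →ₐ[K] O'.R :=
  { toFun := fun b => ⟨b, h b.2⟩
    map_one' := rfl
    map_mul' := fun _ _ => rfl
    map_zero' := rfl
    map_add' := fun _ _ => rfl
    commutes' := fun _ => rfl }

@[simp] theorem coe_inclusion {O O' : KVal K E}
    (h : O.toValuationSubring ≤ O'.toValuationSubring) (b : O.R) :
    (inclusion h b : E) = b := rfl

theorem incl_comp_inclusion {O O' : KVal K E}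
    (h : O.toValuationSubring ≤ O'.toValuationSubring) : O'.incl.comp (inclusion h) = O.incl := rfl

theorem isUnit_iff {O : KVal K E} {b : O.R} : IsUnit b ↔ (b : E) ≠ 0 ∧ (b : E)⁻¹ ∈ O.toValuationSubring := by
  constructor
  · intro h
    have h0 : (b : E) ≠ 0 := fun h0 => not_isUnit_zero (M₀ := O.R) (by
      have : b = 0 := Subtype.ext h0
      rwa [this] at h)
    obtain ⟨u, hu⟩ := h
    have h1 : (b : E) * ((u⁻¹ : O.Rˣ) : O.R) = 1 := by
      rw [← hu]
      exact congrArg Subtype.val u.mul_inv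
    refine ⟨h0, ?_⟩
    rw [inv_eq_of_mul_eq_one_right h1]
    exact Subtype.mem _
  · rintro ⟨h0, h1⟩
    exact IsUnit.of_mul_eq_one ⟨_, h1⟩ (Subtype.ext (mul_inv_cancel₀ h0))

/-- the valuation ring of a place -/
def ofPlace {Ω : Type u} [Field Ω] [Algebra K Ω] [Algebra Ω E] [IsScalarTower K Ω E]
    (v : AlgebraicCurve.Place Ω E) : KVal K E where
  toValuationSubring := v.toValuationSubring
  algebraMap_mem' a := by
    rw [IsScalarTower.algebraMap_apply K Ω E]
    exact v.algebraMap_mem' _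

/-- a valuation ring dominating a local subalgebra -/
theorem exists_dominating (S : Subalgebra K E) [hS : IsLocalRing S] :
    ∃ O : KVal K E, (∀ b ∈ S, b ∈ O.toValuationSubring) ∧
      ∀ b ∈ S, b⁻¹ ∈ O.toValuationSubring → b⁻¹ ∈ S := by
  have hS' : IsLocalRing S.toSubring := hS
  obtain ⟨O, hO⟩ := LocalSubring.exists_le_valuationSubring (LocalSubring.mk S.toSubring)
  obtain ⟨hle, hloc⟩ := LocalSubring.le_def.1 hO
  refine ⟨⟨O, fun a => hle (Subalgebra.algebraMap_mem S a)⟩, fun b hb => hle hb,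
    fun b hb hb' => ?_⟩
  by_cases h0 : b = 0
  · rw [h0, inv_zero]; exact zero_mem _
  have h1 : IsUnit (Subring.inclusion hle ⟨b, hb⟩) :=
    IsUnit.of_mul_eq_one ⟨b⁻¹, hb'⟩ (Subtype.ext (mul_inv_cancel₀ h0))
  obtain ⟨u, hu⟩ := hloc.map_nonunit ⟨b, hb⟩ h1
  have h3 : b * (((u⁻¹ : (S.toSubring)ˣ) : S.toSubring) : E) = 1 := by
    have := congrArg (Subtype.val) u.mul_inv
    rw [hu] at this
    exact this
  rw [inv_eq_of_mul_eq_one_right h3]
  exact Subtype.mem _

end KVal

namespace GrpVar

variable {K : Type u} [Field K] (V : GrpVar K)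

section Ev

variable {R : Type u} [CommRing R] [Algebra K R] [IsLocalRing R]

theorem ev_congr {P Q : V.pt R} (h : P = Q) {b : V.F} (hb : b ∈ V.loc (V.center P))
    (hb' : b ∈ V.loc (V.center Q)) : V.ev P ⟨b, hb⟩ = V.ev Q ⟨b, hb'⟩ := by
  subst h; rfl

open Classical in
/-- evaluation at a point, as a total function (zero if not defined) -/
noncomputable def e (P : V.pt R) (b : V.F) : R :=
  if h : b ∈ V.loc (V.center P) then V.ev P ⟨b, h⟩ else 0

theorem e_eq (P : V.pt R) {b : V.F} (h : b ∈ V.loc (V.center P)) : V.e P b = V.ev P ⟨b, h⟩ :=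
  dif_pos h

theorem e_one (P : V.pt R) : V.e P 1 = 1 := by
  rw [V.e_eq P (one_mem _)]
  exact map_one (V.ev P)

theorem e_algebraMap (P : V.pt R) (a : K) : V.e P (algebraMap K V.F a) = algebraMap K R a := by
  rw [V.e_eq P (Subalgebra.algebraMap_mem _ a)]
  exact (V.ev P).commutes a

theorem e_mul (P : V.pt R) {b c : V.F} (hb : b ∈ V.loc (V.center P))
    (hc : c ∈ V.loc (V.center P)) : V.e P (b * c) = V.e P b * V.e P c := by
  rw [V.e_eq P hb, V.e_eq P hc, V.e_eq P (mul_mem hb hc), ← map_mul]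
  rfl

theorem e_add (P : V.pt R) {b c : V.F} (hb : b ∈ V.loc (V.center P))
    (hc : c ∈ V.loc (V.center P)) : V.e P (b + c) = V.e P b + V.e P c := by
  rw [V.e_eq P hb, V.e_eq P hc, V.e_eq P (add_mem hb hc), ← map_add]
  rfl

/-- the condition that `b` is a unit at the point `x` -/
def UnitAt (x : V.X) (b : V.F) : Prop := b ≠ 0 ∧ b ∈ V.loc x ∧ b⁻¹ ∈ V.loc x

variable {V} in
theorem UnitAt.inv {x : V.X} {b : V.F} (h : V.UnitAt x b) : V.UnitAt x b⁻¹ :=
  ⟨inv_ne_zero h.1, h.2.2, by rw [inv_inv]; exact h.2.1⟩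

variable {V} in
theorem UnitAt.mul {x : V.X} {b c : V.F} (h : V.UnitAt x b) (h' : V.UnitAt x c) :
    V.UnitAt x (b * c) :=
  ⟨mul_ne_zero h.1 h'.1, mul_mem h.2.1 h'.2.1, by rw [mul_inv]; exact mul_mem h.2.2 h'.2.2⟩

variable {V} in
theorem UnitAt.div {x : V.X} {b c : V.F} (h : V.UnitAt x b) (h' : V.UnitAt x c) :
    V.UnitAt x (b / c) := by rw [div_eq_mul_inv]; exact h.mul h'.inv

variable {V} in
theorem UnitAt.mono {x y : V.X} {b : V.F} (h : V.UnitAt x b) (hxy : V.loc x ≤ V.loc y) :
    V.UnitAt y b := ⟨h.1, hxy h.2.1, hxy h.2.2⟩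

theorem unitAt_one (x : V.X) : V.UnitAt x 1 := ⟨one_ne_zero, one_mem _, by
  rw [inv_one]; exact one_mem _⟩

theorem unitAt_iff {x : V.X} {b : V.loc x} : V.UnitAt x b ↔ IsUnit b := by
  constructor
  · rintro ⟨h0, -, h1⟩
    exact IsUnit.of_mul_eq_one ⟨_, h1⟩ (Subtype.ext (mul_inv_cancel₀ h0))
  · rintro ⟨u, hu⟩
    have h1 : (b : V.F) * ((u⁻¹ : (V.loc x)ˣ) : V.loc x) = 1 := by
      rw [← hu]
      exact congrArg Subtype.val u.mul_inv
    refine ⟨left_ne_zero_of_mul_eq_one h1, b.2, ?_⟩
    rw [inv_eq_of_mul_eq_one_right h1]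
    exact Subtype.mem _

theorem isUnit_e (P : V.pt R) {b : V.F} (h : V.UnitAt (V.center P) b) : IsUnit (V.e P b) := by
  rw [V.e_eq P h.2.1]
  exact ((V.unitAt_iff (b := (⟨b, h.2.1⟩ : V.loc (V.center P)))).1 h).map (V.ev P)

theorem unitAt_of_isUnit_e (P : V.pt R) {b : V.F} (hb : b ∈ V.loc (V.center P))
    (h : IsUnit (V.e P b)) : V.UnitAt (V.center P) b := by
  rw [V.e_eq P hb] at h
  exact V.unitAt_iff.2 (V.ev_local P _ h)

theorem isUnit_e_iff (P : V.pt R) {b : V.F} (hb : b ∈ V.loc (V.center P)) :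
    IsUnit (V.e P b) ↔ V.UnitAt (V.center P) b :=
  ⟨V.unitAt_of_isUnit_e P hb, V.isUnit_e P⟩

variable {R' : Type u} [CommRing R'] [Algebra K R'] [IsLocalRing R']

theorem e_map (g : R →ₐ[K] R') (P : V.pt R) {b : V.F} (hb : b ∈ V.loc (V.center P)) :
    V.e (V.map g P) b = g (V.e P b) := by
  rw [V.e_eq P hb, V.e_eq _ (V.loc_le g P hb)]
  exact V.map_ev g P b hb _

/-- points with the same local ring are equal -/
theorem loc_inj {x y : V.X} (h : V.loc x = V.loc y) : x = y := by
  -- a valuation ring dominating the local ring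
  obtain ⟨W, hle, hloc⟩ := KVal.exists_dominating (V.loc x)
  have key : ∀ z : V.X, (hz : V.loc z = V.loc x) → ∃ P : V.pt W.R, V.center P = z ∧
      V.map W.incl P = V.map W.incl P ∧ V.center (V.map W.incl P) = V.gen ∧
      ∀ b : V.F, V.e (V.map W.incl P) b = b := by
    intro z hz
    let φ : V.loc z →ₐ[K] W.R :=
      { toFun := fun b => ⟨b, hle b (hz ▸ b.2)⟩
        map_one' := rfl
        map_mul' := fun _ _ => rfl
        map_zero' := rfl
        map_add' := fun _ _ => rfl
        commutes' := fun _ => rfl }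
    obtain ⟨P, hP, hev⟩ := V.exists_pt z φ (fun b hb => by
      rw [KVal.isUnit_iff] at hb
      have h4 : (b : V.F)⁻¹ ∈ V.loc z :=
        (SetLike.ext_iff.1 hz _).2 (hloc b ((SetLike.ext_iff.1 hz _).1 b.2) hb.2)
      exact (V.unitAt_iff (b := b)).1 ⟨hb.1, b.2, h4⟩)
    have he : ∀ b ∈ V.loc z, V.e (V.map W.incl P) b = b := by
      intro b hb
      have hb' : b ∈ V.loc (V.center P) := by rw [hP]; exact hb
      rw [V.e_map _ _ hb', V.e_eq P hb', hev b hb' hb]
      rfl
    have hle' : V.loc z ≤ V.loc (V.center (V.map W.incl P)) := by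
      have := V.loc_le W.incl P
      rwa [hP] at this
    have htop : V.loc (V.center (V.map W.incl P)) = ⊤ := by
      rw [eq_top_iff]
      rintro b -
      obtain ⟨s, t, ht, rfl⟩ := IsFractionRing.div_surjective (A := V.loc z) b
      have ht0 : (t : V.F) ≠ 0 := fun h => nonZeroDivisors.ne_zero ht (Subtype.ext h)
      have h5 : IsUnit (V.e (V.map W.incl P) (t : V.F)) := by
        rw [he _ t.2]
        exact isUnit_iff_ne_zero.2 ht0
      have h6 := V.unitAt_of_isUnit_e _ (hle' t.2) h5
      have h7 : ((s : V.F) / (t : V.F)) ∈ V.loc (V.center (V.map W.incl P)) := by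
        rw [div_eq_mul_inv]
        exact mul_mem (hle' s.2) h6.2.2
      exact h7
    refine ⟨P, hP, rfl, V.eq_gen _ htop, ?_⟩
    intro b
    have hb : b ∈ V.loc (V.center (V.map W.incl P)) := by rw [htop]; trivial
    obtain ⟨s, t, ht, hst⟩ := IsFractionRing.div_surjective (A := V.loc z) b
    have ht0 : (t : V.F) ≠ 0 := fun h => nonZeroDivisors.ne_zero ht (Subtype.ext h)
    have h5 : b * (t : V.F) = s := by
      rw [← hst]
      exact div_mul_cancel₀ _ ht0
    have h6 := congrArg (V.e (V.map W.incl P)) h5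
    rw [V.e_mul _ hb (hle' t.2), he _ t.2, he _ s.2, ← h5] at h6
    exact mul_right_cancel₀ ht0 h6
  obtain ⟨P, hP, -, hPg, hPe⟩ := key x rfl
  obtain ⟨Q, hQ, -, hQg, hQe⟩ := key y h.symm
  have hPQ : V.map W.incl P = V.map W.incl Q := by
    refine V.ext_pt _ _ (hPg.trans hQg.symm) fun b hb hb' => ?_
    rw [← V.e_eq _ hb, ← V.e_eq _ hb', hPe, hQe]
  have := V.proper.1 hPQ
  rw [← hP, ← hQ, this]

/-- the local ring of the image point is a localisation -/
theorem exists_div (g : R →ₐ[K] R') (P : V.pt R) {b : V.F}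
    (hb : b ∈ V.loc (V.center (V.map g P))) : ∃ s t : V.F, s ∈ V.loc (V.center P) ∧
      t ∈ V.loc (V.center P) ∧ IsUnit (g (V.e P t)) ∧ b = s / t := by
  obtain ⟨s, t, h1, h2⟩ := V.loc_map g P b hb
  exact ⟨s, t, s.2, t.2, by rwa [V.e_eq P t.2], h2⟩

/-- local homomorphisms preserve the center -/
theorem center_map (g : R →ₐ[K] R') (hg : ∀ a : R, IsUnit (g a) → IsUnit a) (P : V.pt R) :
    V.center (V.map g P) = V.center P := by
  apply V.loc_inj
  refine le_antisymm ?_ (V.loc_le g P)
  intro b hb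
  obtain ⟨s, t, hs, ht, hu, rfl⟩ := V.exists_div g P hb
  rw [div_eq_mul_inv]
  exact mul_mem hs (V.unitAt_of_isUnit_e P ht (hg _ hu)).2.2

/-- two points are equal if they have the same center and the same values -/
theorem ext_e {P Q : V.pt R} (h : V.center P = V.center Q)
    (h' : ∀ b ∈ V.loc (V.center P), V.e P b = V.e Q b) : P = Q :=
  V.ext_pt P Q h fun b hb hb' => by rw [← V.e_eq P hb, ← V.e_eq Q hb', h' b hb]

end Ev

section Field

variable {E : Type u} [Field E] [Algebra K E]

theorem e_ne_zero (P : V.pt E) {b : V.F} (h : V.UnitAt (V.center P) b) : V.e P b ≠ 0 :=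
  (V.isUnit_e P h).ne_zero

theorem e_inv (P : V.pt E) {b : V.F} (h : V.UnitAt (V.center P) b) :
    V.e P b⁻¹ = (V.e P b)⁻¹ := by
  have h1 := V.e_mul P h.2.1 h.2.2
  rw [mul_inv_cancel₀ h.1, V.e_one] at h1
  exact (inv_eq_of_mul_eq_one_right h1.symm).symm

theorem e_div (P : V.pt E) {b c : V.F} (hb : b ∈ V.loc (V.center P))
    (hc : V.UnitAt (V.center P) c) : V.e P (b / c) = V.e P b / V.e P c := by
  rw [div_eq_mul_inv, V.e_mul P hb hc.2.2, V.e_inv P hc, div_eq_mul_inv]

variable (O : KVal K E)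

/-- the extension of a point to the valuation ring -/
noncomputable def lift : V.pt E ≃+ V.pt O.R :=
  (AddEquiv.ofBijective (V.map O.incl) (V.proper (V := O.R) (E := E))).symm

@[simp] theorem map_lift (P : V.pt E) : V.map O.incl (V.lift O P) = P :=
  (AddEquiv.ofBijective (V.map O.incl) (V.proper (V := O.R) (E := E))).apply_symm_apply P

@[simp] theorem lift_map (P : V.pt O.R) : V.lift O (V.map O.incl P) = P :=
  (AddEquiv.ofBijective (V.map O.incl) (V.proper (V := O.R) (E := E))).symm_apply_apply P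

theorem lift_eq_iff {P : V.pt E} {Q : V.pt O.R} : V.lift O P = Q ↔ V.map O.incl Q = P := by
  constructor
  · rintro rfl; exact V.map_lift O P
  · rintro rfl; exact V.lift_map O Q

/-- the center of a point on a valuation ring -/
noncomputable def ctr (P : V.pt E) : V.X := V.center (V.lift O P)

theorem loc_ctr_le (P : V.pt E) : V.loc (V.ctr O P) ≤ V.loc (V.center P) := by
  have h := V.loc_le O.incl (V.lift O P)
  rwa [map_lift] at h

theorem coe_e_lift (P : V.pt E) {b : V.F} (hb : b ∈ V.loc (V.ctr O P)) :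
    ((V.e (V.lift O P) b : O.R) : E) = V.e P b := by
  have h := V.e_map O.incl (V.lift O P) hb
  rw [map_lift] at h
  exact h.symm

theorem e_mem (P : V.pt E) {b : V.F} (hb : b ∈ V.loc (V.ctr O P)) :
    V.e P b ∈ O.toValuationSubring := by
  rw [← V.coe_e_lift O P hb]
  exact Subtype.mem _

theorem e_inv_mem (P : V.pt E) {b : V.F} (hb : V.UnitAt (V.ctr O P) b) :
    (V.e P b)⁻¹ ∈ O.toValuationSubring := by
  rw [← V.e_inv P (hb.mono (V.loc_ctr_le O P))]
  exact V.e_mem O P hb.2.2

theorem unitAt_of_e_inv_mem (P : V.pt E) {b : V.F} (hb : b ∈ V.loc (V.ctr O P))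
    (h0 : V.e P b ≠ 0) (h : (V.e P b)⁻¹ ∈ O.toValuationSubring) : V.UnitAt (V.ctr O P) b := by
  refine V.unitAt_of_isUnit_e _ hb ?_
  rw [KVal.isUnit_iff, V.coe_e_lift O P hb]
  exact ⟨h0, h⟩

/-- the center is determined by a dominated local ring -/
theorem ctr_eq_of_dominated (P : V.pt E) {S : Type u} [CommRing S] [Algebra K S] [IsLocalRing S]
    (g : S →ₐ[K] O.R) (hg : ∀ a : S, IsUnit (g a) → IsUnit a) (Q : V.pt S)
    (h : V.map (O.incl.comp g) Q = P) : V.ctr O P = V.center Q := by
  rw [ctr, ← V.center_map g hg Q]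
  congr 1
  rw [lift_eq_iff, ← V.map_comp, h]

/-- the center on a larger valuation ring -/
theorem loc_ctr_mono {O O' : KVal K E} (h : O.toValuationSubring ≤ O'.toValuationSubring)
    (P : V.pt E) : V.loc (V.ctr O P) ≤ V.loc (V.ctr O' P) := by
  have h1 : V.lift O' P = V.map (KVal.inclusion h) (V.lift O P) := by
    rw [lift_eq_iff, ← V.map_comp, KVal.incl_comp_inclusion, map_lift]
  rw [ctr, ctr, h1]
  exact V.loc_le _ _

/-- if the center on `O` is defined through a point over `S ⊆ O` (not necessarily dominated) -/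
theorem loc_center_le_ctr (P : V.pt E) {S : Type u} [CommRing S] [Algebra K S] [IsLocalRing S]
    (g : S →ₐ[K] O.R) (Q : V.pt S) (h : V.map (O.incl.comp g) Q = P) :
    V.loc (V.center Q) ≤ V.loc (V.ctr O P) := by
  have h1 : V.lift O P = V.map g Q := by
    rw [lift_eq_iff, ← V.map_comp, h]
  rw [ctr, h1]
  exact V.loc_le _ _

section Red

variable {κ : Type u} [Field κ] [Algebra K κ] (π : O.R →ₐ[K] κ)

/-- the reduction of a point along a homomorphism `π : O → κ` -/
noncomputable def red : V.pt E →+ V.pt κ := (V.map π).comp (V.lift O).toAddMonoidHom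

theorem red_apply (P : V.pt E) : V.red O π P = V.map π (V.lift O P) := rfl

theorem center_red (hπ : ∀ a : O.R, IsUnit (π a) → IsUnit a) (P : V.pt E) :
    V.center (V.red O π P) = V.ctr O P := V.center_map π hπ _

theorem e_red (P : V.pt E) {b : V.F} (hb : b ∈ V.loc (V.ctr O P)) :
    V.e (V.red O π P) b = π ⟨V.e P b, V.e_mem O P hb⟩ := by
  have h := V.e_map π (V.lift O P) hb
  rw [red_apply, h]
  congr 1
  exact Subtype.ext (V.coe_e_lift O P hb)

end Red

end Field

/-- the generic point, as a point with values in the function field -/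
theorem exists_genPt : ∃ P : V.pt V.F, V.center P = V.gen ∧ ∀ b : V.F, V.e P b = b := by
  let φ : V.loc V.gen →ₐ[K] V.F := (V.loc V.gen).val
  obtain ⟨P, hP, h⟩ := V.exists_pt V.gen φ (fun b hb => by
    refine V.unitAt_iff.1 ⟨fun h0 => hb.ne_zero h0, b.2, ?_⟩
    have : ∀ c : V.F, c ∈ V.loc V.gen := fun c => by rw [V.loc_gen]; trivial
    exact this _)
  refine ⟨P, hP, fun b => ?_⟩
  have hb : b ∈ V.loc V.gen := by rw [V.loc_gen]; trivial
  have hb' : b ∈ V.loc (V.center P) := by rw [hP]; exact hb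
  rw [V.e_eq P hb', h b hb' hb]
  rfl

/-- the generic point -/
noncomputable def genPt : V.pt V.F := V.exists_genPt.choose

@[simp] theorem center_genPt : V.center V.genPt = V.gen := V.exists_genPt.choose_spec.1

@[simp] theorem e_genPt (b : V.F) : V.e V.genPt b = b := V.exists_genPt.choose_spec.2 b

theorem mem_loc_gen (b : V.F) : b ∈ V.loc V.gen := by rw [V.loc_gen]; trivial

section Generic

variable {E : Type u} [Field E] [Algebra K E]

/-- the homomorphism `F → E` of a point with generic center -/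
noncomputable def homOf (P : V.pt E) (h : V.center P = V.gen) : V.F →ₐ[K] E :=
  (V.ev P).comp
    { toFun := fun b => ⟨b, by rw [h]; exact V.mem_loc_gen b⟩
      map_one' := rfl
      map_mul' := fun _ _ => rfl
      map_zero' := rfl
      map_add' := fun _ _ => rfl
      commutes' := fun _ => rfl }

@[simp] theorem homOf_apply (P : V.pt E) (h : V.center P = V.gen) (b : V.F) :
    V.homOf P h b = V.e P b :=
  (V.e_eq P (by rw [h]; exact V.mem_loc_gen b)).symm

theorem map_homOf (P : V.pt E) (h : V.center P = V.gen) : V.map (V.homOf P h) V.genPt = P := by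
  have hc : V.center (V.map (V.homOf P h) V.genPt) = V.gen := by
    apply V.eq_gen
    rw [eq_top_iff, ← V.loc_gen]
    have := V.loc_le (V.homOf P h) V.genPt
    rwa [center_genPt] at this
  refine V.ext_e (hc.trans h.symm) fun b _ => ?_
  rw [V.e_map _ _ (by rw [center_genPt]; exact V.mem_loc_gen b), e_genPt, homOf_apply]

theorem center_map_genPt (g : V.F →ₐ[K] E) : V.center (V.map g V.genPt) = V.gen := by
  apply V.eq_gen
  rw [eq_top_iff, ← V.loc_gen]
  have := V.loc_le g V.genPt
  rwa [center_genPt] at this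

@[simp] theorem e_map_genPt (g : V.F →ₐ[K] E) (b : V.F) : V.e (V.map g V.genPt) b = g b := by
  rw [V.e_map _ _ (by rw [center_genPt]; exact V.mem_loc_gen b), e_genPt]

end Generic

end GrpVar

end Fermat.Agent.AV
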