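import Fermat.Agent.AV.KPl
import Fermat.Agent.AV.Disj
import Fermat.Agent.RR.Places

set_option autoImplicit false
set_option linter.style.haveILetI false
set_option linter.unusedSectionVars false

/-!
# Generic points over algebraically closed fields and their specialisations
-/

universe u

open AlgebraicCurve Fermat.Agent.FF

namespace Fermat.Agent.AV

namespace GrpVar

section Red

variable {K : Type u} [Field K] (V : GrpVar K)

/-- reduction is compatible with extensions of places -/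
theorem redP_of_compat {Ω L κ Ω' L' : Type u} [Field Ω] [Field L] [Field κ] [Algebra Ω L]
    [Algebra Ω κ] [Algebra K Ω] [Algebra K L] [IsScalarTower K Ω L] [Algebra K κ]
    [IsScalarTower K Ω κ] [Field Ω'] [Field L'] [Algebra Ω' L']
    [Algebra Ω' κ] [Algebra K Ω'] [Algebra K L'] [IsScalarTower K Ω' L']
    [IsScalarTower K Ω' κ] (p : KPlace Ω L κ) (p' : KPlace Ω' L' κ) (g : L →ₐ[K] L')
    (hg : ∀ x (hx : x ∈ p.V), ∃ h : g x ∈ p'.V, p'.π ⟨g x, h⟩ = p.π ⟨x, hx⟩) (P : V.pt L) :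
    V.redP p' (V.map g P) = V.redP p P := by
  let γ : (p.kval K).R →ₐ[K] (p'.kval K).R :=
    { toFun := fun x => ⟨g x, (hg x x.2).1⟩
      map_one' := Subtype.ext (map_one g)
      map_mul' := fun a b => Subtype.ext (map_mul g _ _)
      map_zero' := Subtype.ext (map_zero g)
      map_add' := fun a b => Subtype.ext (map_add g _ _)
      commutes' := fun a => Subtype.ext (g.commutes a) }
  have h1 : V.lift (p'.kval K) (V.map g P) = V.map γ (V.lift (p.kval K) P) := by
    rw [V.lift_eq_iff, ← V.map_comp]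
    have h2 : (p'.kval K).incl.comp γ = g.comp (p.kval K).incl := AlgHom.ext fun _ => rfl
    rw [h2, V.map_comp, V.map_lift]
  have h3 : (p'.res K).comp γ = p.res K := AlgHom.ext fun x => (hg x x.2).2
  rw [redP, redP, red_apply, red_apply, h1, ← V.map_comp, h3]

/-- reduction along a composition of places -/
theorem redP_comp {Ω M L κ κ' : Type u} [Field Ω] [Field M] [Field L] [Field κ] [Field κ']
    [Algebra Ω M] [Algebra M L] [Algebra Ω L] [IsScalarTower Ω M L] [Algebra M κ] [Algebra Ω κ]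
    [IsScalarTower Ω M κ] [Algebra Ω κ'] [Algebra K Ω] [Algebra K M] [Algebra K L] [Algebra K κ]
    [Algebra K κ'] [IsScalarTower K M L] [IsScalarTower K M κ] [IsScalarTower K Ω L]
    [IsScalarTower K Ω κ] [IsScalarTower K Ω κ'] (p : KPlace Ω κ κ') (q : KPlace M L κ)
    (P : V.pt L) : V.redP (p.comp q) P = V.redP p (V.redP q P) := by
  have hle : ((p.comp q).kval K).toValuationSubring ≤ (q.kval K).toValuationSubring :=
    fun x hx => (KPlace.mem_compV.1 hx).1
  have h1 : V.lift (q.kval K) P =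
      V.map (KVal.inclusion hle) (V.lift ((p.comp q).kval K) P) := by
    rw [V.lift_eq_iff, ← V.map_comp, KVal.incl_comp_inclusion, V.map_lift]
  let ρ : ((p.comp q).kval K).R →ₐ[K] (p.kval K).R :=
    { toFun := fun x => ⟨q.π ⟨x, (KPlace.mem_compV.1 x.2).1⟩, (KPlace.mem_compV.1 x.2).2⟩
      map_one' := Subtype.ext (map_one q.π)
      map_mul' := fun a b => Subtype.ext (map_mul q.π ⟨a, (KPlace.mem_compV.1 a.2).1⟩
        ⟨b, (KPlace.mem_compV.1 b.2).1⟩)
      map_zero' := Subtype.ext (map_zero q.π)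
      map_add' := fun a b => Subtype.ext (map_add q.π ⟨a, (KPlace.mem_compV.1 a.2).1⟩
        ⟨b, (KPlace.mem_compV.1 b.2).1⟩)
      commutes' := fun a => Subtype.ext (by
        have := (q.res K).commutes a
        exact this) }
  have h2 : V.redP q P = V.map (p.kval K).incl (V.map ρ (V.lift ((p.comp q).kval K) P)) := by
    rw [redP, red_apply, h1, ← V.map_comp, ← V.map_comp]
    rfl
  rw [h2, redP, redP, red_apply, red_apply, V.lift_map, ← V.map_comp]
  rfl

end Red

section Generic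

variable {K : Type u} [Field K] (V : GrpVar K)

/-- generic points over a field extension exist in algebraically closed fields -/
theorem exists_generic [IsAlgClosed K] (Ω : Type u) [Field Ω] [Algebra K Ω] :
    ∃ (U : Type u) (_ : Field U) (_ : Algebra K U) (_ : Algebra Ω U) (_ : IsScalarTower K Ω U)
      (_ : IsAlgClosed U) (ξ : V.F →ₐ[K] U), Disj K (algebraMap Ω U) ξ := by
  obtain ⟨B, _, _, ⟨d⟩⟩ := exists_ext K V.F Ω
  letI : Algebra K B := ((algebraMap Ω B).comp (algebraMap K Ω)).toAlgebra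
  haveI : IsScalarTower K Ω B := IsScalarTower.of_algebraMap_eq fun _ => rfl
  let U := AlgebraicClosure B
  let ξ : V.F →ₐ[K] U :=
    { (algebraMap B U).comp d.ι with
      commutes' := fun a => by
        show algebraMap B U (d.ι (algebraMap K V.F a)) = _
        rw [d.ι_alg, ← IsScalarTower.algebraMap_apply Ω B U, ← IsScalarTower.algebraMap_apply K Ω U] }
  refine ⟨U, inferInstance, inferInstance, inferInstance, inferInstance, inferInstance, ξ, ?_⟩
  intro n e he c hc i
  have h1 := d.indep e he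
  rw [Fintype.linearIndependent_iff] at h1
  refine h1 c ((algebraMap B U).injective ?_) i
  rw [map_zero, ← hc, map_sum]
  refine Finset.sum_congr rfl fun j _ => ?_
  rw [Algebra.smul_def, map_mul, ← IsScalarTower.algebraMap_apply Ω B U]
  rfl

variable {V} {Ω U : Type u} [Field Ω] [Field U] [Algebra K Ω] [Algebra K U] [Algebra Ω U]
  [IsScalarTower K Ω U] [IsAlgClosed Ω]

/-- generic points specialise to all constant points -/
theorem exists_redP_eq {ξ : V.F →ₐ[K] U} (hξ : Disj K (algebraMap Ω U) ξ) (b : V.pt Ω) :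
    ∃ p : KPlace Ω U Ω, V.redP p (V.map ξ V.genPt) = b := by
  have h : Disj K (Algebra.ofId Ω U) (ξ.comp (V.loc (V.center b)).val) := by
    intro n e he c hc
    exact hξ (fun i => (e i : V.F)) (he.map' (V.loc (V.center b)).val.toLinearMap
      (LinearMap.ker_eq_bot.2 Subtype.val_injective)) c hc
  obtain ⟨p, -, h2⟩ := exists_kplace_disj h (AlgHom.id Ω Ω) (V.ev b)
  refine ⟨p, V.redP_eq p ?_ fun c hc => ?_⟩
  · rw [center_map_genPt]
    exact fun c _ => V.mem_loc_gen c
  · obtain ⟨h3, h4⟩ := h2 ⟨c, hc⟩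
    have h5 : V.e (V.map ξ V.genPt) c = ξ c := V.e_map_genPt ξ c
    have h6 : V.e (V.map ξ V.genPt) c ∈ p.V := by rw [h5]; exact h3
    refine ⟨h6, ?_⟩
    rw [V.e_eq b hc, ← h4]
    congr 1
    exact Subtype.ext h5

end Generic

section Two

variable {K : Type u} [Field K] {V : GrpVar K} {Ω U₁ U : Type u} [Field Ω] [Field U₁] [Field U]
  [Algebra K Ω] [Algebra K U₁] [Algebra K U] [Algebra Ω U₁] [Algebra U₁ U] [Algebra Ω U]
  [IsScalarTower Ω U₁ U] [IsScalarTower K Ω U₁] [IsScalarTower K U₁ U] [IsScalarTower K Ω U]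
  [IsAlgClosed Ω] [IsAlgClosed U₁]
  {η : V.F →ₐ[K] U₁} (hη : Disj K (algebraMap Ω U₁) η)
  {ζ : V.F →ₐ[K] U} (hζ : Disj K (algebraMap U₁ U) ζ)

include hη hζ in
/-- two independent generic points specialise to all pairs of constant points -/
theorem exists_redP_eq₂ (b c : V.pt Ω) : ∃ p : KPlace Ω U Ω,
    V.redP p (V.map (IsScalarTower.toAlgHom K U₁ U) (V.map η V.genPt)) = b ∧
    V.redP p (V.map ζ V.genPt) = c := by
  obtain ⟨p, hp⟩ := exists_redP_eq hη b
  obtain ⟨q, hq⟩ := exists_redP_eq hζ (V.map (IsScalarTower.toAlgHom K Ω U₁) c)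
  refine ⟨p.comp q, ?_, ?_⟩
  · rw [redP_comp, redP_const]
    have : IsScalarTower.toAlgHom K U₁ U₁ = AlgHom.id K U₁ := AlgHom.ext fun _ => rfl
    rw [this, V.map_id, hp]
  · rw [redP_comp, hq, redP_const]
    have : IsScalarTower.toAlgHom K Ω Ω = AlgHom.id K Ω := AlgHom.ext fun _ => rfl
    rw [this, V.map_id]

end Two

end GrpVar

section Res

variable {Ω F : Type*} [Field Ω] [Field F] [Algebra Ω F] [IsAlgClosed Ω] [IsFnField Ω F]

/-- the residue map of a place, with values in the constants -/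
noncomputable def resΩ (Q : Place Ω F) : Q.toValuationSubring →ₐ[Ω] Ω :=
  (AlgEquiv.ofBijective (Algebra.ofId Ω Q.ResidueField)
    (RR.bijective_algebraMap_residueField Q)).symm.toAlgHom.comp
    (IsScalarTower.toAlgHom Ω Q.toValuationSubring Q.ResidueField)

theorem resΩ_eq_zero_iff (Q : Place Ω F) (a : Q.toValuationSubring) :
    resΩ Q a = 0 ↔ ¬ IsUnit a := by
  have h1 : resΩ Q a = 0 ↔ IsLocalRing.residue Q.toValuationSubring a = 0 :=
    map_eq_zero_iff (AlgEquiv.ofBijective (Algebra.ofId Ω Q.ResidueField)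
      (RR.bijective_algebraMap_residueField Q)).symm (AlgEquiv.injective _)
  rw [h1, IsLocalRing.residue_eq_zero_iff, IsLocalRing.mem_maximalIdeal, mem_nonunits_iff]

end Res

section Sigma

variable {K : Type u} [Field K] {V : GrpVar K} {Ω U₁ U : Type u} [Field Ω] [Field U₁] [Field U]
  [Algebra K Ω] [Algebra K U₁] [Algebra K U] [Algebra Ω U₁] [Algebra U₁ U] [Algebra Ω U]
  [IsScalarTower Ω U₁ U] [IsScalarTower K Ω U₁] [IsScalarTower K U₁ U] [IsScalarTower K Ω U]
  [IsAlgClosed Ω] [IsAlgClosed U₁]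
  {η : V.F →ₐ[K] U₁} (hη : Disj K (algebraMap Ω U₁) η)
  {ζ : V.F →ₐ[K] U} (hζ : Disj K (algebraMap U₁ U) ζ)
  {F : Type u} [Field F] [Algebra Ω F] [IsFnField Ω F]

theorem exists_poly_poly {x : F} (hx : Transcendental Ω x) (f : F) :
    ∃ q : Polynomial (Polynomial Ω), q ≠ 0 ∧
      Polynomial.eval₂ (Polynomial.aeval x : Polynomial Ω →ₐ[Ω] F).toRingHom f q = 0 := by
  have h1 := (isTranscendenceBasis_of_transcendental (K := Ω) (F := F)
    IsFnField.trdeg_eq_one hx).isAlgebraic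
  rw [Set.range_const] at h1
  obtain ⟨p, hp, hp0⟩ := h1.isAlgebraic f
  let φ : Polynomial Ω →ₐ[Ω] Algebra.adjoin Ω {x} :=
    (Polynomial.aeval x : Polynomial Ω →ₐ[Ω] F).codRestrict (Algebra.adjoin Ω {x}) (fun q => by
      rw [Algebra.adjoin_singleton_eq_range_aeval]
      exact ⟨q, rfl⟩)
  have hφ : Function.Surjective φ.toRingHom := by
    rintro ⟨y, hy⟩
    have hy' := hy
    rw [Algebra.adjoin_singleton_eq_range_aeval] at hy'
    obtain ⟨q, hq⟩ := hy'
    exact ⟨q, Subtype.ext hq⟩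
  obtain ⟨q, hq⟩ := Polynomial.map_surjective φ.toRingHom hφ p
  refine ⟨q, ?_, ?_⟩
  · rintro rfl
    rw [Polynomial.map_zero] at hq
    exact hp hq.symm
  · rw [← hp0, ← hq, Polynomial.aeval_def, Polynomial.eval₂_map]
    rfl

/-- an embedding of `F` which is not defined over `U₁` is linearly disjoint from `U₁` -/
theorem disj_of_not_range (σ : F →ₐ[Ω] U) {f₀ : F} (h : σ f₀ ∉ (algebraMap U₁ U).range) :
    Disj Ω (algebraMap U₁ U) σ := by
  have h1 : Transcendental U₁ (σ f₀) := by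
    intro h2
    obtain ⟨a, ha⟩ := RR.mem_range_of_isAlgebraic h2
    exact h ⟨a, ha⟩
  have h2 : Transcendental Ω f₀ := by
    intro h2
    obtain ⟨a, ha⟩ := RR.mem_range_of_isAlgebraic h2
    apply h
    refine ⟨algebraMap Ω U₁ a, ?_⟩
    rw [← ha, σ.commutes, ← IsScalarTower.algebraMap_apply]
  intro n e he c hc i
  have h3 := Spc.indep_of_transcendental (U := U₁) (B := U) (K := Ω) σ.toRingHom (fun a => by
    show σ (algebraMap Ω F a) = _
    rw [σ.commutes, ← IsScalarTower.algebraMap_apply]) (exists_poly_poly h2) h1 he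
  rw [Fintype.linearIndependent_iff] at h3
  refine h3 c ?_ i
  rw [← hc]
  refine Finset.sum_congr rfl fun j _ => ?_
  rw [Algebra.smul_def]
  rfl

include hη hζ in
/-- a place of `U` at which `η` or `ζ` vanishes and which prescribes the values of an embedding
`σ : F → U` -/
theorem exists_kplace_σ (σ : F →ₐ[Ω] U) (Q : Place Ω F) : ∃ p : KPlace Ω U Ω,
    (V.redP p (V.map (IsScalarTower.toAlgHom K U₁ U) (V.map η V.genPt)) = 0 ∨
      V.redP p (V.map ζ V.genPt) = 0) ∧
    ∀ (f : F) (hf : f ∈ Q.toValuationSubring), ∃ h : σ f ∈ p.V,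
      p.π ⟨σ f, h⟩ = resΩ Q ⟨f, hf⟩ := by
  by_cases hσ : ∀ f : F, σ f ∈ (IsScalarTower.toAlgHom Ω U₁ U).range
  · let r : U₁ ≃ₐ[Ω] (IsScalarTower.toAlgHom Ω U₁ U).range :=
      AlgEquiv.ofInjective _ (IsScalarTower.toAlgHom Ω U₁ U).toRingHom.injective
    let σ₁ : F →ₐ[Ω] U₁ := r.symm.toAlgHom.comp (σ.codRestrict _ hσ)
    have hσ₁ : ∀ f, algebraMap U₁ U (σ₁ f) = σ f := by
      intro f
      have h1 : r (σ₁ f) = ⟨σ f, hσ f⟩ := r.apply_symm_apply _
      exact congrArg Subtype.val h1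
    let g : Q.toValuationSubring →ₐ[Ω] U₁ :=
      σ₁.comp (IsScalarTower.toAlgHom Ω Q.toValuationSubring F)
    obtain ⟨p, hp⟩ := exists_kplace_one g (σ₁.toRingHom.injective.comp Subtype.val_injective)
      (resΩ Q)
    obtain ⟨q, hq⟩ := GrpVar.exists_redP_eq hζ (0 : V.pt U₁)
    refine ⟨p.comp q, Or.inr ?_, fun f hf => ?_⟩
    · rw [GrpVar.redP_comp, hq, map_zero]
    · obtain ⟨h1, h2⟩ := hp ⟨f, hf⟩
      have h3 : σ f ∈ q.V := by rw [← hσ₁]; exact q.mem _
      have h4 : q.π ⟨σ f, h3⟩ = σ₁ f := by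
        refine Eq.trans ?_ (q.π_alg (σ₁ f))
        congr 1
        exact Subtype.ext (hσ₁ f).symm
      have h5 : q.π ⟨σ f, h3⟩ ∈ p.V := by rw [h4]; exact h1
      refine ⟨KPlace.mem_comp h3 h5, ?_⟩
      rw [KPlace.comp_π h3 h5, ← h2]
      congr 1
      exact Subtype.ext h4
  · push Not at hσ
    obtain ⟨f₀, hf₀⟩ := hσ
    have hd : Disj Ω (algebraMap U₁ U) σ := disj_of_not_range σ (f₀ := f₀) (fun ⟨a, ha⟩ =>
      hf₀ ⟨a, ha⟩)
    obtain ⟨p₁, hp₁⟩ := GrpVar.exists_redP_eq hη (0 : V.pt Ω)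
    let f₁ : p₁.S →ₐ[Ω] U := (IsScalarTower.toAlgHom Ω U₁ U).comp p₁.S.val
    let f₂ : Q.toValuationSubring →ₐ[Ω] U :=
      σ.comp (IsScalarTower.toAlgHom Ω Q.toValuationSubring F)
    have hd' : Disj Ω f₁ f₂ := by
      intro n e he c hc i
      refine Subtype.ext (hd (fun i => (e i : F)) ?_ (fun i => (c i : U₁)) hc i)
      exact he.map' (IsScalarTower.toAlgHom Ω Q.toValuationSubring F).toLinearMap
        (LinearMap.ker_eq_bot.2 Subtype.val_injective)
    obtain ⟨p, hp1, hp2⟩ := exists_kplace_disj hd' p₁.πK (resΩ Q)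
    refine ⟨p, Or.inl ?_, fun f hf => ?_⟩
    · rw [GrpVar.redP_of_compat (κ := Ω) V p₁ p (IsScalarTower.toAlgHom K U₁ U) (fun x hx => ?_),
        hp₁]
      obtain ⟨h1, h2⟩ := hp1 ⟨x, hx⟩
      exact ⟨h1, h2⟩
    · exact hp2 ⟨f, hf⟩

end Sigma

end Fermat.Agent.AV
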