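import Fermat.Agent.AV.GVBasic

/-!
# The inverse of a generic point is generic
-/

set_option autoImplicit false

universe u

namespace Fermat.Agent.AV

namespace GrpVar

variable {K : Type u} [Field K] (V : GrpVar K)

/-- the tautological point over the local ring of `x`; its generic fibre is the generic point -/
theorem exists_locPt (x : V.X) : ∃ T : V.pt (V.loc x), V.center T = x ∧
    (∀ (b : V.F) (hb : b ∈ V.loc x), V.e T b = ⟨b, hb⟩) ∧
    V.map (V.loc x).val T = V.genPt := by
  obtain ⟨T, hT, hev⟩ := V.exists_pt x (AlgHom.id K (V.loc x)) (fun b h => h)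
  have he : ∀ (b : V.F) (hb : b ∈ V.loc x), V.e T b = ⟨b, hb⟩ := by
    intro b hb
    have hb' : b ∈ V.loc (V.center T) := by rw [hT]; exact hb
    rw [V.e_eq T hb', hev b hb' hb]
    rfl
  have hle : V.loc x ≤ V.loc (V.center (V.map (V.loc x).val T)) := by
    have h := V.loc_le (V.loc x).val T
    rwa [hT] at h
  have he' : ∀ b ∈ V.loc x, V.e (V.map (V.loc x).val T) b = b := by
    intro b hb
    have hb' : b ∈ V.loc (V.center T) := by rw [hT]; exact hb
    rw [V.e_map _ _ hb', he b hb]
    rfl
  have htop : V.loc (V.center (V.map (V.loc x).val T)) = ⊤ := by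
    rw [eq_top_iff]
    rintro b -
    obtain ⟨s, t, ht, rfl⟩ := IsFractionRing.div_surjective (A := V.loc x) b
    have ht0 : (t : V.F) ≠ 0 := fun h => nonZeroDivisors.ne_zero ht (Subtype.ext h)
    have h5 : IsUnit (V.e (V.map (V.loc x).val T) (t : V.F)) := by
      rw [he' _ t.2]
      exact isUnit_iff_ne_zero.2 ht0
    have h6 := V.unitAt_of_isUnit_e _ (hle t.2) h5
    have h7 : ((s : V.F) / (t : V.F)) ∈ V.loc (V.center (V.map (V.loc x).val T)) := by
      rw [div_eq_mul_inv]
      exact mul_mem (hle s.2) h6.2.2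
    exact h7
  have hgen : V.center (V.map (V.loc x).val T) = V.gen := V.eq_gen _ htop
  refine ⟨T, hT, he, ?_⟩
  refine V.ext_e (hgen.trans V.center_genPt.symm) fun b hb => ?_
  rw [e_genPt]
  obtain ⟨s, t, ht, hst⟩ := IsFractionRing.div_surjective (A := V.loc x) b
  have ht0 : (t : V.F) ≠ 0 := fun h => nonZeroDivisors.ne_zero ht (Subtype.ext h)
  have h5 : b * (t : V.F) = s := by
    rw [← hst]
    exact div_mul_cancel₀ _ ht0
  have h6 := congrArg (V.e (V.map (V.loc x).val T)) h5
  rw [V.e_mul _ hb (hle t.2), he' _ t.2, he' _ s.2, ← h5] at h6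
  exact mul_right_cancel₀ ht0 h6

/-- the inverse of the generic point is generic -/
theorem center_neg_genPt : V.center (-V.genPt) = V.gen := by
  obtain ⟨T, hT, he, hgen⟩ := V.exists_locPt (V.center (-V.genPt))
  have hloc : ∀ a : V.loc (V.center (-V.genPt)), IsUnit (V.ev (-V.genPt) a) → IsUnit a :=
    fun a ha => V.ev_local _ a ha
  have h1 : V.map (V.ev (-V.genPt)) T = -V.genPt := by
    have hc : V.center (V.map (V.ev (-V.genPt)) T) = V.center (-V.genPt) := by
      rw [V.center_map _ hloc T, hT]
    refine V.ext_e hc fun b hb => ?_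
    rw [hc] at hb
    have hb' : b ∈ V.loc (V.center T) := by rw [hT]; exact hb
    rw [V.e_map _ _ hb', he b hb, V.e_eq _ hb]
  have h2 : V.map (V.ev (-V.genPt)) (-T) = V.genPt := by
    rw [map_neg, h1, neg_neg]
  have h3 : V.center (-T) = V.gen := by
    rw [← V.center_map _ hloc (-T), h2, center_genPt]
  have h4 : V.map (V.loc (V.center (-V.genPt))).val (-T) = -V.genPt := by
    rw [map_neg, hgen]
  have h5 := V.loc_le (V.loc (V.center (-V.genPt))).val (-T)
  rw [h3, h4, V.loc_gen] at h5
  exact V.eq_gen _ (top_le_iff.mp h5)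

section

variable {E : Type u} [Field E] [Algebra K E]

/-- the inverse of a generic point is generic -/
theorem center_neg {P : V.pt E} (h : V.center P = V.gen) : V.center (-P) = V.gen := by
  have h1 : -P = V.map (V.homOf P h) (-V.genPt) := by
    rw [map_neg, V.map_homOf P h]
  rw [h1, V.center_map _ _ (-V.genPt), V.center_neg_genPt]
  intro a ha
  exact isUnit_iff_ne_zero.2 fun h0 => ha.ne_zero (by rw [h0, map_zero])

/-- the pull back of functions under the inverse -/
noncomputable def negHom : V.F →ₐ[K] V.F := V.homOf (-V.genPt) V.center_neg_genPt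

/-- the values of the inverse -/
theorem e_neg {P : V.pt E} (h : V.center P = V.gen) (b : V.F) :
    V.e (-P) b = V.e P (V.negHom b) := by
  have h1 : -P = V.map (V.homOf P h) (-V.genPt) := by
    rw [map_neg, V.map_homOf P h]
  have h2 : b ∈ V.loc (V.center (-V.genPt)) := by
    rw [V.center_neg_genPt]
    exact V.mem_loc_gen b
  rw [h1, V.e_map _ _ h2, homOf_apply, negHom, homOf_apply]

end

end GrpVar

end Fermat.Agent.AV
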