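import Fermat.Agent.AV.Gauss
import Fermat.Agent.AV.CDivBasic
import Fermat.Agent.RR.Riemann
import Mathlib.RingTheory.Norm.Transitivity

set_option autoImplicit false
set_option linter.style.haveILetI false

/-!
# A product formula in algebraic extensions
-/

open AlgebraicCurve Fermat.Agent.FF Fermat.Agent.Red IntermediateField

namespace Fermat.Agent.AV

section

variable {F L : Type*} [Field F] [Field L] [Algebra F L] [Algebra.IsAlgebraic F L]

/-- elements of all valuation rings over `O` are integral over `O` -/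
theorem isIntegral_of_forall (O : ValuationSubring F) {x : L}
    (h : ∀ W : ValuationSubring L, (∀ f : F, algebraMap F L f ∈ W ↔ f ∈ O) → x ∈ W)
    (htop : ∀ O' : ValuationSubring F, O ≤ O' → O' = O ∨ O' = ⊤) : IsIntegral O x := by
  have h1 : x ∈ (⨅ V : {V : ValuationSubring L // (algebraMap F L '' (O : Set F)) ⊆ V.toSubring},
      V.1.toSubring) := by
    rw [Subring.mem_iInf]
    rintro ⟨W, hW⟩
    rcases htop (W.comap (algebraMap F L)) (fun f hf => hW ⟨f, hf, rfl⟩) with h2 | h2
    · exact h W fun f => by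
        rw [← h2]
        exact Iff.rfl
    · -- `W` contains `F`
      have h3 : ∀ f : F, algebraMap F L f ∈ W := fun f => by
        have : f ∈ W.comap (algebraMap F L) := by rw [h2]; trivial
        exact this
      let A : Subalgebra F L := { W.toSubring with algebraMap_mem' := h3 }
      have hx : IsIntegral F x := (Algebra.IsAlgebraic.isAlgebraic (R := F) x).isIntegral
      letI : Algebra F W := ((algebraMap F L).codRestrict W.toSubring h3).toAlgebra
      haveI : IsScalarTower F W L := IsScalarTower.of_algebraMap_eq fun _ => rfl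
      have hx' : IsIntegral W x := hx.tower_top
      obtain ⟨y, hy⟩ := IsIntegrallyClosed.isIntegral_iff.mp hx'
      show x ∈ W
      rw [← hy]
      exact y.2
  rw [iInf_valuationSubring_superset] at h1
  -- the closure is the image of `O`
  have h2 : Subring.closure (algebraMap F L '' (O : Set F)) =
      (O.toSubring.map (algebraMap F L)) := by
    apply le_antisymm
    · rw [Subring.closure_le]
      rintro _ ⟨f, hf, rfl⟩
      exact ⟨f, hf, rfl⟩
    · rintro _ ⟨f, hf, rfl⟩
      exact Subring.subset_closure ⟨f, hf, rfl⟩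
  have h3 : IsIntegral (Subring.closure (algebraMap F L '' (O : Set F))) x := h1
  letI : Algebra O (Subring.closure (algebraMap F L '' (O : Set F))) :=
    ((algebraMap O L).codRestrict (Subring.closure (algebraMap F L '' (O : Set F)))
      fun f => Subring.subset_closure ⟨f, f.2, rfl⟩).toAlgebra
  haveI : IsScalarTower O (Subring.closure (algebraMap F L '' (O : Set F))) L :=
    IsScalarTower.of_algebraMap_eq fun _ => rfl
  have hsurj : Function.Surjective
      (algebraMap O (Subring.closure (algebraMap F L '' (O : Set F)))) := by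
    rintro ⟨y, hy⟩
    have hy' := hy
    rw [h2] at hy'
    obtain ⟨f, hf, rfl⟩ := hy'
    exact ⟨⟨f, hf⟩, rfl⟩
  haveI : Algebra.IsIntegral O (Subring.closure (algebraMap F L '' (O : Set F))) :=
    Algebra.isIntegral_of_surjective hsurj
  exact isIntegral_trans x h3

end

section

variable {Ω F L : Type*} [Field Ω] [Field F] [Field L] [Algebra Ω F] [Algebra F L] [Algebra Ω L]
  [IsScalarTower Ω F L] [Algebra.IsAlgebraic F L] [IsAlgClosed Ω] [IsFnField Ω F]

/-- a valuation ring over a place of `F` is a place with values in the constants -/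
theorem exists_kplace_of_val (v : Place Ω F) (W : ValuationSubring L)
    (hW : ∀ f : F, algebraMap F L f ∈ W ↔ f ∈ v.toValuationSubring) :
    ∃ p : KPlace Ω L Ω, p.V = W := by
  have hmem : ∀ a : Ω, algebraMap Ω L a ∈ W := fun a => by
    rw [IsScalarTower.algebraMap_apply Ω F L, hW]
    exact v.algebraMap_mem' a
  letI : Algebra Ω W := ((algebraMap Ω L).codRestrict W.toSubring hmem).toAlgebra
  have hcoe : ∀ a : Ω, ((algebraMap Ω W a : W) : L) = algebraMap Ω L a := fun _ => rfl
  -- elements of positive order are non-units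
  have hpos : ∀ (f : F) (hf : f ∈ v.toValuationSubring), HasVal v f 0 →
      ¬ IsUnit (⟨algebraMap F L f, (hW f).2 hf⟩ : W) := by
    intro f hf h0 hu
    obtain ⟨⟨b, hb⟩, hb'⟩ := hu.exists_right_inv
    have hb'' : algebraMap F L f * b = 1 := congrArg Subtype.val hb'
    have hf0 : f ≠ 0 := by
      rintro rfl
      rw [map_zero, zero_mul] at hb''
      exact zero_ne_one hb''
    have hb3 : b = algebraMap F L f⁻¹ := by
      rw [map_inv₀]
      exact eq_inv_of_mul_eq_one_right hb''
    rw [hb3, hW] at hb
    have h1 := (hasVal_zero_iff.mp h0).resolve_left hf0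
    have h2 := ord_nonneg_of_mem v hb
    rw [v.ord_inv] at h2
    omega
  have halg : ∀ y : IsLocalRing.ResidueField W, IsIntegral Ω y := by
    intro y
    obtain ⟨⟨x, hx⟩, rfl⟩ := IsLocalRing.residue_surjective y
    have hxa : IsAlgebraic F x := Algebra.IsAlgebraic.isAlgebraic x
    obtain ⟨q, hq0, hq⟩ := hxa
    obtain ⟨i, hi, hmax⟩ := Finset.exists_max_image q.support
      (fun i => v.toValuationSubring.valuation (q.coeff i)) (by
        rwa [Finset.nonempty_iff_ne_empty, Ne, Polynomial.support_eq_empty])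
    have hqi : q.coeff i ≠ 0 := Polynomial.mem_support_iff.mp hi
    have hcoef : ∀ j, (q.coeff i)⁻¹ * q.coeff j ∈ v.toValuationSubring := by
      intro j
      by_cases hj : j ∈ q.support
      · rw [← v.toValuationSubring.valuation_le_one_iff, map_mul, map_inv₀]
        have h1 : v.toValuationSubring.valuation (q.coeff i) ≠ 0 := (map_ne_zero _).mpr hqi
        calc (v.toValuationSubring.valuation (q.coeff i))⁻¹ *
            v.toValuationSubring.valuation (q.coeff j)
            ≤ (v.toValuationSubring.valuation (q.coeff i))⁻¹ *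
            v.toValuationSubring.valuation (q.coeff i) := mul_le_mul_right (hmax j hj) _
          _ = 1 := inv_mul_cancel₀ h1
      · rw [Polynomial.notMem_support_iff.mp hj, mul_zero]
        exact zero_mem _
    choose c hc using fun j => exists_hasVal (ord_nonneg_of_mem v (hcoef j))
    have hci : c i = 1 := by
      have := hc i
      rw [inv_mul_cancel₀ hqi] at this
      exact this.unique (hasVal_one v)
    -- the relation
    let r : Polynomial Ω := ∑ j ∈ q.support, Polynomial.monomial j (c j)
    have hr0 : r ≠ 0 := by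
      intro h0
      have h1 := congrArg (fun p : Polynomial Ω => p.coeff i) h0
      simp only [r, Polynomial.finsetSum_coeff, Polynomial.coeff_monomial,
        Finset.sum_ite_eq', if_pos hi, Polynomial.coeff_zero] at h1
      rw [hci] at h1
      exact one_ne_zero h1
    refine IsAlgebraic.isIntegral ⟨r, hr0, ?_⟩
    have h2 : Polynomial.aeval (IsLocalRing.residue W ⟨x, hx⟩) r =
        IsLocalRing.residue W (∑ j ∈ q.support, algebraMap Ω W (c j) * ⟨x, hx⟩ ^ j) := by
      rw [map_sum, map_sum]
      refine Finset.sum_congr rfl fun j _ => ?_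
      rw [Polynomial.aeval_monomial, map_mul, map_pow]
      rfl
    rw [h2, IsLocalRing.residue_eq_zero_iff]
    have h3 : ∑ j ∈ q.support, (⟨algebraMap F L ((q.coeff i)⁻¹ * q.coeff j),
        (hW _).2 (hcoef j)⟩ : W) * ⟨x, hx⟩ ^ j = 0 := by
      apply Subtype.ext
      rw [AddSubmonoidClass.coe_finsetSum]
      show ∑ j ∈ q.support, algebraMap F L ((q.coeff i)⁻¹ * q.coeff j) * x ^ j = 0
      have h4 : ∑ j ∈ q.support, algebraMap F L ((q.coeff i)⁻¹ * q.coeff j) * x ^ j =
          algebraMap F L (q.coeff i)⁻¹ * Polynomial.aeval x q := by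
        rw [Polynomial.aeval_def, Polynomial.eval₂_eq_sum, Polynomial.sum, Finset.mul_sum]
        refine Finset.sum_congr rfl fun j _ => ?_
        rw [map_mul, mul_assoc]
      rw [h4, hq, mul_zero]
    have h5 : ∑ j ∈ q.support, algebraMap Ω W (c j) * ⟨x, hx⟩ ^ j =
        ∑ j ∈ q.support, (algebraMap Ω W (c j) * ⟨x, hx⟩ ^ j -
        (⟨algebraMap F L ((q.coeff i)⁻¹ * q.coeff j), (hW _).2 (hcoef j)⟩ : W) *
          ⟨x, hx⟩ ^ j) := by
      rw [Finset.sum_sub_distrib, h3, sub_zero]
    rw [h5]
    refine Ideal.sum_mem _ fun j _ => ?_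
    rw [← sub_mul]
    refine Ideal.mul_mem_right _ _ ?_
    rw [IsLocalRing.mem_maximalIdeal, mem_nonunits_iff]
    have h6 : HasVal v (algebraMap Ω F (c j) - (q.coeff i)⁻¹ * q.coeff j) 0 := by
      have := (hasVal_algebraMap v (c j)).sub (hc j)
      rwa [sub_self] at this
    have h7 := hpos _ h6.mem h6
    have h8 : (algebraMap Ω W (c j) -
        (⟨algebraMap F L ((q.coeff i)⁻¹ * q.coeff j), (hW _).2 (hcoef j)⟩ : W)) =
        ⟨algebraMap F L (algebraMap Ω F (c j) - (q.coeff i)⁻¹ * q.coeff j),
          (hW _).2 h6.mem⟩ := by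
      apply Subtype.ext
      show algebraMap Ω L (c j) - algebraMap F L ((q.coeff i)⁻¹ * q.coeff j) =
        algebraMap F L (algebraMap Ω F (c j) - (q.coeff i)⁻¹ * q.coeff j)
      rw [map_sub, ← IsScalarTower.algebraMap_apply]
    rw [h8]
    exact h7
  haveI : Algebra.IsIntegral Ω (IsLocalRing.ResidueField W) := ⟨halg⟩
  have hbij : Function.Bijective (algebraMap Ω (IsLocalRing.ResidueField W)) :=
    IsAlgClosed.algebraMap_bijective_of_isIntegral
  let e := RingEquiv.ofBijective _ hbij
  refine ⟨{
    V := W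
    π := (e.symm : IsLocalRing.ResidueField W →+* Ω).comp (IsLocalRing.residue W)
    mem := hmem
    π_alg := ?_
    surj := ?_
    ker := ?_ }, rfl⟩
  · intro a
    exact e.symm_apply_apply a
  · exact e.symm.surjective.comp IsLocalRing.residue_surjective
  · intro a
    rw [RingHom.comp_apply]
    show e.symm (IsLocalRing.residue W a) = 0 ↔ _
    rw [map_eq_zero_iff e.symm e.symm.injective, IsLocalRing.residue_eq_zero_iff,
      IsLocalRing.mem_maximalIdeal, mem_nonunits_iff]

omit [IsAlgClosed Ω] [Algebra.IsAlgebraic F L] [Algebra Ω L] [IsScalarTower Ω F L]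
  [IsFnField Ω F] in
/-- the valuation ring of a place is maximal -/
theorem eq_or_eq_top_of_le (v : Place Ω F) (O : ValuationSubring F)
    (h : v.toValuationSubring ≤ O) : O = v.toValuationSubring ∨ O = ⊤ := by
  by_cases hO : O = ⊤
  · exact Or.inr hO
  · left
    have : Ring.KrullDimLE 1 v.toValuationSubring :=
      Ring.KrullDimLE.mk₁' (fun _ a _ ↦ Ideal.IsPrime.isMaximal ‹_› a)
    exact (ValuationSubring.eq_of_le_of_ne_top _ h hO).symm

/-- **Product formula**: an element `γ` of an algebraic extension which at all valuations is, up to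
a unit, given by a divisor `D₀` of the function field. -/
theorem degree_eq_zero_of_local {γ : L} (hγ : γ ≠ 0) (D₀ : Divisor Ω F)
    (h : ∀ v : Place Ω F, ∃ lam : F, lam ≠ 0 ∧ v.ord lam = D₀ v ∧ ∀ p : KPlace Ω L Ω,
      (∀ f : F, algebraMap F L f ∈ p.V ↔ f ∈ v.toValuationSubring) →
      γ / algebraMap F L lam ∈ p.V ∧ (γ / algebraMap F L lam)⁻¹ ∈ p.V) :
    Divisor.degree D₀ = 0 := by
  have hint : IsIntegral F γ := (Algebra.IsAlgebraic.isAlgebraic (R := F) γ).isIntegral
  haveI : FiniteDimensional F F⟮γ⟯ := IntermediateField.adjoin.finiteDimensional hint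
  let x : F⟮γ⟯ := ⟨γ, mem_adjoin_simple_self F γ⟩
  have hx0 : x ≠ 0 := fun h0 => hγ (congrArg Subtype.val h0)
  let N : F := Algebra.norm F x
  have hN : N ≠ 0 := by
    rw [Ne, Algebra.norm_eq_zero_iff]
    exact hx0
  set n := Module.finrank F F⟮γ⟯ with hn
  have hn0 : 0 < n := Module.finrank_pos
  have key : ∀ v : Place Ω F, v.ord N = n * D₀ v := by
    intro v
    obtain ⟨lam, hlam, hord, hloc⟩ := h v
    have hlam' : algebraMap F F⟮γ⟯ lam ≠ 0 := by
      rwa [Ne, map_eq_zero_iff _ (algebraMap F F⟮γ⟯).injective]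
    -- integrality
    have hI : ∀ y : F⟮γ⟯, (∀ p : KPlace Ω L Ω,
        (∀ f : F, algebraMap F L f ∈ p.V ↔ f ∈ v.toValuationSubring) → (y : L) ∈ p.V) →
        Algebra.norm F y ∈ v.toValuationSubring := by
      intro y hy
      have h1 : IsIntegral v.toValuationSubring (y : L) := by
        refine isIntegral_of_forall v.toValuationSubring (fun W hW => ?_)
          (fun O' hO' => eq_or_eq_top_of_le v O' hO')
        obtain ⟨p, rfl⟩ := exists_kplace_of_val v W hW
        exact hy p hW
      have h2 : IsIntegral v.toValuationSubring y :=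
        (isIntegral_algebraMap_iff (algebraMap F⟮γ⟯ L).injective).mp h1
      have h3 := Algebra.isIntegral_norm (L := F⟮γ⟯) F h2
      obtain ⟨z, hz⟩ := IsIntegrallyClosed.isIntegral_iff.mp h3
      rw [← hz]
      exact z.2
    have h1 := hI (x / algebraMap F F⟮γ⟯ lam) (fun p hp => (hloc p hp).1)
    have h2 := hI (x / algebraMap F F⟮γ⟯ lam)⁻¹ (fun p hp => (hloc p hp).2)
    set y : F⟮γ⟯ := x / algebraMap F F⟮γ⟯ lam with hy
    have h3 : Algebra.norm F y * lam ^ n = N := by
      rw [hn, ← Algebra.norm_algebraMap, ← map_mul, hy, div_mul_cancel₀ _ hlam']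
    have hy0 : y ≠ 0 := div_ne_zero hx0 hlam'
    have h3' : Algebra.norm F y⁻¹ * Algebra.norm F y = 1 := by
      rw [← map_mul, inv_mul_cancel₀ hy0, map_one]
    have h3'' : Algebra.norm F y = N / lam ^ n := by
      rw [← h3, mul_div_cancel_right₀ _ (pow_ne_zero _ hlam)]
    rw [eq_inv_of_mul_eq_one_left h3', h3''] at h2
    rw [h3''] at h1
    have hne : N / lam ^ n ≠ 0 := div_ne_zero hN (pow_ne_zero _ hlam)
    have h4 := ord_nonneg_of_mem v h1
    have h5 := ord_nonneg_of_mem v h2
    rw [v.ord_inv] at h5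
    have h6 : v.ord (N / lam ^ n) = v.ord N - n * v.ord lam := by
      rw [div_eq_mul_inv, v.ord_mul hN (inv_ne_zero (pow_ne_zero _ hlam)), v.ord_inv,
        ← zpow_natCast, v.ord_zpow]
      ring
    rw [← hord]
    omega
  have h7 : RR.divOf (K := Ω) N = (n : ℤ) • D₀ := by
    ext v
    rw [Finsupp.smul_apply, smul_eq_mul, ← key v]
    rfl
  have h8 := RR.degree_divOf (K := Ω) N
  rw [h7, map_zsmul, smul_eq_mul] at h8
  rcases mul_eq_zero.mp h8 with h9 | h9
  · exact absurd h9 (by exact_mod_cast hn0.ne')
  · exact h9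

end

end Fermat.Agent.AV
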