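import Mathlib

/-!
Extension of places (Atiyah–Macdonald 5.21 and 5.23): a homomorphism from a subring `R` of a field
`L` to an algebraically closed field `Ω` extends to a valuation ring of `L`, in such a way that the
extension is a place (its kernel is the maximal ideal).
-/

namespace Fermat.Agent.AV

/-- Zariski's lemma in extension form: if `B` is of finite type over `S`, `f : S → Ω` has maximal
kernel contained in (the trace of) a maximal ideal `M` of `B`, then `f` extends to `B`. -/
theorem exists_hom_ext_of_maximal {S B Ω : Type*} [CommRing S] [CommRing B] [Algebra S B]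
    [Algebra.FiniteType S B] [Field Ω] [IsAlgClosed Ω] (f : S →+* Ω)
    (hf : (RingHom.ker f).IsMaximal) (M : Ideal B) [hM : M.IsMaximal]
    (hle : RingHom.ker f ≤ M.comap (algebraMap S B)) :
    ∃ g : B →+* Ω, ∀ s : S, g (algebraMap S B s) = f s := by
  classical
  let _ : Field (S ⧸ RingHom.ker f) := Ideal.Quotient.field _
  let _ : Field (B ⧸ M) := Ideal.Quotient.field _
  let _ : Algebra (S ⧸ RingHom.ker f) (B ⧸ M) :=
    (Ideal.quotientMap M (algebraMap S B) hle).toAlgebra
  let _ : Algebra (S ⧸ RingHom.ker f) Ω :=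
    (Ideal.Quotient.lift (RingHom.ker f) f (fun a ha => ha)).toAlgebra
  have : IsScalarTower S (S ⧸ RingHom.ker f) (B ⧸ M) :=
    IsScalarTower.of_algebraMap_eq (fun s => rfl)
  have : Algebra.FiniteType S (B ⧸ M) :=
    Algebra.FiniteType.of_surjective (Ideal.Quotient.mkₐ S M) (Ideal.Quotient.mkₐ_surjective S M)
  have : Algebra.FiniteType (S ⧸ RingHom.ker f) (B ⧸ M) :=
    Algebra.FiniteType.of_restrictScalars_finiteType S (S ⧸ RingHom.ker f) (B ⧸ M)
  have : Module.Finite (S ⧸ RingHom.ker f) (B ⧸ M) :=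
    finite_of_finite_type_of_isJacobsonRing _ _
  have : Algebra.IsAlgebraic (S ⧸ RingHom.ker f) (B ⧸ M) := Algebra.IsAlgebraic.of_finite _ _
  let g : (B ⧸ M) →ₐ[S ⧸ RingHom.ker f] Ω := IsAlgClosed.lift
  refine ⟨g.toRingHom.comp (Ideal.Quotient.mk M), fun s => ?_⟩
  have h1 : (Ideal.Quotient.mk M) (algebraMap S B s)
      = algebraMap (S ⧸ RingHom.ker f) (B ⧸ M) (Ideal.Quotient.mk _ s) := rfl
  have h2 := g.commutes (Ideal.Quotient.mk _ s)
  change g ((Ideal.Quotient.mk M) (algebraMap S B s)) = f s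
  rw [h1, h2]
  rfl

section graphs

variable {k L Ω : Type*} [Field k] [Field L] [Algebra k L] [Field Ω] [Algebra k Ω]

/-- A subalgebra of `L × Ω` is the graph of a partial function. -/
def IsGraph (G : Subalgebra k (L × Ω)) : Prop := ∀ ω : Ω, ((0 : L), ω) ∈ G → ω = 0

theorem IsGraph.eq {G : Subalgebra k (L × Ω)} (hG : IsGraph G) {x : L} {a b : Ω}
    (ha : (x, a) ∈ G) (hb : (x, b) ∈ G) : a = b := by
  have h := G.sub_mem ha hb
  have h2 : ((x, a) - (x, b) : L × Ω) = (0, a - b) := by simp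
  rw [h2] at h
  exact sub_eq_zero.mp (hG _ h)

/-- Zorn: every graph is contained in a maximal graph. -/
theorem exists_maximal_graph (G₀ : Subalgebra k (L × Ω)) (h₀ : IsGraph G₀) :
    ∃ G : Subalgebra k (L × Ω), G₀ ≤ G ∧ IsGraph G ∧
      ∀ G' : Subalgebra k (L × Ω), IsGraph G' → G ≤ G' → G' ≤ G := by
  obtain ⟨G, hle, hmax⟩ := zorn_le_nonempty₀ {G : Subalgebra k (L × Ω) | IsGraph G}
    (fun c hc hchain y hy => by
      have : Nonempty c := ⟨⟨y, hy⟩⟩
      have hdir : Directed (· ≤ ·) (fun i : c => (i : Subalgebra k (L × Ω))) :=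
        hchain.directed
      refine ⟨⨆ i : c, (i : Subalgebra k (L × Ω)), ?_, ?_⟩
      · intro ω hω
        have hω' : ((0 : L), ω) ∈ ((⨆ i : c, (i : Subalgebra k (L × Ω)) :
            Subalgebra k (L × Ω)) : Set (L × Ω)) := hω
        rw [Subalgebra.coe_iSup_of_directed hdir] at hω'
        obtain ⟨i, hi⟩ := Set.mem_iUnion.mp hω'
        exact hc i.2 ω hi
      · intro z hz
        exact le_iSup (fun i : c => (i : Subalgebra k (L × Ω))) ⟨z, hz⟩) G₀ h₀
  exact ⟨G, hle, hmax.prop, fun G' h1 h2 => hmax.le_of_ge h1 h2⟩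

/-- The domain of a graph. -/
def graphDom (G : Subalgebra k (L × Ω)) : Subalgebra k L :=
  G.map (AlgHom.fst k L Ω)

theorem mem_graphDom {G : Subalgebra k (L × Ω)} {x : L} :
    x ∈ graphDom G ↔ ∃ a : Ω, (x, a) ∈ G := by
  constructor
  · rintro ⟨⟨y, a⟩, hy, rfl⟩
    exact ⟨a, hy⟩
  · rintro ⟨a, ha⟩
    exact ⟨(x, a), ha, rfl⟩

/-- The partial function of a graph. -/
noncomputable def graphHom (G : Subalgebra k (L × Ω)) (hG : IsGraph G) :
    graphDom G →ₐ[k] Ω where
  toFun s := (mem_graphDom.mp s.2).choose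
  map_one' := hG.eq (mem_graphDom.mp (1 : graphDom G).2).choose_spec G.one_mem
  map_mul' s t := hG.eq (mem_graphDom.mp (s * t).2).choose_spec
    (G.mul_mem (mem_graphDom.mp s.2).choose_spec (mem_graphDom.mp t.2).choose_spec)
  map_zero' := hG.eq (mem_graphDom.mp (0 : graphDom G).2).choose_spec G.zero_mem
  map_add' s t := hG.eq (mem_graphDom.mp (s + t).2).choose_spec
    (G.add_mem (mem_graphDom.mp s.2).choose_spec (mem_graphDom.mp t.2).choose_spec)
  commutes' r := hG.eq (mem_graphDom.mp (algebraMap k (graphDom G) r).2).choose_spec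
    (G.algebraMap_mem r)

theorem graphHom_mem (G : Subalgebra k (L × Ω)) (hG : IsGraph G) (s : graphDom G) :
    ((s : L), graphHom G hG s) ∈ G :=
  (mem_graphDom.mp s.2).choose_spec

theorem graphHom_eq (G : Subalgebra k (L × Ω)) (hG : IsGraph G) (s : graphDom G) {a : Ω}
    (ha : ((s : L), a) ∈ G) : graphHom G hG s = a :=
  hG.eq (graphHom_mem G hG s) ha

end graphs

section place

variable {k L Ω : Type*} [Field k] [Field L] [Algebra k L] [Field Ω] [Algebra k Ω]

/-- A maximal graph cannot be extended. -/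
theorem le_graphDom_of_ext {G : Subalgebra k (L × Ω)} (hG : IsGraph G)
    (hmax : ∀ G' : Subalgebra k (L × Ω), IsGraph G' → G ≤ G' → G' ≤ G)
    (B : Subalgebra k L) (hB : graphDom G ≤ B) (g : B →ₐ[k] Ω)
    (hg : ∀ s : graphDom G, g (Subalgebra.inclusion hB s) = graphHom G hG s) :
    B ≤ graphDom G := by
  intro y hy
  let G' : Subalgebra k (L × Ω) := (B.val.prod g).range
  have h1 : IsGraph G' := by
    rintro ω ⟨b, hb⟩
    have hb1 : (b : L) = 0 := congrArg Prod.fst hb
    have hb2 : g b = ω := congrArg Prod.snd hb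
    have hb3 : b = 0 := Subtype.ext hb1
    rw [← hb2, hb3, map_zero]
  have h2 : G ≤ G' := by
    rintro ⟨x, a⟩ hx
    have hxS : x ∈ graphDom G := mem_graphDom.mpr ⟨a, hx⟩
    refine ⟨⟨x, hB hxS⟩, ?_⟩
    have h := hg ⟨x, hxS⟩
    rw [graphHom_eq G hG ⟨x, hxS⟩ hx] at h
    exact Prod.ext rfl h
  have h3 := hmax G' h1 h2 (⟨⟨y, hy⟩, rfl⟩ : (y, g ⟨y, hy⟩) ∈ G')
  exact mem_graphDom.mpr ⟨_, h3⟩

theorem inv_mem_of_graphHom_ne_zero {G : Subalgebra k (L × Ω)} (hG : IsGraph G)
    (hmax : ∀ G' : Subalgebra k (L × Ω), IsGraph G' → G ≤ G' → G' ≤ G)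
    (s : graphDom G) (hs : graphHom G hG s ≠ 0) : (s : L)⁻¹ ∈ graphDom G := by
  obtain ⟨a, ha⟩ : ∃ a : Ω, a = graphHom G hG s := ⟨_, rfl⟩
  rw [← ha] at hs
  have hsa : ((s : L), a) ∈ G := ha ▸ graphHom_mem G hG s
  have hs0 : (s : L) ≠ 0 := by
    intro h0
    have h1 : s = 0 := Subtype.ext h0
    apply hs
    rw [ha, h1, map_zero]
  let G' : Subalgebra k (L × Ω) :=
    Algebra.adjoin k ((G : Set (L × Ω)) ∪ {((s : L)⁻¹, a⁻¹)})
  have key : ∀ z ∈ G', ∃ N : ℕ, z * ((s : L), a) ^ N ∈ G := by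
    intro z hz
    induction hz using Algebra.adjoin_induction with
    | mem z hz =>
      rcases hz with hz | hz
      · exact ⟨0, by simpa using hz⟩
      · refine ⟨1, ?_⟩
        rw [Set.mem_singleton_iff] at hz
        have h1 : (((s : L)⁻¹, a⁻¹) * ((s : L), a) : L × Ω) = 1 := by
          rw [Prod.mk_mul_mk, inv_mul_cancel₀ hs0, inv_mul_cancel₀ hs]
          rfl
        rw [hz, pow_one, h1]
        exact G.one_mem
    | algebraMap r => exact ⟨0, by simpa using G.algebraMap_mem r⟩
    | add x y _ _ hx hy =>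
      obtain ⟨N, hN⟩ := hx
      obtain ⟨M, hM⟩ := hy
      refine ⟨N + M, ?_⟩
      have e : (x + y) * ((s : L), a) ^ (N + M)
          = x * ((s : L), a) ^ N * ((s : L), a) ^ M + y * ((s : L), a) ^ M * ((s : L), a) ^ N := by
        ring
      rw [e]
      exact G.add_mem (G.mul_mem hN (G.pow_mem hsa M)) (G.mul_mem hM (G.pow_mem hsa N))
    | mul x y _ _ hx hy =>
      obtain ⟨N, hN⟩ := hx
      obtain ⟨M, hM⟩ := hy
      refine ⟨N + M, ?_⟩
      have e : (x * y) * ((s : L), a) ^ (N + M)
          = (x * ((s : L), a) ^ N) * (y * ((s : L), a) ^ M) := by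
        ring
      rw [e]
      exact G.mul_mem hN hM
  have h1 : IsGraph G' := by
    intro ω hω
    obtain ⟨N, hN⟩ := key _ hω
    have e : ((0 : L), ω) * ((s : L), a) ^ N = (0, ω * a ^ N) := by
      rw [Prod.pow_mk, Prod.mk_mul_mk, zero_mul]
    rw [e] at hN
    exact (mul_eq_zero.mp (hG _ hN)).resolve_right (pow_ne_zero _ hs)
  have h2 : G ≤ G' := fun x hx => Algebra.subset_adjoin (Or.inl hx)
  have h3 := hmax G' h1 h2 (Algebra.subset_adjoin (Or.inr rfl) : ((s : L)⁻¹, a⁻¹) ∈ G')
  exact mem_graphDom.mpr ⟨_, h3⟩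

/-- The domain of a maximal graph is a valuation ring. -/
theorem mem_or_inv_mem_of_maximal [IsAlgClosed Ω] {G : Subalgebra k (L × Ω)} (hG : IsGraph G)
    (hmax : ∀ G' : Subalgebra k (L × Ω), IsGraph G' → G ≤ G' → G' ≤ G) (x : L) :
    x ∈ graphDom G ∨ x⁻¹ ∈ graphDom G := by
  classical
  obtain ⟨f, hfdef⟩ : ∃ f : graphDom G →ₐ[k] Ω, f = graphHom G hG := ⟨_, rfl⟩
  have hunit : ∀ s : graphDom G, f s ≠ 0 → IsUnit s := by
    intro s hs
    have hs0 : (s : L) ≠ 0 := by
      intro h0
      have h1 : s = 0 := Subtype.ext h0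
      apply hs
      rw [h1, map_zero]
    have hinv := inv_mem_of_graphHom_ne_zero hG hmax s (by rw [← hfdef]; exact hs)
    exact IsUnit.of_mul_eq_one ⟨_, hinv⟩ (Subtype.ext (mul_inv_cancel₀ hs0))
  have hloc : IsLocalHom (f : graphDom G →+* Ω) :=
    ⟨fun s hs => hunit s hs.ne_zero⟩
  have hlr : IsLocalRing (graphDom G) := RingHom.domain_isLocalRing (f : graphDom G →+* Ω)
  have hker : (RingHom.ker (f : graphDom G →+* Ω)).IsMaximal := by
    have e : RingHom.ker (f : graphDom G →+* Ω) = IsLocalRing.maximalIdeal (graphDom G) := by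
      ext s
      rw [RingHom.mem_ker, IsLocalRing.mem_maximalIdeal, mem_nonunits_iff]
      constructor
      · intro h hu
        exact (hu.map (f : graphDom G →+* Ω)).ne_zero h
      · intro h
        by_contra h1
        exact h (hunit s h1)
    rw [e]
    infer_instance
  let A : LocalSubring L := @LocalSubring.mk L _ (graphDom G).toSubring hlr
  obtain ⟨V, hAV, hdom⟩ := LocalSubring.exists_le_valuationSubring A
  have hAV' : ∀ s : graphDom G, (s : L) ∈ V := fun s => hAV s.2
  -- the essential step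
  have key : ∀ y : L, y ∈ V → y ∈ graphDom G := by
    intro y hy
    let B : Subalgebra (graphDom G) L := Algebra.adjoin (graphDom G) {y}
    have hBV : ∀ b ∈ B, b ∈ V := by
      intro b hb
      induction hb using Algebra.adjoin_induction with
      | mem z hz =>
        rw [Set.mem_singleton_iff] at hz
        rw [hz]; exact hy
      | algebraMap r => exact hAV' r
      | add x y _ _ hx hy => exact V.add_mem _ _ hx hy
      | mul x y _ _ hx hy => exact V.mul_mem _ _ hx hy
    let ι : B →+* V := (algebraMap B L).codRestrict V.toSubring (fun b => hBV b b.2)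
    let q : Ideal B := (IsLocalRing.maximalIdeal V).comap ι
    have hq : q ≠ ⊤ := Ideal.comap_ne_top _ (IsLocalRing.maximalIdeal.isMaximal V).ne_top
    obtain ⟨M, hM, hqM⟩ := Ideal.exists_le_maximal q hq
    have hfin : Algebra.FiniteType (graphDom G) B :=
      (Subalgebra.fg_iff_finiteType _).mp (Subalgebra.fg_adjoin_finset {y} |> fun h => by
        simpa using h)
    have hle : RingHom.ker (f : graphDom G →+* Ω) ≤ M.comap (algebraMap (graphDom G) B) := by
      intro s hs
      apply hqM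
      change ι (algebraMap (graphDom G) B s) ∈ IsLocalRing.maximalIdeal V
      rw [IsLocalRing.mem_maximalIdeal, mem_nonunits_iff]
      intro hu
      have h1 : IsUnit s := hdom.1 s hu
      exact (h1.map (f : graphDom G →+* Ω)).ne_zero hs
    obtain ⟨g, hg⟩ := exists_hom_ext_of_maximal (f : graphDom G →+* Ω) hker M hle
    let g' : (B.restrictScalars k) →ₐ[k] Ω :=
      { (g : B →+* Ω) with
        commutes' := fun r => by
          have h1 := hg (algebraMap k (graphDom G) r)
          have h2 : f (algebraMap k (graphDom G) r) = algebraMap k Ω r := f.commutes r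
          exact h1.trans h2 }
    have hB : graphDom G ≤ B.restrictScalars k := fun s hs => B.algebraMap_mem ⟨s, hs⟩
    have h3 := le_graphDom_of_ext hG hmax (B.restrictScalars k) hB g' (fun s => by
      rw [← hfdef]
      exact hg s)
    exact h3 (Algebra.subset_adjoin (Set.mem_singleton y) : y ∈ B)
  rcases V.mem_or_inv_mem x with h | h
  · exact Or.inl (key x h)
  · exact Or.inr (key _ h)

end place

/-- **Extension of places.**  A homomorphism from a subring `R` of a field `L` to an algebraically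
closed field extends to a valuation ring `S` of `L`, and the kernel of the extension consists of
`0` and the elements whose inverse is not in `S`. -/
theorem exists_place_ext_alg {k L Ω : Type*} [Field k] [Field L] [Algebra k L] [Field Ω]
    [IsAlgClosed Ω] [Algebra k Ω] (R : Subalgebra k L) (θ : R →ₐ[k] Ω) :
    ∃ (S : Subalgebra k L) (h : R ≤ S) (f : S →ₐ[k] Ω),
      (∀ x : L, x ∈ S ∨ x⁻¹ ∈ S) ∧
      (∀ r : R, f (Subalgebra.inclusion h r) = θ r) ∧
      (∀ s : S, f s = 0 ↔ (s : L) = 0 ∨ (s : L)⁻¹ ∉ S) := by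
  let G₀ : Subalgebra k (L × Ω) := (R.val.prod θ).range
  have h₀ : IsGraph G₀ := by
    rintro ω ⟨b, hb⟩
    have hb1 : (b : L) = 0 := congrArg Prod.fst hb
    have hb2 : θ b = ω := congrArg Prod.snd hb
    have hb3 : b = 0 := Subtype.ext hb1
    rw [← hb2, hb3, map_zero]
  obtain ⟨G, hle, hG, hmax⟩ := exists_maximal_graph G₀ h₀
  have hR : R ≤ graphDom G := fun r hr =>
    mem_graphDom.mpr ⟨θ ⟨r, hr⟩, hle ⟨⟨r, hr⟩, rfl⟩⟩
  refine ⟨graphDom G, hR, graphHom G hG, mem_or_inv_mem_of_maximal hG hmax, ?_, ?_⟩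
  · intro r
    exact graphHom_eq G hG _ (hle ⟨r, rfl⟩)
  · intro s
    constructor
    · intro hs
      by_contra hcon
      push Not at hcon
      obtain ⟨hs0, hinv⟩ := hcon
      have h1 : s * ⟨_, hinv⟩ = 1 := Subtype.ext (mul_inv_cancel₀ hs0)
      have h2 := congrArg (graphHom G hG) h1
      rw [map_mul, hs, zero_mul, map_one] at h2
      exact zero_ne_one h2
    · intro hs
      by_contra hcon
      have hinv := inv_mem_of_graphHom_ne_zero hG hmax s hcon
      rcases hs with hs | hs
      · apply hcon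
        have h1 : s = 0 := Subtype.ext hs
        rw [h1, map_zero]
      · exact hs hinv

end Fermat.Agent.AV
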