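import Mathlib

set_option autoImplicit false

/-!
# Power series rings over an infinite field are factorial

`K[[x_1, …, x_n]]` is a unique factorisation domain (Weierstrass preparation, linear change
of variables, induction on the number of variables).
-/

namespace Fermat.Agent.AV

open IsLocalRing Polynomial
open PowerSeries hiding X C

section Weier

variable {A : Type*} [CommRing A] [IsDomain A] [IsLocalRing A]

/-- a factor of a distinguished polynomial with unit constant coefficient is a unit -/
theorem isUnit_of_mul_eq_distinguished {w a b : A[X]} (hw : w.IsDistinguishedAt (maximalIdeal A))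
    (hab : w = a * b) (ha : IsUnit (a.coeff 0)) : IsUnit a := by
  have hm : a.leadingCoeff * b.leadingCoeff = 1 := by
    rw [← Polynomial.leadingCoeff_mul, ← hab]
    exact hw.monic
  have hua : IsUnit a.leadingCoeff := IsUnit.of_mul_eq_one _ hm
  have hmap : w.map (Ideal.Quotient.mk (maximalIdeal A)) = X ^ w.natDegree := hw.map_eq_X_pow
  let _ : Field (A ⧸ maximalIdeal A) := Ideal.Quotient.field _
  have h1 : (a.map (Ideal.Quotient.mk (maximalIdeal A))) ∣ X ^ w.natDegree := by
    rw [← hmap, hab, Polynomial.map_mul]
    exact dvd_mul_right _ _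
  obtain ⟨i, hi, hass⟩ := (dvd_prime_pow Polynomial.prime_X _).mp h1
  have h0 : (a.map (Ideal.Quotient.mk (maximalIdeal A))).coeff 0 ≠ 0 := by
    rw [Polynomial.coeff_map]
    intro h
    rw [Ideal.Quotient.eq_zero_iff_mem] at h
    exact (mem_maximalIdeal _).mp h ha
  have hi0 : i = 0 := by
    by_contra hne
    apply h0
    have : X ∣ a.map (Ideal.Quotient.mk (maximalIdeal A)) :=
      (dvd_pow_self X hne).trans hass.symm.dvd
    exact Polynomial.X_dvd_iff.mp this
  subst hi0
  rw [pow_zero, associated_one_iff_isUnit, Polynomial.isUnit_iff_degree_eq_zero] at hass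
  have hdeg : a.degree = 0 := by
    rw [← hass]
    refine (Polynomial.degree_map_eq_of_leadingCoeff_ne_zero _ ?_).symm
    intro h
    rw [Ideal.Quotient.eq_zero_iff_mem] at h
    exact (mem_maximalIdeal _).mp h hua
  rw [Polynomial.eq_C_of_degree_eq_zero hdeg]
  exact ha.map Polynomial.C

theorem prime_of_irreducible_of_map_ne_zero [UniqueFactorizationMonoid A]
    [IsAdicComplete (maximalIdeal A) A] {f : A⟦X⟧}
    (hf : Irreducible f) (hr : f.map (residue A) ≠ 0) : Prime f := by
  obtain ⟨w, u, H⟩ := f.exists_isWeierstrassFactorization hr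
  have hass : Associated (w : A⟦X⟧) f := by
    obtain ⟨v, hv⟩ := H.isUnit
    exact ⟨v, by rw [hv, ← H.eq_mul]⟩
  have hw : Irreducible (w : A⟦X⟧) := hass.irreducible_iff.mpr hf
  have hwA : Irreducible w := by
    refine ⟨fun hu => hw.not_isUnit (hu.map (Polynomial.coeToPowerSeries.ringHom (R := A))), ?_⟩
    intro a b hab
    have hab' : (w : A⟦X⟧) = (a : A⟦X⟧) * (b : A⟦X⟧) := by rw [hab, Polynomial.coe_mul]
    rcases hw.isUnit_or_isUnit hab' with h | h
    · left
      refine isUnit_of_mul_eq_distinguished H.isDistinguishedAt hab ?_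
      have := PowerSeries.isUnit_iff_constantCoeff.mp h
      rwa [Polynomial.constantCoeff_coe] at this
    · right
      refine isUnit_of_mul_eq_distinguished H.isDistinguishedAt (hab.trans (mul_comm _ _)) ?_
      have := PowerSeries.isUnit_iff_constantCoeff.mp h
      rwa [Polynomial.constantCoeff_coe] at this
  have hd : (Ideal.span {w}).IsPrime := (Ideal.span_singleton_prime hwA.ne_zero).mpr hwA.prime
  have hdom : IsDomain (A[X] ⧸ Ideal.span {w}) := Ideal.Quotient.isDomain _
  have hdom' : IsDomain (A⟦X⟧ ⧸ Ideal.span {f}) :=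
    H.algEquivQuotient.symm.toMulEquiv.isDomain (A[X] ⧸ Ideal.span {w})
  exact (Ideal.span_singleton_prime hf.ne_zero).mp
    ((Ideal.Quotient.isDomain_iff_prime _).mp hdom')

end Weier

section Reg

open MvPowerSeries hiding map

variable {K : Type*} [Field K] {n : ℕ}

/-- the linear substitution `x_0 ↦ x_0`, `x_{i+1} ↦ x_{i+1} + c_i x_0` -/
noncomputable def shear (c : Fin n → K) : Fin (n + 1) → MvPowerSeries (Fin (n + 1)) K :=
  Fin.cons (MvPowerSeries.X 0) (fun i => MvPowerSeries.X i.succ + c i • MvPowerSeries.X 0)

theorem shear_zero (c : Fin n → K) : shear c 0 = MvPowerSeries.X 0 := rfl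

theorem shear_succ (c : Fin n → K) (i : Fin n) :
    shear c i.succ = MvPowerSeries.X i.succ + c i • MvPowerSeries.X 0 := rfl

theorem hasSubst_shear (c : Fin n → K) : MvPowerSeries.HasSubst (shear c) := by
  refine MvPowerSeries.hasSubst_of_constantCoeff_zero (fun j => ?_)
  refine Fin.cases ?_ (fun i => ?_) j
  · simp [shear]
  · simp [shear]

theorem subst_shear_shear (c : Fin n → K) (j : Fin (n + 1)) :
    MvPowerSeries.subst (shear (-c)) (shear c j) =
      (MvPowerSeries.X j : MvPowerSeries (Fin (n + 1)) K) := by
  have h := hasSubst_shear (-c)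
  refine Fin.cases ?_ (fun i => ?_) j
  · rw [shear_zero c, MvPowerSeries.subst_X h, shear_zero]
  · rw [shear_succ c, MvPowerSeries.subst_add h, MvPowerSeries.subst_smul h,
      MvPowerSeries.subst_X h, MvPowerSeries.subst_X h, shear_zero, shear_succ]
    simp

theorem subst_neg_shear (c : Fin n → K) (f : MvPowerSeries (Fin (n + 1)) K) :
    MvPowerSeries.subst (shear (-c)) (MvPowerSeries.subst (shear c) f) = f := by
  rw [MvPowerSeries.subst_comp_subst_apply (hasSubst_shear c) (hasSubst_shear (-c))]
  have : (fun s => MvPowerSeries.subst (shear (-c)) (shear c s)) =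
      (MvPowerSeries.X : Fin (n + 1) → MvPowerSeries (Fin (n + 1)) K) :=
    _root_.funext (subst_shear_shear c)
  rw [this, MvPowerSeries.subst_self, id]

/-- the linear change of variables as an automorphism -/
noncomputable def shearEquiv (c : Fin n → K) :
    MvPowerSeries (Fin (n + 1)) K ≃+* MvPowerSeries (Fin (n + 1)) K :=
  { (MvPowerSeries.substAlgHom (R := K) (hasSubst_shear c)).toRingHom with
    invFun := MvPowerSeries.subst (shear (-c))
    left_inv := fun f => by
      change MvPowerSeries.subst (shear (-c)) (MvPowerSeries.substAlgHom (hasSubst_shear c) f) = f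
      rw [MvPowerSeries.substAlgHom_apply]
      exact subst_neg_shear c f
    right_inv := fun f => by
      change MvPowerSeries.substAlgHom (hasSubst_shear c) (MvPowerSeries.subst (shear (-c)) f) = f
      rw [MvPowerSeries.substAlgHom_apply]
      have := subst_neg_shear (-c) f
      rwa [neg_neg] at this }

theorem shearEquiv_apply (c : Fin n → K) (f : MvPowerSeries (Fin (n + 1)) K) :
    shearEquiv c f = MvPowerSeries.subst (shear c) f := by
  change MvPowerSeries.substAlgHom (hasSubst_shear c) f = _
  rw [MvPowerSeries.substAlgHom_apply]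

/-- restriction to the line `x_1 = … = x_n = 0` -/
noncomputable def lineRes (K : Type*) [Field K] (n : ℕ) :
    MvPowerSeries (Fin (n + 1)) K →+* K⟦X⟧ :=
  (PowerSeries.map (MvPowerSeries.constantCoeff (σ := Fin n) (R := K))).comp
    (MvPowerSeries.finSuccEquiv K n).toRingEquiv.toRingHom

theorem lineRes_apply (p : MvPowerSeries (Fin (n + 1)) K) :
    lineRes K n p = PowerSeries.map (MvPowerSeries.constantCoeff (σ := Fin n) (R := K))
      (MvPowerSeries.finSuccEquiv K n p) := rfl

theorem coeff_lineRes (p : MvPowerSeries (Fin (n + 1)) K) (k : ℕ) :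
    PowerSeries.coeff k (lineRes K n p) = MvPowerSeries.coeff (Finsupp.single 0 k) p := by
  rw [lineRes_apply, PowerSeries.coeff_map, ← MvPowerSeries.coeff_zero_eq_constantCoeff_apply,
    MvPowerSeries.coeff_coeff_finSuccEquiv]
  have : Finsupp.cons k (0 : Fin n →₀ ℕ) = Finsupp.single 0 k := by
    ext j
    refine Fin.cases ?_ (fun i => ?_) j
    · simp
    · simp
  rw [this]

theorem lineRes_smul (a : K) (p : MvPowerSeries (Fin (n + 1)) K) :
    lineRes K n (a • p) = a • lineRes K n p := by
  ext k
  simp [coeff_lineRes]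

theorem lineRes_shear (c : Fin n → K) (j : Fin (n + 1)) :
    lineRes K n (shear c j) = (Fin.cons 1 c : Fin (n + 1) → K) j • PowerSeries.X := by
  refine Fin.cases ?_ (fun i => ?_) j
  · rw [shear_zero, lineRes_apply, MvPowerSeries.finSuccEquiv_X_zero]
    simp
  · rw [shear_succ, map_add, lineRes_smul, lineRes_apply, lineRes_apply,
      MvPowerSeries.finSuccEquiv_X_zero, MvPowerSeries.finSuccEquiv_X_succ]
    simp

/-- the coefficients of the restriction to a line of a linear change of variables -/
theorem coeff_single_subst_shear (c : Fin n → K) (f : MvPowerSeries (Fin (n + 1)) K) (k : ℕ) :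
    MvPowerSeries.coeff (Finsupp.single 0 k) (MvPowerSeries.subst (shear c) f) =
      finsum (fun d : Fin (n + 1) →₀ ℕ => if d.degree = k then
        MvPowerSeries.coeff d f * d.prod (fun i e => (Fin.cons 1 c : Fin (n + 1) → K) i ^ e)
        else 0) := by
  rw [MvPowerSeries.coeff_subst (hasSubst_shear c)]
  refine finsum_congr (fun d => ?_)
  rw [← coeff_lineRes]
  have h1 : lineRes K n (d.prod fun s e => shear c s ^ e) =
      (d.prod (fun i e => (Fin.cons 1 c : Fin (n + 1) → K) i ^ e)) •
        (PowerSeries.X : K⟦X⟧) ^ d.degree := by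
    rw [Finsupp.prod, map_prod, Finsupp.prod]
    simp only [map_pow, lineRes_shear, _root_.smul_pow]
    rw [Finset.prod_smul, Finset.prod_pow_eq_pow_sum]
    rfl
  rw [h1, PowerSeries.coeff_smul, PowerSeries.coeff_X_pow]
  by_cases h : d.degree = k
  · rw [if_pos h.symm, if_pos h]
    simp
  · rw [if_neg (fun h' => h h'.symm), if_neg h]
    simp

/-- a suitable linear change of variables makes a power series regular in `x_0` -/
theorem exists_shear_regular [Infinite K] {f : MvPowerSeries (Fin (n + 1)) K} (hf : f ≠ 0) :
    ∃ c : Fin n → K, lineRes K n (shearEquiv c f) ≠ 0 := by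
  classical
  set m := f.order.toNat with hm
  have hord : (m : ℕ∞) = f.order := by
    rw [hm]
    exact (MvPowerSeries.ne_zero_iff_order_finite.mp hf)
  obtain ⟨d₀, hd₀, hd₀'⟩ := MvPowerSeries.exists_coeff_ne_zero_and_order
    (MvPowerSeries.ne_zero_iff_order_finite.mp hf)
  set P : MvPolynomial (Fin (n + 1)) K := MvPowerSeries.truncTotal (m + 1) f with hP
  have hPc : ∀ d, MvPolynomial.coeff d P = if d.degree = m then MvPowerSeries.coeff d f else 0 := by
    intro d
    rw [hP, MvPowerSeries.coeff_truncTotal_eq_ite]
    by_cases h1 : d.degree = m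
    · rw [if_pos (by omega), if_pos h1]
    · rw [if_neg h1]
      by_cases h2 : d.degree < m + 1
      · rw [if_pos h2]
        refine MvPowerSeries.coeff_of_lt_order ?_
        rw [← hord]
        exact_mod_cast (show d.degree < m by omega)
      · rw [if_neg h2]
  have hPne : P ≠ 0 := by
    intro h0
    have h1 := hPc d₀
    rw [h0, MvPolynomial.coeff_zero, if_pos ?_] at h1
    · exact hd₀ h1.symm
    · rw [← hord] at hd₀'
      exact_mod_cast hd₀'
  obtain ⟨c, hc⟩ : ∃ c : Fin (n + 1) → K, MvPolynomial.eval c (P * MvPolynomial.X 0) ≠ 0 := by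
    by_contra hcon
    push Not at hcon
    have : P * MvPolynomial.X 0 = 0 := MvPolynomial.funext (fun x => by rw [hcon x, map_zero])
    rcases mul_eq_zero.mp this with h | h
    · exact hPne h
    · exact MvPolynomial.X_ne_zero _ h
  rw [map_mul, MvPolynomial.eval_X] at hc
  have hc0 : c 0 ≠ 0 := right_ne_zero_of_mul hc
  have hcP : MvPolynomial.eval c P ≠ 0 := left_ne_zero_of_mul hc
  refine ⟨fun i => c i.succ / c 0, ?_⟩
  intro hzero
  apply hcP
  have h1 := coeff_lineRes (shearEquiv (fun i => c i.succ / c 0) f) m
  rw [hzero, map_zero, shearEquiv_apply, coeff_single_subst_shear] at h1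
  have h2 : (Fin.cons 1 (fun i => c i.succ / c 0) : Fin (n + 1) → K) = fun j => c j / c 0 := by
    ext j
    refine Fin.cases ?_ (fun i => ?_) j
    · simp [hc0]
    · simp
  rw [h2] at h1
  rw [finsum_eq_sum_of_support_subset (s := P.support)] at h1
  · have h3 : MvPolynomial.eval c P = c 0 ^ m *
        ∑ i ∈ P.support, if i.degree = m then
          MvPowerSeries.coeff i f * i.prod (fun j e => (c j / c 0) ^ e) else 0 := by
      rw [MvPolynomial.eval_eq, Finset.mul_sum]
      refine Finset.sum_congr rfl (fun d hd => ?_)
      rw [MvPolynomial.mem_support_iff, hPc] at hd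
      have hdm : d.degree = m := by
        by_contra h
        exact hd (if_neg h)
      rw [hPc, if_pos hdm, if_pos hdm, Finsupp.prod]
      simp only [div_pow]
      rw [Finset.prod_div_distrib, Finset.prod_pow_eq_pow_sum]
      have : ∑ i ∈ d.support, d i = m := hdm
      rw [this]
      field_simp
    rw [h3, ← h1, mul_zero]
  · intro d hd
    rw [Function.mem_support] at hd
    rw [Finset.mem_coe, MvPolynomial.mem_support_iff, hPc]
    by_cases h : d.degree = m
    · rw [if_pos h] at hd ⊢
      exact left_ne_zero_of_mul hd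
    · rw [if_neg h] at hd
      exact absurd rfl hd

/-! ### the maximal ideal and its powers -/

instance isDomain_mvPowerSeries (K : Type*) [Field K] (n : ℕ) :
    IsDomain (MvPowerSeries (Fin n) K) := NoZeroDivisors.to_isDomain _

theorem degree_cons (k : ℕ) (d : Fin n →₀ ℕ) : (Finsupp.cons k d).degree = k + d.degree := by
  rw [Finsupp.degree_eq_sum, Finsupp.degree_eq_sum, Fin.sum_univ_succ]
  simp

/-- a power series in which all monomials have degree at least `N` lies in the `N`-th power of
the ideal generated by the variables -/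
theorem mem_pow_span_X (K : Type*) [Field K] (n : ℕ) : ∀ (N : ℕ) (p : MvPowerSeries (Fin n) K),
    (∀ d : Fin n →₀ ℕ, d.degree < N → MvPowerSeries.coeff d p = 0) →
      p ∈ (Ideal.span (Set.range (MvPowerSeries.X : Fin n → MvPowerSeries (Fin n) K))) ^ N := by
  induction n with
  | zero =>
    intro N p hp
    rcases Nat.eq_zero_or_pos N with h | h
    · subst h
      rw [pow_zero, Ideal.one_eq_top]
      exact Submodule.mem_top
    · have : p = 0 := by
        ext d
        rw [Subsingleton.elim d 0, hp 0 (by simpa using h), map_zero]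
      rw [this]
      exact Ideal.zero_mem _
  | succ n ih =>
    intro N
    induction N with
    | zero =>
      intro p _
      rw [pow_zero, Ideal.one_eq_top]
      exact Submodule.mem_top
    | succ N ihN =>
      intro p hp
      set q := MvPowerSeries.finSuccEquiv K n p with hq
      set φ : MvPowerSeries (Fin n) K →+* MvPowerSeries (Fin (n + 1)) K :=
        (MvPowerSeries.finSuccEquiv K n).symm.toRingEquiv.toRingHom.comp PowerSeries.C with hφ
      set q' := PowerSeries.mk (fun i => PowerSeries.coeff (i + 1) q) with hq'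
      have hdec : p = φ (PowerSeries.coeff 0 q) + (MvPowerSeries.finSuccEquiv K n).symm q' *
          MvPowerSeries.X 0 := by
        apply (MvPowerSeries.finSuccEquiv K n).injective
        rw [map_add, map_mul, AlgEquiv.apply_symm_apply, MvPowerSeries.finSuccEquiv_X_zero]
        have h1 : (MvPowerSeries.finSuccEquiv K n) (φ (PowerSeries.coeff 0 q)) =
            PowerSeries.C (PowerSeries.coeff 0 q) := by
          rw [hφ]
          exact AlgEquiv.apply_symm_apply _ _
        rw [h1, ← hq, PowerSeries.coeff_zero_eq_constantCoeff_apply, add_comm]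
        exact PowerSeries.eq_shift_mul_X_add_const q
      have h1 : φ (PowerSeries.coeff 0 q) ∈ (Ideal.span (Set.range
          (MvPowerSeries.X : Fin (n + 1) → MvPowerSeries (Fin (n + 1)) K))) ^ (N + 1) := by
        have h2 : PowerSeries.coeff 0 q ∈ (Ideal.span (Set.range
            (MvPowerSeries.X : Fin n → MvPowerSeries (Fin n) K))) ^ (N + 1) := by
          refine ih (N + 1) _ (fun d hd => ?_)
          rw [hq, MvPowerSeries.coeff_coeff_finSuccEquiv]
          refine hp _ ?_
          rwa [degree_cons, zero_add]
        have h3 := Ideal.mem_map_of_mem φ h2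
        rw [Ideal.map_pow, Ideal.map_span] at h3
        refine Ideal.pow_right_mono (Ideal.span_mono ?_) _ h3
        rintro _ ⟨_, ⟨j, rfl⟩, rfl⟩
        refine ⟨j.succ, ?_⟩
        apply (MvPowerSeries.finSuccEquiv K n).injective
        rw [MvPowerSeries.finSuccEquiv_X_succ, hφ]
        exact (AlgEquiv.apply_symm_apply _ _).symm
      have h2 : (MvPowerSeries.finSuccEquiv K n).symm q' ∈ (Ideal.span (Set.range
          (MvPowerSeries.X : Fin (n + 1) → MvPowerSeries (Fin (n + 1)) K))) ^ N := by
        refine ihN _ (fun d hd => ?_)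
        have h3 := MvPowerSeries.coeff_coeff_finSuccEquiv
          ((MvPowerSeries.finSuccEquiv K n).symm q') (k := d 0) (x := d.tail)
        rw [AlgEquiv.apply_symm_apply, Finsupp.cons_tail, hq', PowerSeries.coeff_mk, hq,
          MvPowerSeries.coeff_coeff_finSuccEquiv] at h3
        rw [← h3]
        refine hp _ ?_
        have h4 : d.degree = d 0 + d.tail.degree := by
          conv_lhs => rw [← Finsupp.cons_tail d, degree_cons]
        rw [degree_cons]
        omega
      rw [hdec]
      refine Ideal.add_mem _ h1 ?_
      rw [pow_succ]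
      exact Ideal.mul_mem_mul h2 (Ideal.subset_span ⟨0, rfl⟩)

theorem maximalIdeal_eq_span_X (K : Type*) [Field K] (n : ℕ) :
    maximalIdeal (MvPowerSeries (Fin n) K) =
      Ideal.span (Set.range (MvPowerSeries.X : Fin n → MvPowerSeries (Fin n) K)) := by
  apply le_antisymm
  · intro p hp
    have h0 : MvPowerSeries.constantCoeff p = 0 := by
      by_contra hne
      exact hp (MvPowerSeries.isUnit_iff_constantCoeff.mpr (isUnit_iff_ne_zero.mpr hne))
    have := mem_pow_span_X K n 1 p (fun d hd => by
      have : d = 0 := by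
        rw [← Finsupp.degree_eq_zero_iff]
        omega
      rw [this, MvPowerSeries.coeff_zero_eq_constantCoeff_apply, h0])
    rwa [pow_one] at this
  · rw [Ideal.span_le]
    rintro _ ⟨j, rfl⟩
    intro hu
    have := MvPowerSeries.isUnit_iff_constantCoeff.mp hu
    rw [MvPowerSeries.constantCoeff_X] at this
    exact not_isUnit_zero this

instance isAdicComplete_mvPowerSeries (K : Type*) [Field K] (n : ℕ) :
    IsAdicComplete (maximalIdeal (MvPowerSeries (Fin n) K)) (MvPowerSeries (Fin n) K) := by
  rw [maximalIdeal_eq_span_X]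
  infer_instance

theorem mem_maximalIdeal_pow_iff (K : Type*) [Field K] (n N : ℕ) (p : MvPowerSeries (Fin n) K) :
    p ∈ maximalIdeal (MvPowerSeries (Fin n) K) ^ N ↔ (N : ℕ∞) ≤ p.order := by
  constructor
  · intro h
    have h1 : ∀ p ∈ maximalIdeal (MvPowerSeries (Fin n) K), ((1 : ℕ) : ℕ∞) ≤ p.order := by
      intro p hp
      refine MvPowerSeries.nat_le_order (fun d hd => ?_)
      have : d = 0 := by
        rw [← Finsupp.degree_eq_zero_iff]
        omega
      rw [this, MvPowerSeries.coeff_zero_eq_constantCoeff_apply]
      by_contra hne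
      exact hp (MvPowerSeries.isUnit_iff_constantCoeff.mpr (isUnit_iff_ne_zero.mpr hne))
    refine Submodule.pow_induction_on_left' (C := fun N p _ => (N : ℕ∞) ≤ p.order) _ ?_ ?_ ?_ h
    · intro r
      simp
    · intro x y i _ _ hx hy
      exact (le_min hx hy).trans MvPowerSeries.min_order_le_add
    · intro m hm i x _ hx
      rw [MvPowerSeries.order_mul, Nat.cast_succ, add_comm]
      exact add_le_add (by simpa using h1 m hm) hx
  · intro h
    rw [maximalIdeal_eq_span_X]
    refine mem_pow_span_X K n N p (fun d hd => ?_)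
    refine MvPowerSeries.coeff_of_lt_order (lt_of_lt_of_le ?_ h)
    exact_mod_cast hd

end Reg

/-! ### factoriality -/

theorem map_residue_ne_zero {K : Type*} [Field K] {n : ℕ} {q : (MvPowerSeries (Fin n) K)⟦X⟧}
    (h : PowerSeries.map (MvPowerSeries.constantCoeff (σ := Fin n) (R := K)) q ≠ 0) :
    q.map (residue (MvPowerSeries (Fin n) K)) ≠ 0 := by
  intro h0
  apply h
  ext k
  have h1 := congrArg (PowerSeries.coeff k) h0
  rw [PowerSeries.coeff_map, map_zero, residue_eq_zero_iff] at h1
  rw [PowerSeries.coeff_map, map_zero]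
  by_contra hne
  exact h1 (MvPowerSeries.isUnit_iff_constantCoeff.mpr (isUnit_iff_ne_zero.mpr hne))

instance ufd_mvPowerSeries (K : Type*) [Field K] [Infinite K] (n : ℕ) :
    UniqueFactorizationMonoid (MvPowerSeries (Fin n) K) := by
  induction n with
  | zero =>
    exact (MvPowerSeries.isEmptyEquiv (Fin 0) K).symm.toMulEquiv.uniqueFactorizationMonoid
      inferInstance
  | succ n ih =>
    have hwf : WfDvdMonoid (MvPowerSeries (Fin (n + 1)) K) := inferInstance
    refine { irreducible_iff_prime := fun {f} => ⟨fun hf => ?_, fun hf => hf.irreducible⟩ }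
    obtain ⟨c, hc⟩ := exists_shear_regular hf.ne_zero
    set e := (shearEquiv c).trans (MvPowerSeries.finSuccEquiv K n).toRingEquiv with he
    have h1 : Irreducible (e f) := (MulEquiv.irreducible_iff e.toMulEquiv).mpr hf
    have h2 : (e f).map (residue (MvPowerSeries (Fin n) K)) ≠ 0 := by
      apply map_residue_ne_zero
      rw [lineRes_apply] at hc
      exact hc
    have h3 : Prime (e f) := prime_of_irreducible_of_map_ne_zero h1 h2
    exact (MulEquiv.prime_iff e.toMulEquiv).mp h3

end Fermat.Agent.AV
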