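import Fermat.Agent.FF.FnField
import Mathlib.FieldTheory.Relrank
import Mathlib.FieldTheory.LinearDisjoint
import Mathlib.FieldTheory.AlgebraicClosure
import Mathlib.FieldTheory.IsAlgClosed.AlgebraicClosure

/-!
# The ratio of degrees of functions does not change under algebraic constant field extensions
-/

set_option autoImplicit false

universe u

open Polynomial Module IntermediateField
open scoped IntermediateField.algebraAdjoinAdjoin

namespace Fermat.Agent.AV

section Step

variable {E L : Type*} [Field E] [Field L] [Algebra E L]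

theorem relfinrank_insert (A : Set L) (a : L) :
    relfinrank (adjoin E A) (adjoin E (insert a A)) = (minpoly (adjoin E A) a).natDegree := by
  have hle : adjoin E A ≤ adjoin E (insert a A) := adjoin.mono _ _ _ (Set.subset_insert _ _)
  have h : extendScalars hle = (adjoin E A)⟮a⟯ := by
    apply restrictScalars_injective E
    rw [extendScalars_restrictScalars, adjoin_adjoin_left, Set.union_singleton]
  rw [relfinrank_eq_finrank_of_le hle, h]
  by_cases ha : IsIntegral (adjoin E A) a
  · exact adjoin.finrank ha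
  · rw [minpoly.eq_zero ha, natDegree_zero]
    apply finrank_of_infinite_dimensional
    intro hfin
    apply ha
    have h1 : IsIntegral (adjoin E A) (AdjoinSimple.gen (adjoin E A) a) :=
      IsIntegral.of_finite _ _
    have h2 := h1.map ((adjoin E A)⟮a⟯).val
    exact h2

theorem natDegree_minpoly_of_le {A A' : IntermediateField E L} (h : A' ≤ A) (a : L)
    (hc : ∀ i, ((minpoly A a).coeff i : L) ∈ A') :
    (minpoly A' a).natDegree = (minpoly A a).natDegree := by
  let _ : Algebra A' A := (IntermediateField.inclusion h).toAlgebra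
  have : IsScalarTower A' A L := IsScalarTower.of_algebraMap_eq fun _ => rfl
  by_cases ha : IsIntegral A a
  · obtain ⟨q, hq1, hq2, hq3⟩ := lifts_and_natDegree_eq_and_monic
      (f := algebraMap A' A) (p := minpoly A a) (by
        rw [lifts_iff_coeff_lifts]
        intro i
        exact ⟨⟨_, hc i⟩, Subtype.ext rfl⟩) (minpoly.monic ha)
    have hq0 : aeval a q = 0 := by
      rw [← aeval_map_algebraMap A, hq1, minpoly.aeval]
    have ha' : IsIntegral A' a := ⟨q, hq3, hq0⟩
    apply le_antisymm
    · rw [← hq2]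
      exact natDegree_le_of_dvd (minpoly.dvd _ _ hq0) hq3.ne_zero
    · rw [← natDegree_map (algebraMap A' A) (p := minpoly A' a)]
      refine natDegree_le_of_dvd (minpoly.dvd_map_of_isScalarTower A' A a) ?_
      exact ((minpoly.monic ha').map _).ne_zero
  · have ha' : ¬ IsIntegral A' a := fun h' => ha h'.tower_top
    rw [minpoly.eq_zero ha, minpoly.eq_zero ha', natDegree_zero, natDegree_zero]

theorem exists_finite_mem_adjoin (W G : Set L) {y : L} (hy : y ∈ adjoin E (W ∪ G)) :
    ∃ S : Set L, S.Finite ∧ S ⊆ W ∧ y ∈ adjoin E (S ∪ G) := by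
  classical
  obtain ⟨T, hT, hy'⟩ := exists_finset_of_mem_adjoin hy
  refine ⟨(T : Set L) ∩ W, T.finite_toSet.inter_of_left _, Set.inter_subset_right,
    adjoin.mono _ _ _ ?_ hy'⟩
  intro t ht
  rcases hT ht with h | h
  · exact Or.inl ⟨ht, h⟩
  · exact Or.inr h

theorem exists_stable_insert (W G : Set L) (a : L) :
    ∃ S : Set L, S.Finite ∧ S ⊆ W ∧ ∀ S', S ⊆ S' → S' ⊆ W →
      relfinrank (adjoin E (S' ∪ G)) (adjoin E (insert a (S' ∪ G))) =
      relfinrank (adjoin E (W ∪ G)) (adjoin E (insert a (W ∪ G))) := by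
  classical
  have h1 : ∀ i : ℕ, ∃ S : Set L, S.Finite ∧ S ⊆ W ∧
      (((minpoly (adjoin E (W ∪ G)) a).coeff i : adjoin E (W ∪ G)) : L) ∈ adjoin E (S ∪ G) :=
    fun i => exists_finite_mem_adjoin W G (Subtype.mem _)
  choose S hS1 hS2 hS3 using h1
  refine ⟨⋃ i ∈ (minpoly (adjoin E (W ∪ G)) a).support, S i,
    Set.Finite.biUnion (Finset.finite_toSet _) fun i _ => hS1 i,
    Set.iUnion₂_subset fun i _ => hS2 i, fun S' h2 h3 => ?_⟩
  rw [relfinrank_insert, relfinrank_insert]
  refine natDegree_minpoly_of_le (adjoin.mono _ _ _ (Set.union_subset_union_left _ h3)) a ?_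
  intro i
  by_cases hi : i ∈ (minpoly (adjoin E (W ∪ G)) a).support
  · refine adjoin.mono _ _ _ (Set.union_subset_union_left _ ?_) (hS3 i)
    exact (Set.subset_biUnion_of_mem (u := fun i => S i) hi).trans h2
  · rw [notMem_support_iff.1 hi]
    exact zero_mem _

theorem exists_stable (W G : Set L) {T : Set L} (hT : T.Finite) :
    ∃ S : Set L, S.Finite ∧ S ⊆ W ∧ ∀ S', S ⊆ S' → S' ⊆ W →
      relfinrank (adjoin E (S' ∪ G)) (adjoin E (S' ∪ G ∪ T)) =
      relfinrank (adjoin E (W ∪ G)) (adjoin E (W ∪ G ∪ T)) := by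
  induction T, hT using Set.Finite.induction_on with
  | empty =>
    refine ⟨∅, Set.finite_empty, Set.empty_subset _, fun S' _ _ => ?_⟩
    rw [Set.union_empty, Set.union_empty, relfinrank_self, relfinrank_self]
  | @insert a T _ _ ih =>
    obtain ⟨S1, h1, h2, h3⟩ := ih
    obtain ⟨S2, h4, h5, h6⟩ := exists_stable_insert (E := E) W (G ∪ T) a
    refine ⟨S1 ∪ S2, h1.union h4, Set.union_subset h2 h5, fun S' h7 h8 => ?_⟩
    have key : ∀ Z : Set L, relfinrank (adjoin E (Z ∪ G)) (adjoin E (Z ∪ G ∪ insert a T)) =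
        relfinrank (adjoin E (Z ∪ G)) (adjoin E (Z ∪ G ∪ T)) *
        relfinrank (adjoin E (Z ∪ (G ∪ T))) (adjoin E (insert a (Z ∪ (G ∪ T)))) := by
      intro Z
      have e1 : Z ∪ G ∪ insert a T = insert a (Z ∪ (G ∪ T)) := by
        rw [Set.union_insert, Set.union_assoc]
      rw [e1, ← Set.union_assoc, relfinrank_mul_relfinrank]
      · exact adjoin.mono _ _ _ Set.subset_union_left
      · exact adjoin.mono _ _ _ (Set.subset_insert _ _)
    rw [key, key, h3 S' (Set.subset_union_left.trans h7) h8,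
      h6 S' (Set.subset_union_right.trans h7) h8]

theorem relfinrank_union_ne_zero {A T : Set L} (hT : T.Finite) (h : ∀ t ∈ T, IsIntegral E t) :
    relfinrank (adjoin E A) (adjoin E (A ∪ T)) ≠ 0 := by
  induction T, hT using Set.Finite.induction_on with
  | empty => rw [Set.union_empty, relfinrank_self]; exact one_ne_zero
  | @insert a T _ _ ih =>
    rw [Set.union_insert, ← relfinrank_mul_relfinrank (B := adjoin E (A ∪ T))
      (adjoin.mono _ _ _ Set.subset_union_left) (adjoin.mono _ _ _ (Set.subset_insert _ _))]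
    refine mul_ne_zero (ih fun t ht => h t (Set.mem_insert_of_mem _ ht)) ?_
    rw [relfinrank_insert]
    have h1 : IsIntegral (adjoin E (A ∪ T)) a := (h a (Set.mem_insert _ _)).tower_top
    exact (minpoly.natDegree_pos h1).ne'

/-- algebraic extensions are linearly disjoint from simple transcendental ones -/
theorem linearDisjoint_transcendental {x : L} (hx : Transcendental E x)
    (K : IntermediateField E L) [Algebra.IsAlgebraic E K] : K.LinearDisjoint E⟮x⟯ := by
  have hx' : Transcendental K x := hx.extendScalars K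
  let b := Module.Free.chooseBasis E K
  refine LinearDisjoint.of_basis_left b ?_
  rw [← LinearIndependent.iff_fractionRing (R := Algebra.adjoin E {x})]
  rw [linearIndependent_iff']
  intro s g hg i hi
  have h0 : ∀ y ∈ Algebra.adjoin E {x}, ∃ p : E[X], aeval x p = y := by
    intro y hy
    rw [Algebra.adjoin_singleton_eq_range_aeval] at hy
    exact hy
  have h1 : ∀ i, ∃ p : E[X], aeval x p = (g i : L) := fun i => h0 _ (g i).2
  choose p hp using h1
  have h2 : aeval x (∑ i ∈ s, C (b i) * (p i).map (algebraMap E K)) = 0 := by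
    rw [map_sum, ← hg]
    refine Finset.sum_congr rfl fun i _ => ?_
    rw [map_mul, aeval_C, aeval_map_algebraMap, hp i, mul_comm]
    rfl
  have h3 : ∑ i ∈ s, C (b i) * (p i).map (algebraMap E K) = 0 := by
    by_contra h
    exact hx' ⟨_, h, h2⟩
  have h4 : p i = 0 := by
    ext k
    have h5 : ∑ i ∈ s, (p i).coeff k • b i = 0 := by
      have := congrArg (fun q => coeff q k) h3
      simp only [finsetSum_coeff, coeff_C_mul, coeff_map, coeff_zero] at this
      rw [← this]
      refine Finset.sum_congr rfl fun i _ => ?_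
      rw [Algebra.smul_def, mul_comm]
    exact linearIndependent_iff'.1 b.linearIndependent s (fun i => (p i).coeff k) h5 i hi
  apply Subtype.ext
  rw [← hp i, h4, map_zero]
  rfl

theorem relfinrank_adjoin_transcendental {x : L} (hx : Transcendental E x) {S : Set L}
    (hS : ∀ s ∈ S, IsIntegral E s) :
    relfinrank (adjoin E {x}) (adjoin E (S ∪ {x})) = finrank E (adjoin E S) := by
  have : Algebra.IsAlgebraic E (adjoin E S) := isAlgebraic_adjoin hS
  have h := (linearDisjoint_transcendental hx (adjoin E S)).adjoin_rank_eq_rank_left_of_isAlgebraic_left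
  have hle : adjoin E {x} ≤ adjoin E (S ∪ {x}) := adjoin.mono _ _ _ Set.subset_union_right
  have e : extendScalars hle = adjoin E⟮x⟯ (adjoin E S : Set L) := by
    apply restrictScalars_injective E
    rw [extendScalars_restrictScalars, adjoin_adjoin_left, adjoin_union, adjoin_union,
      adjoin_self, sup_comm]
  rw [relfinrank_eq_finrank_of_le hle, e, finrank, h, finrank]

theorem relfinrank_mul_eq {T W S : Set L} {x : L} (hx : Transcendental E x)
    (hxT : x ∈ adjoin E T) (hS : ∀ s ∈ S, IsIntegral E s)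
    (h : relfinrank (adjoin E (S ∪ {x})) (adjoin E (S ∪ {x} ∪ T)) =
      relfinrank (adjoin E (W ∪ {x})) (adjoin E (W ∪ {x} ∪ T))) :
    relfinrank (adjoin E {x}) (adjoin E T) * relfinrank (adjoin E T) (adjoin E (T ∪ S)) =
      finrank E (adjoin E S) * relfinrank (adjoin E (W ∪ {x})) (adjoin E (W ∪ T)) := by
  have e : ∀ Z : Set L, adjoin E (Z ∪ {x} ∪ T) = adjoin E (Z ∪ T) := by
    intro Z
    apply le_antisymm
    · rw [adjoin_le_iff]
      rintro y ((hy | hy) | hy)
      · exact subset_adjoin _ _ (Or.inl hy)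
      · rw [Set.mem_singleton_iff.1 hy]
        exact adjoin.mono _ _ _ Set.subset_union_right hxT
      · exact subset_adjoin _ _ (Or.inr hy)
    · exact adjoin.mono _ _ _ (Set.union_subset_union_left _ Set.subset_union_left)
  have hle : adjoin E {x} ≤ adjoin E T := by
    rw [adjoin_simple_le_iff]
    exact hxT
  rw [relfinrank_mul_relfinrank hle (adjoin.mono _ _ _ Set.subset_union_left), ← e W, ← h,
    ← relfinrank_adjoin_transcendental hx hS, relfinrank_mul_relfinrank, e S, Set.union_comm]
  · exact adjoin.mono _ _ _ Set.subset_union_right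
  · exact adjoin.mono _ _ _ Set.subset_union_left

end Step

section Trans

variable {E B L : Type*} [Field E] [Field B] [Field L] [Algebra E B] [Algebra E L]

theorem finrank_adjoin_eq_relfinrank (f : B →ₐ[E] L) (S : Set B) :
    finrank (adjoin E S) B = relfinrank (adjoin E (f '' S)) f.fieldRange := by
  rw [← relfinrank_top_right, ← relfinrank_map_map _ _ f, adjoin_map, ← AlgHom.fieldRange_eq_map]

theorem finrank_adjoin_simple_eq_relfinrank {A : Type*} [Field A] [Algebra E A] [Algebra A B]
    [IsScalarTower E A B] (f : B →ₐ[E] L) (y : B) :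
    finrank A⟮y⟯ B =
      relfinrank (adjoin E (Set.range (fun a => f (algebraMap A B a)) ∪ {f y})) f.fieldRange := by
  have e : (A⟮y⟯).restrictScalars E = adjoin E (Set.range (algebraMap A B) ∪ {y}) := by
    apply toSubfield_injective
    change (A⟮y⟯).toSubfield = _
    rw [adjoin_toSubfield, adjoin_toSubfield]
    congr 1
    ext z
    constructor
    · rintro (h | h)
      · exact Or.inr (Or.inl h)
      · exact Or.inr (Or.inr h)
    · rintro (⟨a, rfl⟩ | h | h)
      · exact Or.inl ⟨algebraMap E A a, (IsScalarTower.algebraMap_apply E A B a).symm⟩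
      · exact Or.inl h
      · exact Or.inr h
  have h := finrank_adjoin_eq_relfinrank f (Set.range (algebraMap A B) ∪ {y})
  rw [← e, Set.image_union, Set.image_singleton, ← Set.range_comp] at h
  exact h

theorem isAlgebraic_of_finrank_ne_zero {x : B} (hx : IsAlgebraic E x) (h : finrank E⟮x⟯ B ≠ 0) :
    Algebra.IsAlgebraic E B := by
  have h1 : FiniteDimensional E⟮x⟯ B := finite_of_finrank_pos (Nat.pos_of_ne_zero h)
  have h2 : Algebra.IsAlgebraic E E⟮x⟯ := isAlgebraic_adjoin_simple hx.isIntegral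
  exact Algebra.IsAlgebraic.trans E E⟮x⟯ B

end Trans

section Main

variable {E F : Type u} [Field E] [Field F] [Algebra E F]

theorem exists_ratio [Algebra.EssFiniteType E F] (h : Algebra.trdeg E F = 1) :
    ∃ (Ω F1 : Type u) (_ : Field Ω) (_ : Field F1) (_ : Algebra E Ω) (_ : Algebra Ω F1)
      (_ : Algebra F F1) (_ : Algebra E F1) (_ : IsScalarTower E Ω F1) (_ : IsScalarTower E F F1)
      (_ : IsAlgClosed Ω) (_ : FF.IsFnField Ω F1),
      (∃ y : F, finrank Ω⟮algebraMap F F1 y⟯ F1 ≠ 0) ∧
      ∀ x y : F, finrank E⟮x⟯ F * finrank Ω⟮algebraMap F F1 y⟯ F1 =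
        finrank E⟮y⟯ F * finrank Ω⟮algebraMap F F1 x⟯ F1 := by
  let L := AlgebraicClosure F
  let φ : F →ₐ[E] L := IsScalarTower.toAlgHom E F L
  let Ω : IntermediateField E L := algebraicClosure E L
  let F1 : IntermediateField E L := Ω ⊔ φ.fieldRange
  let ψ : F →ₐ[E] F1 := φ.codRestrict F1.toSubalgebra fun x =>
    (le_sup_right : φ.fieldRange ≤ F1) ⟨x, rfl⟩
  let i1 : Algebra Ω F1 := (IntermediateField.inclusion (le_sup_left : Ω ≤ F1)).toAlgebra
  let i2 : Algebra F F1 := ψ.toRingHom.toAlgebra
  have i3 : IsScalarTower E Ω F1 := IsScalarTower.of_algebraMap_eq fun _ => rfl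
  have i4 : IsScalarTower E F F1 := IsScalarTower.of_algebraMap_eq fun a =>
    (ψ.commutes a).symm
  have i5 : IsAlgClosed Ω := IsAlgClosure.isAlgClosed E
  have hψ : ∀ x : F, ((algebraMap F F1 x : F1) : L) = φ x := fun _ => rfl
  -- generators
  obtain ⟨s, hs⟩ := IntermediateField.fg_top E F
  let T : Set L := φ '' s
  have hT : T.Finite := s.finite_toSet.image _
  have hF' : φ.fieldRange = adjoin E T := by
    rw [AlgHom.fieldRange_eq_map, ← hs, adjoin_map]
  have hF1 : F1 = adjoin E ((Ω : Set L) ∪ T) := by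
    rw [adjoin_union, adjoin_self, ← hF']
  have hn : ∀ x : F, finrank E⟮x⟯ F = relfinrank (adjoin E {φ x}) (adjoin E T) := by
    intro x
    rw [finrank_adjoin_eq_relfinrank φ, Set.image_singleton, hF']
  have hm : ∀ x : F, finrank Ω⟮algebraMap F F1 x⟯ F1 =
      relfinrank (adjoin E ((Ω : Set L) ∪ {φ x})) (adjoin E ((Ω : Set L) ∪ T)) := by
    intro x
    rw [finrank_adjoin_simple_eq_relfinrank F1.val, fieldRange_val, ← hF1]
    congr 3
    exact Subtype.range_coe
  -- algebraic elements
  have hnalg : ¬ Algebra.IsAlgebraic E F := by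
    intro hc
    exact zero_ne_one ((_root_.trdeg_eq_zero (R := E) (A := F)).symm.trans h)
  have hnalg1 : ¬ Algebra.IsAlgebraic Ω F1 := by
    intro hc
    apply hnalg
    have h1 : Algebra.IsAlgebraic E F1 := Algebra.IsAlgebraic.trans E Ω F1
    refine ⟨fun x => ?_⟩
    exact (isAlgebraic_algebraMap_iff (algebraMap F F1).injective).1 (h1.isAlgebraic _)
  have hn0 : ∀ x : F, IsAlgebraic E x → finrank E⟮x⟯ F = 0 := by
    intro x hx
    by_contra hc
    exact hnalg (isAlgebraic_of_finrank_ne_zero hx hc)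
  have hm0 : ∀ x : F, IsAlgebraic E x → finrank Ω⟮algebraMap F F1 x⟯ F1 = 0 := by
    intro x hx
    by_contra hc
    exact hnalg1 (isAlgebraic_of_finrank_ne_zero (hx.algebraMap.tower_top Ω) hc)
  -- the main identity
  have key : ∀ x y : F, ∃ c d : ℕ, c ≠ 0 ∧ d ≠ 0 ∧
      finrank E⟮x⟯ F * c = d * finrank Ω⟮algebraMap F F1 x⟯ F1 ∧
      finrank E⟮y⟯ F * c = d * finrank Ω⟮algebraMap F F1 y⟯ F1 := by
    intro x y
    obtain ⟨S1, h1, h2, h3⟩ := exists_stable (E := E) (Ω : Set L) {φ x} hT
    obtain ⟨S2, h4, h5, h6⟩ := exists_stable (E := E) (Ω : Set L) {φ y} hT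
    have hS : ∀ s ∈ S1 ∪ S2, IsIntegral E s := by
      intro s hs
      exact (mem_algebraicClosure_iff.1 (Set.union_subset h2 h5 hs)).isIntegral
    have hfin : (S1 ∪ S2).Finite := h1.union h4
    have hmem : ∀ z : F, φ z ∈ adjoin E T := by
      intro z
      rw [← hF']
      exact ⟨z, rfl⟩
    have hgen : ∀ z : F, (relfinrank (adjoin E ((S1 ∪ S2) ∪ {φ z}))
        (adjoin E ((S1 ∪ S2) ∪ {φ z} ∪ T)) =
        relfinrank (adjoin E ((Ω : Set L) ∪ {φ z})) (adjoin E ((Ω : Set L) ∪ {φ z} ∪ T))) →
        finrank E⟮z⟯ F * relfinrank (adjoin E T) (adjoin E (T ∪ (S1 ∪ S2))) =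
        finrank E (adjoin E (S1 ∪ S2)) * finrank Ω⟮algebraMap F F1 z⟯ F1 := by
      intro z hz
      by_cases hz' : IsAlgebraic E z
      · rw [hn0 z hz', hm0 z hz', zero_mul, mul_zero]
      · rw [hn, hm]
        refine relfinrank_mul_eq ?_ (hmem z) hS hz
        intro hc
        exact hz' ((isAlgebraic_algHom_iff φ φ.injective).1 hc)
    refine ⟨_, _, relfinrank_union_ne_zero hfin hS, ?_, hgen x ?_, hgen y ?_⟩
    · have : Finite (S1 ∪ S2 : Set L) := hfin.to_subtype
      have : FiniteDimensional E (adjoin E (S1 ∪ S2)) := finiteDimensional_adjoin hS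
      exact finrank_pos.ne'
    · exact h3 _ Set.subset_union_left (Set.union_subset h2 h5)
    · exact h6 _ Set.subset_union_right (Set.union_subset h2 h5)
  -- a transcendental element
  obtain ⟨t, ht⟩ : ∃ t : F, Transcendental E t := by
    by_contra hc
    push Not at hc
    exact hnalg ⟨fun x => by
      have := hc x
      rwa [Transcendental, not_not] at this⟩
  have hft : FiniteDimensional E⟮t⟯ F :=
    (FF.IsFnField.mk ‹_› h : FF.IsFnField E F).finiteDimensional ht
  have hmt : finrank Ω⟮algebraMap F F1 t⟯ F1 ≠ 0 := by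
    obtain ⟨c, d, hc, hd, h1, -⟩ := key t t
    intro h0
    rw [h0, mul_zero] at h1
    exact mul_ne_zero (finrank_pos (R := E⟮t⟯) (M := F)).ne' hc h1
  have ht1 : Transcendental Ω (algebraMap F F1 t) := by
    intro hc
    exact hnalg1 (isAlgebraic_of_finrank_ne_zero hc hmt)
  have i6 : FF.IsFnField Ω F1 := by
    have : FiniteDimensional Ω⟮algebraMap F F1 t⟯ F1 :=
      finite_of_finrank_pos (Nat.pos_of_ne_zero hmt)
    exact FF.IsFnField.of_finiteDimensional ht1
  refine ⟨Ω, F1, inferInstance, inferInstance, inferInstance, i1, i2, inferInstance, i3, i4, i5,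
    i6, ⟨t, hmt⟩, fun x y => ?_⟩
  obtain ⟨c, d, hc, hd, h1, h2⟩ := key x y
  have hcd : c * d ≠ 0 := mul_ne_zero hc hd
  apply Nat.eq_of_mul_eq_mul_right (Nat.pos_of_ne_zero hcd)
  calc _ = (finrank E⟮x⟯ F * c) * (d * finrank Ω⟮algebraMap F F1 y⟯ F1) := by ring
    _ = (d * finrank Ω⟮algebraMap F F1 x⟯ F1) * (finrank E⟮y⟯ F * c) := by rw [h1, h2]
    _ = _ := by ring

end Main

end Fermat.Agent.AV
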