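import Fermat.Agent.AV.Generic
import Fermat.Agent.AV.Const
import Fermat.Agent.AV.M0

set_option autoImplicit false
set_option linter.style.haveILetI false
set_option linter.unusedSectionVars false

/-!
# The theorem of the square on curves
-/

universe u

open AlgebraicCurve Fermat.Agent.FF Fermat.Agent.Red Fermat.Agent.BCh

namespace Fermat.Agent.AV

section Prin

variable (Ω F : Type*) [Field Ω] [Field F] [Algebra Ω F] [IsAlgClosed Ω] [IsFnField Ω F]

/-- the subgroup of principal divisors -/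
def prin : AddSubgroup (Divisor Ω F) where
  carrier := {D | ∃ f : F, f ≠ 0 ∧ D = RR.divOf f}
  zero_mem' := ⟨1, one_ne_zero, by ext v; rw [RR.divOf_apply, Place.ord_one]; rfl⟩
  add_mem' := by
    rintro _ _ ⟨f, hf, rfl⟩ ⟨g, hg, rfl⟩
    exact ⟨f * g, mul_ne_zero hf hg, (RR.divOf_mul hf hg).symm⟩
  neg_mem' := by
    rintro _ ⟨f, hf, rfl⟩
    exact ⟨f⁻¹, inv_ne_zero hf, (RR.divOf_inv f).symm⟩

variable {Ω F}

theorem mem_prin {D : Divisor Ω F} : D ∈ prin Ω F ↔ ∃ f : F, f ≠ 0 ∧ D = RR.divOf f := Iff.rfl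

theorem degree_prin {D : Divisor Ω F} (h : D ∈ prin Ω F) : Divisor.degree D = 0 := by
  obtain ⟨f, -, rfl⟩ := h
  exact RR.degree_divOf f

theorem ev_eq_resΩ (Q : Place Ω F) (f : Q.toValuationSubring) : ev Q f = resΩ Q f := by
  rw [ev_eq_iff]
  exact (AlgEquiv.ofBijective (Algebra.ofId Ω Q.ResidueField)
    (RR.bijective_algebraMap_residueField Q)).apply_symm_apply _

theorem hasVal_resΩ {Q : Place Ω F} {f : F} {c : Ω} (h : HasVal Q f c) :
    resΩ Q ⟨f, h.mem⟩ = c := by
  rw [← ev_eq_resΩ]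
  exact h.2

end Prin

section Sp

variable {Ω F U B : Type*} [Field Ω] [Field F] [Field U] [Field B] [Algebra Ω F] [Algebra Ω U]
  [Algebra U B] {d : Ext Ω F U B}
  [IsAlgClosed Ω] [IsFnField Ω F] [IsAlgClosed U] [IsFnField U B] {p : KPlace Ω U Ω}

theorem spDiv_mem_prin {D : Divisor U B} (h : D ∈ prin U B) : spDiv d p D ∈ prin Ω F := by
  obtain ⟨f, hf, rfl⟩ := h
  obtain ⟨c, y, -, hy, -, h1⟩ := exists_spDiv_divOf (d := d) (p := p) hf
  exact ⟨y, hy, h1⟩

theorem le_spDiv {D : Divisor U B} (h : 0 ≤ D) (P : Place U B) :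
    D P ≤ spDiv d p D (sp d p P) := by
  classical
  have h1 : D = Finsupp.single P (D P) + D.erase P := (Finsupp.single_add_erase P D).symm
  have h2 : (0 : Divisor U B) ≤ D.erase P := by
    intro Q
    rw [Finsupp.erase_apply]
    split_ifs
    · exact le_rfl
    · exact h Q
  have h3 := spDiv_nonneg (d := d) (p := p) h2 (sp d p P)
  conv_rhs => rw [h1, map_add, spDiv_single]
  rw [Finsupp.add_apply, Finsupp.single_eq_same]
  rw [Finsupp.zero_apply] at h3
  omega

theorem genus_ext_le (d : Ext Ω F U B) :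
    AlgebraicCurve.genusFF U B ≤ AlgebraicCurve.genusFF Ω F := by
  refine genus_le_of d (fun D => liftDiv d D) (fun D => degree_liftDiv D) fun D f hf => ?_
  rcases eq_or_ne f 0 with rfl | hf0
  · rw [map_zero]; exact zero_mem _
  rw [RR.mem_riemannRochSpace_iff_divOf hf0] at hf
  rw [RR.mem_riemannRochSpace_iff_divOf ((map_ne_zero d.ι).mpr hf0), divOf_ι, ← map_add]
  exact liftDiv_nonneg hf

/-- divisors without moving places are constant -/
theorem exists_liftDiv {G : Divisor U B} (h : ∀ σ, G (pl d σ) = 0) :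
    ∃ G₁ : Divisor Ω F, G = liftDiv d G₁ := by
  refine ⟨G.comapDomain (con d) con_injective.injOn, liftDiv_ext (fun Q => ?_) h⟩
  rw [Finsupp.comapDomain_apply]

end Sp

section SqDiv

variable {K : Type u} [Field K] {V : GrpVar K} {Ω F : Type u} [Field Ω] [Field F]
  [Algebra Ω F] [Algebra K Ω] [Algebra K F] [IsScalarTower K Ω F] [IsAlgClosed Ω] [IsFnField Ω F]

/-- constant points -/
noncomputable def cst (a : V.pt Ω) : V.pt F := V.map (IsScalarTower.toAlgHom K Ω F) a

theorem cst_zero : (cst (0 : V.pt Ω) : V.pt F) = 0 := map_zero _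

theorem cst_add (a b : V.pt Ω) : (cst (a + b) : V.pt F) = cst a + cst b := map_add _ _ _

/-- the divisor of the theorem of the square -/
noncomputable def sqDiv (D : CDiv V) (P : V.pt F) (a b : V.pt Ω) : Divisor Ω F :=
  D.cdiv (P + cst (a + b)) - D.cdiv (P + cst a) - D.cdiv (P + cst b) + D.cdiv P

theorem sqDiv_zero_left (D : CDiv V) (P : V.pt F) (b : V.pt Ω) : sqDiv D P 0 b = 0 := by
  rw [sqDiv, zero_add, cst_zero, add_zero]
  abel

theorem sqDiv_zero_right (D : CDiv V) (P : V.pt F) (b : V.pt Ω) : sqDiv D P b 0 = 0 := by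
  rw [sqDiv, add_zero, cst_zero, add_zero]
  abel

end SqDiv

section Core

variable {K : Type u} [Field K] {V : GrpVar K} {Ω F U B : Type u} [Field Ω] [Field F] [Field U]
  [Field B] [Algebra Ω F] [Algebra Ω U] [Algebra U B] [Algebra K Ω] [Algebra K F] [Algebra K U]
  [Algebra K B] [IsScalarTower K Ω F] [IsScalarTower K Ω U] [IsScalarTower K U B]
  {d : Ext Ω F U B} [IsAlgClosed Ω] [IsFnField Ω F] [IsAlgClosed U] [IsFnField U B]

/-- compatibility of the divisors of points with specialisation -/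
def SpStmt (d : Ext Ω F U B) (D : CDiv V) (P : V.pt F) (P' : V.pt B) : Prop :=
  ∀ (p : KPlace Ω U Ω) (a : V.pt U),
    spDiv d p (D.cdiv (P' + cst a)) - D.cdiv (P + cst (V.redP p a)) ∈ prin Ω F

variable {D : CDiv V} {P : V.pt F} {P' : V.pt B}

theorem SpStmt.sqDiv (h : SpStmt d D P P') (p : KPlace Ω U Ω) (a b : V.pt U) :
    spDiv d p (sqDiv D P' a b) - AV.sqDiv D P (V.redP p a) (V.redP p b) ∈ prin Ω F := by
  have h1 := h p (a + b)
  have h2 := h p a
  have h3 := h p b
  have h4 := h p 0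
  rw [map_add] at h1
  rw [map_zero, cst_zero, cst_zero, add_zero, add_zero] at h4
  have h5 := add_mem (sub_mem (sub_mem h1 h2) h3) h4
  convert h5 using 1
  rw [AV.sqDiv, AV.sqDiv, map_add, map_sub, map_sub]
  abel

variable {U₁ : Type u} [Field U₁] [Algebra K U₁] [Algebra Ω U₁] [Algebra U₁ U]
  [IsScalarTower Ω U₁ U] [IsScalarTower K Ω U₁] [IsScalarTower K U₁ U] [IsAlgClosed U₁]
  {η : V.F →ₐ[K] U₁} {ζ : V.F →ₐ[K] U}

theorem sq_core (hη : Disj K (algebraMap Ω U₁) η) (hζ : Disj K (algebraMap U₁ U) ζ)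
    (hsp : SpStmt d D P P') (b c : V.pt Ω) : sqDiv D P b c ∈ prin Ω F := by
  classical
  obtain ⟨M₀, hM0, hMdeg, hMell⟩ := exists_m0 (Ω := Ω) (F := F)
  set a : V.pt U := V.map (IsScalarTower.toAlgHom K U₁ U) (V.map η V.genPt) with ha
  set z : V.pt U := V.map ζ V.genPt with hz
  set M : Divisor U B := sqDiv D P' a z with hM
  -- the degree is zero
  obtain ⟨p₀, hpa, hpz⟩ := GrpVar.exists_redP_eq₂ hη hζ 0 0
  have hMd : Divisor.degree M = 0 := by
    have h1 := degree_prin (hsp.sqDiv p₀ a z)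
    rw [hpa, sqDiv_zero_left, sub_zero, degree_spDiv] at h1
    exact h1
  -- an effective divisor
  obtain ⟨f, hf, hG⟩ := exists_eff (D := liftDiv d M₀ + M) (by
    rw [map_add, degree_liftDiv, hMdeg, hMd, add_zero]
    exact_mod_cast genus_ext_le d)
  set G := liftDiv d M₀ + M + RR.divOf f with hGdef
  -- specialisations of `G` at places where `a` or `z` vanishes
  have key : ∀ p : KPlace Ω U Ω, V.redP p a = 0 ∨ V.redP p z = 0 → spDiv d p G = M₀ := by
    intro p hp
    have h1 : spDiv d p M ∈ prin Ω F := by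
      have h2 := hsp.sqDiv p a z
      rcases hp with h | h
      · rwa [h, sqDiv_zero_left, sub_zero] at h2
      · rwa [h, sqDiv_zero_right, sub_zero] at h2
    have h2 : spDiv d p (RR.divOf f) ∈ prin Ω F := spDiv_mem_prin ⟨f, hf, rfl⟩
    obtain ⟨y, hy, h3⟩ := add_mem h1 h2
    refine eff_unique' hM0 hMell (spDiv_nonneg hG) hy ?_
    rw [hGdef, map_add, map_add, spDiv_liftDiv, add_assoc, h3]
  -- `G` is constant
  have hσ : ∀ σ, G (pl d σ) = 0 := by
    intro σ
    by_contra hne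
    have hpos : 0 < G (pl d σ) := lt_of_le_of_ne (hG _) (Ne.symm hne)
    obtain ⟨Q, hQ⟩ := exists_place_notMem (Ω := Ω) (F := F) (M₀.support : Set (Place Ω F))
      M₀.support.finite_toSet
    have hQ0 : M₀ Q = 0 := by
      rwa [Finset.mem_coe, Finsupp.notMem_support_iff] at hQ
    obtain ⟨p, hp, hpσ⟩ := exists_kplace_σ hη hζ σ Q
    have h1 : sp d p (pl d σ) = Q := by
      refine sp_eq fun f c hfc => ?_
      obtain ⟨h2, h3⟩ := hpσ f hfc.mem
      exact ⟨⟨σ f, h2⟩, hasVal_pl σ f, h3.trans (hasVal_resΩ hfc)⟩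
    have h2 := le_spDiv (d := d) (p := p) hG (pl d σ)
    rw [h1, key p hp, hQ0] at h2
    omega
  obtain ⟨G₁, hG₁⟩ := exists_liftDiv hσ
  have hG₁' : G₁ = M₀ := by
    rw [← key p₀ (Or.inl hpa), hG₁, spDiv_liftDiv]
  have hMprin : M ∈ prin U B := by
    have h1 : RR.divOf f ∈ prin U B := ⟨f, hf, rfl⟩
    have h2 : M = -RR.divOf f := by
      have h3 : liftDiv d M₀ + M + RR.divOf f = liftDiv d M₀ := by
        rw [← hGdef, hG₁, hG₁']
      rw [add_assoc] at h3
      have h4 : M + RR.divOf f = 0 := by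
        have := congrArg (fun x => x - liftDiv d M₀) h3
        simpa using this
      exact eq_neg_of_add_eq_zero_left h4
    rw [h2]
    exact neg_mem h1
  -- specialise
  obtain ⟨p, hpb, hpc⟩ := GrpVar.exists_redP_eq₂ hη hζ b c
  have h1 := sub_mem (spDiv_mem_prin (d := d) (p := p) hMprin) (hsp.sqDiv p a z)
  rw [hpb, hpc, sub_sub_cancel] at h1
  exact h1

end Core

end Fermat.Agent.AV
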