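import Fermat.Agent.AV.GV
import Fermat.Prelude.Def_JacJ1Iface
import Fermat.Prelude.Def_GoodReductionJacobian_RelativeGroupLawKernel

/-!
# Local rings of an integral scheme over a field as subrings of the function field
-/

set_option autoImplicit false
set_option linter.unusedSectionVars false

universe u

noncomputable section

open CategoryTheory CategoryTheory.Limits AlgebraicGeometry IsLocalRing TopologicalSpace
open NeronModelInfra GoodReductionJacobian

namespace Fermat.Agent.AV.Sch

variable {K : Type u} [Field K] {A : Scheme.{u}} (f : A ⟶ Spec (CommRingCat.of K))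

/-- constants as global functions -/
def kTop : CommRingCat.of K ⟶ Γ(A, ⊤) := (Scheme.ΓSpecIso (.of K)).inv ≫ f.appTop

/-- constants in the stalks -/
def kGerm (x : A) : CommRingCat.of K ⟶ A.presheaf.stalk x :=
  kTop f ≫ A.presheaf.germ ⊤ x trivial

/-- constants as functions on an open set -/
def kSec (U : A.Opens) : CommRingCat.of K ⟶ Γ(A, U) :=
  kTop f ≫ A.presheaf.map (homOfLE le_top).op

theorem kSec_germ (U : A.Opens) (x : A) (hx : x ∈ U) :
    kSec f U ≫ A.presheaf.germ U x hx = kGerm f x := by
  rw [kSec, kGerm, Category.assoc, A.presheaf.germ_res]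

theorem toSpecΓ_kTop : A.toSpecΓ ≫ Spec.map (kTop f) = f := by
  rw [kTop, Spec.map_comp, ← Category.assoc, ← Scheme.toSpecΓ_naturality, Category.assoc]
  simp

theorem specMap_kGerm (x : A) : Spec.map (kGerm f x) = A.fromSpecStalk x ≫ f := by
  rw [kGerm, Spec.map_comp, ← Scheme.fromSpecStalk_toSpecΓ, Category.assoc, toSpecΓ_kTop]

theorem kGerm_specializes {x y : A} (h : x ⤳ y) :
    kGerm f y ≫ A.presheaf.stalkSpecializes h = kGerm f x := by
  rw [kGerm, Category.assoc, A.presheaf.germ_stalkSpecializes]
  rfl

variable [IsIntegral A]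

/-- the function field, as a `K`-algebra -/
def FF (_f : A ⟶ Spec (CommRingCat.of K)) : Type u := A.functionField

instance : Field (FF f) := inferInstanceAs (Field A.functionField)

instance : Algebra K (FF f) := (kGerm f (genericPoint A)).hom.toAlgebra

/-- stalks map to the function field -/
def toF (x : A) : A.presheaf.stalk x →+* FF f :=
  (A.presheaf.stalkSpecializes ((genericPoint_spec A).specializes trivial)).hom

theorem toF_injective (x : A) : Function.Injective (toF f x) :=
  IsFractionRing.injective (A.presheaf.stalk x) (A.functionField)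

theorem toF_kGerm (x : A) (c : K) : toF f x (kGerm f x c) = algebraMap K (FF f) c := by
  have h := kGerm_specializes f ((genericPoint_spec A).specializes (Set.mem_univ x))
  exact congrArg (fun φ => φ.hom c) h

theorem toF_specializes {x y : A} (h : x ⤳ y) (s : A.presheaf.stalk y) :
    toF f x (A.presheaf.stalkSpecializes h s) = toF f y s := by
  have h1 := A.presheaf.stalkSpecializes_comp ((genericPoint_spec A).specializes (Set.mem_univ x)) h
  exact congrArg (fun φ => φ.hom s) h1

/-- the local ring at `x` in the function field -/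
def locA (x : A) : Subalgebra K (FF f) :=
  { (toF f x).range with
    algebraMap_mem' := fun c => ⟨kGerm f x c, toF_kGerm f x c⟩ }

theorem mem_locA {x : A} {b : FF f} : b ∈ locA f x ↔ ∃ s, toF f x s = b := Iff.rfl

/-- the stalk at `x` as a subring of the function field -/
def stEq (x : A) : A.presheaf.stalk x ≃+* locA f x :=
  RingEquiv.ofBijective ((toF f x).codRestrict (locA f x) fun s => ⟨s, rfl⟩)
    ⟨fun a b h => toF_injective f x (congrArg Subtype.val h), fun ⟨_, s, hs⟩ => ⟨s, Subtype.ext hs⟩⟩

@[simp] theorem coe_stEq (x : A) (s : A.presheaf.stalk x) : (stEq f x s : FF f) = toF f x s := rfl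

theorem toF_stEq_symm (x : A) (b : locA f x) : toF f x ((stEq f x).symm b) = b := by
  rw [← coe_stEq, RingEquiv.apply_symm_apply]

theorem stEq_symm_algebraMap (x : A) (c : K) :
    (stEq f x).symm (algebraMap K (locA f x) c) = kGerm f x c := by
  rw [RingEquiv.symm_apply_eq]
  exact Subtype.ext (toF_kGerm f x c).symm

instance isLocalRing_locA (x : A) : IsLocalRing (locA f x) :=
  (stEq f x).isLocalRing

theorem exists_div (x : A) (z : FF f) : ∃ a b : A.presheaf.stalk x, b ≠ 0 ∧
    z = toF f x a / toF f x b := by
  obtain ⟨a, b, hb, h⟩ := IsFractionRing.div_surjective (A := A.presheaf.stalk x)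
    (K := A.functionField) z
  exact ⟨a, b, nonZeroDivisors.ne_zero hb, h.symm⟩

instance isFractionRing_locA (x : A) : IsFractionRing (locA f x) (FF f) where
  map_units y := isUnit_iff_ne_zero.2 fun h => nonZeroDivisors.ne_zero y.2 (Subtype.ext h)
  surj z := by
    obtain ⟨a, b, hb, rfl⟩ := exists_div f x z
    have hb' : toF f x b ≠ 0 := fun h => hb (toF_injective f x (by rw [h, map_zero]))
    refine ⟨(stEq f x a, ⟨stEq f x b, mem_nonZeroDivisors_of_ne_zero fun h => hb ?_⟩), ?_⟩
    · exact (map_eq_zero_iff _ (stEq f x).injective).1 h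
    · change toF f x a / toF f x b * toF f x b = toF f x a
      rw [div_mul_cancel₀ _ hb']
  exists_of_eq {a b} h := ⟨1, by rw [Subtype.ext h]⟩

theorem locA_le {x y : A} (h : x ⤳ y) : locA f y ≤ locA f x := by
  rintro _ ⟨s, rfl⟩
  exact ⟨A.presheaf.stalkSpecializes h s, toF_specializes f h s⟩

theorem locA_gen : locA f (genericPoint A) = ⊤ := by
  rw [eq_top_iff]
  intro b _
  refine ⟨b, ?_⟩
  have h : A.presheaf.stalkSpecializes ((genericPoint_spec A).specializes
    (Set.mem_univ (genericPoint A))) = 𝟙 _ := A.presheaf.stalkSpecializes_refl _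
  exact congrArg (fun φ => φ.hom b) h

theorem eq_gen {x : A} (h : locA f x = ⊤) : x = genericPoint A := by
  have hs : genericPoint A ⤳ x := (genericPoint_spec A).specializes trivial
  have h1 : genericPoint A ∈ Set.range (A.fromSpecStalk x) := by
    rw [Scheme.range_fromSpecStalk]; exact hs
  obtain ⟨z, hz⟩ := h1
  -- the stalk is a field
  have h2 : IsField (A.presheaf.stalk x) := by
    refine ⟨exists_pair_ne _, mul_comm, fun {a} ha => ?_⟩
    have h3 : (toF f x a)⁻¹ ∈ locA f x := by rw [h]; trivial
    obtain ⟨b, hb⟩ := h3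
    refine ⟨b, toF_injective f x ?_⟩
    rw [map_mul, hb, map_one, mul_inv_cancel₀]
    intro h0
    exact ha (toF_injective f x (by rw [h0, map_zero]))
  have h4 : z = closedPoint (A.presheaf.stalk x) := by
    have h5 : ∀ I : Ideal (A.presheaf.stalk x), I ≠ ⊤ → I = ⊥ := fun I hI => by
      letI := h2.toField
      exact (Ideal.eq_bot_or_top I).resolve_right hI
    apply PrimeSpectrum.ext
    rw [h5 _ z.2.ne_top, h5 _ (closedPoint (A.presheaf.stalk x)).2.ne_top]
  rw [← hz, h4, Scheme.fromSpecStalk_closedPoint]

end Fermat.Agent.AV.Sch
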