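import Fermat.Agent.AV.SchEv

/-!
# Affine charts of an integral scheme over a field
-/

set_option autoImplicit false
set_option linter.unusedSectionVars false

universe u

noncomputable section

open CategoryTheory CategoryTheory.Limits AlgebraicGeometry IsLocalRing TopologicalSpace
open NeronModelInfra GoodReductionJacobian

namespace Fermat.Agent.AV.Sch

variable {K : Type u} [Field K] {A : Scheme.{u}} (f : A ⟶ Spec (CommRingCat.of K))
  [IsIntegral A]

theorem gen_mem (U : A.Opens) [h : Nonempty U] : genericPoint A ∈ U :=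
  ((genericPoint_spec A).mem_open_set_iff U.isOpen).mpr (by simpa using h)

/-- sections as rational functions -/
def secF (U : A.Opens) [h : Nonempty U] : Γ(A, U) →+* FF f :=
  (A.presheaf.germ U (genericPoint A) (gen_mem U)).hom

theorem toF_germ (U : A.Opens) [Nonempty U] (x : A) (hx : x ∈ U) (s : Γ(A, U)) :
    toF f x (A.presheaf.germ U x hx s) = secF f U s := by
  have h := A.presheaf.germ_stalkSpecializes (U := U) hx
    ((genericPoint_spec A).specializes (Set.mem_univ x))
  exact congrArg (fun φ => φ.hom s) h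

theorem secF_injective (U : A.Opens) [Nonempty U] : Function.Injective (secF f U) :=
  Scheme.germToFunctionField_injective A U

theorem secF_kSec (U : A.Opens) [Nonempty U] (c : K) :
    secF f U (kSec f U c) = algebraMap K (FF f) c := by
  have h := kSec_germ f U (genericPoint A) (gen_mem U)
  exact congrArg (fun φ => φ.hom c) h

/-- the ring of a chart in the function field -/
def chartA (U : A.Opens) [Nonempty U] : Subalgebra K (FF f) :=
  { (secF f U).range with
    algebraMap_mem' := fun c => ⟨kSec f U c, secF_kSec f U c⟩ }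

theorem chartA_le {U : A.Opens} [Nonempty U] {x : A} (hx : x ∈ U) : chartA f U ≤ locA f x := by
  rintro _ ⟨s, rfl⟩
  exact ⟨A.presheaf.germ U x hx s, toF_germ f U x hx s⟩

theorem chartA_loc {U : A.Opens} (hU : IsAffineOpen U) [Nonempty U] {x : A} (hx : x ∈ U)
    {b : FF f} (hb : b ∈ locA f x) : ∃ s t : chartA f U,
      IsUnit (⟨t, chartA_le f hx t.2⟩ : locA f x) ∧ b = (s : FF f) / (t : FF f) := by
  obtain ⟨c, rfl⟩ := hb
  letI := TopCat.Presheaf.algebra_section_stalk A.presheaf (⟨x, hx⟩ : U)
  haveI := hU.isLocalization_stalk ⟨x, hx⟩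
  obtain ⟨⟨s, t⟩, h⟩ := IsLocalization.surj (hU.primeIdealOf ⟨x, hx⟩).asIdeal.primeCompl c
  have ht := IsLocalization.map_units (A.presheaf.stalk x) t
  change c * A.presheaf.germ U x hx (t : Γ(A, U)) = A.presheaf.germ U x hx s at h
  change IsUnit (A.presheaf.germ U x hx (t : Γ(A, U))) at ht
  refine ⟨⟨secF f U s, s, rfl⟩, ⟨secF f U t, t, rfl⟩, ?_, ?_⟩
  · have h1 := ht.map (stEq f x)
    convert h1 using 1
    exact Subtype.ext (toF_germ f U x hx t).symm
  · have h1 := congrArg (toF f x) h
    have h2 : toF f x (A.presheaf.germ U x hx (t : Γ(A, U))) ≠ 0 := (ht.map (toF f x)).ne_zero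
    rw [map_mul] at h1
    change toF f x c = secF f U s / secF f U t
    rw [← toF_germ f U x hx, ← toF_germ f U x hx, ← h1, mul_div_cancel_right₀ _ h2]

theorem fromSpec_comp {U : A.Opens} (hU : IsAffineOpen U) :
    hU.fromSpec ≫ f = Spec.map (kSec f U) := by
  calc hU.fromSpec ≫ f = hU.fromSpec ≫ (A.toSpecΓ ≫ Spec.map (kTop f)) := by rw [toSpecΓ_kTop]
    _ = Spec.map (kSec f U) := by
      rw [← Category.assoc, hU.fromSpec_toSpecΓ, ← Spec.map_comp]
      rfl

/-- a point lies in a chart if its local ring contains the ring of the chart -/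
theorem mem_of_chartA_le [IsSeparated f] {U : A.Opens} (hU : IsAffineOpen U) [Nonempty U] {y : A}
    (h : chartA f U ≤ locA f y) : y ∈ U := by
  let θ : Γ(A, U) ⟶ A.presheaf.stalk y := CommRingCat.ofHom
    ((stEq f y).symm.toRingHom.comp ((secF f U).codRestrict (locA f y) fun s => h ⟨s, rfl⟩))
  have hθ : ∀ s, toF f y (θ.hom s) = secF f U s := fun s => toF_stEq_symm f y ⟨_, h ⟨s, rfl⟩⟩
  have hs : genericPoint A ⤳ y := (genericPoint_spec A).specializes (Set.mem_univ y)
  have h1 : θ ≫ A.presheaf.stalkSpecializes hs = A.presheaf.germ U (genericPoint A) (gen_mem U) := by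
    ext s
    exact hθ s
  have h2 : Spec.map (A.presheaf.stalkSpecializes hs) ≫ A.fromSpecStalk y =
      Spec.map (A.presheaf.stalkSpecializes hs) ≫ Spec.map θ ≫ hU.fromSpec := by
    rw [Scheme.SpecMap_stalkSpecializes_fromSpecStalk, ← Category.assoc, ← Spec.map_comp, h1,
      ← hU.fromSpecStalk_eq_fromSpecStalk (gen_mem U)]
    rfl
  have h3 : A.fromSpecStalk y ≫ f = (Spec.map θ ≫ hU.fromSpec) ≫ f := by
    rw [Category.assoc, fromSpec_comp, ← specMap_kGerm, ← Spec.map_comp]
    congr 1
    ext c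
    apply toF_injective f y
    rw [toF_kGerm]
    exact ((hθ _).trans (secF_kSec f U c)).symm
  haveI : IsDominant (Spec.map (A.presheaf.stalkSpecializes hs)) := by
    constructor
    change DenseRange (PrimeSpectrum.comap (A.presheaf.stalkSpecializes hs).hom)
    rw [PrimeSpectrum.denseRange_comap_iff_ker_le_nilRadical]
    have h5 : RingHom.ker (A.presheaf.stalkSpecializes hs).hom = ⊥ :=
      (RingHom.injective_iff_ker_eq_bot _).1 (toF_injective f y)
    rw [h5]
    exact bot_le
  have h4 := ext_of_isDominant_of_isSeparated f h3 _ h2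
  have h5 : A.fromSpecStalk y (closedPoint (A.presheaf.stalk y)) ∈ Set.range hU.fromSpec := by
    rw [h4]
    exact ⟨_, rfl⟩
  rw [Scheme.fromSpecStalk_closedPoint, hU.range_fromSpec] at h5
  exact h5

section ChartPt

variable {R : Type u} [CommRing R] [Algebra K R] [IsLocalRing R]

theorem exists_chart_pt {U : A.Opens} (hU : IsAffineOpen U) [Nonempty U]
    (φ : chartA f U →ₐ[K] R) : ∃ (P : Pt f R) (h : chartA f U ≤ locA f (ctr P)),
      ∀ b : chartA f U, evA P ⟨b, h b.2⟩ = φ b := by
  let ψ : Γ(A, U) ⟶ CommRingCat.of R := CommRingCat.ofHom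
    ((φ : chartA f U →+* R).comp ((secF f U).codRestrict (chartA f U) fun s => ⟨s, rfl⟩))
  have hψ : ∀ s, ψ.hom s = φ ⟨secF f U s, ⟨s, rfl⟩⟩ := fun s => rfl
  have hk : kSec f U ≫ ψ = CommRingCat.ofHom (algebraMap K R) := by
    ext c
    change φ ⟨secF f U (kSec f U c), _⟩ = algebraMap K R c
    rw [← φ.commutes c]
    congr 1
    exact Subtype.ext (secF_kSec f U c)
  let P : Pt f R := ⟨Spec.map ψ ≫ hU.fromSpec, by
    rw [Category.assoc, fromSpec_comp, ← Spec.map_comp, hk]⟩
  have hP : ctr P ∈ U := by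
    have h1 : ctr P ∈ Set.range hU.fromSpec := ⟨Spec.map ψ (closedPoint R), rfl⟩
    rwa [hU.range_fromSpec] at h1
  have h1 : A.presheaf.germ U (ctr P) hP ≫ evS P = ψ := by
    apply Spec.map_injective
    rw [← cancel_mono hU.fromSpec, Spec.map_comp, Category.assoc]
    have h2 : Spec.map (A.presheaf.germ U (ctr P) hP) ≫ hU.fromSpec = A.fromSpecStalk (ctr P) := by
      rw [← hU.fromSpecStalk_eq_fromSpecStalk hP]
      rfl
    rw [h2, spec_evS]
  refine ⟨P, chartA_le f hP, ?_⟩
  rintro ⟨_, s, rfl⟩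
  have h2 := congrArg (fun φ => φ.hom s) h1
  refine Eq.trans ?_ (h2.trans (hψ s))
  change _ = (evS P).hom ((A.presheaf.germ U (ctr P) hP).hom s)
  rw [← evA_mk]
  · congr 1
    exact Subtype.ext (toF_germ f U (ctr P) hP s).symm
  · exact ⟨_, rfl⟩

end ChartPt

omit [IsIntegral A] in
theorem finiteType_sec [LocallyOfFiniteType f] {U : A.Opens} (hU : IsAffineOpen U) :
    (kSec f U).hom.FiniteType := by
    have h2 := f.finiteType_appLE (isAffineOpen_top _) hU (by simp)
    have h3 : kSec f U = (Scheme.ΓSpecIso (.of K)).inv ≫ f.appLE ⊤ U (by simp) := by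
      rw [kSec, kTop, Category.assoc]
      congr 1
    rw [h3]
    refine RingHom.FiniteType.comp h2 (RingHom.FiniteType.of_surjective _ ?_)
    exact (Scheme.ΓSpecIso (.of K)).symm.commRingCatIsoToRingEquiv.surjective

theorem chartA_fg [LocallyOfFiniteType f] {U : A.Opens} (hU : IsAffineOpen U) [Nonempty U] :
    (chartA f U).FG := by
  have h1 := finiteType_sec f hU
  letI : Algebra K Γ(A, U) := (kSec f U).hom.toAlgebra
  let ψ : Γ(A, U) →ₐ[K] FF f := { secF f U with commutes' := fun c => secF_kSec f U c }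
  have h2 : chartA f U = (⊤ : Subalgebra K Γ(A, U)).map ψ := by
    rw [Algebra.map_top]
    ext b
    rfl
  rw [h2]
  exact Subalgebra.FG.map ψ (h1 : Algebra.FiniteType K Γ(A, U)).out

end Fermat.Agent.AV.Sch
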