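import Fermat.Agent.AV.SchPt

/-!
# Evaluation of elements of the function field at points with values in local rings
-/

set_option autoImplicit false
set_option linter.unusedSectionVars false

universe u

noncomputable section

open CategoryTheory CategoryTheory.Limits AlgebraicGeometry IsLocalRing TopologicalSpace
open NeronModelInfra GoodReductionJacobian

namespace Fermat.Agent.AV.Sch

variable {K : Type u} [Field K] {A : Scheme.{u}} {f : A ⟶ Spec (CommRingCat.of K)}
  [IsIntegral A] {R : Type u} [CommRing R] [Algebra K R] [IsLocalRing R]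

/-- evaluation -/
def evA (P : Pt f R) : locA f (ctr P) →ₐ[K] R :=
  { (evS P).hom.comp (stEq f (ctr P)).symm.toRingHom with
    commutes' := fun c => by
      change (evS P).hom ((stEq f (ctr P)).symm (algebraMap K (locA f (ctr P)) c)) = _
      rw [stEq_symm_algebraMap]
      exact congrArg (fun φ => φ.hom c) (kGerm_evS P) }

theorem evA_stEq (P : Pt f R) (s : A.presheaf.stalk (ctr P)) :
    evA P (stEq f (ctr P) s) = (evS P).hom s := by
  change (evS P).hom ((stEq f (ctr P)).symm (stEq f (ctr P) s)) = _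
  rw [RingEquiv.symm_apply_apply]

theorem evA_mk (P : Pt f R) (s : A.presheaf.stalk (ctr P)) (h : toF f (ctr P) s ∈ locA f (ctr P)) :
    evA P ⟨toF f (ctr P) s, h⟩ = (evS P).hom s :=
  evA_stEq P s

theorem evA_local (P : Pt f R) (b : locA f (ctr P)) (h : IsUnit (evA P b)) : IsUnit b := by
  obtain ⟨s, rfl⟩ := (stEq f (ctr P)).surjective b
  rw [evA_stEq] at h
  have := (isLocalHom_evS P).map_nonunit s h
  exact this.map (stEq f (ctr P))

theorem ext_evA (P Q : Pt f R) (h : ctr P = ctr Q)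
    (h1 : ∀ (b : FF f) (h : b ∈ locA f (ctr P)) (h' : b ∈ locA f (ctr Q)),
      evA P ⟨b, h⟩ = evA Q ⟨b, h'⟩) : P = Q := by
  have hs : ctr P ⤳ ctr Q := h ▸ specializes_rfl
  refine ext_aux P Q hs ?_
  ext s
  change (evS P).hom ((A.presheaf.stalkSpecializes hs).hom s) = (evS Q).hom s
  have h2 := h1 (toF f (ctr Q) s) ⟨A.presheaf.stalkSpecializes hs s, toF_specializes f hs s⟩ ⟨s, rfl⟩
  rw [evA_mk Q s] at h2
  rw [← h2, ← evA_mk P]
  · congr 1
    exact Subtype.ext (toF_specializes f hs s)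
  · exact ⟨_, rfl⟩

theorem exists_evA (x : A) (φ : locA f x →ₐ[K] R) (hφ : ∀ b, IsUnit (φ b) → IsUnit b) :
    ∃ P : Pt f R, ctr P = x ∧ ∀ (b : FF f) (h : b ∈ locA f (ctr P)) (h' : b ∈ locA f x),
      evA P ⟨b, h⟩ = φ ⟨b, h'⟩ := by
  let ψ : A.presheaf.stalk x ⟶ CommRingCat.of R :=
    CommRingCat.ofHom ((φ : locA f x →+* R).comp (stEq f x).toRingHom)
  have hψ : kGerm f x ≫ ψ = CommRingCat.ofHom (algebraMap K R) := by
    ext c
    change φ (stEq f x (kGerm f x c)) = algebraMap K R c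
    rw [← φ.commutes c]
    congr 1
    exact Subtype.ext (toF_kGerm f x c)
  have hl : IsLocalHom ψ.hom := ⟨fun s hs => by
    have := hφ _ hs
    have h2 := this.map (stEq f x).symm
    change IsUnit ((stEq f x).symm (stEq f x s)) at h2
    rwa [RingEquiv.symm_apply_apply] at h2⟩
  refine ⟨mkPt x ψ hψ, ctr_mkPt x ψ hψ hl, fun b h h' => ?_⟩
  have hs : ctr (mkPt x ψ hψ) ⤳ x := specializes_of_eq (ctr_mkPt x ψ hψ hl)
  obtain ⟨s, rfl⟩ := h'
  have h1 := congrArg (fun φ => φ.hom s) (evS_mkPt x ψ hψ hs)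
  refine Eq.trans ?_ h1
  change _ = (evS (mkPt x ψ hψ)).hom ((A.presheaf.stalkSpecializes hs).hom s)
  rw [← evA_mk]
  · congr 1
    exact Subtype.ext (toF_specializes f hs s).symm
  · exact ⟨_, rfl⟩

variable {R' : Type u} [CommRing R'] [Algebra K R'] [IsLocalRing R']

theorem loc_le_map (g : R →ₐ[K] R') (P : Pt f R) : locA f (ctr P) ≤ locA f (ctr (mapPt f g P)) :=
  locA_le f (ctr_map_specializes g P)

theorem evA_map (g : R →ₐ[K] R') (P : Pt f R) (b : FF f) (h : b ∈ locA f (ctr P))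
    (h' : b ∈ locA f (ctr (mapPt f g P))) :
    evA (mapPt f g P) ⟨b, h'⟩ = g (evA P ⟨b, h⟩) := by
  obtain ⟨s, rfl⟩ := h
  have hs := ctr_map_specializes g P
  have h1 := congrArg (fun φ => φ.hom s) (specializes_evS g P)
  change (evS (mapPt f g P)).hom ((A.presheaf.stalkSpecializes hs).hom s) = g ((evS P).hom s) at h1
  rw [evA_mk, ← h1, ← evA_mk]
  · congr 1
    exact Subtype.ext (toF_specializes f hs s).symm
  · exact ⟨_, rfl⟩

end Fermat.Agent.AV.Sch
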