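import Fermat.Agent.AV.SchInt

/-!
# The abstract group variety of an abelian scheme over an algebraically closed field
-/

set_option autoImplicit false
set_option linter.unusedSectionVars false
set_option linter.style.haveILetI false

universe u

noncomputable section

open CategoryTheory CategoryTheory.Limits AlgebraicGeometry IsLocalRing TopologicalSpace
open NeronModelInfra GoodReductionJacobian

namespace Fermat.Agent.AV.Sch

variable {K : Type u} [Field K] {A : Scheme.{u}} (f : A ⟶ Spec (CommRingCat.of K))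

section Int

variable [IsIntegral A]

theorem ufd_locA [IsAlgClosed K] (g : ℕ) [SmoothOfRelativeDimension g f] (x : A) :
    UniqueFactorizationMonoid (locA f x) := by
  obtain ⟨V, hV, hx, h⟩ := exists_smooth_chart f g x
  letI : Algebra K Γ(A, V) := (kSec f V).hom.toAlgebra
  haveI : Algebra.IsStandardSmoothOfRelativeDimension g K Γ(A, V) := h
  letI := TopCat.Presheaf.algebra_section_stalk A.presheaf (⟨x, hx⟩ : V)
  haveI := hV.isLocalization_stalk ⟨x, hx⟩
  obtain ⟨h1, h2⟩ := smooth_atPrime (K := K) g (hV.primeIdealOf ⟨x, hx⟩).asIdeal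
    (A.presheaf.stalk x)
  exact MulEquiv.uniqueFactorizationMonoid (stEq f x).toMulEquiv h2

theorem isFractionRing_sec {V : A.Opens} (hV : IsAffineOpen V) [Nonempty V] :
    letI : Algebra Γ(A, V) (FF f) := (secF f V).toAlgebra
    IsFractionRing Γ(A, V) (FF f) :=
  functionField_isFractionRing_of_isAffineOpen A V hV

theorem trdeg_FF [IsAlgClosed K] (g : ℕ) [SmoothOfRelativeDimension g f] :
    Algebra.trdeg K (FF f) = g := by
  obtain ⟨V, hV, hx, h⟩ := exists_smooth_chart f g (genericPoint A)
  haveI : Nonempty V := ⟨⟨_, hx⟩⟩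
  letI : Algebra K Γ(A, V) := (kSec f V).hom.toAlgebra
  haveI : Algebra.IsStandardSmoothOfRelativeDimension g K Γ(A, V) := h
  letI : Algebra Γ(A, V) (FF f) := (secF f V).toAlgebra
  haveI : IsFractionRing Γ(A, V) (FF f) := isFractionRing_sec f hV
  haveI : IsScalarTower K Γ(A, V) (FF f) := IsScalarTower.of_algebraMap_eq fun c =>
    (secF_kSec f V c).symm
  exact trdeg_of_standardSmooth (K := K) (S := Γ(A, V)) g (FF f)

theorem essFiniteType_FF [LocallyOfFiniteType f] : Algebra.EssFiniteType K (FF f) := by
  obtain ⟨_, ⟨V, hV, rfl⟩, hx, -⟩ :=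
    A.isBasis_affineOpens.exists_subset_of_mem_open (Set.mem_univ (genericPoint A)) isOpen_univ
  haveI : Nonempty V := ⟨⟨_, hx⟩⟩
  letI : Algebra K Γ(A, V) := (kSec f V).hom.toAlgebra
  letI : Algebra Γ(A, V) (FF f) := (secF f V).toAlgebra
  haveI : IsFractionRing Γ(A, V) (FF f) := isFractionRing_sec f hV
  haveI : IsScalarTower K Γ(A, V) (FF f) := IsScalarTower.of_algebraMap_eq fun c =>
    (secF_kSec f V c).symm
  haveI : Algebra.FiniteType K Γ(A, V) := finiteType_sec f hV
  haveI : Algebra.EssFiniteType Γ(A, V) (FF f) :=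
    Algebra.EssFiniteType.of_isLocalization (FF f) (nonZeroDivisors Γ(A, V))
  exact Algebra.EssFiniteType.comp K Γ(A, V) (FF f)

end Int

section Torsion

variable (L : RelativeGroupLaw K f)

theorem card_congr {t t' : Spec (CommRingCat.of K) ⟶ Spec (CommRingCat.of K)} (h : t = t')
    (n : ℕ) : Nat.card {x : SchemeHomOver t f // L.IsTorsionPoint t n x} =
      Nat.card {x : SchemeHomOver t' f // L.IsTorsionPoint t' n x} := by
  subst h
  rfl

theorem str_self : 𝟙 (Spec (CommRingCat.of K)) = str K K := by
  rw [str]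
  have : CommRingCat.ofHom (algebraMap K K) = 𝟙 (CommRingCat.of K) := rfl
  rw [this, Spec.map_id]

variable [IsProper f] [IsIntegral A] (hc : L.IsCommutative)

theorem nsmul_gv (n : ℕ) (x : Pt f K) :
    letI := grpPt L hc K
    n • x = L.nsmul (str K K) n x := by
  letI := grpPt L hc K
  induction n with
  | zero => rfl
  | succ n ih => exact congrArg (fun y => L.mul (str K K) y x) ih

theorem card_torsion_eq (n : ℕ) :
    Nat.card {x : SchemeHomOver (𝟙 (Spec (CommRingCat.of K))) f //
        L.IsTorsionPoint (𝟙 (Spec (CommRingCat.of K))) n x} =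
      Nat.card {P : (gv f L hc).pt K // n • P = 0} := by
  rw [card_congr f L str_self n]
  refine Nat.card_congr (Equiv.subtypeEquivRight fun x => ?_)
  rw [RelativeGroupLaw.isTorsionPoint_def, ← nsmul_gv f L hc n x]
  rfl

end Torsion

/-- **an abelian scheme over an algebraically closed field gives an abstract group variety** -/
theorem exists_gv [IsAlgClosed K] (L : RelativeGroupLaw K f) (hc : L.IsCommutative)
    (hA : AbelianSchemePropertyBundle K f) (g : ℕ) [SmoothOfRelativeDimension g f] :
    ∃ V : GrpVar K, (∀ x, UniqueFactorizationMonoid (V.loc x)) ∧ Algebra.trdeg K V.F = g ∧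
      Algebra.EssFiniteType K V.F ∧
      ∀ n : ℕ, Nat.card {x : SchemeHomOver (𝟙 (Spec (CommRingCat.of K))) f //
        L.IsTorsionPoint (𝟙 (Spec (CommRingCat.of K))) n x} =
        Nat.card {P : V.pt K // n • P = 0} := by
  haveI := hA.proper
  haveI := connectedSpace_of_bundle f hA
  haveI := isIntegral_of_smooth f g
  exact ⟨gv f L hc, ufd_locA f g, trdeg_FF f g, essFiniteType_FF f, card_torsion_eq f L hc⟩

end Fermat.Agent.AV.Sch
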