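import Fermat.Agent.AV.SchChart

/-!
# The abstract group variety attached to a proper integral commutative group scheme
-/

set_option autoImplicit false
set_option linter.unusedSectionVars false

universe u

noncomputable section

open CategoryTheory CategoryTheory.Limits AlgebraicGeometry IsLocalRing TopologicalSpace
open NeronModelInfra GoodReductionJacobian

namespace Fermat.Agent.AV.Sch

variable {K : Type u} [Field K] {A : Scheme.{u}} (f : A ⟶ Spec (CommRingCat.of K))

theorem bijective_map [IsProper f] {V E : Type u} [CommRing V] [IsDomain V] [ValuationRing V]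
    [Algebra K V] [Field E] [Algebra K E] [Algebra V E] [IsScalarTower K V E]
    [IsFractionRing V E] :
    Function.Bijective (mapPt f (R := V) (R' := E) (IsScalarTower.toAlgHom K V E)) := by
  have hv : ValuativeCriterion f := by
    have h1 : (@IsProper : MorphismProperty Scheme.{u}) f := ‹IsProper f›
    rw [IsProper.eq_valuativeCriterion] at h1
    exact h1.1.1.1
  constructor
  · intro P Q h
    let S : ValuativeCommSq f :=
      { R := V, K := E, i₁ := (mapPt f (IsScalarTower.toAlgHom K V E) P).1, i₂ := str K V
        commSq := ⟨by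
          rw [(mapPt f (IsScalarTower.toAlgHom K V E) P).2]
          exact (map_str (IsScalarTower.toAlgHom K V E)).symm⟩ }
    have hu := hv.uniqueness S
    have h1 := hu.elim (⟨P.1, rfl, P.2⟩ : S.commSq.LiftStruct)
      (⟨Q.1, congrArg Subtype.val h.symm, Q.2⟩ : S.commSq.LiftStruct)
    exact Subtype.ext (congrArg CommSq.LiftStruct.l h1)
  · intro Q
    let S : ValuativeCommSq f :=
      { R := V, K := E, i₁ := Q.1, i₂ := str K V
        commSq := ⟨by
          rw [Q.2]
          exact (map_str (IsScalarTower.toAlgHom K V E)).symm⟩ }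
    obtain ⟨⟨l, h1, h2⟩⟩ := (hv.existence S).exists_lift
    exact ⟨⟨l, h2⟩, Subtype.ext h1⟩

section Charts

variable [IsIntegral A] [CompactSpace A]

theorem exists_cover (A : Scheme.{u}) [CompactSpace A] :
    ∃ s : Set A.affineOpens, s.Finite ∧ ∀ x : A, ∃ U ∈ s, x ∈ (U : A.Opens) := by
  obtain ⟨s, hs, h⟩ := (isCompact_and_isOpen_iff_finite_and_eq_biUnion_affineOpens
    (X := A) (U := Set.univ)).1 ⟨isCompact_univ, isOpen_univ⟩
  refine ⟨s, hs, fun x => ?_⟩
  have h1 : x ∈ (Set.univ : Set A) := trivial
  rw [h] at h1
  simpa using h1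

/-- a chosen affine neighbourhood, from a finite list -/
def idx (x : A) : A.affineOpens := ((exists_cover A).choose_spec.2 x).choose

theorem idx_mem (x : A) : idx x ∈ (exists_cover A).choose :=
  ((exists_cover A).choose_spec.2 x).choose_spec.1

theorem mem_idx (x : A) : x ∈ (idx x : A.Opens) :=
  ((exists_cover A).choose_spec.2 x).choose_spec.2

instance nonempty_idx (x : A) : Nonempty (idx x : A.Opens) := ⟨⟨x, mem_idx x⟩⟩

/-- the chosen chart -/
def chOf (x : A) : Subalgebra K (FF f) := chartA f (idx x : A.Opens)

theorem finite_chOf : (Set.range (chOf f)).Finite := by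
  have h1 : (Set.range (idx : A → A.affineOpens)).Finite :=
    (exists_cover A).choose_spec.1.subset (by rintro _ ⟨x, rfl⟩; exact idx_mem x)
  have h2 : ∀ x y : A, idx x = idx y → chOf f x = chOf f y := by
    intro x y h
    ext b
    have h3 : ∀ (U V : A.affineOpens) (hU : Nonempty (U : A.Opens)) (hV : Nonempty (V : A.Opens)),
        U = V → (b ∈ chartA f (U : A.Opens) ↔ b ∈ chartA f (V : A.Opens)) := by
      rintro U V hU hV rfl
      rfl
    exact h3 _ _ _ _ h
  classical
  haveI := h1.to_subtype
  refine (Set.finite_range (fun i : Set.range (idx : A → A.affineOpens) =>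
    chOf f i.2.choose)).subset ?_
  rintro _ ⟨x, rfl⟩
  exact ⟨⟨idx x, x, rfl⟩, h2 _ _ (⟨x, rfl⟩ : ∃ y, idx y = idx x).choose_spec⟩

end Charts

theorem exists_loc_map [IsIntegral A] {R R' : Type u} [CommRing R] [Algebra K R] [IsLocalRing R]
    [CommRing R'] [Algebra K R'] [IsLocalRing R'] (g : R →ₐ[K] R') (P : Pt f R) (b : FF f)
    (hb : b ∈ locA f (ctr (mapPt f g P))) : ∃ s t : locA f (ctr P), IsUnit (g (evA P t)) ∧
      b = (s : FF f) / (t : FF f) := by
  obtain ⟨_, ⟨U, hU, rfl⟩, hxU, -⟩ :=
    A.isBasis_affineOpens.exists_subset_of_mem_open (Set.mem_univ (ctr P)) isOpen_univ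
  have hyU : ctr (mapPt f g P) ∈ U := (ctr_map_specializes g P).mem_open U.2 hxU
  haveI : Nonempty U := ⟨⟨_, hxU⟩⟩
  obtain ⟨s, t, ht, rfl⟩ := chartA_loc f hU hyU hb
  refine ⟨⟨s, chartA_le f hxU s.2⟩, ⟨t, chartA_le f hxU t.2⟩, ?_, rfl⟩
  rw [← evA_map g P t (chartA_le f hxU t.2) (chartA_le f hyU t.2)]
  exact ht.map (evA (mapPt f g P))

variable [IsProper f] [IsIntegral A] (L : RelativeGroupLaw K f) (hc : L.IsCommutative)

include f in
omit [IsIntegral A] in
theorem compactSpace_of_isProper : CompactSpace A := by
  haveI : QuasiCompact f := inferInstance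
  exact HasAffineProperty.iff_of_isAffine.mp ‹QuasiCompact f›

/-- **the abstract group variety of a proper integral commutative group scheme** -/
def gv : GrpVar K :=
  haveI := compactSpace_of_isProper f
  { F := FF f
    X := A
    loc := locA f
    isLocal := isLocalRing_locA f
    isFrac := isFractionRing_locA f
    gen := genericPoint A
    loc_gen := locA_gen f
    eq_gen := fun x h => eq_gen f h
    pt := fun R _ _ => Pt f R
    grp := fun R _ _ => grpPt L hc R
    map := fun g => mapHom L hc g
    map_id := fun {R} _ _ P => by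
      apply Subtype.ext
      change Spec.map (CommRingCat.ofHom (RingHom.id R)) ≫ P.1 = P.1
      rw [CommRingCat.ofHom_id, Spec.map_id, Category.id_comp]
    map_comp := fun g g' P => by
      apply Subtype.ext
      change Spec.map (CommRingCat.ofHom _) ≫ P.1 = Spec.map _ ≫ Spec.map _ ≫ P.1
      rw [← Category.assoc, ← Spec.map_comp]
      rfl
    center := fun P => ctr P
    ev := fun P => evA P
    ev_local := fun P b h => evA_local P b h
    ext_pt := fun P Q h h1 => ext_evA P Q h h1
    exists_pt := fun x φ h => exists_evA x φ h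
    loc_le := fun g P => loc_le_map g P
    map_ev := fun g P b h h' => evA_map g P b h h'
    loc_map := fun g P b hb => exists_loc_map f g P b hb
    chartOf := chOf f
    finite_charts := finite_chOf f
    chart_fg := fun x => chartA_fg f (idx x).2
    chart_le := fun x => chartA_le f (mem_idx x)
    chart_loc := fun x y h b hb => by
      have hy : y ∈ (idx x : A.Opens) := mem_of_chartA_le f (idx x).2 h
      exact chartA_loc f (idx x).2 hy hb
    chart_pt := fun x {R} _ _ _ φ => exists_chart_pt f (idx x).2 φ
    proper := fun {V E} _ _ _ _ _ _ _ _ _ => bijective_map f }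

end Fermat.Agent.AV.Sch
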