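import Fermat.Agent.AV.Taylor

set_option autoImplicit false

/-!
# Regular systems of parameters on smooth varieties

The local ring at a `K`-rational maximal ideal of an algebra which is étale over
`K[X_1, …, X_g]` has a regular system of parameters.
-/

namespace Fermat.Agent.AV

open IsLocalRing MvPolynomial

section Etale

variable {K : Type*} [Field K] {B : Type*} [CommRing B] [Algebra K B] {g : ℕ}

theorem ratEval_bij (M : Ideal B) [M.IsMaximal]
    (hres : ∀ b : B, ∃ c : K, b - algebraMap K B c ∈ M) :
    Function.Bijective (Algebra.ofId K (B ⧸ M)) :=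
  ⟨(algebraMap K (B ⧸ M)).injective, fun b => by
      obtain ⟨b, rfl⟩ := Ideal.Quotient.mk_surjective b
      obtain ⟨c, hc⟩ := hres b
      refine ⟨c, ?_⟩
      change Ideal.Quotient.mk M (algebraMap K B c) = _
      rw [eq_comm, ← sub_eq_zero, ← map_sub]
      exact Ideal.Quotient.eq_zero_iff_mem.mpr hc⟩

/-- evaluation at a `K`-rational maximal ideal -/
noncomputable def ratEval (M : Ideal B) [M.IsMaximal]
    (hres : ∀ b : B, ∃ c : K, b - algebraMap K B c ∈ M) : B →ₐ[K] K :=
  ((AlgEquiv.ofBijective (Algebra.ofId K (B ⧸ M)) (ratEval_bij M hres)).symm.toAlgHom).comp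
    (Ideal.Quotient.mkₐ K M)

theorem ratEval_eq_zero_iff (M : Ideal B) [M.IsMaximal]
    (hres : ∀ b : B, ∃ c : K, b - algebraMap K B c ∈ M) (b : B) :
    ratEval M hres b = 0 ↔ b ∈ M := by
  change (AlgEquiv.ofBijective (Algebra.ofId K (B ⧸ M)) (ratEval_bij M hres)).symm
    (Ideal.Quotient.mk M b) = 0 ↔ _
  rw [EmbeddingLike.map_eq_zero_iff, Ideal.Quotient.eq_zero_iff_mem]

theorem sub_ratEval_mem (M : Ideal B) [M.IsMaximal]
    (hres : ∀ b : B, ∃ c : K, b - algebraMap K B c ∈ M) (b : B) :
    b - algebraMap K B (ratEval M hres b) ∈ M := by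
  rw [← ratEval_eq_zero_iff M hres, map_sub, AlgHom.commutes]
  exact sub_self _

theorem sub_C_constantCoeff_mem (p : MvPolynomial (Fin g) K) :
    p - C (constantCoeff p) ∈ idealOfVars (Fin g) K := by
  have := (mem_pow_idealOfVars_iff' 1 (p - C (constantCoeff p))).mpr (fun d hd => by
    have : d = 0 := by
      rw [← Finsupp.degree_eq_zero_iff]
      omega
    subst this
    rw [coeff_sub, coeff_zero_C, constantCoeff_eq, sub_self])
  rwa [pow_one] at this

variable [Algebra (MvPolynomial (Fin g) K) B] [IsScalarTower K (MvPolynomial (Fin g) K) B]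

theorem ratEval_algebraMap (M : Ideal B) [M.IsMaximal]
    (hres : ∀ b : B, ∃ c : K, b - algebraMap K B c ∈ M)
    (hX : ∀ i, algebraMap (MvPolynomial (Fin g) K) B (X i) ∈ M) (p : MvPolynomial (Fin g) K) :
    ratEval M hres (algebraMap (MvPolynomial (Fin g) K) B p) = constantCoeff p := by
  have h1 : idealOfVars (Fin g) K ≤ M.comap (algebraMap (MvPolynomial (Fin g) K) B) := by
    rw [idealOfVars, Ideal.span_le]
    rintro _ ⟨i, rfl⟩
    exact hX i
  have h2 := h1 (sub_C_constantCoeff_mem p)
  rw [Ideal.mem_comap, map_sub, ← ratEval_eq_zero_iff M hres, map_sub, sub_eq_zero] at h2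
  rw [h2, ← MvPolynomial.algebraMap_eq, ← IsScalarTower.algebraMap_apply, AlgHom.commutes]
  rfl

/-- the truncated Taylor map of an étale algebra -/
theorem exists_truncTaylor [Algebra.FormallySmooth (MvPolynomial (Fin g) K) B]
    (M : Ideal B) [M.IsMaximal]
    (hres : ∀ b : B, ∃ c : K, b - algebraMap K B c ∈ M)
    (hX : ∀ i, algebraMap (MvPolynomial (Fin g) K) B (X i) ∈ M) (N : ℕ) :
    ∃ θ : B →ₐ[MvPolynomial (Fin g) K] (MvPolynomial (Fin g) K ⧸ idealOfVars (Fin g) K ^ N),
      ∀ s : B, s ∉ M → IsUnit (θ s) := by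
  set P := MvPolynomial (Fin g) K with hP
  set I := idealOfVars (Fin g) K with hI
  set J : Ideal (P ⧸ I ^ N) := I.map (Ideal.Quotient.mk (I ^ N)) with hJ
  have hJn : IsNilpotent J := ⟨N, by
    rw [hJ, ← Ideal.map_pow, Ideal.zero_eq_bot, Ideal.map_quotient_self]⟩
  let γ₀ : B →+* (P ⧸ I ^ N) ⧸ J :=
    ((Ideal.Quotient.mk J).comp ((Ideal.Quotient.mk (I ^ N)).comp (C : K →+* P))).comp
      (ratEval M hres).toRingHom
  let γ : B →ₐ[P] (P ⧸ I ^ N) ⧸ J :=
    { γ₀ with
      commutes' := fun p => by
        change γ₀ (algebraMap P B p) = Ideal.Quotient.mk J (Ideal.Quotient.mk (I ^ N) p)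
        change Ideal.Quotient.mk J (Ideal.Quotient.mk (I ^ N)
          (C (ratEval M hres (algebraMap P B p)))) = _
        rw [ratEval_algebraMap M hres hX, eq_comm, ← sub_eq_zero, ← map_sub, ← map_sub]
        exact Ideal.Quotient.eq_zero_iff_mem.mpr
          (Ideal.mem_map_of_mem _ (sub_C_constantCoeff_mem p)) }
  obtain ⟨θ, hθ⟩ := Algebra.FormallySmooth.exists_lift J hJn γ
  refine ⟨θ, fun s hs => ?_⟩
  rw [← hJn.isUnit_quotient_mk_iff]
  have h1 : Ideal.Quotient.mk J (θ s) = γ s := congrArg (fun f => f s) hθ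
  rw [h1]
  change IsUnit (Ideal.Quotient.mk J (Ideal.Quotient.mk (I ^ N) (C (ratEval M hres s))))
  have h2 : IsUnit (ratEval M hres s) := by
    rw [isUnit_iff_ne_zero, Ne, ratEval_eq_zero_iff M hres]
    exact hs
  exact h2.map ((Ideal.Quotient.mk J).comp ((Ideal.Quotient.mk (I ^ N)).comp (C : K →+* P)))

omit [Algebra K B] [IsScalarTower K (MvPolynomial (Fin g) K) B] in
/-- the coordinates generate the maximal ideal -/
theorem map_idealOfVars_eq [Algebra.Etale (MvPolynomial (Fin g) K) B]
    (M : Ideal B) [M.IsMaximal]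
    (hX : ∀ i, algebraMap (MvPolynomial (Fin g) K) B (X i) ∈ M)
    (O : Type*) [CommRing O] [Algebra B O]
    [IsLocalization.AtPrime O M] [IsLocalRing O] :
    maximalIdeal O = Ideal.span
      (Set.range (fun i => algebraMap B O (algebraMap (MvPolynomial (Fin g) K) B (X i)))) := by
  set P := MvPolynomial (Fin g) K with hP
  set I := idealOfVars (Fin g) K with hI
  have hIM : I ≤ M.comap (algebraMap P B) := by
    rw [hI, idealOfVars, Ideal.span_le]
    rintro _ ⟨i, rfl⟩
    exact hX i
  have hp0 : M.comap (algebraMap P B) = I := by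
    refine le_antisymm (fun p hp => ?_) hIM
    have h1 := hIM (sub_C_constantCoeff_mem p)
    rw [Ideal.mem_comap, map_sub] at h1
    have h2 : algebraMap P B (C (constantCoeff p)) ∈ M := by
      have := Ideal.sub_mem M (Ideal.mem_comap.mp hp) h1
      rwa [sub_sub_cancel] at this
    have h3 : constantCoeff p = 0 := by
      by_contra hne
      have h4 : IsUnit (algebraMap P B (C (constantCoeff p))) :=
        (isUnit_iff_ne_zero.mpr hne).map ((algebraMap P B).comp C)
      exact (Ideal.IsPrime.ne_top inferInstance) (Ideal.eq_top_of_isUnit_mem M h2 h4)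
    have h5 := sub_C_constantCoeff_mem p
    rwa [h3, map_zero, sub_zero] at h5
  have hpr : (M.comap (algebraMap P B)).IsPrime := inferInstance
  set R := Localization.AtPrime (M.comap (algebraMap P B)) with hR
  have hunit : ∀ s : (M.comap (algebraMap P B)).primeCompl,
      IsUnit (((algebraMap B O).comp (algebraMap P B)) s) := by
    intro s
    exact IsLocalization.map_units (M := M.primeCompl) O ⟨algebraMap P B s, s.2⟩
  algebraize [(algebraMap B O).comp (algebraMap P B),
    IsLocalization.lift (M := (M.comap (algebraMap P B)).primeCompl) (S := R) hunit]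
  have : IsScalarTower P R O := IsScalarTower.of_algebraMap_eq (fun p => by
    rw [RingHom.algebraMap_toAlgebra (IsLocalization.lift (M := (M.comap
      (algebraMap P B)).primeCompl) (S := R) hunit), IsLocalization.lift_eq]
    rfl)
  have : IsScalarTower P B O := IsScalarTower.of_algebraMap_eq (fun p => rfl)
  have : Algebra.FormallyUnramified B O := Algebra.FormallyUnramified.of_isLocalization M.primeCompl
  have : Algebra.FormallyUnramified P O := Algebra.FormallyUnramified.comp P B O
  have : Algebra.FormallyUnramified R O := Algebra.FormallyUnramified.of_restrictScalars P R O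
  have : Algebra.EssFiniteType B O := Algebra.EssFiniteType.of_isLocalization O M.primeCompl
  have : Algebra.EssFiniteType P O := Algebra.EssFiniteType.comp P B O
  have : Algebra.EssFiniteType R O := Algebra.EssFiniteType.of_comp P R O
  have : IsLocalHom (algebraMap R O) := by
    refine ((local_hom_TFAE (algebraMap R O)).out 0 2 rfl rfl).mpr ?_
    rw [← Localization.AtPrime.map_eq_maximalIdeal, Ideal.map_map, ← IsScalarTower.algebraMap_eq,
      Ideal.map_le_iff_le_comap]
    intro p hp
    rw [Ideal.mem_comap, IsScalarTower.algebraMap_apply P B O]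
    exact (IsLocalization.AtPrime.to_map_mem_maximal_iff O M _).mpr hp
  rw [← Algebra.FormallyUnramified.map_maximalIdeal (R := R) (S := O),
    ← Localization.AtPrime.map_eq_maximalIdeal, Ideal.map_map, ← IsScalarTower.algebraMap_eq,
    hp0, hI, idealOfVars, Ideal.map_span]
  congr 1
  ext a
  constructor
  · rintro ⟨_, ⟨i, rfl⟩, rfl⟩
    exact ⟨i, rfl⟩
  · rintro ⟨i, rfl⟩
    exact ⟨X i, ⟨i, rfl⟩, rfl⟩

/-- key lemma: if the coordinates vanish at `M`, the images of the variables are a regular system
of parameters -/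
theorem isRegSys_of_etale_of_mem [Algebra.Etale (MvPolynomial (Fin g) K) B]
    (M : Ideal B) [M.IsMaximal]
    (hres : ∀ b : B, ∃ c : K, b - algebraMap K B c ∈ M)
    (hX : ∀ i, algebraMap (MvPolynomial (Fin g) K) B (X i) ∈ M)
    (O : Type*) [CommRing O] [Algebra B O] [Algebra K O] [IsScalarTower K B O]
    [IsLocalization.AtPrime O M] [IsLocalRing O] :
    IsRegSys K (fun i => algebraMap B O (algebraMap (MvPolynomial (Fin g) K) B (X i))) where
  span := map_idealOfVars_eq M hX O
  res a := by
    obtain ⟨⟨b, s⟩, hbs⟩ := IsLocalization.surj M.primeCompl a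
    have hs : ratEval M hres (s : B) ≠ 0 := by
      rw [Ne, ratEval_eq_zero_iff M hres]
      exact s.2
    refine ⟨ratEval M hres b / ratEval M hres s, ?_⟩
    have h1 : (a - algebraMap K O (ratEval M hres b / ratEval M hres s)) * algebraMap B O s =
        algebraMap B O (b - algebraMap K B (ratEval M hres b / ratEval M hres s) * s) := by
      rw [sub_mul, hbs, map_sub, map_mul, ← IsScalarTower.algebraMap_apply]
    have h2 : b - algebraMap K B (ratEval M hres b / ratEval M hres s) * s ∈ M := by
      rw [← ratEval_eq_zero_iff M hres, map_sub, map_mul, AlgHom.commutes]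
      change _ - (ratEval M hres b / ratEval M hres s) * _ = 0
      rw [div_mul_cancel₀ _ hs, sub_self]
    have h3 : algebraMap B O (b - algebraMap K B (ratEval M hres b / ratEval M hres s) * s) ∈
        maximalIdeal O := by
      rw [← IsLocalization.AtPrime.to_map_mem_maximal_iff O M] at h2
      exact h2
    rw [← h1] at h3
    have h4 : IsUnit (algebraMap B O s) := IsLocalization.map_units O s
    exact (Ideal.mul_unit_mem_iff_mem _ h4).mp h3
  reg n F hF hm := by
    obtain ⟨θ, hθ⟩ := exists_truncTaylor M hres hX (n + 1)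
    let Θ : O →+* (MvPolynomial (Fin g) K ⧸ idealOfVars (Fin g) K ^ (n + 1)) :=
      IsLocalization.lift (M := M.primeCompl) (g := θ.toRingHom) (fun s => hθ s s.2)
    have hΘ : ∀ i, Θ (algebraMap B O (algebraMap (MvPolynomial (Fin g) K) B (X i))) =
        Ideal.Quotient.mk (idealOfVars (Fin g) K ^ (n + 1)) (X i) := by
      intro i
      rw [IsLocalization.lift_eq]
      exact θ.commutes (X i)
    have hΘK : ∀ c : K, Θ (algebraMap K O c) =
        Ideal.Quotient.mk (idealOfVars (Fin g) K ^ (n + 1)) (C c) := by
      intro c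
      rw [IsScalarTower.algebraMap_apply K B O, IsLocalization.lift_eq]
      rw [IsScalarTower.algebraMap_apply K (MvPolynomial (Fin g) K) B]
      exact θ.commutes (C c)
    have h1 : ∀ p : MvPolynomial (Fin g) K, Θ (aeval (fun i => algebraMap B O
        (algebraMap (MvPolynomial (Fin g) K) B (X i))) p) =
          Ideal.Quotient.mk (idealOfVars (Fin g) K ^ (n + 1)) p := by
      intro p
      induction p using MvPolynomial.induction_on with
      | C a => rw [aeval_C, hΘK]
      | add p q hp hq => rw [map_add, map_add, hp, hq, map_add]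
      | mul_X p i hp => rw [map_mul, map_mul, hp, aeval_X, hΘ, map_mul]
    have h2 : Ideal.map Θ (maximalIdeal O) ≤
        (idealOfVars (Fin g) K).map (Ideal.Quotient.mk (idealOfVars (Fin g) K ^ (n + 1))) := by
      rw [map_idealOfVars_eq M hX O, Ideal.map_span, Ideal.span_le]
      rintro _ ⟨_, ⟨i, rfl⟩, rfl⟩
      rw [hΘ]
      exact Ideal.mem_map_of_mem _ (Ideal.subset_span ⟨i, rfl⟩)
    have h3 : Θ (aeval (fun i => algebraMap B O
        (algebraMap (MvPolynomial (Fin g) K) B (X i))) F) = 0 := by
      have h4 := Ideal.mem_map_of_mem Θ hm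
      rw [Ideal.map_pow] at h4
      have h5 := Ideal.pow_right_mono h2 (n + 1) h4
      rwa [← Ideal.map_pow, Ideal.map_quotient_self] at h5
    rw [h1, Ideal.Quotient.eq_zero_iff_mem, mem_pow_idealOfVars_iff'] at h3
    ext d
    rw [coeff_zero]
    by_cases hd : d.degree = n
    · exact h3 d (by omega)
    · exact hF.coeff_eq_zero hd

end Etale

section Smooth

universe u

variable {K : Type u} [Field K] {B : Type u} [CommRing B] [Algebra K B]

/-- Nullstellensatz: residue fields at maximal ideals are `K` -/
theorem exists_sub_algebraMap_mem [IsAlgClosed K] [Algebra.FiniteType K B] (M : Ideal B)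
    [M.IsMaximal] (b : B) : ∃ c : K, b - algebraMap K B c ∈ M := by
  let _ : Field (B ⧸ M) := Ideal.Quotient.field M
  have : Algebra.FiniteType K (B ⧸ M) :=
    Algebra.FiniteType.of_surjective (Ideal.Quotient.mkₐ K M) Ideal.Quotient.mk_surjective
  have : Module.Finite K (B ⧸ M) := finite_of_finite_type_of_isJacobsonRing K (B ⧸ M)
  obtain ⟨c, hc⟩ := (IsAlgClosed.algebraMap_bijective_of_isIntegral (k := K) (K := B ⧸ M)).2
    (Ideal.Quotient.mk M b)
  refine ⟨c, ?_⟩
  rw [← Ideal.Quotient.eq_zero_iff_mem, map_sub, ← hc]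
  exact sub_self _

/-- translation of the coordinates -/
noncomputable def translateVars {g : ℕ} (c : Fin g → K) :
    MvPolynomial (Fin g) K ≃ₐ[K] MvPolynomial (Fin g) K :=
  AlgEquiv.ofAlgHom (aeval (fun i => X i - C (c i))) (aeval (fun i => X i + C (c i)))
    (by ext i; simp) (by ext i; simp)

/-- **regular systems of parameters at rational points of an étale algebra over affine space** -/
theorem exists_isRegSys_of_etale {g : ℕ} (ψ : MvPolynomial (Fin g) K →ₐ[K] B)
    (hψ : ψ.toRingHom.Etale) (M : Ideal B) [M.IsMaximal]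
    (hres : ∀ b : B, ∃ c : K, b - algebraMap K B c ∈ M)
    (O : Type*) [CommRing O] [Algebra B O] [Algebra K O] [IsScalarTower K B O]
    [IsLocalization.AtPrime O M] [IsLocalRing O] :
    ∃ x : Fin g → O, IsRegSys K x := by
  set ψ' : MvPolynomial (Fin g) K →ₐ[K] B :=
    ψ.comp (translateVars (fun i => ratEval M hres (ψ (X i)))).toAlgHom with hψ'
  have hψ'e : ψ'.toRingHom.Etale := by
    have h1 : RingHom.Etale
        (translateVars (fun i => ratEval M hres (ψ (X i)))).toAlgHom.toRingHom :=
      RingHom.Etale.of_bijective (translateVars (fun i => ratEval M hres (ψ (X i)))).bijective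
    exact RingHom.Etale.stableUnderComposition _ _ h1 hψ
  let _ : Algebra (MvPolynomial (Fin g) K) B := ψ'.toRingHom.toAlgebra
  have : IsScalarTower K (MvPolynomial (Fin g) K) B :=
    IsScalarTower.of_algebraMap_eq (fun c => (ψ'.commutes c).symm)
  have : Algebra.Etale (MvPolynomial (Fin g) K) B := hψ'e
  refine ⟨_, isRegSys_of_etale_of_mem M hres (fun i => ?_) O⟩
  have h1 : algebraMap (MvPolynomial (Fin g) K) B (X i) = ψ (X i) -
      algebraMap K B (ratEval M hres (ψ (X i))) := by
    change ψ (translateVars (fun i => ratEval M hres (ψ (X i))) (X i)) = _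
    have h2 : translateVars (fun i => ratEval M hres (ψ (X i))) (X i) =
        X i - C (ratEval M hres (ψ (X i))) := by
      change aeval _ _ = _
      rw [aeval_X]
    rw [h2, map_sub, ← MvPolynomial.algebraMap_eq, AlgHom.commutes]
  rw [h1]
  exact sub_ratEval_mem M hres _

/-- **regular systems of parameters at closed points of a smooth algebra** -/
theorem exists_isRegSys_of_standardSmooth [IsAlgClosed K] (g : ℕ)
    [Algebra.IsStandardSmoothOfRelativeDimension g K B] (M : Ideal B) [M.IsMaximal]
    (O : Type*) [CommRing O] [Algebra B O] [Algebra K O] [IsScalarTower K B O]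
    [IsLocalization.AtPrime O M] [IsLocalRing O] :
    ∃ x : Fin g → O, IsRegSys K x := by
  have : Algebra.IsStandardSmooth K B :=
    Algebra.IsStandardSmoothOfRelativeDimension.isStandardSmooth g
  have : Algebra.FinitePresentation K B := inferInstance
  have : Algebra.FiniteType K B := inferInstance
  obtain ⟨ψ, hψ⟩ := Algebra.IsStandardSmoothOfRelativeDimension.exists_etale_mvPolynomial g K B
  exact exists_isRegSys_of_etale ψ hψ M (fun b => exists_sub_algebraMap_mem M b) O

/-- **the local rings at closed points of a smooth algebra are factorial domains** -/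
theorem isDomain_of_standardSmooth [IsAlgClosed K] (g : ℕ)
    [Algebra.IsStandardSmoothOfRelativeDimension g K B] (M : Ideal B) [M.IsMaximal]
    (O : Type*) [CommRing O] [Algebra B O] [Algebra K O] [IsScalarTower K B O]
    [IsLocalization.AtPrime O M] [IsLocalRing O] [IsNoetherianRing O] : IsDomain O := by
  obtain ⟨x, hx⟩ := exists_isRegSys_of_standardSmooth (K := K) g M O
  exact hx.isDomain

theorem ufd_of_standardSmooth [IsAlgClosed K] (g : ℕ)
    [Algebra.IsStandardSmoothOfRelativeDimension g K B] (M : Ideal B) [M.IsMaximal]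
    (O : Type*) [CommRing O] [Algebra B O] [Algebra K O] [IsScalarTower K B O]
    [IsLocalization.AtPrime O M] [IsLocalRing O] [IsNoetherianRing O] [IsDomain O] :
    UniqueFactorizationMonoid O := by
  obtain ⟨x, hx⟩ := exists_isRegSys_of_standardSmooth (K := K) g M O
  exact hx.ufd

end Smooth

end Fermat.Agent.AV
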