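import Fermat.Agent.AV.SchSmooth
import Fermat.Agent.AV.SmoothReg

set_option autoImplicit false

/-!
# Local rings of smooth algebras: all primes, transcendence degree, transport
-/

universe u

open IsLocalRing MvPolynomial

namespace Fermat.Agent.AV

section All

variable {K S : Type u} [Field K] [CommRing S] [Algebra K S]

/-- **the local rings at closed points have regular systems of parameters** (packaged) -/
theorem exists_isRegSys_noeth (g : ℕ) [Algebra.IsStandardSmoothOfRelativeDimension g K S]
    (m : Ideal S) [m.IsPrime] (hm : ∀ s : S, ∃ a : K, s - algebraMap K S a ∈ m)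
    (O : Type u) [CommRing O] [IsLocalRing O] [Algebra S O] [IsLocalization.AtPrime O m]
    [Algebra K O] [IsScalarTower K S O] :
    IsNoetherianRing O ∧ ∃ x : Fin g → O, IsRegSys K x := by
  obtain ⟨h1, h2, x, h3, h4⟩ := exists_param (K := K) g m hm O
  exact ⟨h1, x, h3.symm, h2, h4⟩

/-- **all local rings of a smooth algebra are domains** -/
theorem isDomain_localization_of_standardSmooth [IsAlgClosed K] (g : ℕ)
    [Algebra.IsStandardSmoothOfRelativeDimension g K S] (p : Ideal S) [p.IsPrime]
    (O : Type u) [CommRing O] [Algebra S O] [IsLocalization.AtPrime O p] : IsDomain O := by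
  have : Algebra.IsStandardSmooth K S :=
    Algebra.IsStandardSmoothOfRelativeDimension.isStandardSmooth g
  have hfp : Algebra.FinitePresentation K S := inferInstance
  obtain ⟨m, hmax, hpm⟩ := Ideal.exists_le_maximal p (Ideal.IsPrime.ne_top inferInstance)
  have hm : ∀ s : S, ∃ a : K, s - algebraMap K S a ∈ m := fun s => exists_sub_algebraMap_mem m s
  obtain ⟨hnoe, x, hx⟩ := exists_isRegSys_noeth (K := K) g m hm (Localization.AtPrime m)
  have hdom : IsDomain (Localization.AtPrime m) := hx.isDomain
  -- `O` is a localization of the local ring at `m`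
  have hle : m.primeCompl ≤ p.primeCompl := fun s hs hp => hs (hpm hp)
  let _ : Algebra (Localization.AtPrime m) O :=
    IsLocalization.localizationAlgebraOfSubmonoidLe (Localization.AtPrime m) O m.primeCompl
      p.primeCompl hle
  have : IsScalarTower S (Localization.AtPrime m) O :=
    IsLocalization.localization_isScalarTower_of_submonoid_le (Localization.AtPrime m) O
      m.primeCompl p.primeCompl hle
  have hloc : IsLocalization
      (p.primeCompl.map (algebraMap S (Localization.AtPrime m))) O :=
    IsLocalization.isLocalization_of_submonoid_le (Localization.AtPrime m) O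
      m.primeCompl p.primeCompl hle
  refine IsLocalization.isDomain_of_le_nonZeroDivisors (R := Localization.AtPrime m) O
    (M := p.primeCompl.map (algebraMap S (Localization.AtPrime m))) ?_
  rintro _ ⟨s, hs, rfl⟩
  rw [mem_nonZeroDivisors_iff_ne_zero]
  intro h0
  have h1 : algebraMap S O s = 0 := by
    rw [IsScalarTower.algebraMap_apply S (Localization.AtPrime m) O, h0, map_zero]
  have h2 : IsUnit (algebraMap S O s) := IsLocalization.map_units O (⟨s, hs⟩ : p.primeCompl)
  have : IsLocalRing O := IsLocalization.AtPrime.isLocalRing O p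
  rw [h1] at h2
  exact not_isUnit_zero h2

/-- **the transcendence degree of a smooth domain** -/
theorem trdeg_of_standardSmooth (g : ℕ) [Algebra.IsStandardSmoothOfRelativeDimension g K S]
    [IsDomain S] (L : Type u) [Field L] [Algebra S L] [IsFractionRing S L] [Algebra K L]
    [IsScalarTower K S L] : Algebra.trdeg K L = g := by
  obtain ⟨x, hx⟩ := exists_transcendenceBasis (K := K) (S := S) g L
  have h1 := hx.lift_cardinalMk_eq_trdeg
  rw [Cardinal.mk_fin, Cardinal.lift_natCast, Cardinal.lift_id'] at h1
  exact h1.symm

/-- transport of a regular system of parameters -/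
theorem IsRegSys.of_algEquiv {O O' : Type*} [CommRing O] [Algebra K O] [IsLocalRing O]
    [CommRing O'] [Algebra K O'] [IsLocalRing O'] (e : O ≃ₐ[K] O') {g : ℕ} {x : Fin g → O}
    (hx : IsRegSys K x) : IsRegSys K (fun i => e (x i)) := by
  have hmax : (maximalIdeal O').comap (e : O →+* O') = maximalIdeal O := by
    ext y
    simp only [Ideal.mem_comap, mem_maximalIdeal, mem_nonunits_iff]
    exact not_congr (MulEquiv.isUnit_map e)
  have hmap : (maximalIdeal O).map (e : O →+* O') = maximalIdeal O' := by
    rw [← hmax]
    exact Ideal.map_comap_of_surjective (e : O →+* O') e.surjective _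
  have hmem : ∀ (n : ℕ) (y : O), e y ∈ maximalIdeal O' ^ n ↔ y ∈ maximalIdeal O ^ n := by
    intro n y
    rw [← hmap, ← Ideal.map_pow]
    constructor
    · intro h
      obtain ⟨z, hz, hz'⟩ := (Ideal.mem_map_iff_of_surjective (e : O →+* O') e.surjective).mp h
      rwa [← e.injective hz']
    · intro h
      exact Ideal.mem_map_of_mem (e : O →+* O') h
  refine ⟨?_, fun a => ?_, fun n F hF h => hx.reg n F hF ?_⟩
  · rw [← hmap, hx.span, Ideal.map_span]
    congr 1
    ext z
    constructor
    · rintro ⟨_, ⟨i, rfl⟩, rfl⟩
      exact ⟨i, rfl⟩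
    · rintro ⟨i, rfl⟩
      exact ⟨x i, ⟨i, rfl⟩, rfl⟩
  · obtain ⟨c, hc⟩ := hx.res (e.symm a)
    refine ⟨c, ?_⟩
    have h1 := (hmem 1 (e.symm a - algebraMap K O c)).mpr (by rwa [pow_one])
    rw [pow_one, map_sub, AlgEquiv.apply_symm_apply, AlgEquiv.commutes] at h1
    exact h1
  · rw [← hmem]
    have h1 : e (aeval x F) = aeval (fun i => e (x i)) F := by
      have h2 : ((e : O →ₐ[K] O').comp (aeval x)) = aeval (fun i => e (x i)) := by
        ext i
        simp
      rw [← h2]
      rfl
    rw [h1]
    exact h

end All

end Fermat.Agent.AV
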