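import Fermat.Agent.AV.SmoothReg

set_option autoImplicit false

/-!
# Smooth local rings: all primes
-/

universe u

namespace Fermat.Agent.AV

open IsLocalRing MvPolynomial

section AllPrimes

variable {K : Type u} [Field K] [IsAlgClosed K] {B : Type u} [CommRing B] [Algebra K B]

/-- **all local rings of a smooth algebra are factorial domains** -/
theorem smooth_atPrime (g : ℕ) [Algebra.IsStandardSmoothOfRelativeDimension g K B]
    (p : Ideal B) [p.IsPrime] (T : Type u) [CommRing T] [Algebra B T]
    [IsLocalization.AtPrime T p] : ∃ _ : IsDomain T, UniqueFactorizationMonoid T := by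
  have : Algebra.IsStandardSmooth K B :=
    Algebra.IsStandardSmoothOfRelativeDimension.isStandardSmooth g
  have hft : Algebra.FiniteType K B := inferInstance
  have hnoeth : IsNoetherianRing B := Algebra.FiniteType.isNoetherianRing K B
  obtain ⟨M, hM, hpM⟩ := Ideal.exists_le_maximal p (Ideal.IsPrime.ne_top inferInstance)
  set S := Localization.AtPrime M with hS
  have hSn : IsNoetherianRing S := IsLocalization.isNoetherianRing M.primeCompl S hnoeth
  obtain ⟨x, hx⟩ := exists_isRegSys_of_standardSmooth (K := K) g M S
  have hSd : IsDomain S := hx.isDomain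
  have hSu : UniqueFactorizationMonoid S := hx.ufd
  have hle : M.primeCompl ≤ p.primeCompl := fun a ha hap => ha (hpM hap)
  let _ : Algebra S T := IsLocalization.localizationAlgebraOfSubmonoidLe S T M.primeCompl p.primeCompl hle
  have : IsScalarTower B S T :=
    IsLocalization.localization_isScalarTower_of_submonoid_le S T M.primeCompl p.primeCompl hle
  have hloc : IsLocalization (p.primeCompl.map (algebraMap B S)) T :=
    IsLocalization.isLocalization_of_submonoid_le S T M.primeCompl p.primeCompl hle
  have hnz : p.primeCompl.map (algebraMap B S) ≤ nonZeroDivisors S := by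
    rintro _ ⟨a, ha, rfl⟩
    refine mem_nonZeroDivisors_of_ne_zero (fun h0 => ?_)
    have h1 : algebraMap B T a = 0 := by
      rw [IsScalarTower.algebraMap_apply B S T, h0, map_zero]
    have h2 : IsUnit (algebraMap B T a) :=
      IsLocalization.map_units (M := p.primeCompl) T ⟨a, ha⟩
    rw [h1] at h2
    have : Nontrivial T := (IsLocalization.AtPrime.nontrivial T p)
    exact not_isUnit_zero h2
  exact ⟨IsLocalization.isDomain_of_le_nonZeroDivisors T hnz,
    UniqueFactorizationMonoid.of_isLocalization (M := S) (p.primeCompl.map (algebraMap B S)) T⟩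

end AllPrimes

end Fermat.Agent.AV
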