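import Fermat.Agent.AV.SchGV
import Fermat.Agent.AV.SchSmooth2
import Fermat.Agent.AV.SmoothReg2

/-!
# Smooth connected schemes over an algebraically closed field are integral
-/

set_option autoImplicit false
set_option linter.unusedSectionVars false

universe u

noncomputable section

open CategoryTheory CategoryTheory.Limits AlgebraicGeometry IsLocalRing TopologicalSpace
open NeronModelInfra GoodReductionJacobian

namespace Fermat.Agent.AV.Sch

section Irr

variable (X : Scheme.{u}) (hd : ∀ x : X, IsDomain (X.presheaf.stalk x))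

include hd in
theorem exists_unique_component (x : X) : ∃ ξ : X, ∀ Z ∈ irreducibleComponents X, x ∈ Z →
    Z = closure {ξ} := by
  haveI := hd x
  let b : Spec (X.presheaf.stalk x) := (⟨⊥, Ideal.isPrime_bot⟩ : PrimeSpectrum _)
  refine ⟨X.fromSpecStalk x b, fun Z hZ hx => ?_⟩
  have hZc : IsClosed Z := isClosed_of_mem_irreducibleComponents Z hZ
  obtain ⟨η, hη⟩ := QuasiSober.sober hZ.1 hZc
  have h1 : η ⤳ x := by
    rw [specializes_iff_mem_closure, hη.def]; exact hx
  have h2 : η ∈ Set.range (X.fromSpecStalk x) := by rw [Scheme.range_fromSpecStalk]; exact h1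
  obtain ⟨z, hz⟩ := h2
  have h3 : b ⤳ z := (PrimeSpectrum.le_iff_specializes (R := X.presheaf.stalk x) b z).1
    (show (⊥ : Ideal (X.presheaf.stalk x)) ≤ PrimeSpectrum.asIdeal z from bot_le)
  have h5 : X.fromSpecStalk x b ⤳ η := hz ▸ h3.map (X.fromSpecStalk x).continuous
  have h6 : Z ⊆ closure {X.fromSpecStalk x b} := by
    rw [← hη.def]
    exact closure_minimal (Set.singleton_subset_iff.2 (specializes_iff_mem_closure.1 h5))
      isClosed_closure
  exact h6.antisymm (hZ.2 isIrreducible_singleton.closure h6)

include hd in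
theorem irreducibleSpace_of_stalks [NoetherianSpace X] [ConnectedSpace X] :
    IrreducibleSpace X := by
  obtain ⟨x⟩ : Nonempty X := inferInstance
  have hfin := TopologicalSpace.NoetherianSpace.finite_irreducibleComponents (α := X)
  set Z := irreducibleComponent x with hZ
  have hZm : Z ∈ irreducibleComponents X := irreducibleComponent_mem_irreducibleComponents x
  have h1 : Zᶜ = ⋃₀ (irreducibleComponents X \ {Z}) := by
    ext y
    constructor
    · intro hy
      refine ⟨irreducibleComponent y, ⟨irreducibleComponent_mem_irreducibleComponents y,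
        fun h => hy ?_⟩, mem_irreducibleComponent⟩
      rw [Set.mem_singleton_iff] at h
      rw [← h]
      exact mem_irreducibleComponent
    · rintro ⟨W, ⟨hW, hWZ⟩, hyW⟩ hyZ
      obtain ⟨ξ, hξ⟩ := exists_unique_component X hd y
      exact hWZ ((hξ W hW hyW).trans (hξ Z hZm hyZ).symm)
  have h2 : IsClosed Zᶜ := by
    rw [h1, Set.sUnion_eq_biUnion]
    exact Set.Finite.isClosed_biUnion (hfin.subset Set.sdiff_subset) fun W hW =>
      isClosed_of_mem_irreducibleComponents W hW.1
  have h3 : IsClopen Z := ⟨isClosed_of_mem_irreducibleComponents Z hZm, isClosed_compl_iff.1 h2⟩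
  have h4 : Z = Set.univ := h3.eq_univ ⟨x, mem_irreducibleComponent⟩
  have h5 : IsIrreducible (Set.univ : Set X) := h4 ▸ isIrreducible_irreducibleComponent
  exact { isPreirreducible_univ := h5.2, toNonempty := ⟨x⟩ }

end Irr

variable {K : Type u} [Field K] {A : Scheme.{u}} (f : A ⟶ Spec (CommRingCat.of K))

instance subsingleton_spec (K : Type u) [Field K] : Subsingleton (Spec (CommRingCat.of K)) :=
  inferInstanceAs (Subsingleton (PrimeSpectrum K))

theorem exists_smooth_chart (g : ℕ) [SmoothOfRelativeDimension g f] (x : A) :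
    ∃ (V : A.Opens) (_ : IsAffineOpen V) (_ : x ∈ V),
      (kSec f V).hom.IsStandardSmoothOfRelativeDimension g := by
  obtain ⟨U, hU, V, hV, hx, e, h⟩ :=
    SmoothOfRelativeDimension.exists_isStandardSmoothOfRelativeDimension (n := g) (f := f) x
  have hU' : U = ⊤ := by
    ext y
    have : y = f x := Subsingleton.elim _ _
    simpa [this] using e hx
  subst hU'
  refine ⟨V, hV, hx, ?_⟩
  have h3 : kSec f V = (Scheme.ΓSpecIso (.of K)).inv ≫ f.appLE ⊤ V e := by
    rw [kSec, kTop, Category.assoc]
    congr 1
  rw [h3]
  exact (RingHom.isStandardSmoothOfRelativeDimension_respectsIso (n := g)).2 _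
    (Scheme.ΓSpecIso (.of K)).symm.commRingCatIsoToRingEquiv h

theorem isDomain_stalk [IsAlgClosed K] (g : ℕ) [SmoothOfRelativeDimension g f] (x : A) :
    IsDomain (A.presheaf.stalk x) := by
  obtain ⟨V, hV, hx, h⟩ := exists_smooth_chart f g x
  letI : Algebra K Γ(A, V) := (kSec f V).hom.toAlgebra
  haveI : Algebra.IsStandardSmoothOfRelativeDimension g K Γ(A, V) := h
  letI := TopCat.Presheaf.algebra_section_stalk A.presheaf (⟨x, hx⟩ : V)
  haveI := hV.isLocalization_stalk ⟨x, hx⟩
  exact isDomain_localization_of_standardSmooth (K := K) g (hV.primeIdealOf ⟨x, hx⟩).asIdeal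
    (A.presheaf.stalk x)

theorem noetherianSpace_of_isProper [IsProper f] : NoetherianSpace A := by
  haveI := compactSpace_of_isProper f
  haveI : IsLocallyNoetherian A := LocallyOfFiniteType.isLocallyNoetherian f
  haveI : IsNoetherian A := {}
  infer_instance

theorem isIntegral_of_smooth [IsAlgClosed K] (g : ℕ) [SmoothOfRelativeDimension g f] [IsProper f]
    [ConnectedSpace A] : IsIntegral A := by
  haveI := noetherianSpace_of_isProper f
  haveI := irreducibleSpace_of_stalks A (isDomain_stalk f g)
  haveI : ∀ x : A, _root_.IsReduced (A.presheaf.stalk x) := fun x => by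
    haveI := isDomain_stalk f g x
    infer_instance
  haveI : IsReduced A := isReduced_of_isReduced_stalk A
  exact isIntegral_of_irreducibleSpace_of_isReduced A

theorem connectedSpace_of_bundle (hA : AbelianSchemePropertyBundle K f) : ConnectedSpace A := by
  have h := hA.connectedFibres (closedPoint K)
  have h1 : _root_.IsConnected (Set.univ : Set A) := by
    convert h
    exact (Set.eq_univ_of_forall fun y => Subsingleton.elim (f y) _).symm
  exact { isPreconnected_univ := h1.2, toNonempty := ⟨h1.1.some⟩ }

end Fermat.Agent.AV.Sch
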