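import Fermat.Agent.AV.SchBase

/-!
# Points of a scheme with values in algebras; evaluation at local rings
-/

set_option autoImplicit false
set_option linter.unusedSectionVars false

universe u

noncomputable section

open CategoryTheory CategoryTheory.Limits AlgebraicGeometry IsLocalRing TopologicalSpace
open NeronModelInfra GoodReductionJacobian

namespace Fermat.Agent.AV.Sch

variable {K : Type u} [Field K] {A : Scheme.{u}} (f : A ⟶ Spec (CommRingCat.of K))

/-- the structure map of `Spec R` -/
abbrev str (K R : Type u) [Field K] [CommRing R] [Algebra K R] :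
    Spec (CommRingCat.of R) ⟶ Spec (CommRingCat.of K) :=
  Spec.map (CommRingCat.ofHom (algebraMap K R))

/-- points with values in a `K`-algebra -/
abbrev Pt (R : Type u) [CommRing R] [Algebra K R] : Type u :=
  SchemeHomOver (str K R) f

theorem map_str {R R' : Type u} [CommRing R] [Algebra K R] [CommRing R'] [Algebra K R']
    (g : R →ₐ[K] R') : Spec.map (CommRingCat.ofHom (g : R →+* R')) ≫ str K R = str K R' := by
  rw [str, str, ← Spec.map_comp, ← CommRingCat.ofHom_comp]
  congr 2
  exact g.comp_algebraMap

/-- functoriality of points -/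
def mapPt {R R' : Type u} [CommRing R] [Algebra K R] [CommRing R'] [Algebra K R']
    (g : R →ₐ[K] R') (P : Pt f R) : Pt f R' :=
  schemeHomOverComp (Spec.map (CommRingCat.ofHom (g : R →+* R'))) (map_str g) P

variable {f}

section Local

variable {R : Type u} [CommRing R] [Algebra K R] [IsLocalRing R]

/-- the image of the closed point -/
def ctr (P : Pt f R) : A := P.1 (closedPoint R)

/-- evaluation of germs -/
def evS (P : Pt f R) : A.presheaf.stalk (ctr P) ⟶ CommRingCat.of R :=
  Scheme.stalkClosedPointTo (R := CommRingCat.of R) P.1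

theorem isLocalHom_evS (P : Pt f R) : IsLocalHom (evS P).hom :=
  Scheme.isLocalHom_stalkClosedPointTo' P.1

theorem spec_evS (P : Pt f R) : Spec.map (evS P) ≫ A.fromSpecStalk (ctr P) = P.1 :=
  Scheme.Spec_stalkClosedPointTo_fromSpecStalk (R := CommRingCat.of R) P.1

theorem kGerm_evS (P : Pt f R) : kGerm f (ctr P) ≫ evS P = CommRingCat.ofHom (algebraMap K R) := by
  apply Spec.map_injective
  rw [Spec.map_comp, specMap_kGerm, ← Category.assoc, spec_evS, P.2]

theorem ctr_map_specializes {R' : Type u} [CommRing R'] [Algebra K R'] [IsLocalRing R']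
    (g : R →ₐ[K] R') (P : Pt f R) : ctr (mapPt f g P) ⤳ ctr P :=
  (IsLocalRing.specializes_closedPoint
    ((Spec.map (CommRingCat.ofHom (g : R →+* R'))) (closedPoint R'))).map P.1.continuous

theorem specializes_evS {R' : Type u} [CommRing R'] [Algebra K R'] [IsLocalRing R']
    (g : R →ₐ[K] R') (P : Pt f R) :
    A.presheaf.stalkSpecializes (ctr_map_specializes g P) ≫ evS (mapPt f g P) =
      evS P ≫ CommRingCat.ofHom (g : R →+* R') := by
  apply Spec.map_injective
  rw [← cancel_mono (A.fromSpecStalk (ctr P)), Spec.map_comp, Spec.map_comp, Category.assoc,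
    Category.assoc, Scheme.SpecMap_stalkSpecializes_fromSpecStalk, spec_evS, spec_evS]
  rfl

theorem ext_aux (P Q : Pt f R) (h : ctr P ⤳ ctr Q)
    (h1 : A.presheaf.stalkSpecializes h ≫ evS P = evS Q) : P = Q := by
  apply Subtype.ext
  rw [← spec_evS P, ← spec_evS Q, ← h1, Spec.map_comp, Category.assoc,
    Scheme.SpecMap_stalkSpecializes_fromSpecStalk]

/-- the point attached to a local homomorphism -/
def mkPt (x : A) (φ : A.presheaf.stalk x ⟶ CommRingCat.of R)
    (hφ : kGerm f x ≫ φ = CommRingCat.ofHom (algebraMap K R)) : Pt f R :=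
  ⟨Spec.map φ ≫ A.fromSpecStalk x, by
    rw [Category.assoc, ← specMap_kGerm, ← Spec.map_comp, hφ]⟩

theorem ctr_mkPt (x : A) (φ : A.presheaf.stalk x ⟶ CommRingCat.of R)
    (hφ : kGerm f x ≫ φ = CommRingCat.ofHom (algebraMap K R)) (hl : IsLocalHom φ.hom) :
    ctr (mkPt x φ hφ) = x := by
  change (Spec.map φ ≫ A.fromSpecStalk x) (closedPoint R) = x
  rw [Scheme.Hom.comp_apply]
  have h1 : Spec.map φ (closedPoint R) = closedPoint (A.presheaf.stalk x) :=
    IsLocalRing.comap_closedPoint φ.hom
  rw [h1, Scheme.fromSpecStalk_closedPoint]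

theorem evS_mkPt (x : A) (φ : A.presheaf.stalk x ⟶ CommRingCat.of R)
    (hφ : kGerm f x ≫ φ = CommRingCat.ofHom (algebraMap K R)) (h : ctr (mkPt x φ hφ) ⤳ x) :
    A.presheaf.stalkSpecializes h ≫ evS (mkPt x φ hφ) = φ := by
  apply Spec.map_injective
  rw [← cancel_mono (A.fromSpecStalk x), Spec.map_comp, Category.assoc,
    Scheme.SpecMap_stalkSpecializes_fromSpecStalk, spec_evS]
  rfl

end Local

section Group

variable (L : RelativeGroupLaw K f) (hc : L.IsCommutative)

/-- the group of points -/
@[reducible]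
def grpPt (R : Type u) [CommRing R] [Algebra K R] : AddCommGroup (Pt f R) where
  add x y := L.mul (str K R) x y
  zero := L.one (str K R)
  neg x := L.inv (str K R) x
  add_assoc := L.mul_assoc (str K R)
  zero_add := L.one_mul (str K R)
  add_zero := L.mul_one (str K R)
  neg_add_cancel := L.inv_mul_cancel (str K R)
  add_comm x y := hc (str K R) x y
  nsmul := @nsmulRec _ ⟨L.one (str K R)⟩ ⟨fun x y => L.mul (str K R) x y⟩
  zsmul := @zsmulRec _ ⟨L.one (str K R)⟩ ⟨fun x y => L.mul (str K R) x y⟩
    ⟨fun x => L.inv (str K R) x⟩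
    (@nsmulRec _ ⟨L.one (str K R)⟩ ⟨fun x y => L.mul (str K R) x y⟩)

/-- functoriality is additive -/
def mapHom {R R' : Type u} [CommRing R] [Algebra K R] [CommRing R'] [Algebra K R']
    (g : R →ₐ[K] R') :
    letI := grpPt L hc R
    letI := grpPt L hc R'
    Pt f R →+ Pt f R' :=
  letI := grpPt L hc R
  letI := grpPt L hc R'
  { toFun := mapPt f g
    map_zero' := L.one_natural (str K R) (str K R') _ (map_str g)
    map_add' := fun x y => L.mul_natural (str K R) (str K R') _ (map_str g) x y }

end Group

end Fermat.Agent.AV.Sch
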