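import Mathlib

set_option autoImplicit false
set_option linter.style.haveILetI false

/-!
# Local rings of smooth algebras at rational points
-/

universe u

open IsLocalRing MvPolynomial

namespace Fermat.Agent.AV

section Param

variable {K S : Type u} [Field K] [CommRing S] [Algebra K S] {g : ℕ}

/-- étale coordinates vanishing at a rational point -/
theorem exists_etale_at [Algebra.IsStandardSmoothOfRelativeDimension g K S] (m : Ideal S)
    (hm : ∀ s : S, ∃ a : K, s - algebraMap K S a ∈ m) :
    ∃ φ : MvPolynomial (Fin g) K →ₐ[K] S, (φ : MvPolynomial (Fin g) K →+* S).Etale ∧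
      ∀ i, φ (X i) ∈ m := by
  obtain ⟨φ, hφ⟩ := Algebra.IsStandardSmoothOfRelativeDimension.exists_etale_mvPolynomial g K S
  choose a ha using fun i => hm (φ (X i))
  let e : MvPolynomial (Fin g) K ≃ₐ[K] MvPolynomial (Fin g) K :=
    AlgEquiv.ofAlgHom (aeval (fun i => X i - C (a i))) (aeval (fun i => X i + C (a i)))
      (by ext i; simp) (by ext i; simp)
  refine ⟨φ.comp (e : MvPolynomial (Fin g) K →ₐ[K] MvPolynomial (Fin g) K), ?_, fun i => ?_⟩
  · have h1 : (e : MvPolynomial (Fin g) K →+* MvPolynomial (Fin g) K).Etale :=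
      RingHom.Etale.of_bijective e.bijective
    exact RingHom.Etale.stableUnderComposition _ _ h1 hφ
  · have h1 : e (X i) = X i - C (a i) := by
      show (aeval (fun i => X i - C (a i)) : MvPolynomial (Fin g) K →ₐ[K] _) (X i) = _
      rw [aeval_X]
    show φ (e (X i)) ∈ m
    rw [h1, map_sub, ← MvPolynomial.algebraMap_eq, AlgHom.commutes]
    exact ha i

omit [Algebra K S] in
/-- the parameters generate the maximal ideal -/
theorem sch_map_idealOfVars [Algebra (MvPolynomial (Fin g) K) S]
    [Algebra.Etale (MvPolynomial (Fin g) K) S] (m : Ideal S) [m.IsPrime]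
    (hX : ∀ i, algebraMap (MvPolynomial (Fin g) K) S (X i) ∈ m)
    (O : Type*) [CommRing O] [IsLocalRing O] [Algebra S O] [IsLocalization.AtPrime O m]
    [Algebra (MvPolynomial (Fin g) K) O] [IsScalarTower (MvPolynomial (Fin g) K) S O] :
    (idealOfVars (Fin g) K).map (algebraMap (MvPolynomial (Fin g) K) O) = maximalIdeal O := by
  set P := MvPolynomial (Fin g) K with hP
  set J := idealOfVars (Fin g) K with hJ
  have hJker : J = RingHom.ker (constantCoeff : P →+* K) := by
    ext p
    have h1 := mem_pow_idealOfVars_iff' (σ := Fin g) 1 p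
    rw [pow_one] at h1
    rw [hJ, h1, RingHom.mem_ker, constantCoeff_eq]
    constructor
    · intro h
      exact h 0 (by simp)
    · intro h x hx
      have : x = 0 := by
        rw [Nat.lt_one_iff, Finsupp.degree_eq_zero_iff] at hx
        exact hx
      rw [this, h]
  have hJmax : J.IsMaximal := by
    rw [hJker]
    exact RingHom.ker_isMaximal_of_surjective _ (fun a => ⟨C a, constantCoeff_C _ a⟩)
  have hle : J ≤ m.comap (algebraMap P S) := by
    rw [hJ, idealOfVars, Ideal.span_le]
    rintro _ ⟨i, rfl⟩
    exact hX i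
  have hcomap : m.comap (algebraMap P S) = J :=
    (hJmax.eq_of_le (Ideal.IsPrime.ne_top inferInstance) hle).symm
  have : J.IsPrime := hJmax.isPrime
  have : m.LiesOver J := ⟨hcomap.symm⟩
  letI := Localization.AtPrime.algebraOfLiesOver J m
  have hunr : Algebra.IsUnramifiedAt P m := by
    have : Algebra.FormallyUnramified S (Localization.AtPrime m) :=
      Algebra.FormallyUnramified.of_isLocalization m.primeCompl
    exact Algebra.FormallyUnramified.comp P S _
  have key := ((Algebra.isUnramifiedAt_iff_map_eq P J m).mp hunr).2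
  -- transfer to `O`
  let e : Localization.AtPrime m ≃ₐ[S] O :=
    IsLocalization.algEquiv m.primeCompl (Localization.AtPrime m) O
  have h2 := congrArg (Ideal.map (e : Localization.AtPrime m →+* O)) key
  rw [Ideal.map_map] at h2
  have h3 : ((e : Localization.AtPrime m →+* O)).comp (algebraMap P (Localization.AtPrime m)) =
      algebraMap P O := by
    rw [IsScalarTower.algebraMap_eq P S (Localization.AtPrime m), IsScalarTower.algebraMap_eq P S O,
      ← RingHom.comp_assoc]
    congr 1
    ext s
    exact e.commutes s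
  rw [h3] at h2
  rw [h2, ← IsLocalization.AtPrime.map_eq_maximalIdeal m (Localization.AtPrime m), Ideal.map_map,
    ← IsLocalization.AtPrime.map_eq_maximalIdeal m O]
  congr 1
  ext s
  exact e.commutes s

local notation "𝒫" => MvPolynomial (Fin g) K

omit [Algebra K S] in
/-- **the associated graded ring of the local ring of a smooth algebra at a rational point is a
polynomial ring** -/
theorem eq_zero_of_aeval_mem [Algebra (MvPolynomial (Fin g) K) S]
    [Algebra.Etale (MvPolynomial (Fin g) K) S] (m : Ideal S) [m.IsPrime]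
    (hX : ∀ i, algebraMap (MvPolynomial (Fin g) K) S (X i) ∈ m)
    (O : Type u) [CommRing O] [IsLocalRing O] [Algebra S O] [IsLocalization.AtPrime O m]
    [Algebra (MvPolynomial (Fin g) K) O] [IsScalarTower (MvPolynomial (Fin g) K) S O]
    (hO : ∀ y : O, ∃ a : K, y - algebraMap (MvPolynomial (Fin g) K) O (C a) ∈ maximalIdeal O)
    {n : ℕ} {F : MvPolynomial (Fin g) K} (hF : F.IsHomogeneous n)
    (h : algebraMap (MvPolynomial (Fin g) K) O F ∈ maximalIdeal O ^ (n + 1)) : F = 0 := by
  obtain ⟨J, hJ⟩ : ∃ J, J = idealOfVars (Fin g) K := ⟨_, rfl⟩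
  have hmap := sch_map_idealOfVars m hX O
  rw [← hJ] at hmap
  have : Algebra.FormallySmooth S O := Algebra.FormallySmooth.of_isLocalization m.primeCompl
  have : Algebra.FormallySmooth 𝒫 O := Algebra.FormallySmooth.comp 𝒫 S O
  -- the residue field
  have hsurj : Function.Surjective (algebraMap 𝒫 (ResidueField O)) := by
    intro y
    obtain ⟨y, rfl⟩ := residue_surjective y
    obtain ⟨a, ha⟩ := hO y
    refine ⟨C a, ?_⟩
    rw [IsScalarTower.algebraMap_apply 𝒫 O (ResidueField O), ← sub_eq_zero]
    have h1 : residue O (y - algebraMap 𝒫 O (C a)) = 0 := (residue_eq_zero_iff _).mpr ha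
    rw [map_sub, sub_eq_zero] at h1
    rw [sub_eq_zero]
    exact h1.symm
  have hJle : J ≤ RingHom.ker (algebraMap 𝒫 (ResidueField O)) := by
    rw [hJ, idealOfVars, Ideal.span_le]
    rintro _ ⟨i, rfl⟩
    show algebraMap 𝒫 (ResidueField O) (X i) = 0
    rw [IsScalarTower.algebraMap_apply 𝒫 O (ResidueField O)]
    refine (residue_eq_zero_iff _).mpr ?_
    rw [← hmap, hJ]
    exact Ideal.mem_map_of_mem _ (Ideal.subset_span ⟨i, rfl⟩)
  have hker : RingHom.ker (algebraMap 𝒫 (ResidueField O)) ≤ J := by
    intro p hp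
    have h1 : p - C (constantCoeff p) ∈ J := by
      have h2 := mem_pow_idealOfVars_iff' (σ := Fin g) 1 (p - C (constantCoeff p))
      rw [pow_one] at h2
      rw [hJ, h2]
      intro x hx
      have : x = 0 := by
        rw [Nat.lt_one_iff, Finsupp.degree_eq_zero_iff] at hx
        exact hx
      rw [this, coeff_sub, coeff_zero_C, constantCoeff_eq, sub_self]
    have h2 : algebraMap 𝒫 (ResidueField O) (C (constantCoeff p)) = 0 := by
      have h3 := hJle h1
      rw [RingHom.mem_ker, map_sub, sub_eq_zero] at h3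
      rw [← h3]
      exact hp
    have h3 : constantCoeff p = 0 := by
      by_contra hne
      have h4 : IsUnit (C (constantCoeff p) : 𝒫) := (isUnit_iff_ne_zero.mpr hne).map C
      exact not_isUnit_zero (h2 ▸ h4.map (algebraMap 𝒫 (ResidueField O)))
    rw [h3, map_zero, sub_zero] at h1
    exact h1
  -- the truncation
  let B := 𝒫 ⧸ J ^ (n + 1)
  let ψ : B →ₐ[𝒫] ResidueField O := Ideal.Quotient.liftₐ (J ^ (n + 1))
    (Algebra.ofId 𝒫 (ResidueField O)) fun a ha => hJle (Ideal.pow_le_self n.succ_ne_zero ha)
  have hψ : ∀ p : 𝒫, ψ (Ideal.Quotient.mk _ p) = algebraMap 𝒫 (ResidueField O) p := fun p => rfl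
  have hψs : Function.Surjective ψ := fun y => by
    obtain ⟨p, rfl⟩ := hsurj y
    exact ⟨Ideal.Quotient.mk _ p, hψ p⟩
  have hψk : RingHom.ker (ψ : B →+* ResidueField O) ≤
      J.map (Ideal.Quotient.mk (J ^ (n + 1))) := by
    intro b hb
    obtain ⟨p, rfl⟩ := Ideal.Quotient.mk_surjective b
    exact Ideal.mem_map_of_mem _ (hker hb)
  have hnil : RingHom.ker (ψ : B →+* ResidueField O) ^ (n + 1) = ⊥ := by
    rw [eq_bot_iff]
    refine (Ideal.pow_right_mono hψk (n + 1)).trans ?_
    rw [← Ideal.map_pow, Ideal.map_quotient_self]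
  let τ : O →ₐ[𝒫] B := Algebra.FormallySmooth.liftOfSurjective
    (IsScalarTower.toAlgHom 𝒫 O (ResidueField O)) ψ hψs ⟨n + 1, hnil⟩
  have hτ : ∀ y, ψ (τ y) = residue O y := fun y =>
    Algebra.FormallySmooth.liftOfSurjective_apply _ ψ hψs ⟨n + 1, hnil⟩ y
  have hle : (maximalIdeal O).map (τ : O →+* B) ≤ RingHom.ker (ψ : B →+* ResidueField O) := by
    rw [Ideal.map_le_iff_le_comap]
    intro y hy
    show ψ (τ y) = 0
    rw [hτ]
    exact (residue_eq_zero_iff _).mpr hy
  have h1 := Ideal.mem_map_of_mem (τ : O →+* B) h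
  rw [Ideal.map_pow] at h1
  have h2 := Ideal.pow_right_mono hle (n + 1) h1
  rw [hnil, Ideal.mem_bot] at h2
  have h3 : τ (algebraMap 𝒫 O F) = Ideal.Quotient.mk _ F := τ.commutes F
  have h4 : (Ideal.Quotient.mk (J ^ (n + 1))) F = 0 := h3.symm.trans h2
  rw [Ideal.Quotient.eq_zero_iff_mem, hJ, mem_pow_idealOfVars_iff'] at h4
  ext x
  rw [coeff_zero]
  by_cases hx : Finsupp.degree x < n + 1
  · exact h4 x hx
  · exact hF.coeff_eq_zero (by omega)

theorem exists_const_of_local (m : Ideal S) [m.IsPrime]
    (hm : ∀ s : S, ∃ a : K, s - algebraMap K S a ∈ m)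
    (O : Type u) [CommRing O] [IsLocalRing O] [Algebra S O] [IsLocalization.AtPrime O m]
    [Algebra K O] [IsScalarTower K S O] (y : O) :
    ∃ a : K, y - algebraMap K O a ∈ maximalIdeal O := by
  obtain ⟨s, t, rfl⟩ := IsLocalization.exists_mk'_eq m.primeCompl y
  obtain ⟨a, ha⟩ := hm s
  obtain ⟨b, hb⟩ := hm t
  have hb0 : b ≠ 0 := by
    rintro rfl
    rw [map_zero, sub_zero] at hb
    exact t.2 hb
  have hle : ∀ z ∈ m, algebraMap S O z ∈ maximalIdeal O := fun z hz => by
    rw [← IsLocalization.AtPrime.map_eq_maximalIdeal m O]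
    exact Ideal.mem_map_of_mem _ hz
  refine ⟨a / b, ?_⟩
  have hu : IsUnit (algebraMap S O t) := IsLocalization.map_units O t
  have h1 : algebraMap S O t * (IsLocalization.mk' O s t - algebraMap K O (a / b)) ∈
      maximalIdeal O := by
    have e : algebraMap S O t * (IsLocalization.mk' O s t - algebraMap K O (a / b)) =
        algebraMap S O (s - algebraMap K S a) -
          algebraMap S O (t - algebraMap K S b) * algebraMap K O (a / b) := by
      rw [mul_sub, IsLocalization.mk'_spec', map_sub, map_sub, ← IsScalarTower.algebraMap_apply,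
        ← IsScalarTower.algebraMap_apply]
      have h2 : algebraMap K O b * algebraMap K O (a / b) = algebraMap K O a := by
        rw [← map_mul, mul_div_cancel₀ _ hb0]
      linear_combination -h2
    rw [e]
    exact Ideal.sub_mem _ (hle _ ha) (Ideal.mul_mem_right _ _ (hle _ hb))
  exact ((IsLocalRing.maximalIdeal.isMaximal O).isPrime.mem_or_mem h1).resolve_left
    fun h => (mem_maximalIdeal _).mp h hu

/-- **Parameters at a rational point of a smooth algebra.** -/
theorem exists_param (g : ℕ) [Algebra.IsStandardSmoothOfRelativeDimension g K S] (m : Ideal S)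
    [m.IsPrime] (hm : ∀ s : S, ∃ a : K, s - algebraMap K S a ∈ m)
    (O : Type u) [CommRing O] [IsLocalRing O] [Algebra S O] [IsLocalization.AtPrime O m]
    [Algebra K O] [IsScalarTower K S O] :
    IsNoetherianRing O ∧ (∀ y : O, ∃ a : K, y - algebraMap K O a ∈ maximalIdeal O) ∧
      ∃ x : Fin g → O, Ideal.span (Set.range x) = maximalIdeal O ∧
        ∀ (n : ℕ) (F : MvPolynomial (Fin g) K), F.IsHomogeneous n →
          aeval x F ∈ maximalIdeal O ^ (n + 1) → F = 0 := by
  have hconst := exists_const_of_local m hm O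
  have hst := Algebra.IsStandardSmoothOfRelativeDimension.isStandardSmooth g (R := K) (S := S)
  have hfp : Algebra.FinitePresentation K S := inferInstance
  have hnoe : IsNoetherianRing S := Algebra.FiniteType.isNoetherianRing K S
  refine ⟨IsLocalization.isNoetherianRing m.primeCompl O hnoe, hconst, ?_⟩
  obtain ⟨φ, hφ, hX⟩ := exists_etale_at (g := g) m hm
  letI : Algebra (MvPolynomial (Fin g) K) S := (φ : (MvPolynomial (Fin g) K) →+* S).toAlgebra
  letI : Algebra (MvPolynomial (Fin g) K) O := ((algebraMap S O).comp (φ : (MvPolynomial (Fin g) K) →+* S)).toAlgebra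
  have : IsScalarTower (MvPolynomial (Fin g) K) S O := IsScalarTower.of_algebraMap_eq' rfl
  have : Algebra.Etale (MvPolynomial (Fin g) K) S := hφ
  have hX' : ∀ i, algebraMap (MvPolynomial (Fin g) K) S (X i) ∈ m := hX
  have halg : ∀ F : (MvPolynomial (Fin g) K), algebraMap (MvPolynomial (Fin g) K) O F = aeval (fun i => algebraMap (MvPolynomial (Fin g) K) O (X i)) F := by
    intro F
    let ψ : (MvPolynomial (Fin g) K) →ₐ[K] O := (IsScalarTower.toAlgHom K S O).comp φ
    have h1 : ψ = aeval (fun i => algebraMap (MvPolynomial (Fin g) K) O (X i)) := by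
      ext i
      rw [aeval_X]
      rfl
    rw [← h1]
    rfl
  refine ⟨fun i => algebraMap (MvPolynomial (Fin g) K) O (X i), ?_, fun n F hF h => ?_⟩
  · have h1 := sch_map_idealOfVars (K := K) (g := g) m hX' O
    rw [idealOfVars, Ideal.map_span, ← Set.range_comp] at h1
    exact h1
  · refine eq_zero_of_aeval_mem m hX' O (fun y => ?_) hF ?_
    · obtain ⟨a, ha⟩ := hconst y
      refine ⟨a, ?_⟩
      rw [halg, ← MvPolynomial.algebraMap_eq, AlgHom.commutes]
      exact ha
    · rw [halg]
      exact h

/-- **the transcendence degree of a smooth domain** -/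
theorem exists_transcendenceBasis (g : ℕ) [Algebra.IsStandardSmoothOfRelativeDimension g K S]
    [IsDomain S] (L : Type u) [Field L] [Algebra S L] [IsFractionRing S L] [Algebra K L]
    [IsScalarTower K S L] : ∃ x : Fin g → L, IsTranscendenceBasis K x := by
  obtain ⟨φ, hφ⟩ := Algebra.IsStandardSmoothOfRelativeDimension.exists_etale_mvPolynomial g K S
  letI : Algebra (MvPolynomial (Fin g) K) S := (φ : (MvPolynomial (Fin g) K) →+* S).toAlgebra
  letI : Algebra (MvPolynomial (Fin g) K) L := ((algebraMap S L).comp (φ : (MvPolynomial (Fin g) K) →+* S)).toAlgebra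
  have : IsScalarTower (MvPolynomial (Fin g) K) S L := IsScalarTower.of_algebraMap_eq' rfl
  have : Algebra.Etale (MvPolynomial (Fin g) K) S := hφ
  have : IsScalarTower K (MvPolynomial (Fin g) K) S := IsScalarTower.of_algebraMap_eq' φ.comp_algebraMap.symm
  have : IsScalarTower K (MvPolynomial (Fin g) K) L := by
    refine IsScalarTower.of_algebraMap_eq' ?_
    rw [IsScalarTower.algebraMap_eq K S L, IsScalarTower.algebraMap_eq K (MvPolynomial (Fin g) K) S, ← RingHom.comp_assoc]
    rfl
  have hflat : Module.Flat (MvPolynomial (Fin g) K) S := inferInstance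
  have hinj : Function.Injective (algebraMap (MvPolynomial (Fin g) K) S) := by
    have : Module.IsTorsionFree (MvPolynomial (Fin g) K) S := inferInstance
    exact FaithfulSMul.algebraMap_injective _ _
  have hinjL : Function.Injective (algebraMap (MvPolynomial (Fin g) K) L) := (IsFractionRing.injective S L).comp hinj
  have : FaithfulSMul (MvPolynomial (Fin g) K) L := (faithfulSMul_iff_algebraMap_injective _ _).mpr hinjL
  letI : Algebra (FractionRing (MvPolynomial (Fin g) K)) L := FractionRing.liftAlgebra (MvPolynomial (Fin g) K) L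
  have : IsScalarTower (MvPolynomial (Fin g) K) (FractionRing (MvPolynomial (Fin g) K)) L := FractionRing.isScalarTower_liftAlgebra (MvPolynomial (Fin g) K) L
  have : Algebra.FormallyUnramified S L := Algebra.FormallyUnramified.of_isLocalization
    (nonZeroDivisors S)
  have : Algebra.FormallyUnramified (MvPolynomial (Fin g) K) L := Algebra.FormallyUnramified.comp (MvPolynomial (Fin g) K) S L
  have : Algebra.FormallyUnramified (FractionRing (MvPolynomial (Fin g) K)) L :=
    Algebra.FormallyUnramified.of_restrictScalars (MvPolynomial (Fin g) K) _ _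
  have : Algebra.EssFiniteType S L := Algebra.EssFiniteType.of_isLocalization L (nonZeroDivisors S)
  have : Algebra.EssFiniteType (MvPolynomial (Fin g) K) L := Algebra.EssFiniteType.comp (MvPolynomial (Fin g) K) S L
  have : Algebra.EssFiniteType (FractionRing (MvPolynomial (Fin g) K)) L := Algebra.EssFiniteType.of_comp (MvPolynomial (Fin g) K) _ _
  have hsep : Algebra.IsSeparable (FractionRing (MvPolynomial (Fin g) K)) L :=
    Algebra.FormallyUnramified.isSeparable _ _
  have : Algebra.IsAlgebraic (MvPolynomial (Fin g) K) L := by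
    rw [IsFractionRing.comap_isAlgebraic_iff (K := FractionRing (MvPolynomial (Fin g) K))]
    infer_instance
  exact ⟨_, (IsTranscendenceBasis.mvPolynomial (Fin g) K).algebraMap_comp (A := L)⟩

end Param

end Fermat.Agent.AV
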