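import Fermat.Agent.AV.MulDeg
import Fermat.Agent.AV.Neg
import Fermat.Agent.AV.Comp

/-!
# The behaviour of the degrees of the coordinates under multiplication by `n`
-/

set_option autoImplicit false

universe u

open AlgebraicCurve Fermat.Agent.FF IntermediateField

namespace Fermat.Agent.AV

variable {K : Type u} [Field K]

/-- the comparison of the height with the degrees of the coordinates -/
def CompStmt {V : GrpVar K} {D : CDiv V} (A : Aff V D) : Prop :=
  ∀ (Ω E : Type u) [Field Ω] [Field E] [Algebra K Ω] [Algebra K E] [Algebra Ω E]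
    [IsScalarTower K Ω E] [IsAlgClosed Ω] [IsFnField Ω E] (Q : V.pt E), V.center Q = V.gen →
    (∀ j, (Module.finrank Ω⟮V.e Q (A.f j)⟯ E : ℤ) ≤ A.m * D.height Ω Q) ∧
    D.height Ω Q ≤ A.M * ∑ j, (Module.finrank Ω⟮V.e Q (A.f j)⟯ E : ℤ)

/-- the descent from constants `E` to algebraically closed constants -/
def RatioStmt (E F : Type u) [Field E] [Field F] [Algebra E F] : Prop :=
  ∃ (Ω F1 : Type u) (_ : Field Ω) (_ : Field F1) (_ : Algebra E Ω) (_ : Algebra Ω F1)
    (_ : Algebra F F1) (_ : Algebra E F1) (_ : IsScalarTower E Ω F1) (_ : IsScalarTower E F F1)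
    (_ : IsAlgClosed Ω) (_ : IsFnField Ω F1),
    (∃ y : F, Module.finrank Ω⟮algebraMap F F1 y⟯ F1 ≠ 0) ∧
    ∀ x y : F, Module.finrank E⟮x⟯ F * Module.finrank Ω⟮algebraMap F F1 y⟯ F1
      = Module.finrank E⟮y⟯ F * Module.finrank Ω⟮algebraMap F F1 x⟯ F1

section curve

variable {V : GrpVar K} {D : CDiv V} (A : Aff V D) {Ω E : Type u} [Field Ω] [Field E]
  [Algebra K Ω] [Algebra K E] [Algebra Ω E]

variable (Ω) in
/-- the sum of the degrees of the coordinates of `Q` and `-Q` -/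
noncomputable def slotSum (Q : V.pt E) : ℕ :=
  ∑ j, Module.finrank Ω⟮V.e Q (A.f j)⟯ E + ∑ j, Module.finrank Ω⟮V.e (-Q) (A.f j)⟯ E

variable [IsScalarTower K Ω E] [IsAlgClosed Ω] [IsFnField Ω E]

theorem slotSum_le (hcomp : CompStmt A) (Q : V.pt E) (hQ : V.center Q = V.gen) :
    (slotSum A Ω Q : ℤ) ≤ (A.N * A.m : ℕ) * (D.height Ω Q + D.height Ω (-Q)) := by
  have h1 : ∀ Q : V.pt E, V.center Q = V.gen →
      ((∑ j, Module.finrank Ω⟮V.e Q (A.f j)⟯ E : ℕ) : ℤ) ≤ (A.N * A.m : ℕ) * D.height Ω Q := by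
    intro Q hQ
    push_cast
    refine (Finset.sum_le_sum fun j _ => (hcomp Ω E Q hQ).1 j).trans ?_
    rw [Finset.sum_const, Finset.card_univ, Fintype.card_fin, nsmul_eq_mul, mul_assoc]
  have h2 := h1 Q hQ
  have h3 := h1 (-Q) (V.center_neg hQ)
  rw [slotSum, Nat.cast_add, mul_add]
  exact add_le_add h2 h3

theorem height_le_slotSum (hcomp : CompStmt A) (Q : V.pt E) (hQ : V.center Q = V.gen) :
    D.height Ω Q + D.height Ω (-Q) ≤ A.M * (slotSum A Ω Q : ℤ) := by
  have h2 := (hcomp Ω E Q hQ).2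
  have h3 := (hcomp Ω E (-Q) (V.center_neg hQ)).2
  rw [slotSum, Nat.cast_add, mul_add]
  push_cast
  exact add_le_add h2 h3

theorem slotSum_bound (hcomp : CompStmt A) (hcube : CubeStmt D) (P : V.pt E)
    (hP : V.center P = V.gen) (n : ℕ) (hn : V.center (n • P) = V.gen) :
    slotSum A Ω (n • P) ≤ (A.N * A.m * A.M + 1) * n ^ 2 * slotSum A Ω P ∧
      n ^ 2 * slotSum A Ω P ≤ (A.N * A.m * A.M + 1) * slotSum A Ω (n • P) := by
  have a1 := slotSum_le A (Ω := Ω) hcomp P hP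
  have a2 := slotSum_le A (Ω := Ω) hcomp (n • P) hn
  have b1 := height_le_slotSum A (Ω := Ω) hcomp P hP
  have b2 := height_le_slotSum A (Ω := Ω) hcomp (n • P) hn
  have c := hcube (Ω := Ω) P n
  rw [c] at a2 b2
  obtain ⟨H, hH⟩ : ∃ H : ℤ, H = D.height Ω P + D.height Ω (-P) := ⟨_, rfl⟩
  obtain ⟨S, hS⟩ : ∃ S : ℕ, S = slotSum A Ω P := ⟨_, rfl⟩
  obtain ⟨T, hT⟩ : ∃ T : ℕ, T = slotSum A Ω (n • P) := ⟨_, rfl⟩
  rw [← hH] at a1 a2 b1 b2
  rw [← hS] at a1 b1 ⊢
  rw [← hT] at a2 b2 ⊢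
  have hn0 : (0 : ℤ) ≤ (n : ℤ) ^ 2 := by positivity
  have hNm : (0 : ℤ) ≤ ((A.N * A.m : ℕ) : ℤ) := Nat.cast_nonneg _
  constructor
  · have h1 : (T : ℤ) ≤ (A.N * A.m : ℕ) * ((n : ℤ) ^ 2 * (A.M * (S : ℤ))) :=
      a2.trans (mul_le_mul_of_nonneg_left (mul_le_mul_of_nonneg_left b1 hn0) hNm)
    have h2 : (T : ℤ) ≤ ((A.N * A.m * A.M + 1) * n ^ 2 * S : ℕ) := by
      refine h1.trans ?_
      push_cast
      nlinarith [mul_nonneg hn0 (Nat.cast_nonneg (α := ℤ) S)]
    exact_mod_cast h2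
  · have h1 : (n : ℤ) ^ 2 * (S : ℤ) ≤ (A.N * A.m : ℕ) * (A.M * (T : ℤ)) := by
      calc (n : ℤ) ^ 2 * (S : ℤ) ≤ (n : ℤ) ^ 2 * ((A.N * A.m : ℕ) * H) :=
            mul_le_mul_of_nonneg_left a1 hn0
        _ = (A.N * A.m : ℕ) * ((n : ℤ) ^ 2 * H) := by ring
        _ ≤ (A.N * A.m : ℕ) * (A.M * (T : ℤ)) := mul_le_mul_of_nonneg_left b2 hNm
    have h2 : (n : ℤ) ^ 2 * (S : ℤ) ≤ ((A.N * A.m * A.M + 1) * T : ℕ) := by
      refine h1.trans ?_
      push_cast
      nlinarith [Nat.cast_nonneg (α := ℤ) T]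
    exact_mod_cast h2

end curve

theorem compStmt {V : GrpVar K} {D : CDiv V} (A : Aff V D) : CompStmt A :=
  fun _ _ _ _ _ _ _ _ _ _ _ hQ => ⟨fun j => Aff.finrank_le A hQ j, Aff.height_le A hQ⟩

/-- the slot bound -/
theorem slotStmt_of {V : GrpVar K} {D : CDiv V} (A : Aff V D) (hcube : CubeStmt D)
    (hratio : ∀ L : IntermediateField K V.F, Algebra.trdeg L V.F = 1 → RatioStmt L V.F) :
    SlotStmt V := by
  have hcomp := compStmt A
  refine ⟨Fin A.N ⊕ Fin A.N, inferInstance, Sum.elim A.f (fun j => V.negHom (A.f j)),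
    A.N * A.m * A.M + 1, Nat.succ_pos _, ?_, ?_⟩
  · rw [eq_top_iff, ← A.f_gen]
    apply IntermediateField.adjoin.mono
    rintro _ ⟨j, rfl⟩
    exact ⟨Sum.inl j, rfl⟩
  · intro n h L hL
    obtain ⟨Ω, F1, iΩ, iF1, i1, i2, i3, i4, i5, i6, i7, i8, ⟨y, hy⟩, hr⟩ := hratio L hL
    let _ : Algebra K Ω := ((algebraMap L Ω).comp (algebraMap K L)).toAlgebra
    let _ : Algebra K F1 := ((algebraMap V.F F1).comp (algebraMap K V.F)).toAlgebra
    have : IsScalarTower K Ω F1 := IsScalarTower.of_algebraMap_eq (fun a => by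
      change algebraMap V.F F1 (algebraMap K V.F a)
        = algebraMap Ω F1 (algebraMap L Ω (algebraMap K L a))
      rw [← IsScalarTower.algebraMap_apply L Ω F1, IsScalarTower.algebraMap_apply L V.F F1]
      rfl)
    let g : V.F →ₐ[K] F1 := { algebraMap V.F F1 with commutes' := fun a => rfl }
    have hg : ∀ b, g b = algebraMap V.F F1 b := fun b => rfl
    -- the point
    obtain ⟨P, hPdef⟩ : ∃ P : V.pt F1, P = V.map g V.genPt := ⟨_, rfl⟩
    have hP : V.center P = V.gen := by rw [hPdef]; exact V.center_map_genPt g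
    have hPe : ∀ b, V.e P b = algebraMap V.F F1 b := fun b => by
      rw [hPdef, V.e_map_genPt, hg]
    have hnP : n • P = V.map (g.comp (GrpVar.mulHom h)) V.genPt := by
      rw [V.map_comp]
      have h1 : V.map (GrpVar.mulHom h) V.genPt = n • V.genPt := V.map_homOf _ h
      rw [h1, hPdef, map_nsmul]
    have hnPc : V.center (n • P) = V.gen := by rw [hnP]; exact V.center_map_genPt _
    have hnPe : ∀ b, V.e (n • P) b = algebraMap V.F F1 (GrpVar.mulHom h b) := fun b => by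
      rw [hnP, V.e_map_genPt]
      rfl
    obtain ⟨b1, b2⟩ := slotSum_bound A (Ω := Ω) hcomp hcube P hP n hnPc
    -- the two sums
    have e1 : slotSum A Ω P = ∑ i, Module.finrank Ω⟮algebraMap V.F F1
        (Sum.elim A.f (fun j => V.negHom (A.f j)) i)⟯ F1 := by
      rw [slotSum, Fintype.sum_sum_type]
      congr 1
      · refine Finset.sum_congr rfl fun j _ => ?_
        rw [hPe]
        rfl
      · refine Finset.sum_congr rfl fun j _ => ?_
        rw [V.e_neg hP, hPe]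
        rfl
    have e2 : slotSum A Ω (n • P) = ∑ i, Module.finrank Ω⟮algebraMap V.F F1
        (GrpVar.mulHom h (Sum.elim A.f (fun j => V.negHom (A.f j)) i))⟯ F1 := by
      rw [slotSum, Fintype.sum_sum_type]
      congr 1
      · refine Finset.sum_congr rfl fun j _ => ?_
        rw [hnPe]
        rfl
      · refine Finset.sum_congr rfl fun j _ => ?_
        rw [V.e_neg hnPc, hnPe]
        rfl
    -- descent
    have hpos := Nat.pos_of_ne_zero hy
    have s1 : ∀ ψ : Fin A.N ⊕ Fin A.N → V.F,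
        (∑ i, Module.finrank L⟮ψ i⟯ V.F) * Module.finrank Ω⟮algebraMap V.F F1 y⟯ F1
          = Module.finrank L⟮y⟯ V.F * ∑ i, Module.finrank Ω⟮algebraMap V.F F1 (ψ i)⟯ F1 := by
      intro ψ
      rw [Finset.sum_mul, Finset.mul_sum]
      exact Finset.sum_congr rfl fun i _ => hr _ _
    rw [e1, e2] at b1 b2
    constructor
    · refine Nat.le_of_mul_le_mul_right ?_ hpos
      rw [mul_assoc _ (∑ i, _) _, s1, s1]
      calc _ ≤ Module.finrank L⟮y⟯ V.F * ((A.N * A.m * A.M + 1) * n ^ 2 *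
            ∑ i, Module.finrank Ω⟮algebraMap V.F F1
              (Sum.elim A.f (fun j => V.negHom (A.f j)) i)⟯ F1) := Nat.mul_le_mul_left _ b1
        _ = _ := by ring
    · refine Nat.le_of_mul_le_mul_right ?_ hpos
      rw [mul_assoc _ (∑ i, _) _, mul_assoc _ (∑ i, _) _, s1, s1]
      calc _ = Module.finrank L⟮y⟯ V.F * (n ^ 2 *
            ∑ i, Module.finrank Ω⟮algebraMap V.F F1
              (Sum.elim A.f (fun j => V.negHom (A.f j)) i)⟯ F1) := by ring
        _ ≤ _ := Nat.mul_le_mul_left _ b2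
        _ = _ := by ring

end Fermat.Agent.AV
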