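import Fermat.Agent.AV.Slot
import Fermat.Agent.AV.Ratio

/-!
# The growth in one slot
-/

set_option autoImplicit false

universe u

namespace Fermat.Agent.AV

theorem slotStmt_main {K : Type u} [Field K] {V : GrpVar K} {D : CDiv V} (A : Aff V D)
    (h : CubeStmt D) : SlotStmt V := by
  refine slotStmt_of A h fun L hL => ?_
  haveI : Algebra.EssFiniteType L V.F := Algebra.EssFiniteType.of_comp K L V.F
  exact exists_ratio hL

end Fermat.Agent.AV
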