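import Fermat.Agent.AV.GVBasic

/-!
# Multiplication by `n` and derivations
-/

set_option autoImplicit false

universe u

namespace Fermat.Agent.AV

section Tsze

variable {K E M N : Type u} [Field K] [Field E] [Algebra K E]
  [AddCommGroup M] [Module E M] [Module Eᵐᵒᵖ M] [IsCentralScalar E M] [Module K M]
  [IsScalarTower K E M] [IsScalarTower K Eᵐᵒᵖ M]
  [AddCommGroup N] [Module E N] [Module Eᵐᵒᵖ N] [IsCentralScalar E N] [Module K N]
  [IsScalarTower K E N] [IsScalarTower K Eᵐᵒᵖ N]

theorem isLocalRing_tsze : IsLocalRing (TrivSqZeroExt E M) := by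
  refine IsLocalRing.of_nonunits_add fun a b ha hb => ?_
  rw [mem_nonunits_iff, TrivSqZeroExt.isUnit_iff_isUnit_fst, isUnit_iff_ne_zero, not_not] at ha hb ⊢
  rw [TrivSqZeroExt.fst_add, ha, hb, add_zero]

/-- functoriality of trivial extensions -/
def tmap (f : M →ₗ[E] N) : TrivSqZeroExt E M →ₐ[K] TrivSqZeroExt E N where
  toFun x := TrivSqZeroExt.inl x.fst + TrivSqZeroExt.inr (f x.snd)
  map_one' := by ext <;> simp
  map_mul' x y := by ext <;> simp
  map_zero' := by ext <;> simp
  map_add' x y := by ext <;> simp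
  commutes' a := by
    ext
    · simp [TrivSqZeroExt.algebraMap_eq_inl']
    · simp [TrivSqZeroExt.algebraMap_eq_inl']

@[simp] theorem fst_tmap (f : M →ₗ[E] N) (x : TrivSqZeroExt E M) :
    (tmap (K := K) f x).fst = x.fst := by simp [tmap]

@[simp] theorem snd_tmap (f : M →ₗ[E] N) (x : TrivSqZeroExt E M) :
    (tmap (K := K) f x).snd = f x.snd := by simp [tmap]

theorem isUnit_of_fst {a : TrivSqZeroExt E M} (h : IsUnit (TrivSqZeroExt.fstHom K E M a)) :
    IsUnit a := TrivSqZeroExt.isUnit_iff_isUnit_fst.2 h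

end Tsze

namespace GrpVar

attribute [local instance] isLocalRing_tsze

variable {K : Type u} [Field K] (V : GrpVar K)

section Tan

variable {E M N : Type u} [Field E] [Algebra K E]
  [AddCommGroup M] [Module E M] [Module Eᵐᵒᵖ M] [IsCentralScalar E M] [Module K M]
  [IsScalarTower K E M] [IsScalarTower K Eᵐᵒᵖ M]
  [AddCommGroup N] [Module E N] [Module Eᵐᵒᵖ N] [IsCentralScalar E N] [Module K N]
  [IsScalarTower K E N] [IsScalarTower K Eᵐᵒᵖ N]

/-- tangent vectors at the origin -/
def Tan (τ : V.pt (TrivSqZeroExt E M)) : Prop := V.map (TrivSqZeroExt.fstHom K E M) τ = 0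

variable {V}

theorem Tan.center {τ : V.pt (TrivSqZeroExt E M)} (h : V.Tan τ) :
    V.center τ = V.center (0 : V.pt E) := by
  rw [← V.center_map (TrivSqZeroExt.fstHom K E M) (fun _ => isUnit_of_fst) τ]
  exact congrArg _ h

theorem Tan.fst_e {τ : V.pt (TrivSqZeroExt E M)} (h : V.Tan τ) {b : V.F}
    (hb : b ∈ V.loc (V.center (0 : V.pt E))) : (V.e τ b).fst = V.e (0 : V.pt E) b := by
  have h1 := V.e_map (TrivSqZeroExt.fstHom K E M) τ (b := b) (by rw [h.center]; exact hb)
  rw [show V.map (TrivSqZeroExt.fstHom K E M) τ = 0 from h] at h1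
  exact h1.symm

theorem Tan.ext {τ τ' : V.pt (TrivSqZeroExt E M)} (h : V.Tan τ) (h' : V.Tan τ')
    (hb : ∀ b ∈ V.loc (V.center (0 : V.pt E)), (V.e τ b).snd = (V.e τ' b).snd) : τ = τ' := by
  refine V.ext_e (h.center.trans h'.center.symm) fun b hb' => ?_
  rw [h.center] at hb'
  exact TrivSqZeroExt.ext ((h.fst_e hb').trans (h'.fst_e hb').symm) (hb b hb')

theorem tan_zero : V.Tan (0 : V.pt (TrivSqZeroExt E M)) := map_zero _

theorem Tan.add {τ τ' : V.pt (TrivSqZeroExt E M)} (h : V.Tan τ) (h' : V.Tan τ') :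
    V.Tan (τ + τ') := by
  change V.map _ (τ + τ') = 0
  rw [map_add]
  exact (congrArg₂ (· + ·) h h').trans (add_zero 0)

theorem Tan.nsmul {τ : V.pt (TrivSqZeroExt E M)} (h : V.Tan τ) (n : ℕ) : V.Tan (n • τ) := by
  change V.map _ (n • τ) = 0
  rw [map_nsmul]
  exact (congrArg (n • ·) h).trans (nsmul_zero n)

theorem snd_e_zero {b : V.F} (hb : b ∈ V.loc (V.center (0 : V.pt E))) :
    (V.e (0 : V.pt (TrivSqZeroExt E M)) b).snd = 0 := by
  have h1 := V.e_map (TrivSqZeroExt.inlAlgHom K E M) (0 : V.pt E) hb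
  rw [map_zero] at h1
  rw [h1]
  exact TrivSqZeroExt.snd_inl _ _

theorem Tan.map {τ : V.pt (TrivSqZeroExt E M)} (h : V.Tan τ) (f : M →ₗ[E] N) :
    V.Tan (V.map (tmap f) τ) := by
  have h1 : (TrivSqZeroExt.fstHom K E N).comp (tmap f) = TrivSqZeroExt.fstHom K E M :=
    AlgHom.ext fun x => fst_tmap (K := K) f x
  change V.map _ (V.map (tmap f) τ) = 0
  rw [← V.map_comp, h1]
  exact h

theorem Tan.snd_e_map {τ : V.pt (TrivSqZeroExt E M)} (h : V.Tan τ) (f : M →ₗ[E] N) {b : V.F}
    (hb : b ∈ V.loc (V.center (0 : V.pt E))) :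
    (V.e (V.map (tmap f) τ) b).snd = f (V.e τ b).snd := by
  rw [V.e_map (tmap f) τ (by rw [h.center]; exact hb), snd_tmap]

theorem snd_e_add {τ τ' : V.pt (TrivSqZeroExt E E)} (h : V.Tan τ) (h' : V.Tan τ') {b : V.F}
    (hb : b ∈ V.loc (V.center (0 : V.pt E))) :
    (V.e (τ + τ') b).snd = (V.e τ b).snd + (V.e τ' b).snd := by
  set T : V.pt (TrivSqZeroExt E (E × E)) :=
    V.map (tmap (LinearMap.inl E E E)) τ + V.map (tmap (LinearMap.inr E E E)) τ' with hT
  have hTt : V.Tan T := (h.map _).add (h'.map _)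
  have h1 : V.map (tmap (LinearMap.fst E E E)) T = τ := by
    rw [hT, map_add]
    have e1 : V.map (tmap (LinearMap.fst E E E)) (V.map (tmap (LinearMap.inl E E E)) τ) = τ := by
      refine Tan.ext ((h.map _).map _) h fun b hb => ?_
      rw [(h.map _).snd_e_map _ hb, h.snd_e_map _ hb]
      rfl
    have e2 : V.map (tmap (LinearMap.fst E E E)) (V.map (tmap (LinearMap.inr E E E)) τ') = 0 := by
      refine Tan.ext ((h'.map _).map _) tan_zero fun b hb => ?_
      rw [(h'.map _).snd_e_map _ hb, h'.snd_e_map _ hb, snd_e_zero hb]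
      rfl
    rw [e1, e2, add_zero]
  have h2 : V.map (tmap (LinearMap.snd E E E)) T = τ' := by
    rw [hT, map_add]
    have e1 : V.map (tmap (LinearMap.snd E E E)) (V.map (tmap (LinearMap.inl E E E)) τ) = 0 := by
      refine Tan.ext ((h.map _).map _) tan_zero fun b hb => ?_
      rw [(h.map _).snd_e_map _ hb, h.snd_e_map _ hb, snd_e_zero hb]
      rfl
    have e2 : V.map (tmap (LinearMap.snd E E E)) (V.map (tmap (LinearMap.inr E E E)) τ') = τ' := by
      refine Tan.ext ((h'.map _).map _) h' fun b hb => ?_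
      rw [(h'.map _).snd_e_map _ hb, h'.snd_e_map _ hb]
      rfl
    rw [e1, e2, zero_add]
  have h3 : V.map (tmap (LinearMap.fst E E E + LinearMap.snd E E E)) T = τ + τ' := by
    rw [hT, map_add]
    have e1 : V.map (tmap (LinearMap.fst E E E + LinearMap.snd E E E))
        (V.map (tmap (LinearMap.inl E E E)) τ) = τ := by
      refine Tan.ext ((h.map _).map _) h fun b hb => ?_
      rw [(h.map _).snd_e_map _ hb, h.snd_e_map _ hb]
      simp
    have e2 : V.map (tmap (LinearMap.fst E E E + LinearMap.snd E E E))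
        (V.map (tmap (LinearMap.inr E E E)) τ') = τ' := by
      refine Tan.ext ((h'.map _).map _) h' fun b hb => ?_
      rw [(h'.map _).snd_e_map _ hb, h'.snd_e_map _ hb]
      simp
    rw [e1, e2]
  have h4 := hTt.snd_e_map (LinearMap.fst E E E) hb
  have h5 := hTt.snd_e_map (LinearMap.snd E E E) hb
  have h6 := hTt.snd_e_map (LinearMap.fst E E E + LinearMap.snd E E E) hb
  rw [h1] at h4
  rw [h2] at h5
  rw [h3] at h6
  rw [h6, h4, h5]
  rfl

theorem snd_e_nsmul {τ : V.pt (TrivSqZeroExt E E)} (h : V.Tan τ) (n : ℕ) {b : V.F}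
    (hb : b ∈ V.loc (V.center (0 : V.pt E))) :
    (V.e (n • τ) b).snd = n • (V.e τ b).snd := by
  induction n with
  | zero => rw [zero_nsmul, zero_nsmul, snd_e_zero hb]
  | succ n ih => rw [succ_nsmul, succ_nsmul, snd_e_add (h.nsmul n) h hb, ih]

/-- multiplication by `n` is injective on tangent vectors -/
theorem Tan.eq_zero {τ : V.pt (TrivSqZeroExt E E)} (h : V.Tan τ) {n : ℕ} (hn : (n : K) ≠ 0)
    (hτ : n • τ = 0) : τ = 0 := by
  refine Tan.ext h tan_zero fun b hb => ?_
  have h1 := snd_e_nsmul h n hb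
  rw [hτ, snd_e_zero hb, nsmul_eq_mul] at h1
  have h2 : (n : E) ≠ 0 := by
    rw [← map_natCast (algebraMap K E)]
    exact (map_ne_zero _).2 hn
  rw [snd_e_zero hb]
  exact (mul_eq_zero.1 h1.symm).resolve_left h2

end Tan

variable {E : Type u} [Field E] [Algebra K E]

/-- the homomorphism `a ↦ a + δ a ε` -/
def derHom (δ : Derivation K E E) : E →ₐ[K] TrivSqZeroExt E E where
  toFun a := TrivSqZeroExt.inl a + TrivSqZeroExt.inr (δ a)
  map_one' := by ext <;> simp
  map_mul' x y := by
    ext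
    · simp
    · simp
      ring
  map_zero' := by ext <;> simp
  map_add' x y := by ext <;> simp
  commutes' a := by
    ext
    · simp [TrivSqZeroExt.algebraMap_eq_inl']
    · simp [TrivSqZeroExt.algebraMap_eq_inl']

@[simp] theorem fst_derHom (δ : Derivation K E E) (a : E) : (derHom δ a).fst = a := by
  simp [derHom]

@[simp] theorem snd_derHom (δ : Derivation K E E) (a : E) : (derHom δ a).snd = δ a := by
  simp [derHom]

theorem derHom_local (δ : Derivation K E E) (a : E) (h : IsUnit (derHom δ a)) : IsUnit a := by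
  rw [TrivSqZeroExt.isUnit_iff_isUnit_fst, fst_derHom] at h
  exact h

theorem inl_local (a : E) (h : IsUnit (TrivSqZeroExt.inlAlgHom K E E a)) : IsUnit a := by
  rw [TrivSqZeroExt.isUnit_iff_isUnit_fst] at h
  exact h

/-- **Multiplication by `n` is unramified**: a derivation vanishing on the values at `n • P`
vanishes on the values at `P`. -/
theorem deriv_eq_zero (P : V.pt E) {n : ℕ} (hn : (n : K) ≠ 0) (δ : Derivation K E E)
    (h : ∀ b ∈ V.loc (V.center (n • P)), δ (V.e (n • P) b) = 0) :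
    ∀ b ∈ V.loc (V.center P), δ (V.e P b) = 0 := by
  set ι := TrivSqZeroExt.inlAlgHom K E E with hι
  have hc : ∀ Q : V.pt E, V.center (V.map (derHom δ) Q) = V.center Q := fun Q =>
    V.center_map _ (derHom_local δ) Q
  have hc' : ∀ Q : V.pt E, V.center (V.map ι Q) = V.center Q := fun Q =>
    V.center_map _ inl_local Q
  have h1 : n • V.map (derHom δ) P = n • V.map ι P := by
    rw [← map_nsmul, ← map_nsmul]
    refine V.ext_e ((hc _).trans (hc' _).symm) fun b hb => ?_
    rw [hc] at hb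
    rw [V.e_map _ _ hb, V.e_map _ _ hb]
    refine TrivSqZeroExt.ext ?_ ?_
    · rw [fst_derHom]; rfl
    · rw [snd_derHom, h b hb]; rfl
  have h2 : V.Tan (V.map (derHom δ) P - V.map ι P) := by
    change V.map _ (V.map (derHom δ) P - V.map ι P) = 0
    rw [map_sub, ← V.map_comp, ← V.map_comp, sub_eq_zero]
    congr 2
    ext a
    simp [hι]
  have h3 := h2.eq_zero hn (by rw [nsmul_sub, h1, sub_self])
  rw [sub_eq_zero] at h3
  intro b hb
  have h4 := congrArg (fun Q => (V.e Q b).snd) h3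
  simp only [V.e_map _ _ hb, snd_derHom] at h4
  rw [h4]
  exact TrivSqZeroExt.snd_inl _ _

end GrpVar

end Fermat.Agent.AV
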