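import Fermat.Agent.AV.AffDef
import Fermat.Agent.AV.Tan1
import Fermat.Agent.AV.EssFin

/-!
# Torsion points and the degree of multiplication by `n`
-/

set_option autoImplicit false
set_option linter.unusedSectionVars false

universe u

namespace Fermat.Agent.AV

/-! ### Field theory -/

section FieldLemmas

variable {L E : Type u} [Field L] [Field E] [Algebra L E]

theorem formallyUnramified_of_derivation (h : ∀ δ : Derivation L E E, δ = 0) :
    Algebra.FormallyUnramified L E := by
  have hs : Subsingleton (Ω[E⁄L]) := by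
    by_contra hns
    rw [not_subsingleton_iff_nontrivial] at hns
    obtain ⟨x, hx⟩ := exists_ne (0 : Ω[E⁄L])
    apply hx
    rw [← Module.forall_dual_apply_eq_zero_iff E x]
    intro f
    have h1 : f.compDer (KaehlerDifferential.D L E) = 0 := h _
    have h2 : f = 0 := by
      apply (KaehlerDifferential.linearMapEquivDerivation L E).injective
      rw [map_zero]
      exact h1
    rw [h2, LinearMap.zero_apply]
  exact (Algebra.formallyUnramified_iff L E).2 hs

end FieldLemmas

namespace GrpVar

variable {K : Type u} [Field K] (V : GrpVar K)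

section ResField

variable {E : Type u} [Field E] [Algebra K E]

/-- the residue field of a point with values in a field -/
def resField (P : V.pt E) : IntermediateField K E where
  toSubalgebra := (V.ev P).range
  inv_mem' := by
    rintro _ ⟨b, rfl⟩
    by_cases h : V.ev P b = 0
    · refine ⟨0, ?_⟩
      change V.ev P 0 = (V.ev P b)⁻¹
      rw [h, inv_zero, map_zero]
    · obtain ⟨u, hu⟩ := V.ev_local P b (isUnit_iff_ne_zero.2 h)
      refine ⟨((u⁻¹ : (V.loc (V.center P))ˣ) : V.loc (V.center P)), ?_⟩
      change V.ev P _ = (V.ev P b)⁻¹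
      refine eq_inv_of_mul_eq_one_left ?_
      rw [← hu, ← map_mul, Units.inv_mul, map_one]

theorem mem_resField {P : V.pt E} {y : E} :
    y ∈ V.resField P ↔ ∃ b ∈ V.loc (V.center P), V.e P b = y := by
  constructor
  · rintro ⟨b, rfl⟩
    exact ⟨b, b.2, V.e_eq P b.2⟩
  · rintro ⟨b, hb, rfl⟩
    exact ⟨⟨b, hb⟩, (V.e_eq P hb).symm⟩

theorem isLocal_field {E' : Type u} [Field E'] [Algebra K E'] (g : E →ₐ[K] E') (a : E)
    (h : IsUnit (g a)) : IsUnit a := by
  rw [isUnit_iff_ne_zero] at h ⊢
  rintro rfl
  exact h (map_zero g)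

theorem center_map_field {E' : Type u} [Field E'] [Algebra K E'] (g : E →ₐ[K] E') (P : V.pt E) :
    V.center (V.map g P) = V.center P := V.center_map g (isLocal_field g) P

theorem e_map_field {E' : Type u} [Field E'] [Algebra K E'] (g : E →ₐ[K] E') (P : V.pt E)
    {b : V.F} (hb : b ∈ V.loc (V.center P)) : V.e (V.map g P) b = g (V.e P b) := V.e_map g P hb

theorem map_injective {E' : Type u} [Field E'] [Algebra K E'] (g : E →ₐ[K] E') :
    Function.Injective (V.map g) := by
  intro P Q h
  have hc : V.center P = V.center Q := by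
    rw [← V.center_map_field g P, ← V.center_map_field g Q, h]
  refine V.ext_e hc fun b hb => ?_
  apply g.toRingHom.injective
  change g (V.e P b) = g (V.e Q b)
  rw [← V.e_map_field g P hb, ← V.e_map_field g Q (hc ▸ hb), h]

/-- a point is defined over its residue field -/
theorem exists_descend (P : V.pt E) : ∃ Q : V.pt (V.resField P),
    V.map (V.resField P).val Q = P := by
  let φ : V.loc (V.center P) →ₐ[K] V.resField P :=
    (V.ev P).codRestrict (V.resField P).toSubalgebra fun b => ⟨b, rfl⟩
  have hφ : ∀ b, ((φ b : V.resField P) : E) = V.ev P b := fun b => rfl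
  obtain ⟨Q, hQ, hev⟩ := V.exists_pt (V.center P) φ (fun b hb => by
    apply V.ev_local P b
    rw [← hφ]
    exact hb.map (V.resField P).val)
  refine ⟨Q, ?_⟩
  have hc : V.center (V.map (V.resField P).val Q) = V.center P := by
    rw [V.center_map_field, hQ]
  refine V.ext_e hc fun b hb => ?_
  rw [hc] at hb
  have hb' : b ∈ V.loc (V.center Q) := by rw [hQ]; exact hb
  rw [V.e_map_field _ _ hb', V.e_eq Q hb', hev b hb' hb, V.e_eq P hb]
  rfl

theorem resField_map_le {E' : Type u} [Field E'] [Algebra K E'] (g : E →ₐ[K] E') (P : V.pt E) :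
    V.resField (V.map g P) ≤ g.fieldRange := by
  intro y hy
  obtain ⟨b, hb, rfl⟩ := V.mem_resField.1 hy
  rw [V.center_map_field] at hb
  exact ⟨V.e P b, (V.e_map_field g P hb).symm⟩

theorem resField_genPt : V.resField V.genPt = ⊤ := by
  rw [eq_top_iff]
  rintro y -
  exact V.mem_resField.2 ⟨y, by rw [center_genPt]; exact V.mem_loc_gen y, V.e_genPt y⟩

/-- the residue fields are finitely generated -/
theorem essFinite_resField (P : V.pt E) : Algebra.EssFiniteType K (V.resField P) := by
  rw [IntermediateField.essFiniteType_iff]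
  obtain ⟨S, hS⟩ := V.chart_fg (V.center P)
  classical
  refine ⟨S.image (V.e P), le_antisymm ?_ ?_⟩
  · rw [IntermediateField.adjoin_le_iff]
    intro y hy
    rw [Finset.coe_image] at hy
    obtain ⟨b, hb, rfl⟩ := hy
    refine V.mem_resField.2 ⟨b, V.chart_le _ ?_, rfl⟩
    rw [← hS]
    exact Algebra.subset_adjoin hb
  · have h1 : ∀ b ∈ V.chartOf (V.center P), V.e P b ∈
        IntermediateField.adjoin K ((S.image (V.e P) : Finset E) : Set E) := by
      intro b hb
      rw [← hS] at hb
      induction hb using Algebra.adjoin_induction with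
      | mem b hb =>
        exact IntermediateField.subset_adjoin _ _ (by
          rw [Finset.coe_image]; exact ⟨b, hb, rfl⟩)
      | algebraMap r =>
        rw [V.e_algebraMap]
        exact IntermediateField.algebraMap_mem _ r
      | add x y hx hy h1 h2 =>
        rw [hS] at hx hy
        rw [V.e_add P (V.chart_le _ hx) (V.chart_le _ hy)]
        exact add_mem h1 h2
      | mul x y hx hy h1 h2 =>
        rw [hS] at hx hy
        rw [V.e_mul P (V.chart_le _ hx) (V.chart_le _ hy)]
        exact mul_mem h1 h2
    intro y hy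
    obtain ⟨b, hb, rfl⟩ := V.mem_resField.1 hy
    obtain ⟨s, t, ht, rfl⟩ := V.chart_loc (V.center P) (V.center P) (V.chart_le _) b hb
    have ht' : V.UnitAt (V.center P) (t : V.F) := by
      have := V.unitAt_iff.2 ht
      exact this
    rw [V.e_div P (V.chart_le _ s.2) ht']
    exact div_mem (h1 _ s.2) (h1 _ t.2)

theorem resField_zero : V.resField (0 : V.pt E) = ⊥ := by
  rw [eq_bot_iff]
  have h1 : V.map (Algebra.ofId K E) 0 = (0 : V.pt E) := map_zero _
  rw [← h1]
  refine (V.resField_map_le (Algebra.ofId K E) 0).trans ?_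
  rintro _ ⟨a, rfl⟩
  exact IntermediateField.algebraMap_mem _ a

end ResField

/-! ### Points with large residue field are generic -/

theorem center_eq_gen (P : V.pt V.F) [Algebra.IsAlgebraic (V.resField P) V.F] :
    V.center P = V.gen := by
  have := V.essFinite
  obtain ⟨s, hs⟩ := exists_isTranscendenceBasis K (V.resField P)
  have hcard : Algebra.trdeg K V.F = Cardinal.mk s := by
    have h := trdeg_add_eq K (V.resField P) (A := V.F)
    rw [← h, trdeg_eq_zero (R := V.resField P) (A := V.F), add_zero, hs.cardinalMk_eq_trdeg]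
  have hex : ∀ i : s, ∃ b : V.loc (V.center P), V.ev P b = (i : V.F) := fun i => by
    obtain ⟨b, hb⟩ := (i : V.resField P).2
    exact ⟨b, hb⟩
  choose b hb using hex
  have h1 : AlgebraicIndependent K (fun i : s => V.ev P (b i)) := by
    have h2 := hs.1.map' (f := (V.resField P).val) (V.resField P).val.toRingHom.injective
    have h3 : (fun i : s => V.ev P (b i)) = (V.resField P).val ∘ (fun i : s => (i : V.resField P)) :=
      funext fun i => hb i
    rw [h3]
    exact h2
  have h2 : AlgebraicIndependent K b := AlgebraicIndependent.of_comp (V.ev P) h1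
  have h3 : AlgebraicIndependent K (fun i : s => ((b i : V.loc (V.center P)) : V.F)) :=
    h2.map' (f := (V.loc (V.center P)).val) Subtype.val_injective
  have h4 : IsTranscendenceBasis K (fun i : s => ((b i : V.loc (V.center P)) : V.F)) :=
    h3.isTranscendenceBasis_of_trdeg_le (trdeg_lt_aleph0 K V.F) hcard.le
  have halg := h4.isAlgebraic_field
  -- the field generated by the `b i` is contained in the local ring
  have h5 : ∀ y ∈ Algebra.adjoin K (Set.range fun i : s => ((b i : V.loc (V.center P)) : V.F)),
      y ∈ V.loc (V.center P) ∧ (y ≠ 0 → y⁻¹ ∈ V.loc (V.center P)) := by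
    intro y hy
    rw [Algebra.adjoin_range_eq_range_aeval] at hy
    obtain ⟨p, rfl⟩ := hy
    have h6 : (MvPolynomial.aeval fun i : s => ((b i : V.loc (V.center P)) : V.F)) p =
        ((MvPolynomial.aeval b p : V.loc (V.center P)) : V.F) :=
      (MvPolynomial.comp_aeval_apply (f := b) (V.loc (V.center P)).val p).symm
    change (MvPolynomial.aeval fun i : s => ((b i : V.loc (V.center P)) : V.F)) p ∈ _ ∧
      ((MvPolynomial.aeval fun i : s => ((b i : V.loc (V.center P)) : V.F)) p ≠ 0 →
      ((MvPolynomial.aeval fun i : s => ((b i : V.loc (V.center P)) : V.F)) p)⁻¹ ∈ _)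
    rw [h6]
    refine ⟨Subtype.mem _, fun h7 => ?_⟩
    have h8 : IsUnit (MvPolynomial.aeval b p : V.loc (V.center P)) := by
      apply V.ev_local P
      rw [isUnit_iff_ne_zero]
      intro h9
      have h10 : MvPolynomial.aeval (fun i : s => V.ev P (b i)) p = 0 := by
        rw [← h9]
        exact (MvPolynomial.comp_aeval_apply (f := b) (V.ev P) p).symm
      have h11 : p = 0 := by
        have := AlgebraicIndependent.eq_zero_of_aeval_eq_zero h1 p h10
        exact this
      apply h7
      rw [h11, map_zero]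
      rfl
    exact (V.unitAt_iff.2 h8).2.2
  have h6 : ∀ y ∈ IntermediateField.adjoin K
      (Set.range fun i : s => ((b i : V.loc (V.center P)) : V.F)), y ∈ V.loc (V.center P) := by
    intro y hy
    obtain ⟨r, hr, t, ht, rfl⟩ := IntermediateField.mem_adjoin_iff_div.1 hy
    by_cases ht0 : t = 0
    · rw [ht0, div_zero]; exact zero_mem _
    · rw [div_eq_mul_inv]
      exact mul_mem (h5 _ hr).1 ((h5 _ ht).2 ht0)
  let A' : Subalgebra (IntermediateField.adjoin K
      (Set.range fun i : s => ((b i : V.loc (V.center P)) : V.F))) V.F :=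
    { (V.loc (V.center P)).toSubsemiring with
      algebraMap_mem' := fun y => h6 _ y.2 }
  have h7 : ∀ y ∈ V.loc (V.center P), y⁻¹ ∈ V.loc (V.center P) := by
    intro y hy
    exact A'.inv_mem_of_algebraic (x := ⟨y, hy⟩) (halg.isAlgebraic y)
  apply V.eq_gen
  rw [eq_top_iff]
  rintro y -
  obtain ⟨r, t, -, rfl⟩ := IsFractionRing.div_surjective (A := V.loc (V.center P)) y
  rw [div_eq_mul_inv]
  exact mul_mem r.2 (h7 _ t.2)

/-! ### Unramifiedness of multiplication by `n` -/

section Unram

variable {V} {n : ℕ} (hn : (n : K) ≠ 0)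
include hn

theorem formallyUnramified {L E : Type u} [Field L] [Field E] [Algebra K L] [Algebra L E]
    [Algebra K E] [IsScalarTower K L E] (P : V.pt E) (hP : V.resField P = ⊤)
    (h : ∀ b ∈ V.loc (V.center (n • P)), ∃ a : L, V.e (n • P) b = algebraMap L E a) :
    Algebra.FormallyUnramified L E := by
  apply formallyUnramified_of_derivation
  intro δ
  have h1 := V.deriv_eq_zero P hn (δ.restrictScalars K) (fun b hb => by
    obtain ⟨a, ha⟩ := h b hb
    rw [ha]
    exact δ.map_algebraMap a)
  ext y
  have hy : y ∈ V.resField P := by rw [hP]; trivial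
  obtain ⟨b, hb, rfl⟩ := V.mem_resField.1 hy
  exact h1 b hb

variable (V) in
theorem dom : V.Dom n := by
  have := V.essFinite
  have h1 : Algebra.FormallyUnramified (V.resField (n • V.genPt)) V.F :=
    formallyUnramified hn V.genPt V.resField_genPt fun b hb =>
      ⟨⟨_, V.mem_resField.2 ⟨b, hb, rfl⟩⟩, rfl⟩
  have h2 : Algebra.EssFiniteType (V.resField (n • V.genPt)) V.F :=
    .of_comp K _ _
  have := Algebra.FormallyUnramified.finite_of_free (V.resField (n • V.genPt)) V.F
  exact V.center_eq_gen (n • V.genPt)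

end Unram

/-! ### Descent of torsion points -/

section Descent

variable {E : Type u} [Field E] [Algebra K E]

theorem descend_iff {P : V.pt E} {κ : IntermediateField K E} :
    (∃ Q : V.pt κ, V.map κ.val Q = P) ↔ V.resField P ≤ κ := by
  constructor
  · rintro ⟨Q, rfl⟩
    have := V.resField_map_le κ.val Q
    rwa [κ.fieldRange_val] at this
  · intro h
    obtain ⟨Q, hQ⟩ := V.exists_descend P
    refine ⟨V.map (IntermediateField.inclusion h) Q, ?_⟩
    rw [← V.map_comp]
    exact hQ

theorem resField_le_of_sub {P Q : V.pt E} {κ : IntermediateField K E}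
    (h : V.resField (P + Q) ≤ κ) (h' : V.resField Q ≤ κ) : V.resField P ≤ κ := by
  obtain ⟨T, hT⟩ := V.descend_iff.2 h
  obtain ⟨Q', rfl⟩ := V.descend_iff.2 h'
  refine V.descend_iff.1 ⟨T - Q', ?_⟩
  rw [map_sub, hT, add_sub_cancel_right]

theorem resField_map_ofId (s : V.pt K) : V.resField (V.map (Algebra.ofId K E) s) = ⊥ := by
  rw [eq_bot_iff]
  refine (V.resField_map_le (Algebra.ofId K E) s).trans ?_
  rintro _ ⟨a, rfl⟩
  exact IntermediateField.algebraMap_mem _ a

theorem exists_of_resField_eq_bot {P : V.pt E} (h : V.resField P = ⊥) :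
    ∃ s : V.pt K, V.map (Algebra.ofId K E) s = P := by
  obtain ⟨Q, hQ⟩ := V.descend_iff.2 h.le
  refine ⟨V.map (IntermediateField.botEquiv K E).toAlgHom Q, ?_⟩
  rw [← V.map_comp, ← hQ]
  congr 1
  congr 1
  refine AlgHom.ext fun x => ?_
  obtain ⟨a, ha⟩ := IntermediateField.mem_bot.1 x.2
  have hx : x = algebraMap K (⊥ : IntermediateField K E) a := Subtype.ext ha.symm
  rw [hx, AlgHom.commutes, AlgHom.commutes]

/-- translating by a rational point does not change the residue field -/
theorem resField_add_map_ofId (P : V.pt E) (s : V.pt K) :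
    V.resField (P + V.map (Algebra.ofId K E) s) = V.resField P := by
  apply le_antisymm
  · refine V.resField_le_of_sub (Q := - V.map (Algebra.ofId K E) s) ?_ ?_
    · rw [add_neg_cancel_right]
    · rw [← map_neg, resField_map_ofId]
      exact bot_le
  · refine V.resField_le_of_sub (Q := V.map (Algebra.ofId K E) s) le_rfl ?_
    rw [resField_map_ofId]
    exact bot_le

theorem center_genPt_add (s : V.pt K) :
    V.center (V.genPt + V.map (Algebra.ofId K V.F) s) = V.gen := by
  have h : V.resField (V.genPt + V.map (Algebra.ofId K V.F) s) = ⊤ := by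
    rw [resField_add_map_ofId, resField_genPt]
  have : Algebra.IsAlgebraic (V.resField (V.genPt + V.map (Algebra.ofId K V.F) s)) V.F := by
    rw [h]
    refine ⟨fun x => ?_⟩
    exact isAlgebraic_algebraMap (⟨x, trivial⟩ : (⊤ : IntermediateField K V.F))
  exact V.center_eq_gen _

theorem center_add_map_ofId {P : V.pt E} (h : V.center P = V.gen) (s : V.pt K) :
    V.center (P + V.map (Algebra.ofId K E) s) = V.gen := by
  have h1 : P + V.map (Algebra.ofId K E) s =
      V.map (V.homOf P h) (V.genPt + V.map (Algebra.ofId K V.F) s) := by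
    rw [map_add, map_homOf, ← V.map_comp]
    congr 2
    exact congrArg _ (Subsingleton.elim _ _)
  rw [h1, V.center_map_field, center_genPt_add]

variable {V} in
theorem exists_of_torsion [IsAlgClosed K] {n : ℕ} (hn : (n : K) ≠ 0) (S : V.pt E)
    (hS : n • S = 0) : ∃ s : V.pt K, n • s = 0 ∧ V.map (Algebra.ofId K E) s = S := by
  -- residue field
  have hbot : V.resField S = ⊥ := by
    obtain ⟨Q, hQ⟩ := V.exists_descend S
    have hnQ : n • Q = 0 := by
      apply V.map_injective (V.resField S).val
      rw [map_nsmul, hQ, hS, map_zero]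
    have hQtop : V.resField Q = ⊤ := by
      rw [eq_top_iff]
      rintro ⟨y, hy⟩ -
      obtain ⟨b, hb, rfl⟩ := V.mem_resField.1 hy
      have hc : V.center S = V.center Q :=
        (congrArg V.center hQ).symm.trans (V.center_map_field _ _)
      rw [hc] at hb
      refine V.mem_resField.2 ⟨b, hb, Subtype.ext ?_⟩
      change (V.resField S).val (V.e Q b) = V.e S b
      rw [← V.e_map_field _ _ hb]
      exact congrArg (fun T => V.e T b) hQ
    have := V.essFinite_resField S
    have h1 : Algebra.FormallyUnramified K (V.resField S) := by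
      refine formallyUnramified hn Q hQtop fun b hb => ?_
      have h2 : V.e (n • Q) b ∈ V.resField (n • Q) := V.mem_resField.2 ⟨b, hb, rfl⟩
      rw [hnQ, V.resField_zero] at h2
      obtain ⟨a, ha⟩ := IntermediateField.mem_bot.1 h2
      exact ⟨a, by rw [hnQ]; exact ha.symm⟩
    have := Algebra.FormallyUnramified.finite_of_free K (V.resField S)
    have h3 := IsAlgClosed.algebraMap_bijective_of_isIntegral (k := K) (K := V.resField S)
    rw [eq_bot_iff]
    intro y hy
    obtain ⟨a, ha⟩ := h3.2 ⟨y, hy⟩
    refine IntermediateField.mem_bot.2 ⟨a, ?_⟩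
    have := congrArg Subtype.val ha
    exact this
  obtain ⟨s, hs⟩ := V.exists_of_resField_eq_bot hbot
  refine ⟨s, ?_, hs⟩
  apply V.map_injective (Algebra.ofId K E)
  rw [map_nsmul, hs, hS, map_zero]

end Descent

/-! ### The number of torsion points -/

section Count

variable {V} {n : ℕ} (h : V.Dom n)

theorem map_mulHom_genPt : V.map (mulHom h) V.genPt = n • V.genPt := V.map_homOf _ h

theorem algHom_ext {E : Type u} [Field E] [Algebra K E] {f g : V.F →ₐ[K] E}
    (hfg : V.map f V.genPt = V.map g V.genPt) : f = g := by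
  refine AlgHom.ext fun b => ?_
  rw [← V.e_map_genPt f, ← V.e_map_genPt g, hfg]

/-- the embeddings over the image of `mulHom` -/
noncomputable def embEquiv (φ : V.F →ₐ[K] V.F) :
    {τ : V.F →ₐ[K] AlgebraicClosure V.F //
      τ.comp φ = (IsScalarTower.toAlgHom K V.F (AlgebraicClosure V.F)).comp φ} ≃
      Field.Emb φ.fieldRange V.F where
  toFun τ := AlgHom.mk τ.1.toRingHom (by
    rintro ⟨_, ⟨y, rfl⟩⟩
    exact AlgHom.congr_fun τ.2 y)
  invFun σ := ⟨AlgHom.mk (AlgHom.toRingHom σ) (fun a => by
      have h1 := AlgHom.commutes σ ⟨algebraMap K V.F a, ⟨algebraMap K V.F a, φ.commutes a⟩⟩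
      exact h1), by
    refine AlgHom.ext fun y => ?_
    have h1 := AlgHom.commutes σ ⟨φ y, ⟨y, rfl⟩⟩
    exact h1⟩
  left_inv τ := Subtype.ext (AlgHom.ext fun _ => rfl)
  right_inv σ := AlgHom.ext fun _ => rfl

theorem comp_mulHom_eq_iff {E : Type u} [Field E] [Algebra K E] (f g : V.F →ₐ[K] E) :
    f.comp (mulHom h) = g.comp (mulHom h) ↔
      n • (V.map f V.genPt - V.map g V.genPt) = 0 := by
  rw [smul_sub, sub_eq_zero, ← map_nsmul, ← map_nsmul, ← map_mulHom_genPt h, ← V.map_comp,
    ← V.map_comp]
  exact ⟨fun h => by rw [h], algHom_ext⟩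

theorem isSeparable_mulHom (hn : (n : K) ≠ 0) :
    Algebra.IsSeparable (mulHom h).fieldRange V.F := by
  have := V.essFinite
  have h1 : Algebra.FormallyUnramified (mulHom h).fieldRange V.F :=
    formallyUnramified hn V.genPt V.resField_genPt fun b hb =>
      ⟨⟨_, ⟨b, rfl⟩⟩, (V.homOf_apply _ h b).symm⟩
  have h2 : Algebra.EssFiniteType (mulHom h).fieldRange V.F := .of_comp K _ _
  exact Algebra.FormallyUnramified.isSeparable _ _

theorem mulDeg_ne_zero (hn : (n : K) ≠ 0) : mulDeg h ≠ 0 := by
  have := V.essFinite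
  have h1 : Algebra.FormallyUnramified (mulHom h).fieldRange V.F :=
    formallyUnramified hn V.genPt V.resField_genPt fun b hb =>
      ⟨⟨_, ⟨b, rfl⟩⟩, (V.homOf_apply _ h b).symm⟩
  have h2 : Algebra.EssFiniteType (mulHom h).fieldRange V.F := .of_comp K _ _
  have := Algebra.FormallyUnramified.finite_of_free (mulHom h).fieldRange V.F
  exact Module.finrank_pos.ne'

theorem card_torsion [IsAlgClosed K] (hn : (n : K) ≠ 0) :
    Nat.card {P : V.pt K // n • P = 0} = mulDeg h := by
  have := isSeparable_mulHom h hn
  rw [mulDeg, ← Field.finSepDegree_eq_finrank_of_isSeparable, Field.finSepDegree,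
    ← Nat.card_congr (embEquiv (mulHom h))]
  set Ω := AlgebraicClosure V.F
  set ι : V.F →ₐ[K] Ω := IsScalarTower.toAlgHom K V.F Ω
  refine Nat.card_congr (Equiv.ofBijective (fun s => ⟨V.homOf _
    (V.center_add_map_ofId (V.center_map_genPt ι) s.1), ?_⟩) ⟨?_, ?_⟩)
  · rw [comp_mulHom_eq_iff, map_homOf, add_sub_cancel_left, ← map_nsmul, s.2, map_zero]
  · intro s s' hss
    have h1 := congrArg (fun τ => V.map τ.1 V.genPt) hss
    simp only [map_homOf] at h1
    exact Subtype.ext (V.map_injective _ (add_left_cancel h1))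
  · rintro ⟨τ, hτ⟩
    rw [comp_mulHom_eq_iff] at hτ
    obtain ⟨s, hs, hs'⟩ := exists_of_torsion hn _ hτ
    refine ⟨⟨s, hs⟩, Subtype.ext (algHom_ext ?_)⟩
    simp only [map_homOf]
    exact (congrArg _ hs').trans (add_sub_cancel _ _)

theorem mulDeg_mul {m n : ℕ} (hm : V.Dom m) (hn : V.Dom n) (hmn : V.Dom (m * n)) :
    mulDeg hmn = mulDeg hm * mulDeg hn := by
  have h1 : mulHom hmn = (mulHom hn).comp (mulHom hm) := by
    apply algHom_ext
    rw [map_mulHom_genPt, V.map_comp, map_mulHom_genPt, map_nsmul, map_mulHom_genPt, mul_smul]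
  have h2 : (mulHom hmn).fieldRange = (mulHom hm).fieldRange.map (mulHom hn) := by
    rw [h1]
    exact AlgHom.map_fieldRange _ _ |>.symm
  have h3 : (mulHom hmn).fieldRange ≤ (mulHom hn).fieldRange := by
    rw [h1]
    rintro _ ⟨y, rfl⟩
    exact ⟨_, rfl⟩
  rw [mulDeg, mulDeg, mulDeg, ← IntermediateField.relfinrank_mul_finrank_top h3, h2,
    AlgHom.fieldRange_eq_map (mulHom hn), IntermediateField.relfinrank_map_map,
    IntermediateField.relfinrank_top_right]

end Count

end GrpVar

end Fermat.Agent.AV
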