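import Fermat.Agent.AV.Tan2
import Fermat.Agent.AV.MulDeg

/-!
# The statement on torsion points
-/

set_option autoImplicit false

universe u

namespace Fermat.Agent.AV

theorem tanStmt {K : Type u} [Field K] [IsAlgClosed K] (V : GrpVar K) : TanStmt V where
  dom := fun hn => GrpVar.dom V hn
  card := fun hn h => GrpVar.card_torsion h hn
  finite := fun hn h => GrpVar.mulDeg_ne_zero h hn
  mul := fun hm hn hmn => GrpVar.mulDeg_mul hm hn hmn

end Fermat.Agent.AV
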