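import Fermat.Agent.AV.PowUFD

set_option autoImplicit false

/-!
# The Taylor map of a regular system of parameters

`O` local, noetherian `K`-algebra with residue field `K`, `x_1, …, x_g` generators of the maximal
ideal such that no non-zero form `F` of degree `n` satisfies `F(x) ∈ m^(n+1)`.  Then there is
`T : O → K[[X_1, …, X_g]]` inducing isomorphisms modulo all powers of the maximal ideals, and `O`
is a factorial domain.
-/

namespace Fermat.Agent.AV

open IsLocalRing MvPolynomial

section Taylor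

variable {K : Type*} [Field K] {O : Type*} [CommRing O] [Algebra K O] [IsLocalRing O] {g : ℕ}

/-- regular system of parameters of a `K`-rational local ring -/
structure IsRegSys (K : Type*) [Field K] {O : Type*} [CommRing O] [Algebra K O] [IsLocalRing O]
    {g : ℕ} (x : Fin g → O) : Prop where
  span : maximalIdeal O = Ideal.span (Set.range x)
  res : ∀ a : O, ∃ c : K, a - algebraMap K O c ∈ maximalIdeal O
  reg : ∀ (n : ℕ) (F : MvPolynomial (Fin g) K), F.IsHomogeneous n →
    aeval x F ∈ maximalIdeal O ^ (n + 1) → F = 0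

variable {x : Fin g → O}

theorem IsRegSys.map_idealOfVars_pow (H : IsRegSys K x) (n : ℕ) :
    Ideal.map (aeval x : MvPolynomial (Fin g) K →ₐ[K] O) (idealOfVars (Fin g) K ^ n) =
      maximalIdeal O ^ n := by
  rw [Ideal.map_pow, H.span, MvPolynomial.idealOfVars, Ideal.map_span]
  congr 2
  ext a
  constructor
  · rintro ⟨_, ⟨i, rfl⟩, rfl⟩
    exact ⟨i, by simp⟩
  · rintro ⟨i, rfl⟩
    exact ⟨X i, ⟨i, rfl⟩, by simp⟩

theorem IsRegSys.aeval_mem (H : IsRegSys K x) {n : ℕ} {p : MvPolynomial (Fin g) K}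
    (hp : p ∈ idealOfVars (Fin g) K ^ n) : aeval x p ∈ maximalIdeal O ^ n := by
  rw [← H.map_idealOfVars_pow]
  exact Ideal.mem_map_of_mem _ hp

theorem IsRegSys.exists_form (H : IsRegSys K x) (n : ℕ) {r : O} (hr : r ∈ maximalIdeal O ^ n) :
    ∃ q ∈ idealOfVars (Fin g) K ^ n, r - aeval x q ∈ maximalIdeal O ^ (n + 1) := by
  rw [← H.map_idealOfVars_pow, Ideal.map] at hr
  induction hr using Submodule.span_induction with
  | mem r hr =>
    obtain ⟨q, hq, rfl⟩ := hr
    exact ⟨q, hq, by simp⟩
  | zero => exact ⟨0, Ideal.zero_mem _, by simp⟩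
  | add r s _ _ hr hs =>
    obtain ⟨q, hq, hq'⟩ := hr
    obtain ⟨q₁, hq₁, hq₁'⟩ := hs
    refine ⟨q + q₁, Ideal.add_mem _ hq hq₁, ?_⟩
    rw [map_add]
    have := Ideal.add_mem _ hq' hq₁'
    convert this using 1
    ring
  | smul a r _ hr =>
    obtain ⟨q, hq, hq'⟩ := hr
    obtain ⟨c, hc⟩ := H.res a
    refine ⟨C c * q, Ideal.mul_mem_left _ _ hq, ?_⟩
    have h1 : a • r - aeval x (C c * q) =
        a * (r - aeval x q) + (a - algebraMap K O c) * aeval x q := by
      rw [map_mul, aeval_C, smul_eq_mul]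
      ring
    rw [h1]
    refine Ideal.add_mem _ (Ideal.mul_mem_left _ _ hq') ?_
    rw [pow_succ']
    exact Ideal.mul_mem_mul hc (H.aeval_mem hq)

theorem IsRegSys.exists_approx (H : IsRegSys K x) (n : ℕ) (a : O) :
    ∃ q : MvPolynomial (Fin g) K, a - aeval x q ∈ maximalIdeal O ^ n := by
  induction n with
  | zero => exact ⟨0, by rw [pow_zero, Ideal.one_eq_top]; exact Submodule.mem_top⟩
  | succ n ih =>
    obtain ⟨q, hq⟩ := ih
    obtain ⟨q', -, hq'⟩ := H.exists_form n hq
    refine ⟨q + q', ?_⟩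
    rw [map_add, ← sub_sub]
    exact hq'

theorem IsRegSys.mem_of_aeval_mem (H : IsRegSys K x) (n : ℕ) {p : MvPolynomial (Fin g) K}
    (hp : aeval x p ∈ maximalIdeal O ^ n) : p ∈ idealOfVars (Fin g) K ^ n := by
  induction n with
  | zero => rw [pow_zero, Ideal.one_eq_top]; exact Submodule.mem_top
  | succ n ih =>
    have h1 := ih (Ideal.pow_le_pow_right (Nat.le_succ n) hp)
    rw [mem_pow_idealOfVars_iff'] at h1
    have h2 : p - homogeneousComponent n p ∈ idealOfVars (Fin g) K ^ (n + 1) := by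
      rw [mem_pow_idealOfVars_iff']
      intro d hd
      rw [coeff_sub, coeff_homogeneousComponent]
      by_cases h : d.degree = n
      · rw [if_pos h, sub_self]
      · rw [if_neg h, sub_zero]
        exact h1 d (by omega)
    have h3 : homogeneousComponent n p = 0 := by
      refine H.reg n _ (homogeneousComponent_isHomogeneous n p) ?_
      have h4 : aeval x (homogeneousComponent n p) =
          aeval x p - aeval x (p - homogeneousComponent n p) := by
        rw [map_sub]; ring
      rw [h4]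
      exact Ideal.sub_mem _ hp (H.aeval_mem h2)
    rwa [h3, sub_zero] at h2

/-- the chosen Taylor polynomials -/
noncomputable def IsRegSys.approx (H : IsRegSys K x) (n : ℕ) (a : O) : MvPolynomial (Fin g) K :=
  (H.exists_approx n a).choose

theorem IsRegSys.approx_spec (H : IsRegSys K x) (n : ℕ) (a : O) :
    a - aeval x (H.approx n a) ∈ maximalIdeal O ^ n := (H.exists_approx n a).choose_spec

/-- the Taylor series -/
noncomputable def IsRegSys.taylorFun (H : IsRegSys K x) (a : O) : MvPowerSeries (Fin g) K :=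
  fun d => MvPolynomial.coeff d (H.approx (d.degree + 1) a)

theorem IsRegSys.coeff_taylorFun (H : IsRegSys K x) {n : ℕ} {a : O} {q : MvPolynomial (Fin g) K}
    (hq : a - aeval x q ∈ maximalIdeal O ^ n) {d : Fin g →₀ ℕ} (hd : d.degree < n) :
    MvPowerSeries.coeff d (H.taylorFun a) = MvPolynomial.coeff d q := by
  change MvPolynomial.coeff d (H.approx (d.degree + 1) a) = _
  rw [← sub_eq_zero, ← coeff_sub]
  have h1 : aeval x (H.approx (d.degree + 1) a - q) ∈ maximalIdeal O ^ (d.degree + 1) := by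
    have h2 := Ideal.sub_mem _ (Ideal.pow_le_pow_right (Nat.succ_le_of_lt hd) hq)
      (H.approx_spec (d.degree + 1) a)
    rw [map_sub]
    convert h2 using 1
    ring
  have h2 := H.mem_of_aeval_mem _ h1
  rw [mem_pow_idealOfVars_iff'] at h2
  exact h2 d (Nat.lt_succ_self _)

/-- the Taylor map -/
noncomputable def IsRegSys.taylor (H : IsRegSys K x) : O →+* MvPowerSeries (Fin g) K where
  toFun := H.taylorFun
  map_one' := by
    classical
    ext d
    rw [H.coeff_taylorFun (q := 1) (n := d.degree + 1) (by simp) (Nat.lt_succ_self _),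
      MvPowerSeries.coeff_one, MvPolynomial.coeff_one]
    simp [eq_comm]
  map_mul' a b := by
    classical
    ext d
    have ha := H.approx_spec (d.degree + 1) a
    have hb := H.approx_spec (d.degree + 1) b
    have hab : a * b - aeval x (H.approx (d.degree + 1) a * H.approx (d.degree + 1) b) ∈
        maximalIdeal O ^ (d.degree + 1) := by
      rw [map_mul]
      have := Ideal.add_mem _ (Ideal.mul_mem_right b _ ha)
        (Ideal.mul_mem_left _ (aeval x (H.approx (d.degree + 1) a)) hb)
      convert this using 1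
      ring
    rw [H.coeff_taylorFun hab (Nat.lt_succ_self _), MvPolynomial.coeff_mul,
      MvPowerSeries.coeff_mul]
    refine Finset.sum_congr rfl (fun y hy => ?_)
    rw [Finset.HasAntidiagonal.mem_antidiagonal] at hy
    have hy' : y.1.degree + y.2.degree = d.degree := by rw [← hy, map_add]
    rw [H.coeff_taylorFun ha (by omega), H.coeff_taylorFun hb (by omega)]
  map_zero' := by
    ext d
    rw [H.coeff_taylorFun (q := 0) (n := d.degree + 1) (by simp) (Nat.lt_succ_self _)]
    simp
  map_add' a b := by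
    ext d
    have ha := H.approx_spec (d.degree + 1) a
    have hb := H.approx_spec (d.degree + 1) b
    have hab : a + b - aeval x (H.approx (d.degree + 1) a + H.approx (d.degree + 1) b) ∈
        maximalIdeal O ^ (d.degree + 1) := by
      rw [map_add]
      have := Ideal.add_mem _ ha hb
      convert this using 1
      ring
    rw [H.coeff_taylorFun hab (Nat.lt_succ_self _), map_add,
      H.coeff_taylorFun ha (Nat.lt_succ_self _), H.coeff_taylorFun hb (Nat.lt_succ_self _),
      MvPolynomial.coeff_add]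

theorem IsRegSys.coeff_taylor (H : IsRegSys K x) {n : ℕ} {a : O} {q : MvPolynomial (Fin g) K}
    (hq : a - aeval x q ∈ maximalIdeal O ^ n) {d : Fin g →₀ ℕ} (hd : d.degree < n) :
    MvPowerSeries.coeff d (H.taylor a) = MvPolynomial.coeff d q := H.coeff_taylorFun hq hd

theorem IsRegSys.taylor_mem_iff (H : IsRegSys K x) (n : ℕ) (a : O) :
    H.taylor a ∈ maximalIdeal (MvPowerSeries (Fin g) K) ^ n ↔ a ∈ maximalIdeal O ^ n := by
  rw [mem_maximalIdeal_pow_iff]
  constructor
  · intro h
    have h1 : H.approx n a ∈ idealOfVars (Fin g) K ^ n := by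
      rw [mem_pow_idealOfVars_iff']
      intro d hd
      rw [← H.coeff_taylor (H.approx_spec n a) hd]
      refine MvPowerSeries.coeff_of_lt_order (lt_of_lt_of_le ?_ h)
      exact_mod_cast hd
    have h2 := Ideal.add_mem _ (H.approx_spec n a) (H.aeval_mem h1)
    rwa [sub_add_cancel] at h2
  · intro h
    refine MvPowerSeries.nat_le_order (fun d hd => ?_)
    rw [H.coeff_taylor (q := 0) (n := n) (by simpa using h) hd, coeff_zero]

theorem IsRegSys.exists_taylor_sub_mem (H : IsRegSys K x) (n : ℕ)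
    (s : MvPowerSeries (Fin g) K) :
    ∃ a : O, s - H.taylor a ∈ maximalIdeal (MvPowerSeries (Fin g) K) ^ n := by
  refine ⟨aeval x (MvPowerSeries.truncTotal n s), ?_⟩
  rw [mem_maximalIdeal_pow_iff]
  refine MvPowerSeries.nat_le_order (fun d hd => ?_)
  rw [map_sub, H.coeff_taylor (q := MvPowerSeries.truncTotal n s) (n := n) (by simp) hd,
    MvPowerSeries.coeff_truncTotal _ hd, sub_self]

theorem IsRegSys.taylor_injective [IsNoetherianRing O] (H : IsRegSys K x) :
    Function.Injective H.taylor := by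
  rw [injective_iff_map_eq_zero]
  intro a ha
  have h1 : ∀ n, a ∈ maximalIdeal O ^ n := fun n => by
    rw [← H.taylor_mem_iff, ha]
    exact Ideal.zero_mem _
  have h2 := Ideal.iInf_pow_eq_bot_of_isLocalRing (maximalIdeal O) (Ideal.IsPrime.ne_top')
  have h3 : a ∈ (⨅ i : ℕ, maximalIdeal O ^ i) := by
    rw [Ideal.mem_iInf]
    exact h1
  rwa [h2] at h3

theorem IsRegSys.isDomain [IsNoetherianRing O] (H : IsRegSys K x) : IsDomain O :=
  H.taylor_injective.isDomain H.taylor

end Taylor

/-! ### descent of factoriality -/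

section Descent

variable {O S : Type*} [CommRing O] [IsLocalRing O] [IsNoetherianRing O] [CommRing S]
  [IsLocalRing S] (T : O →+* S)
  (hT1 : ∀ n a, T a ∈ maximalIdeal S ^ n ↔ a ∈ maximalIdeal O ^ n)
  (hT2 : ∀ (n : ℕ) (s : S), ∃ a : O, s - T a ∈ maximalIdeal S ^ n)

include hT1 hT2

/-- descent of divisibility -/
theorem dvd_of_map_dvd {f h : O} (hd : T f ∣ T h) : f ∣ h := by
  obtain ⟨s, hs⟩ := hd
  rw [← Ideal.mem_span_singleton, ← Ideal.Quotient.eq_zero_iff_mem]
  have hH : IsHausdorff (maximalIdeal O) (O ⧸ Ideal.span {f}) := inferInstance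
  refine hH.haus _ (fun n => ?_)
  obtain ⟨a, ha⟩ := hT2 n s
  have h1 : h - f * a ∈ maximalIdeal O ^ n := by
    rw [← hT1, map_sub, map_mul, hs, ← mul_sub]
    exact Ideal.mul_mem_left _ _ ha
  rw [SModEq.zero]
  have h2 : (Ideal.Quotient.mk (Ideal.span {f})) h = (h - f * a) • (1 : O ⧸ Ideal.span {f}) := by
    rw [Algebra.smul_def, mul_one, Ideal.Quotient.algebraMap_eq, map_sub, map_mul]
    have : (Ideal.Quotient.mk (Ideal.span {f})) f = 0 :=
      Ideal.Quotient.eq_zero_iff_mem.mpr (Ideal.mem_span_singleton_self f)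
    rw [this, zero_mul, sub_zero]
  rw [h2]
  exact Submodule.smul_mem_smul h1 Submodule.mem_top

/-- approximation of a relation `f b = a h` over `S` by relations over `O` (Artin–Rees) -/
theorem exists_approx_relation {a b : O} {f h : S} (hr : f * T b = T a * h) (n : ℕ) :
    ∃ f' : O, a ∣ f' * b ∧ T f' - f ∈ maximalIdeal S ^ n := by
  obtain ⟨k, hk⟩ := Ideal.exists_pow_inf_eq_pow_smul (M := O) (maximalIdeal O)
    (Ideal.span {a, b} : Ideal O)
  obtain ⟨f₁, hf₁⟩ := hT2 (n + k) f
  obtain ⟨h₁, hh₁⟩ := hT2 (n + k) h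
  have h1 : f₁ * b - a * h₁ ∈ maximalIdeal O ^ (n + k) := by
    rw [← hT1]
    have h2 : T (f₁ * b - a * h₁) = T a * (h - T h₁) - (f - T f₁) * T b := by
      rw [map_sub, map_mul, map_mul]
      linear_combination hr
    rw [h2]
    exact Ideal.sub_mem _ (Ideal.mul_mem_left _ _ hh₁) (Ideal.mul_mem_right _ _ hf₁)
  have h2 : f₁ * b - a * h₁ ∈ (Ideal.span {a, b} : Ideal O) :=
    Ideal.sub_mem _ (Ideal.mul_mem_left _ _ (Ideal.subset_span (by simp)))
      (Ideal.mul_mem_right _ _ (Ideal.subset_span (by simp)))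
  have h3 : f₁ * b - a * h₁ ∈ (maximalIdeal O ^ (n + k) • (⊤ : Submodule O O)) ⊓
      (Ideal.span {a, b} : Ideal O) := by
    refine ⟨?_, h2⟩
    rw [smul_eq_mul, Ideal.mul_top]
    exact h1
  rw [hk (n + k) (Nat.le_add_left k n), Nat.add_sub_cancel] at h3
  have h4 : f₁ * b - a * h₁ ∈ maximalIdeal O ^ n * Ideal.span {a, b} := by
    have := Submodule.smul_mono (le_refl (maximalIdeal O ^ n))
      (inf_le_right : (maximalIdeal O ^ k • (⊤ : Submodule O O)) ⊓
        (Ideal.span {a, b} : Ideal O) ≤ _) h3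
    exact this
  have h5 : ∃ e ∈ maximalIdeal O ^ n, ∃ e' ∈ maximalIdeal O ^ n,
      f₁ * b - a * h₁ = e * a + e' * b := by
    rw [Ideal.span_insert, Ideal.mul_sup] at h4
    obtain ⟨u, hu, v, hv, huv⟩ := Submodule.mem_sup.mp h4
    rw [Ideal.mem_mul_span_singleton] at hu hv
    obtain ⟨e, he, rfl⟩ := hu
    obtain ⟨e', he', rfl⟩ := hv
    exact ⟨e, he, e', he', huv.symm⟩
  obtain ⟨e, he, e', he', hee⟩ := h5
  refine ⟨f₁ - e', ⟨h₁ + e, by linear_combination hee⟩, ?_⟩
  have h6 : T (f₁ - e') - f = -(f - T f₁) - T e' := by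
    rw [map_sub]; ring
  rw [h6]
  refine Ideal.sub_mem _ (Ideal.neg_mem_iff _ |>.mpr
    (Ideal.pow_le_pow_right (Nat.le_add_right n k) hf₁)) ((hT1 n e').mpr he')

/-- colon ideals of principal ideals are principal -/
theorem exists_colon_generator [IsDomain S] [IsNoetherianRing S] [UniqueFactorizationMonoid S]
    (hinj : Function.Injective T) {a b : O} (ha : a ≠ 0) :
    ∃ f : O, ∀ h : O, a ∣ h * b ↔ f ∣ h := by
  classical
  have hTa : T a ≠ 0 := fun h0 => ha (hinj (by rw [h0, map_zero]))
  obtain ⟨a', b', d, hda, hdb, hcop⟩ : ∃ a' b' d : S, T a = d * a' ∧ T b = d * b' ∧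
      IsRelPrime a' b' := by
    obtain ⟨a', b', c', hrel, h1, h2⟩ :=
      UniqueFactorizationMonoid.exists_reduced_factors (T a) hTa (T b)
    exact ⟨a', b', c', h1.symm, h2.symm, hrel⟩
  have hd0 : d ≠ 0 := fun h0 => hTa (by rw [hda, h0, zero_mul])
  have ha'0 : a' ≠ 0 := fun h0 => hTa (by rw [hda, h0, mul_zero])
  have key : ∀ s : S, T a ∣ s * T b ↔ a' ∣ s := by
    intro s
    rw [hda, hdb, mul_left_comm, mul_dvd_mul_iff_left hd0]
    constructor
    · intro h
      exact hcop.dvd_of_dvd_mul_right h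
    · intro h
      exact Dvd.dvd.mul_right h b'
  -- a power of the maximal ideal not containing a'
  obtain ⟨n, hn⟩ : ∃ n, a' ∉ maximalIdeal S ^ n := by
    by_contra hcon
    push Not at hcon
    have h2 := Ideal.iInf_pow_eq_bot_of_isLocalRing (maximalIdeal S) (Ideal.IsPrime.ne_top')
    have h3 : a' ∈ (⨅ i : ℕ, maximalIdeal S ^ i) := by
      rw [Ideal.mem_iInf]
      exact hcon
    rw [h2] at h3
    exact ha'0 h3
  have hr : a' * T b = T a * b' := by rw [hda, hdb]; ring
  obtain ⟨f, hf, hfn⟩ := exists_approx_relation T hT1 hT2 hr n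
  have h1 : T a ∣ T f * T b := by
    rw [← map_mul]
    exact map_dvd T hf
  obtain ⟨u, hu⟩ := (key _).mp h1
  have huu : IsUnit u := by
    by_contra hnu
    have h2 : IsUnit (u - 1) := by
      rcases IsLocalRing.isUnit_or_isUnit_of_add_one (a := u) (b := 1 - u) (by ring) with h | h
      · exact absurd h hnu
      · rw [← neg_sub]
        exact h.neg
    apply hn
    have h3 : T f - a' = a' * (u - 1) := by rw [hu]; ring
    rw [h3] at hfn
    obtain ⟨v, hv⟩ := h2
    have h4 := Ideal.mul_mem_right (↑v⁻¹ : S) _ hfn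
    rwa [mul_assoc, ← hv, Units.mul_inv, mul_one] at h4
  refine ⟨f, fun h => ⟨fun hh => ?_, fun hh => ?_⟩⟩
  · apply dvd_of_map_dvd T hT1 hT2
    have h2 : T a ∣ T h * T b := by
      rw [← map_mul]
      exact map_dvd T hh
    rw [hu]
    exact (huu.mul_right_dvd).mpr ((key _).mp h2)
  · exact hf.trans (mul_dvd_mul_right hh b)

theorem ufd_descent [IsDomain O] [IsDomain S] [IsNoetherianRing S] [UniqueFactorizationMonoid S]
    (hinj : Function.Injective T) : UniqueFactorizationMonoid O := by
  refine { irreducible_iff_prime := fun {p} => ⟨fun hp => ?_, fun hp => hp.irreducible⟩ }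
  refine ⟨hp.ne_zero, hp.not_isUnit, fun b c hbc => ?_⟩
  obtain ⟨f, hf⟩ := exists_colon_generator T hT1 hT2 hinj (a := p) (b := b) hp.ne_zero
  have h1 : f ∣ p := (hf p).mp (dvd_mul_right p b)
  obtain ⟨u, hu⟩ := h1
  rcases hp.isUnit_or_isUnit hu with h | h
  · left
    have h2 := (hf 1).mpr (h.dvd)
    rwa [one_mul] at h2
  · right
    have h2 : f ∣ c := (hf c).mp (by rwa [mul_comm])
    rw [hu]
    exact (h.mul_right_dvd).mpr h2

end Descent

/-- **the local ring of a regular system of parameters is factorial** -/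
theorem IsRegSys.ufd {K : Type*} [Field K] [Infinite K] {O : Type*} [CommRing O] [Algebra K O]
    [IsLocalRing O] [IsNoetherianRing O] {g : ℕ} {x : Fin g → O} (H : IsRegSys K x) :
    haveI := H.isDomain
    UniqueFactorizationMonoid O := by
  have := H.isDomain
  exact ufd_descent H.taylor H.taylor_mem_iff H.exists_taylor_sub_mem H.taylor_injective

end Fermat.Agent.AV
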